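/-
S20 (helper92): shared definition of the space of regular differentials of a function field,
in Prelude terms, in two equivalent shapes.

* `IsRegularAt v x f`  :  the differential `f • d x` is regular at the place `v`
    (`f = 0 ∨ 0 ≤ v.ord f + v.ordDifferential (D K F x)`).
* `HolF K x : Submodule K F`  :  the `f` with `f • d x` regular at every place.

No sorry.  Imports the Prelude and helper91's landed `S24/PlaceLocal.lean` (ord toolkit).
-/
import Mathlib
import Fermat.Prelude.Def_AlgebraicCurve_CanonicalDivisor
import Fermat.Agent.S24.PlaceLocal

set_option autoImplicit false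

open AlgebraicCurve KaehlerDifferential

namespace Fermat.Agent.S20

variable {K F : Type*} [Field K] [Field F] [Algebra K F]

/-- `f • d x` is regular at `v` (coefficient form; `x` is the separating variable). -/
def IsRegularAt (v : Place K F) (x f : F) : Prop :=
  f = 0 ∨ 0 ≤ v.ord f + v.ordDifferential (D K F x)

theorem isRegularAt_zero (v : Place K F) (x : F) : IsRegularAt v x 0 := Or.inl rfl

theorem IsRegularAt.add {v : Place K F} {x f g : F} (hf : IsRegularAt v x f)
    (hg : IsRegularAt v x g) : IsRegularAt v x (f + g) := by
  by_cases h : f + g = 0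
  · exact Or.inl h
  right
  have := Fermat.Agent.S24.PlaceLocal.le_ord_add v h (n := -v.ordDifferential (D K F x))
    (hf.imp_right fun h => by omega) (hg.imp_right fun h => by omega)
  omega

theorem IsRegularAt.smul {v : Place K F} {x f : F} (c : K) (hf : IsRegularAt v x f) :
    IsRegularAt v x (c • f) := by
  rcases eq_or_ne c 0 with rfl | hc
  · left; simp
  rcases hf with rfl | hf
  · left; simp
  by_cases hf0 : f = 0
  · left; simp [hf0]
  right
  have hc' : algebraMap K F c ≠ 0 := (map_ne_zero_iff _ (algebraMap K F).injective).mpr hc
  rw [Algebra.smul_def, v.ord_mul hc' hf0, Fermat.Agent.S24.PlaceLocal.ord_algebraMap, zero_add]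
  exact hf

/-- The `K`-space of coefficients `f` such that `f • d x` is a regular differential. -/
def HolF (K : Type*) {F : Type*} [Field K] [Field F] [Algebra K F] (x : F) : Submodule K F where
  carrier := {f | ∀ v : Place K F, IsRegularAt v x f}
  zero_mem' := fun v => isRegularAt_zero v x
  add_mem' := fun hf hg v => (hf v).add (hg v)
  smul_mem' := fun c _ hf v => (hf v).smul c

theorem mem_HolF {x f : F} : f ∈ HolF K x ↔ ∀ v : Place K F, IsRegularAt v x f := Iff.rfl

end Fermat.Agent.S20
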