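/-
S20 / package DW-c + DW-e (helper58): dimensions of intersections of a `k[X]`-lattice and an
`O_∞`-lattice in a finite-dimensional `RatFunc k`-vector space which admit a simultaneous
(Dedekind–Weber) normal basis.  Pure algebra, `import Mathlib` only.
-/
import Mathlib

set_option autoImplicit false

namespace Fermat.Agent.S20.LatticeDims

open Polynomial Module

variable {k : Type*} [Field k]

/-! ### The coordinate space: polynomials of degree `≤ -d` inside `RatFunc k` -/

/-- The `k`-subspace of `RatFunc k` consisting of the polynomials `a` with `a = 0` or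
`deg a ≤ -d`. -/
noncomputable def coordSpace (d : ℤ) : Submodule k (RatFunc k) :=
  (degreeLT k (1 - d).toNat).map ((Algebra.linearMap k[X] (RatFunc k)).restrictScalars k)

theorem mem_coordSpace {d : ℤ} {r : RatFunc k} :
    r ∈ coordSpace d ↔
      r ∈ Set.range (algebraMap k[X] (RatFunc k)) ∧ (r = 0 ∨ r.intDegree ≤ -d) := by
  constructor
  · rintro ⟨p, hp, rfl⟩
    refine ⟨⟨p, rfl⟩, ?_⟩
    by_cases hp0 : p = 0
    · left; simp [hp0]
    · right
      have h1 : p.degree < ((1 - d).toNat : ℕ) := mem_degreeLT.mp hp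
      rw [degree_eq_natDegree hp0] at h1
      have h2 : p.natDegree < (1 - d).toNat := by exact_mod_cast h1
      show RatFunc.intDegree (algebraMap k[X] (RatFunc k) p) ≤ -d
      rw [RatFunc.intDegree_polynomial]
      omega
  · rintro ⟨⟨p, rfl⟩, h⟩
    refine ⟨p, ?_, rfl⟩
    rw [SetLike.mem_coe, mem_degreeLT]
    by_cases hp0 : p = 0
    · subst hp0
      simp only [degree_zero]
      exact WithBot.bot_lt_coe _
    · rcases h with h | h
      · exact absurd ((map_eq_zero_iff _ (RatFunc.algebraMap_injective k)).mp h) hp0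
      · rw [RatFunc.intDegree_polynomial] at h
        rw [degree_eq_natDegree hp0]
        have : p.natDegree < (1 - d).toNat := by omega
        exact_mod_cast this

theorem finrank_coordSpace (d : ℤ) : finrank k (coordSpace (k := k) d) = (1 - d).toNat := by
  have hinj : Function.Injective ((Algebra.linearMap k[X] (RatFunc k)).restrictScalars k) :=
    RatFunc.algebraMap_injective k
  rw [coordSpace, (Submodule.equivMapOfInjective _ hinj _).symm.finrank_eq,
    (degreeLTEquiv k _).finrank_eq, Module.finrank_fin_fun]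

instance (d : ℤ) : Module.Finite k (coordSpace (k := k) d) := by
  have hinj : Function.Injective ((Algebra.linearMap k[X] (RatFunc k)).restrictScalars k) :=
    RatFunc.algebraMap_injective k
  have e := (Submodule.equivMapOfInjective _ hinj (degreeLT k (1 - d).toNat)).symm.trans
    (degreeLTEquiv k _)
  exact Module.Finite.equiv e.symm

/-! ### The generic lattice-intersection lemma (GL) -/

section LatticeInter

variable {ι : Type*} [Fintype ι] {V : Type*} [AddCommGroup V] [Module (RatFunc k) V]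
  [Module k V] [IsScalarTower k (RatFunc k) V]

/-- `latticeInter u d` is the `k`-subspace of those `v` all of whose `u`-coordinates `a i` are
polynomials with `a i = 0 ∨ deg (a i) ≤ - d i`.  When `u` is a `k[X]`-basis of a lattice `M`
and `X ^ (- d i) • u i` an `O_∞`-basis of a lattice `M_∞`, this is `M ⊓ M_∞`. -/
def latticeInter (u : Basis ι (RatFunc k) V) (d : ι → ℤ) : Submodule k V where
  carrier := {v | ∀ i, u.repr v i ∈ coordSpace (d i)}
  zero_mem' := fun i => by simp
  add_mem' := fun {a b} ha hb i => by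
    simpa using add_mem (ha i) (hb i)
  smul_mem' := fun c a ha i => by
    have h : u.repr (c • a) i = c • u.repr a i := by
      rw [← algebraMap_smul (RatFunc k) c a, map_smul, Finsupp.smul_apply, smul_eq_mul,
        Algebra.smul_def]
    rw [h]
    exact Submodule.smul_mem _ c (ha i)

omit [Fintype ι] in
theorem mem_latticeInter {u : Basis ι (RatFunc k) V} {d : ι → ℤ} {v : V} :
    v ∈ latticeInter u d ↔ ∀ i, u.repr v i ∈ coordSpace (d i) := Iff.rfl

/-- Coordinates identify `latticeInter u d` with `Π i, coordSpace (d i)`. -/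
noncomputable def latticeInterEquiv (u : Basis ι (RatFunc k) V) (d : ι → ℤ) :
    latticeInter u d ≃ₗ[k] (∀ i, coordSpace (k := k) (d i)) where
  toFun v i := ⟨u.repr v i, v.2 i⟩
  map_add' a b := by
    funext i
    apply Subtype.ext
    simp
  map_smul' c a := by
    funext i
    apply Subtype.ext
    show u.repr (c • (a : V)) i = c • u.repr (a : V) i
    rw [← algebraMap_smul (RatFunc k) c (a : V), map_smul, Finsupp.smul_apply, smul_eq_mul,
      Algebra.smul_def]
  invFun c := ⟨∑ i, ((c i : RatFunc k)) • u i, fun j => by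
    have : u.repr (∑ i, ((c i : RatFunc k)) • u i) j = (c j : RatFunc k) := by
      rw [u.repr_sum_self fun i => (c i : RatFunc k)]
    rw [this]
    exact (c j).2⟩
  left_inv v := by
    apply Subtype.ext
    show ∑ i, (u.repr (v : V) i) • u i = (v : V)
    exact u.sum_repr v
  right_inv c := by
    funext j
    apply Subtype.ext
    show u.repr (∑ i, ((c i : RatFunc k)) • u i) j = (c j : RatFunc k)
    rw [u.repr_sum_self fun i => (c i : RatFunc k)]

/-- **(GL)** `dim_k (M ⊓ M_∞) = Σ_i max (0, 1 - d i)`. -/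
theorem finrank_latticeInter (u : Basis ι (RatFunc k) V) (d : ι → ℤ) :
    finrank k (latticeInter u d) = ∑ i, (1 - d i).toNat := by
  rw [(latticeInterEquiv u d).finrank_eq, Module.finrank_pi_fintype]
  exact Finset.sum_congr rfl fun i _ => finrank_coordSpace (d i)

instance (u : Basis ι (RatFunc k) V) (d : ι → ℤ) : Module.Finite k (latticeInter u d) :=
  Module.Finite.equiv (latticeInterEquiv u d).symm

end LatticeInter

/-! ### Degrees of powers of `X` -/

theorem intDegree_X_pow (n : ℕ) : ((RatFunc.X : RatFunc k) ^ n).intDegree = n := by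
  induction n with
  | zero => simp
  | succ n ih =>
    rw [pow_succ, RatFunc.intDegree_mul (pow_ne_zero _ RatFunc.X_ne_zero) RatFunc.X_ne_zero, ih,
      RatFunc.intDegree_X]
    push_cast
    ring

theorem intDegree_X_zpow (m : ℤ) : ((RatFunc.X : RatFunc k) ^ m).intDegree = m := by
  cases m with
  | ofNat n => simpa using intDegree_X_pow (k := k) n
  | negSucc n =>
    rw [zpow_negSucc, RatFunc.intDegree_inv, intDegree_X_pow]
    rfl

theorem X_zpow_ne_zero (m : ℤ) : ((RatFunc.X : RatFunc k) ^ m) ≠ 0 :=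
  zpow_ne_zero _ RatFunc.X_ne_zero

/-- `X ^ m * a` is `0` or of degree `≤ 0` iff `a` is `0` or of degree `≤ -m`. -/
theorem X_zpow_mul_deg_iff (m : ℤ) (a : RatFunc k) :
    ((RatFunc.X : RatFunc k) ^ m * a = 0 ∨ ((RatFunc.X : RatFunc k) ^ m * a).intDegree ≤ 0) ↔
      (a = 0 ∨ a.intDegree ≤ -m) := by
  by_cases ha : a = 0
  · simp [ha]
  · have h1 : (RatFunc.X : RatFunc k) ^ m * a ≠ 0 := mul_ne_zero (X_zpow_ne_zero m) ha
    rw [RatFunc.intDegree_mul (X_zpow_ne_zero m) ha, intDegree_X_zpow]
    simp only [h1, ha, false_or]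
    omega

/-! ### Scaled bases and the two lattices -/

section Lattices

variable {ι : Type*} {V : Type*} [AddCommGroup V] [Module (RatFunc k) V]

/-- The basis `X ^ (- d i) • u i`. -/
noncomputable def scaled (u : Basis ι (RatFunc k) V) (d : ι → ℤ) : Basis ι (RatFunc k) V :=
  u.unitsSMul fun i => Units.mk0 ((RatFunc.X : RatFunc k) ^ (-(d i))) (X_zpow_ne_zero _)

@[simp]
theorem scaled_apply (u : Basis ι (RatFunc k) V) (d : ι → ℤ) (i : ι) :
    scaled u d i = (RatFunc.X : RatFunc k) ^ (-(d i)) • u i := by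
  rw [scaled, Basis.unitsSMul_apply]
  rfl

@[simp]
theorem repr_scaled (u : Basis ι (RatFunc k) V) (d : ι → ℤ) (v : V) (i : ι) :
    (scaled u d).repr v i = (RatFunc.X : RatFunc k) ^ (d i) * u.repr v i := by
  rw [scaled, Basis.repr_unitsSMul, Units.smul_def, smul_eq_mul]
  congr 1
  simp [zpow_neg]

variable {Rinf : Type*} [CommRing Rinf] [IsDomain Rinf] [Algebra Rinf (RatFunc k)]
  [Module.IsTorsionFree Rinf (RatFunc k)] [Module Rinf V] [IsScalarTower Rinf (RatFunc k) V]
  [Module k[X] V] [IsScalarTower k[X] (RatFunc k) V]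
  [Module k V] [IsScalarTower k (RatFunc k) V]

/-- **(DW-e, set form)** If `u` is a `k[X]`-basis of `M` and `X ^ (-d i) • u i` an `O_∞`-basis of
`M_∞` (where `O_∞ = Rinf` is any ring whose image in `RatFunc k` is `{r | r = 0 ∨ deg r ≤ 0}`),
then `M ∩ M_∞ = latticeInter u d`. -/
theorem mem_inter_iff_mem_latticeInter
    (hR : ∀ r : RatFunc k, r ∈ Set.range (algebraMap Rinf (RatFunc k)) ↔
      (r = 0 ∨ r.intDegree ≤ 0))
    (u : Basis ι (RatFunc k) V) (d : ι → ℤ) (v : V) :
    (v ∈ Submodule.span k[X] (Set.range u) ∧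
        v ∈ Submodule.span Rinf (Set.range (scaled u d))) ↔ v ∈ latticeInter u d := by
  rw [Basis.mem_span_iff_repr_mem, Basis.mem_span_iff_repr_mem, mem_latticeInter]
  simp only [repr_scaled, hR, X_zpow_mul_deg_iff, mem_coordSpace]
  exact forall_and.symm

end Lattices

/-! ### The concrete ring `O_∞` -/

/-- The valuation ring at infinity of `RatFunc k`. -/
noncomputable def Oinf (k : Type*) [Field k] : ValuationSubring (RatFunc k) := by
  classical exact (RatFunc.inftyValuation k).valuationSubring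

theorem mem_Oinf {r : RatFunc k} : r ∈ Oinf k ↔ (r = 0 ∨ r.intDegree ≤ 0) := by
  classical
  rw [Oinf, Valuation.mem_valuationSubring_iff, RatFunc.inftyValuation_apply]
  by_cases hr : r = 0
  · simp [hr, RatFunc.InftyValuation.map_zero']
  · rw [RatFunc.inftyValuation_of_nonzero _ hr, ← WithZero.exp_zero, WithZero.exp_le_exp]
    simp [hr]

theorem range_algebraMap_Oinf (r : RatFunc k) :
    r ∈ Set.range (algebraMap (Oinf k) (RatFunc k)) ↔ (r = 0 ∨ r.intDegree ≤ 0) := by
  rw [← mem_Oinf]
  constructor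
  · rintro ⟨x, rfl⟩
    exact x.2
  · intro h
    exact ⟨⟨r, h⟩, rfl⟩

/-! ### Numerical consequences -/

section Numeric

variable {ι : Type*} [Fintype ι]

/-- If `Σ max(0, 1 - d i) = 1` then exactly one `d i` is `0` and all others are `≥ 1`. -/
theorem exists_zero_of_sum_eq_one (d : ι → ℤ) (h : ∑ i, (1 - d i).toNat = 1) :
    ∃ i₀, d i₀ = 0 ∧ ∀ j, j ≠ i₀ → 1 ≤ d j := by
  classical
  have hex : ∃ i₀, (1 - d i₀).toNat ≠ 0 := by
    by_contra hne
    push Not at hne
    rw [Finset.sum_eq_zero fun i _ => hne i] at h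
    exact zero_ne_one h
  obtain ⟨i₀, hi₀⟩ := hex
  have hsplit := Finset.add_sum_erase Finset.univ (fun i => (1 - d i).toNat) (Finset.mem_univ i₀)
  rw [h] at hsplit
  have h1 : (1 - d i₀).toNat = 1 := by omega
  have h2 : ∑ i ∈ Finset.univ.erase i₀, (1 - d i).toNat = 0 := by omega
  refine ⟨i₀, by omega, fun j hj => ?_⟩
  have := (Finset.sum_eq_zero_iff.mp h2) j (Finset.mem_erase.mpr ⟨hj, Finset.mem_univ j⟩)
  omega

/-- With exactly one `d i = 0` and all others `≥ 1`:
`Σ max(0, d i - 1) = Σ d i - n + 1`. -/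
theorem sum_toNat_sub_one (d : ι → ℤ) (i₀ : ι) (h0 : d i₀ = 0) (h1 : ∀ j, j ≠ i₀ → 1 ≤ d j) :
    ((∑ i, (d i - 1).toNat : ℕ) : ℤ) = ∑ i, d i - Fintype.card ι + 1 := by
  classical
  have key : ∀ i, (((d i - 1).toNat : ℕ) : ℤ) = (d i - 1) + if i = i₀ then 1 else 0 := by
    intro i
    by_cases hi : i = i₀
    · subst hi
      simp [h0]
    · have := h1 i hi
      simp only [hi, if_false, add_zero]
      omega
  push_cast
  rw [Finset.sum_congr rfl fun i _ => key i, Finset.sum_add_distrib, Finset.sum_sub_distrib]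
  simp

/-- **(DW-e, numeric form)** If `Σ max(0, 1 - d i) = 1` then
`Σ max(0, d i - 1) = Σ d i - n + 1`. -/
theorem sum_toNat_sub_one_of_sum_eq_one (d : ι → ℤ) (h : ∑ i, (1 - d i).toNat = 1) :
    ((∑ i, (d i - 1).toNat : ℕ) : ℤ) = ∑ i, d i - Fintype.card ι + 1 := by
  obtain ⟨i₀, h0, h1⟩ := exists_zero_of_sum_eq_one d h
  exact sum_toNat_sub_one d i₀ h0 h1

end Numeric

/-! ### Trace duals (DW-c) -/

section TraceDual

open Algebra

variable {ι : Type*} [Fintype ι] [DecidableEq ι] {F : Type*} [Field F] [Algebra (RatFunc k) F]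
  [FiniteDimensional (RatFunc k) F] [Algebra.IsSeparable (RatFunc k) F]

/-- The trace-dual basis of `X ^ (-d i) • u i` is `X ^ (d i) • u* i`. -/
theorem traceDual_scaled (u : Basis ι (RatFunc k) F) (d : ι → ℤ) :
    (scaled u d).traceDual = scaled u.traceDual fun i => -d i := by
  apply DFunLike.coe_injective
  rw [Basis.traceDual_eq_iff]
  intro i j
  rw [scaled_apply, scaled_apply, traceForm_apply, smul_mul_smul_comm, map_smul,
    Basis.trace_traceDual_mul]
  by_cases hji : j = i
  · subst hji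
    simp only [neg_neg, if_true, smul_eq_mul, mul_one]
    rw [← zpow_add₀ RatFunc.X_ne_zero]
    simp
  · simp [hji]

variable {Rinf : Type*} [CommRing Rinf] [IsDomain Rinf] [Algebra Rinf (RatFunc k)]
  [Module.IsTorsionFree Rinf (RatFunc k)] [Module Rinf F] [IsScalarTower Rinf (RatFunc k) F]
  [Module k[X] F] [IsScalarTower k[X] (RatFunc k) F]
  [Module k F] [IsScalarTower k (RatFunc k) F]

/-- **(DW-c, set form)** Let `B = span_{k[X]} u` and `B_∞ = span_{O_∞} (X ^ (-d i) • u i)`.  Then
`f` lies in the trace dual `C_B` and `X ^ 2 • f` lies in the trace dual `C_{B_∞}` iff the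
coordinates `a i` of `f` in the trace-dual basis `u*` are polynomials with
`a i = 0 ∨ deg (a i) ≤ d i - 2`, i.e. iff `f ∈ latticeInter u* (2 - d)`. -/
theorem mem_dual_inter_iff
    (hR : ∀ r : RatFunc k, r ∈ Set.range (algebraMap Rinf (RatFunc k)) ↔
      (r = 0 ∨ r.intDegree ≤ 0))
    (u : Basis ι (RatFunc k) F) (d : ι → ℤ) (f : F) :
    (f ∈ (traceForm (RatFunc k) F).dualSubmodule (Submodule.span k[X] (Set.range u)) ∧
      ((RatFunc.X : RatFunc k) ^ 2 • f) ∈
        (traceForm (RatFunc k) F).dualSubmodule (Submodule.span Rinf (Set.range (scaled u d)))) ↔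
      f ∈ latticeInter u.traceDual fun i => 2 - d i := by
  rw [(traceForm (RatFunc k) F).dualSubmodule_span_of_basis (traceForm_nondegenerate _ _) u,
    (traceForm (RatFunc k) F).dualSubmodule_span_of_basis (traceForm_nondegenerate _ _)
      (scaled u d),
    ← Basis.traceDual_def, ← Basis.traceDual_def, traceDual_scaled,
    Basis.mem_span_iff_repr_mem, Basis.mem_span_iff_repr_mem, mem_latticeInter]
  simp only [repr_scaled, hR, map_smul, Finsupp.smul_apply, smul_eq_mul, mem_coordSpace]
  rw [← forall_and]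
  refine forall_congr' fun i => and_congr_right fun _ => ?_
  have h2 : (RatFunc.X : RatFunc k) ^ 2 * ((RatFunc.X : RatFunc k) ^ (-d i) *
      (u.traceDual.repr f) i) = (RatFunc.X : RatFunc k) ^ (2 - d i) * (u.traceDual.repr f) i := by
    rw [← mul_assoc, ← zpow_natCast, ← zpow_add₀ RatFunc.X_ne_zero]
    congr 2
  rw [h2, X_zpow_mul_deg_iff]

omit [Module k[X] F] [IsScalarTower k[X] (RatFunc k) F] in
/-- **(DW-c)** `dim_k {f | f ∈ C_B ∧ X² f ∈ C_{B_∞}} = Σ_i max (0, d i - 1)`. -/
theorem finrank_dual_inter (u : Basis ι (RatFunc k) F) (d : ι → ℤ) :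
    finrank k (latticeInter u.traceDual fun i => 2 - d i) = ∑ i, (d i - 1).toNat := by
  rw [finrank_latticeInter]
  refine Finset.sum_congr rfl fun i _ => ?_
  congr 1
  ring

/-- **(DW-c + DW-e, packaged)**  Let `u` be a basis of `F` over `k(X)`, `d : ι → ℤ`,
`B = span_{k[X]} u`, `B_∞ = span_{O_∞} (X ^ (-d i) • u i)`.  If `L0 = B ∩ B_∞` (as a `k`-space)
is one-dimensional, then the `k`-space `H = {f | f ∈ C_B ∧ X² f ∈ C_{B_∞}}` (`C` = trace dual)
has dimension `Σ d i - n + 1`. -/
theorem finrank_dual_inter_of_finrank_inter_eq_one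
    (hR : ∀ r : RatFunc k, r ∈ Set.range (algebraMap Rinf (RatFunc k)) ↔
      (r = 0 ∨ r.intDegree ≤ 0))
    (u : Basis ι (RatFunc k) F) (d : ι → ℤ)
    (L0 H : Submodule k F)
    (hL0 : ∀ v, v ∈ L0 ↔ (v ∈ Submodule.span k[X] (Set.range u) ∧
        v ∈ Submodule.span Rinf (Set.range (scaled u d))))
    (hH : ∀ f, f ∈ H ↔
      (f ∈ (traceForm (RatFunc k) F).dualSubmodule (Submodule.span k[X] (Set.range u)) ∧
      ((RatFunc.X : RatFunc k) ^ 2 • f) ∈
        (traceForm (RatFunc k) F).dualSubmodule (Submodule.span Rinf (Set.range (scaled u d)))))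
    (h1 : finrank k L0 = 1) :
    (finrank k H : ℤ) = ∑ i, d i - Fintype.card ι + 1 ∧
      finrank k H = ∑ i, (d i - 1).toNat ∧ ∑ i, (1 - d i).toNat = 1 := by
  have e0 : L0 = latticeInter u d :=
    Submodule.ext fun v => (hL0 v).trans (mem_inter_iff_mem_latticeInter hR u d v)
  have eH : H = latticeInter u.traceDual fun i => 2 - d i :=
    Submodule.ext fun f => (hH f).trans (mem_dual_inter_iff hR u d f)
  have hs : ∑ i, (1 - d i).toNat = 1 := by
    rw [← finrank_latticeInter u d, ← e0, h1]
  have hHr : finrank k H = ∑ i, (d i - 1).toNat := by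
    rw [eH, finrank_dual_inter]
  refine ⟨?_, hHr, hs⟩
  rw [hHr]
  exact sum_toNat_sub_one_of_sum_eq_one d hs

end TraceDual

end Fermat.Agent.S20.LatticeDims
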