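import Mathlib
open Polynomial Matrix
open scoped Classical
noncomputable section
namespace Fermat.Agent.S20.NormalBasis

variable (K : Type*) [Field K]

/-- The valuation ring at infinity of `K(X)`. -/
abbrev Oinf : ValuationSubring (RatFunc K) := (RatFunc.inftyValuation K).valuationSubring

variable {K}

theorem mem_Oinf_iff {f : RatFunc K} : f ∈ Oinf K ↔ f = 0 ∨ f.intDegree ≤ 0 := by
  rw [Valuation.mem_valuationSubring_iff]
  by_cases hf : f = 0
  · simp [hf]
  · rw [RatFunc.inftyValuation_apply, RatFunc.inftyValuation_of_nonzero K hf]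
    simp [hf, ← WithZero.exp_zero, WithZero.exp_le_exp]

theorem C_mem_Oinf (c : K) : (RatFunc.C c : RatFunc K) ∈ Oinf K := by
  rw [mem_Oinf_iff]; right; simp

/-- `f` has negative degree (or is zero): the maximal ideal at infinity. -/
def IsNeg (f : RatFunc K) : Prop := f = 0 ∨ f.intDegree < 0

theorem IsNeg.add {f g : RatFunc K} (hf : IsNeg f) (hg : IsNeg g) : IsNeg (f + g) := by
  by_cases h : f + g = 0
  · exact Or.inl h
  right
  rcases hf with rfl | hf
  · rcases hg with rfl | hg
    · simp at h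
    · simpa using hg
  rcases hg with rfl | hg
  · simpa using hf
  by_cases hg0 : g = 0
  · subst hg0; simpa using hf
  exact lt_of_le_of_lt (RatFunc.intDegree_add_le hg0 h) (max_lt hf hg)

theorem IsNeg.mul_left {f g : RatFunc K} (hf : f ∈ Oinf K) (hg : IsNeg g) : IsNeg (f * g) := by
  by_cases hf0 : f = 0
  · left; simp [hf0]
  rcases hg with rfl | hg
  · left; simp
  by_cases hg0 : g = 0
  · left; simp [hg0]
  right
  rw [RatFunc.intDegree_mul hf0 hg0]
  have := (mem_Oinf_iff.mp hf).resolve_left hf0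
  omega

theorem IsNeg.neg {f : RatFunc K} (hf : IsNeg f) : IsNeg (-f) := by
  rcases hf with rfl | hf
  · left; simp
  · right; rwa [RatFunc.intDegree_neg]

theorem IsNeg.mem_Oinf {f : RatFunc K} (hf : IsNeg f) : f ∈ Oinf K := by
  rw [mem_Oinf_iff]
  rcases hf with h | h
  · exact Or.inl h
  · exact Or.inr h.le

theorem not_isNeg_C {c : K} (hc : c ≠ 0) : ¬ IsNeg (RatFunc.C c : RatFunc K) := by
  rintro (h | h)
  · exact hc (by simpa using h)
  · simp at h

/-- Every element of `O_∞` is congruent to a constant modulo the maximal ideal. -/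
theorem exists_C_sub_isNeg {f : RatFunc K} (hf : f ∈ Oinf K) : ∃ c : K, IsNeg (f - RatFunc.C c) := by
  by_cases hf0 : f = 0
  · exact ⟨0, by left; simp [hf0]⟩
  have hdeg := (mem_Oinf_iff.mp hf).resolve_left hf0
  rcases hdeg.lt_or_eq with hlt | heq
  · exact ⟨0, by right; simpa using hlt⟩
  -- degree zero
  set p := f.num with hp
  set q := f.denom with hq
  have hq0 : q ≠ 0 := f.denom_ne_zero
  have hp0 : p ≠ 0 := by rwa [hp, Ne, RatFunc.num_eq_zero_iff]
  have hpq : (p.natDegree : ℤ) = q.natDegree := by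
    have : f.intDegree = (p.natDegree : ℤ) - q.natDegree := rfl
    omega
  have hpq' : p.natDegree = q.natDegree := by exact_mod_cast hpq
  refine ⟨p.leadingCoeff / q.leadingCoeff, ?_⟩
  set c := p.leadingCoeff / q.leadingCoeff with hc
  have hfe : f = algebraMap K[X] (RatFunc K) p / algebraMap K[X] (RatFunc K) q :=
    (RatFunc.num_div_denom f).symm
  have hqa : algebraMap K[X] (RatFunc K) q ≠ 0 := by
    simpa using hq0
  have hsub : f - RatFunc.C c =
      algebraMap K[X] (RatFunc K) (p - Polynomial.C c * q) / algebraMap K[X] (RatFunc K) q := by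
    rw [hfe, map_sub, map_mul, sub_div, mul_div_assoc, div_self hqa, mul_one]
    rfl
  by_cases hr : p - Polynomial.C c * q = 0
  · left; rw [hsub, hr]; simp
  right
  have hra : algebraMap K[X] (RatFunc K) (p - Polynomial.C c * q) ≠ 0 := by
    rw [Ne, map_eq_zero_iff _ (IsFractionRing.injective K[X] (RatFunc K))]; exact hr
  rw [hsub, RatFunc.intDegree_div hra hqa, RatFunc.intDegree_polynomial, RatFunc.intDegree_polynomial]
  have hqlc : q.leadingCoeff ≠ 0 := by simpa using hq0
  have hc0 : c ≠ 0 := div_ne_zero (by simpa using hp0) hqlc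
  have hdegcq : (Polynomial.C c * q).degree = p.degree := by
    rw [Polynomial.degree_C_mul hc0, Polynomial.degree_eq_natDegree hq0,
      Polynomial.degree_eq_natDegree hp0, hpq']
  have hlc : p.leadingCoeff = (Polynomial.C c * q).leadingCoeff := by
    rw [Polynomial.leadingCoeff_mul, Polynomial.leadingCoeff_C, hc, div_mul_cancel₀ _ hqlc]
  have hlt := Polynomial.degree_sub_lt_left hdegcq.symm hp0 hlc
  have : (p - Polynomial.C c * q).natDegree < q.natDegree := by
    rw [← hpq']
    exact (Polynomial.natDegree_lt_natDegree_iff hr).mpr hlt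
  omega


/-- The maximal ideal at infinity as an ideal of `O_∞`. -/
def mInf : Ideal (Oinf K) where
  carrier := {f | IsNeg (f : RatFunc K)}
  zero_mem' := Or.inl rfl
  add_mem' := fun {a b} ha hb => by
    show IsNeg ((a + b : Oinf K) : RatFunc K)
    simpa using IsNeg.add ha hb
  smul_mem' := fun c {a} ha => by
    show IsNeg ((c • a : Oinf K) : RatFunc K)
    simpa using IsNeg.mul_left c.2 ha

theorem mem_mInf {f : Oinf K} : f ∈ mInf (K := K) ↔ IsNeg (f : RatFunc K) := Iff.rfl

/-- constants as elements of `O_∞` -/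
def CInf : K →+* Oinf K where
  toFun c := ⟨RatFunc.C c, C_mem_Oinf c⟩
  map_one' := by ext; simp
  map_mul' a b := by ext; simp
  map_zero' := by ext; simp
  map_add' a b := by ext; simp

@[simp] theorem coe_CInf (c : K) : ((CInf c : Oinf K) : RatFunc K) = RatFunc.C c := rfl

theorem bijective_mk_comp_CInf :
    Function.Bijective ((Ideal.Quotient.mk (mInf (K := K))).comp CInf) := by
  constructor
  · rw [injective_iff_map_eq_zero]
    intro c hc
    by_contra h0
    rw [RingHom.comp_apply, Ideal.Quotient.eq_zero_iff_mem, mem_mInf, coe_CInf] at hc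
    exact not_isNeg_C h0 hc
  · intro y
    obtain ⟨f, rfl⟩ := Ideal.Quotient.mk_surjective y
    obtain ⟨c, hc⟩ := exists_C_sub_isNeg f.2
    refine ⟨c, ?_⟩
    rw [RingHom.comp_apply, Ideal.Quotient.eq, mem_mInf]
    have : ((CInf c - f : Oinf K) : RatFunc K) = -((f : RatFunc K) - RatFunc.C c) := by
      simp
    rw [this]
    exact hc.neg

/-- The residue map at infinity `O_∞ → K`. -/
def resInf : Oinf K →+* K :=
  ((RingEquiv.ofBijective _ (bijective_mk_comp_CInf (K := K))).symm : _ →+* K).comp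
    (Ideal.Quotient.mk (mInf (K := K)))

theorem resInf_CInf (c : K) : resInf (CInf c) = c := by
  unfold resInf
  rw [RingHom.comp_apply]
  exact (RingEquiv.ofBijective _ (bijective_mk_comp_CInf (K := K))).symm_apply_apply c

theorem resInf_eq_zero_iff {f : Oinf K} : resInf f = 0 ↔ IsNeg (f : RatFunc K) := by
  unfold resInf
  rw [RingHom.comp_apply, RingHom.coe_coe, map_eq_zero_iff _ (RingEquiv.injective _),
    Ideal.Quotient.eq_zero_iff_mem, mem_mInf]

theorem isNeg_sub_C_resInf (f : Oinf K) : IsNeg ((f : RatFunc K) - RatFunc.C (resInf f)) := by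
  have : resInf (f - CInf (resInf f)) = 0 := by rw [map_sub, resInf_CInf, sub_self]
  simpa using resInf_eq_zero_iff.mp this


theorem intDegree_X_zpow (m : ℤ) : ((RatFunc.X : RatFunc K) ^ m).intDegree = m := by
  have h0 : (RatFunc.X : RatFunc K) ^ m ≠ 0 := zpow_ne_zero _ RatFunc.X_ne_zero
  have h1 := RatFunc.inftyValuation.X_zpow K m
  rw [RatFunc.inftyValuation_apply, RatFunc.inftyValuation_of_nonzero K h0] at h1
  exact WithZero.exp_injective h1

theorem prod_zpow_eq {ι : Type*} (s : Finset ι) {x : RatFunc K} (hx : x ≠ 0) (d : ι → ℤ) :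
    ∏ i ∈ s, x ^ d i = x ^ ∑ i ∈ s, d i := by
  induction s using Finset.induction_on with
  | empty => simp
  | insert a s ha ih => rw [Finset.prod_insert ha, Finset.sum_insert ha, ih, zpow_add₀ hx]

theorem X_zpow_ne_zero (m : ℤ) : ((RatFunc.X : RatFunc K) ^ m) ≠ 0 :=
  zpow_ne_zero _ RatFunc.X_ne_zero

variable {n : ℕ}

/-- Entries of column `i` have degree at most `d i`. -/
def ColBounded (W : Matrix (Fin n) (Fin n) (RatFunc K)) (d : Fin n → ℤ) : Prop :=
  ∀ i j, W j i = 0 ∨ (W j i).intDegree ≤ d i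

/-- The rescaled matrix `W · diag(X^{-d_i})`. -/
def Qmat (W : Matrix (Fin n) (Fin n) (RatFunc K)) (d : Fin n → ℤ) :
    Matrix (Fin n) (Fin n) (RatFunc K) :=
  W * diagonal (fun i => (RatFunc.X : RatFunc K) ^ (-d i))

theorem Qmat_apply (W : Matrix (Fin n) (Fin n) (RatFunc K)) (d : Fin n → ℤ) (j i : Fin n) :
    Qmat W d j i = W j i * (RatFunc.X : RatFunc K) ^ (-d i) := by
  rw [Qmat, mul_diagonal]

theorem Qmat_mem {W : Matrix (Fin n) (Fin n) (RatFunc K)} {d : Fin n → ℤ} (h : ColBounded W d)
    (j i : Fin n) : Qmat W d j i ∈ Oinf K := by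
  rw [Qmat_apply, mem_Oinf_iff]
  rcases h i j with h0 | hle
  · left; rw [h0, zero_mul]
  · by_cases h0 : W j i = 0
    · left; rw [h0, zero_mul]
    right
    rw [RatFunc.intDegree_mul h0 (X_zpow_ne_zero _), intDegree_X_zpow]
    omega

theorem det_Qmat (W : Matrix (Fin n) (Fin n) (RatFunc K)) (d : Fin n → ℤ) :
    (Qmat W d).det = W.det * (RatFunc.X : RatFunc K) ^ (-∑ i, d i) := by
  rw [Qmat, det_mul, det_diagonal]
  congr 1
  rw [← Finset.sum_neg_distrib]
  exact prod_zpow_eq _ RatFunc.X_ne_zero _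

theorem intDegree_det_Qmat {W : Matrix (Fin n) (Fin n) (RatFunc K)} (hW : W.det ≠ 0)
    (d : Fin n → ℤ) : (Qmat W d).det.intDegree = W.det.intDegree - ∑ i, d i := by
  rw [det_Qmat, RatFunc.intDegree_mul hW (X_zpow_ne_zero _), intDegree_X_zpow]
  ring

/-- The rescaled matrix as a matrix over `O_∞`. -/
def QmatO {W : Matrix (Fin n) (Fin n) (RatFunc K)} {d : Fin n → ℤ} (h : ColBounded W d) :
    Matrix (Fin n) (Fin n) (Oinf K) :=
  fun j i => ⟨Qmat W d j i, Qmat_mem h j i⟩

theorem QmatO_map {W : Matrix (Fin n) (Fin n) (RatFunc K)} {d : Fin n → ℤ} (h : ColBounded W d) :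
    (QmatO h).map (Oinf K).subtype = Qmat W d := by
  ext j i; rfl

theorem coe_det_QmatO {W : Matrix (Fin n) (Fin n) (RatFunc K)} {d : Fin n → ℤ}
    (h : ColBounded W d) : (((QmatO h).det : Oinf K) : RatFunc K) = (Qmat W d).det := by
  have := RingHom.map_det (Oinf K).subtype (QmatO h)
  rw [RingHom.mapMatrix_apply, QmatO_map] at this
  exact this

theorem Qmat_mul_diagonal (W : Matrix (Fin n) (Fin n) (RatFunc K)) (d : Fin n → ℤ) :
    Qmat W d * diagonal (fun i => (RatFunc.X : RatFunc K) ^ d i) = W := by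
  rw [Qmat, Matrix.mul_assoc, diagonal_mul_diagonal]
  have : (fun i => (RatFunc.X : RatFunc K) ^ (-d i) * RatFunc.X ^ d i) = fun _ => 1 := by
    funext i
    rw [← zpow_add₀ RatFunc.X_ne_zero]; simp
  rw [this, diagonal_one, Matrix.mul_one]


theorem isUnit_det_QmatO {W : Matrix (Fin n) (Fin n) (RatFunc K)} {d : Fin n → ℤ}
    (h : ColBounded W d) (hW : W.det ≠ 0) (hs : ∑ i, d i = W.det.intDegree) :
    IsUnit (QmatO h).det := by
  have hne : (Qmat W d).det ≠ 0 := by
    rw [det_Qmat]; exact mul_ne_zero hW (X_zpow_ne_zero _)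
  have hdeg : (Qmat W d).det.intDegree = 0 := by
    rw [intDegree_det_Qmat hW, hs, sub_self]
  have hmem : ((Qmat W d).det)⁻¹ ∈ Oinf K := by
    rw [mem_Oinf_iff]; right; rw [RatFunc.intDegree_inv, hdeg]; simp
  refine IsUnit.of_mul_eq_one ⟨_, hmem⟩ ?_
  ext
  simp only [MulMemClass.coe_mul, OneMemClass.coe_one]
  rw [coe_det_QmatO]
  exact mul_inv_cancel₀ hne

theorem exists_reduction {W : Matrix (Fin n) (Fin n) (RatFunc K)} {d : Fin n → ℤ}
    (h : ColBounded W d) (hW : W.det ≠ 0) (hs : W.det.intDegree < ∑ i, d i) :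
    ∃ (E : Matrix (Fin n) (Fin n) K[X]) (i₀ : Fin n), IsUnit E.det ∧
      ColBounded (W * E.map (algebraMap K[X] (RatFunc K))) (Function.update d i₀ (d i₀ - 1)) ∧
      (W * E.map (algebraMap K[X] (RatFunc K))).det ≠ 0 ∧
      (W * E.map (algebraMap K[X] (RatFunc K))).det.intDegree = W.det.intDegree := by
  -- the determinant of the rescaled matrix is in the maximal ideal
  have hne : (Qmat W d).det ≠ 0 := by
    rw [det_Qmat]; exact mul_ne_zero hW (X_zpow_ne_zero _)
  have hneg : IsNeg (((QmatO h).det : Oinf K) : RatFunc K) := by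
    rw [coe_det_QmatO]; right; rw [intDegree_det_Qmat hW]; omega
  have hres : (resInf.mapMatrix (QmatO h)).det = 0 := by
    rw [← RingHom.map_det]; exact resInf_eq_zero_iff.mpr hneg
  obtain ⟨lam, hlam0, hlam⟩ := exists_mulVec_eq_zero_iff.mpr hres
  -- every entry of `Q *ᵥ C lam` is in the maximal ideal
  have hQlam : ∀ j, IsNeg (∑ i, Qmat W d j i * RatFunc.C (lam i)) := by
    intro j
    have h1 : resInf (∑ i, QmatO h j i * CInf (lam i)) = 0 := by
      rw [map_sum]
      have := congrFun hlam j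
      simp only [mulVec, dotProduct, RingHom.mapMatrix_apply, map_apply, Pi.zero_apply] at this
      simpa [resInf_CInf] using this
    have h2 := resInf_eq_zero_iff.mp h1
    simpa [QmatO] using h2
  -- choose the pivot
  have hsupp : (Finset.univ.filter fun i => lam i ≠ 0).Nonempty := by
    by_contra hemp
    rw [Finset.not_nonempty_iff_eq_empty, Finset.filter_eq_empty_iff] at hemp
    exact hlam0 (funext fun i => by simpa using hemp (Finset.mem_univ i))
  obtain ⟨i₀, hi₀mem, hi₀max⟩ := Finset.exists_max_image _ d hsupp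
  have hi₀ : lam i₀ ≠ 0 := (Finset.mem_filter.mp hi₀mem).2
  have hmax : ∀ i, lam i ≠ 0 → d i ≤ d i₀ := fun i hi =>
    hi₀max i (Finset.mem_filter.mpr ⟨Finset.mem_univ _, hi⟩)
  -- the new column
  set c : Fin n → K[X] := fun i =>
    if lam i ≠ 0 then Polynomial.C (lam i) * Polynomial.X ^ (d i₀ - d i).toNat else 0 with hc
  have hci₀ : c i₀ = Polynomial.C (lam i₀) := by
    simp [hc, hi₀]
  set E : Matrix (Fin n) (Fin n) K[X] := updateCol 1 i₀ c with hE
  have hdetE : E.det = Polynomial.C (lam i₀) := by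
    rw [hE, ← cramer_apply, cramer_one, ← hci₀]; rfl
  have hEunit : IsUnit E.det := by
    rw [hdetE]; exact Polynomial.isUnit_C.mpr (isUnit_iff_ne_zero.mpr hi₀)
  -- image of c in RatFunc
  have hcmap : ∀ i, algebraMap K[X] (RatFunc K) (c i) =
      RatFunc.C (lam i) * RatFunc.X ^ (d i₀ - d i) := by
    intro i
    by_cases hi : lam i = 0
    · simp [hc, hi]
    · have hnn : 0 ≤ d i₀ - d i := by have := hmax i hi; omega
      simp only [hc, hi, ne_eq, not_false_eq_true, if_true, map_mul, map_pow,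
        RatFunc.algebraMap_C, RatFunc.algebraMap_X]
      congr 1
      rw [← zpow_natCast, Int.toNat_of_nonneg hnn]
  have hWE : W * E.map (algebraMap K[X] (RatFunc K)) =
      updateCol W i₀ (W *ᵥ (fun i => algebraMap K[X] (RatFunc K) (c i))) := by
    rw [hE, map_updateCol]
    have : (1 : Matrix (Fin n) (Fin n) K[X]).map (algebraMap K[X] (RatFunc K)) = 1 := by
      ext i j; simp [Matrix.one_apply]
    rw [this, mul_updateCol, Matrix.mul_one]; rfl
  have hdetWE : (W * E.map (algebraMap K[X] (RatFunc K))).det = W.det * RatFunc.C (lam i₀) := by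
    rw [det_mul]
    congr 1
    have := RingHom.map_det (algebraMap K[X] (RatFunc K)) E
    rw [RingHom.mapMatrix_apply] at this
    rw [← this, hdetE, RatFunc.algebraMap_C]
  have hCne : (RatFunc.C (lam i₀) : RatFunc K) ≠ 0 := by simpa using hi₀
  -- the new column entries
  have hcol : ∀ j, (W *ᵥ (fun i => algebraMap K[X] (RatFunc K) (c i))) j =
      RatFunc.X ^ (d i₀) * ∑ i, Qmat W d j i * RatFunc.C (lam i) := by
    intro j
    simp only [mulVec, dotProduct]
    rw [Finset.mul_sum]
    refine Finset.sum_congr rfl fun i _ => ?_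
    rw [hcmap, Qmat_apply, sub_eq_add_neg, zpow_add₀ RatFunc.X_ne_zero]
    ring
  refine ⟨E, i₀, hEunit, ?_, ?_, ?_⟩
  · intro i j
    rw [hWE]
    by_cases hi : i = i₀
    · subst hi
      rw [updateCol_self, hcol, Function.update_self]
      rcases hQlam j with h0 | hlt
      · left; rw [h0, mul_zero]
      · by_cases h0 : ∑ i, Qmat W d j i * RatFunc.C (lam i) = 0
        · left; rw [h0, mul_zero]
        right
        rw [RatFunc.intDegree_mul (X_zpow_ne_zero _) h0, intDegree_X_zpow]
        omega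
    · rw [updateCol_ne hi, Function.update_of_ne hi]
      exact h i j
  · rw [hdetWE]; exact mul_ne_zero hW hCne
  · rw [hdetWE, RatFunc.intDegree_mul hW hCne, RatFunc.intDegree_C, add_zero]


theorem sum_update_sub_one (d : Fin n → ℤ) (i₀ : Fin n) :
    ∑ i, Function.update d i₀ (d i₀ - 1) i = ∑ i, d i - 1 := by
  have h1 := Finset.sum_update_of_mem (Finset.mem_univ i₀) d (d i₀ - 1)
  have h2 : ∑ i, d i = d i₀ + ∑ i ∈ Finset.univ \ {i₀}, d i := by
    rw [← Finset.sum_sdiff (Finset.singleton_subset_iff.mpr (Finset.mem_univ i₀))]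
    simp [add_comm]
  rw [h1, h2]; ring

theorem exists_normal_form_aux (s : ℕ) :
    ∀ (W : Matrix (Fin n) (Fin n) (RatFunc K)) (d : Fin n → ℤ), W.det ≠ 0 → ColBounded W d →
      ∑ i, d i - W.det.intDegree = (s : ℤ) →
      ∃ (P : Matrix (Fin n) (Fin n) K[X]) (d' : Fin n → ℤ) (Q : Matrix (Fin n) (Fin n) (Oinf K)),
        IsUnit P.det ∧ IsUnit Q.det ∧
        W * P.map (algebraMap K[X] (RatFunc K)) =
          Q.map (Oinf K).subtype * diagonal (fun i => (RatFunc.X : RatFunc K) ^ d' i) := by
  induction s with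
  | zero =>
    intro W d hW h hs
    have hs' : ∑ i, d i = W.det.intDegree := by
      have : ∑ i, d i - W.det.intDegree = 0 := by exact_mod_cast hs
      omega
    refine ⟨1, d, QmatO h, by simp, isUnit_det_QmatO h hW hs', ?_⟩
    rw [QmatO_map, Qmat_mul_diagonal]
    have : (1 : Matrix (Fin n) (Fin n) K[X]).map (algebraMap K[X] (RatFunc K)) = 1 := by
      ext i j; simp [Matrix.one_apply]
    rw [this, Matrix.mul_one]
  | succ s ih =>
    intro W d hW h hs
    have hlt : W.det.intDegree < ∑ i, d i := by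
      have : (0 : ℤ) < ((s + 1 : ℕ) : ℤ) := by positivity
      omega
    obtain ⟨E, i₀, hE, hbd, hdet, hdeg⟩ := exists_reduction h hW hlt
    have hs' : ∑ i, Function.update d i₀ (d i₀ - 1) i -
        (W * E.map (algebraMap K[X] (RatFunc K))).det.intDegree = (s : ℤ) := by
      rw [sum_update_sub_one, hdeg]
      push_cast at hs
      omega
    obtain ⟨P', d', Q, hP', hQ, heq⟩ := ih _ _ hdet hbd hs'
    refine ⟨E * P', d', Q, ?_, hQ, ?_⟩
    · rw [det_mul]; exact hE.mul hP'
    · rw [Matrix.map_mul, ← Matrix.mul_assoc, heq]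

/-- **Dedekind–Weber normal form**: every invertible matrix over `K(X)` can be brought, by a
unimodular polynomial column operation, to the form `Q · diag(X^{d_i})` with `Q` invertible over the
valuation ring at infinity. -/
theorem exists_normal_form (W : Matrix (Fin n) (Fin n) (RatFunc K)) (hW : W.det ≠ 0) :
    ∃ (P : Matrix (Fin n) (Fin n) K[X]) (d : Fin n → ℤ) (Q : Matrix (Fin n) (Fin n) (Oinf K)),
      IsUnit P.det ∧ IsUnit Q.det ∧
      W * P.map (algebraMap K[X] (RatFunc K)) =
        Q.map (Oinf K).subtype * diagonal (fun i => (RatFunc.X : RatFunc K) ^ d i) := by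
  set d : Fin n → ℤ := fun i => ∑ j, |(W j i).intDegree| with hd
  have h : ColBounded W d := by
    intro i j
    right
    calc (W j i).intDegree ≤ |(W j i).intDegree| := le_abs_self _
      _ ≤ ∑ j, |(W j i).intDegree| :=
        Finset.single_le_sum (f := fun j => |(W j i).intDegree|) (fun _ _ => abs_nonneg _)
          (Finset.mem_univ j)
  have hle : W.det.intDegree ≤ ∑ i, d i := by
    have hmem : (Qmat W d).det ∈ Oinf K := by
      rw [← coe_det_QmatO h]; exact ((QmatO h).det).2
    have hne : (Qmat W d).det ≠ 0 := by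
      rw [det_Qmat]; exact mul_ne_zero hW (X_zpow_ne_zero _)
    have := (mem_Oinf_iff.mp hmem).resolve_left hne
    rw [intDegree_det_Qmat hW] at this
    omega
  obtain ⟨s, hs⟩ := Int.eq_ofNat_of_zero_le (sub_nonneg.mpr hle)
  exact exists_normal_form_aux s W d hW h hs

end Fermat.Agent.S20.NormalBasis
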