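/-
S20 / DW-glue (helper58): from the matrix normal form `NormalBasis.exists_normal_form`
to a simultaneous basis of the two integral closures, in the shape consumed by `LatticeDims`.
-/
import Mathlib
import Fermat.Agent.S20.NormalBasis
import Fermat.Agent.S20.LatticeDims

set_option autoImplicit false

open Polynomial Module Matrix

namespace Fermat.Agent.S20.NormalBasisGlue

open Fermat.Agent.S20

/-! ### Spans and base-change matrices -/

section SpanToMatrix

variable {A K V ι : Type*} [CommRing A] [Field K] [Algebra A K] [AddCommGroup V] [Module K V]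
  [Module A V] [IsScalarTower A K V] [Fintype ι] [DecidableEq ι]

omit [DecidableEq ι] in
theorem span_le_of_toMatrix_eq (b c : Basis ι K V) (M : Matrix ι ι A)
    (h : b.toMatrix c = M.map (algebraMap A K)) :
    Submodule.span A (Set.range c) ≤ Submodule.span A (Set.range b) := by
  rw [Submodule.span_le]
  rintro _ ⟨j, rfl⟩
  rw [SetLike.mem_coe, ← b.sum_toMatrix_smul_self c j]
  refine sum_mem fun i _ => ?_
  rw [h, Matrix.map_apply, algebraMap_smul]
  exact Submodule.smul_mem _ _ (Submodule.subset_span ⟨i, rfl⟩)

theorem span_eq_of_toMatrix_eq (b c : Basis ι K V) (M : Matrix ι ι A) (hM : IsUnit M.det)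
    (h : b.toMatrix c = M.map (algebraMap A K)) :
    Submodule.span A (Set.range c) = Submodule.span A (Set.range b) := by
  refine le_antisymm (span_le_of_toMatrix_eq b c M h) (span_le_of_toMatrix_eq c b M⁻¹ ?_)
  have h1 : b.toMatrix c * c.toMatrix b = 1 := Basis.toMatrix_mul_toMatrix_flip b c
  calc c.toMatrix b
      = (M⁻¹.map (algebraMap A K)) * (M.map (algebraMap A K) * c.toMatrix b) := by
        rw [← Matrix.mul_assoc, ← Matrix.map_mul, Matrix.nonsing_inv_mul _ hM, Matrix.map_one _
          (map_zero _) (map_one _), Matrix.one_mul]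
    _ = M⁻¹.map (algebraMap A K) := by rw [← h, h1, Matrix.mul_one]

end SpanToMatrix

/-! ### Integral bases over a PID -/

section IntegralBasis

variable (A K L : Type*) [CommRing A] [IsDomain A] [IsPrincipalIdealRing A] [Field K] [Algebra A K]
  [IsFractionRing A K] [Field L] [Algebra K L] [Algebra A L] [IsScalarTower A K L]
  [FiniteDimensional K L] [Algebra.IsSeparable K L]

/-- Over a PID `A` with fraction field `K`, a finite separable extension `L/K` has a `K`-basis
which is an `A`-basis of the integral closure of `A` in `L`. -/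
theorem exists_basis_span_eq_integralClosure :
    ∃ b : Basis (Fin (finrank K L)) K L,
      Submodule.span A (Set.range b) = Subalgebra.toSubmodule (integralClosure A L) := by
  have hinj : Function.Injective (algebraMap A L) := by
    rw [IsScalarTower.algebraMap_eq A K L]
    exact (algebraMap K L).injective.comp (IsFractionRing.injective A K)
  have : Module.IsTorsionFree A L := Module.isTorsionFree_iff_algebraMap_injective.mpr hinj
  set C := integralClosure A L with hC
  have : Module.Free A C := IsIntegralClosure.module_free A K L C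
  have : IsNoetherian A C := IsIntegralClosure.isNoetherian A K L C
  have : IsLocalization (Algebra.algebraMapSubmonoid C (nonZeroDivisors A)) L :=
    IsIntegralClosure.isLocalization A K L C
  have hrank : finrank A C = finrank K L := IsIntegralClosure.rank A K L C
  let b₀ : Basis (Fin (finrank K L)) A C := (Module.finBasis A C).reindex (finCongr hrank)
  refine ⟨b₀.localizationLocalization K (nonZeroDivisors A) L, ?_⟩
  rw [Basis.localizationLocalization_span]
  ext x
  simp only [LinearMap.mem_range, Subalgebra.mem_toSubmodule]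
  constructor
  · rintro ⟨y, rfl⟩
    exact y.2
  · intro hx
    exact ⟨⟨x, hx⟩, rfl⟩

end IntegralBasis

/-! ### `O_∞` is a principal ideal domain -/

section OinfPID

variable {k : Type*} [Field k]

open NormalBasis in
instance isPrincipalIdealRing_Oinf : IsPrincipalIdealRing (NormalBasis.Oinf k) := by
  classical
  refine ⟨fun I => ?_⟩
  by_cases hI : I = ⊥
  · exact ⟨0, by simp [hI]⟩
  -- the set of `n` such that `I` contains a nonzero element of degree `-n`
  have hex : ∃ n : ℕ, ∃ f ∈ I, f ≠ 0 ∧ ((f : RatFunc k)).intDegree = -(n : ℤ) := by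
    obtain ⟨f, hfI, hf0⟩ := Submodule.exists_mem_ne_zero_of_ne_bot hI
    have hf0' : (f : RatFunc k) ≠ 0 := fun h => hf0 (Subtype.ext h)
    have hdeg : (f : RatFunc k).intDegree ≤ 0 := (mem_Oinf_iff.mp f.2).resolve_left hf0'
    refine ⟨(-(f : RatFunc k).intDegree).toNat, f, hfI, hf0, ?_⟩
    rw [Int.toNat_of_nonneg (by omega)]
    ring
  obtain ⟨f, hfI, hf0, hfdeg⟩ := Nat.find_spec hex
  have hf0' : (f : RatFunc k) ≠ 0 := fun h => hf0 (Subtype.ext h)
  refine ⟨f, le_antisymm ?_ ?_⟩
  · intro g hg
    rw [Submodule.mem_span_singleton]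
    by_cases hg0 : g = 0
    · exact ⟨0, by simp [hg0]⟩
    have hg0' : (g : RatFunc k) ≠ 0 := fun h => hg0 (Subtype.ext h)
    have hgdeg : (g : RatFunc k).intDegree ≤ 0 := (mem_Oinf_iff.mp g.2).resolve_left hg0'
    have hmin : Nat.find hex ≤ (-(g : RatFunc k).intDegree).toNat := by
      apply Nat.find_min' hex
      refine ⟨g, hg, hg0, ?_⟩
      rw [Int.toNat_of_nonneg (by omega)]
      ring
    have hq : (g : RatFunc k) / (f : RatFunc k) ∈ NormalBasis.Oinf k := by
      rw [mem_Oinf_iff]
      right
      rw [RatFunc.intDegree_div hg0' hf0', hfdeg]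
      omega
    refine ⟨⟨_, hq⟩, Subtype.ext ?_⟩
    show (g : RatFunc k) / (f : RatFunc k) * (f : RatFunc k) = g
    field_simp
  · rw [Submodule.span_le]
    rintro _ rfl
    exact hfI

end OinfPID

/-! ### The simultaneous normal basis of the two integral closures -/

section Main

variable {k : Type*} [Field k] {F : Type*} [Field F] [Algebra (RatFunc k) F]
  [FiniteDimensional (RatFunc k) F] [Algebra.IsSeparable (RatFunc k) F]
  [Algebra k[X] F] [IsScalarTower k[X] (RatFunc k) F]
  [Algebra (NormalBasis.Oinf k) F] [IsScalarTower (NormalBasis.Oinf k) (RatFunc k) F]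

theorem toMatrix_scaled_self {ι : Type*} [Fintype ι] [DecidableEq ι] {V : Type*} [AddCommGroup V]
    [Module (RatFunc k) V] (u : Basis ι (RatFunc k) V) (d : ι → ℤ) :
    (LatticeDims.scaled u d).toMatrix u =
      Matrix.diagonal fun i => (RatFunc.X : RatFunc k) ^ (d i) := by
  ext i j
  rw [Basis.toMatrix_apply, LatticeDims.repr_scaled, Basis.repr_self, Matrix.diagonal_apply,
    Finsupp.single_apply]
  by_cases h : i = j
  · simp [h]
  · simp [h, Ne.symm h]

/-- **Dedekind–Weber normal basis for the integral closures.** -/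
theorem exists_normal_basis :
    ∃ (u : Basis (Fin (finrank (RatFunc k) F)) (RatFunc k) F)
      (d : Fin (finrank (RatFunc k) F) → ℤ),
      Submodule.span k[X] (Set.range u) = Subalgebra.toSubmodule (integralClosure k[X] F) ∧
      Submodule.span (NormalBasis.Oinf k) (Set.range (LatticeDims.scaled u d)) =
        Subalgebra.toSubmodule (integralClosure (NormalBasis.Oinf k) F) := by
  classical
  obtain ⟨b, hb⟩ := exists_basis_span_eq_integralClosure k[X] (RatFunc k) F
  obtain ⟨c, hc⟩ := exists_basis_span_eq_integralClosure (NormalBasis.Oinf k) (RatFunc k) F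
  set W := b.toMatrix c with hWdef
  have hWinv : Invertible W := Basis.invertibleToMatrix b c
  have hWdet : Wᵀ.det ≠ 0 := by
    rw [Matrix.det_transpose]
    exact (Matrix.isUnit_det_of_invertible W).ne_zero
  obtain ⟨P, e, Q, hP, hQ, heq⟩ := NormalBasis.exists_normal_form Wᵀ hWdet
  -- transpose the normal form
  have heqT : (Pᵀ.map (algebraMap k[X] (RatFunc k))) * W =
      Matrix.diagonal (fun i => (RatFunc.X : RatFunc k) ^ e i) *
        (Qᵀ.map (NormalBasis.Oinf k).subtype) := by
    have := congrArg Matrix.transpose heq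
    rw [Matrix.transpose_mul, Matrix.transpose_mul, Matrix.transpose_transpose,
      Matrix.diagonal_transpose, ← Matrix.transpose_map, ← Matrix.transpose_map] at this
    exact this
  have hPt : IsUnit (Pᵀ.map (algebraMap k[X] (RatFunc k))).det := by
    rw [← RingHom.mapMatrix_apply, ← RingHom.map_det, Matrix.det_transpose]
    exact hP.map _
  let u : Basis (Fin (finrank (RatFunc k) F)) (RatFunc k) F :=
    b.map (Matrix.toLinearEquiv b (Pᵀ.map (algebraMap k[X] (RatFunc k))) hPt).symm
  have hub : u.toMatrix b = Pᵀ.map (algebraMap k[X] (RatFunc k)) := by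
    rw [Basis.toMatrix_map, LinearEquiv.symm_symm]
    ext i j
    rw [Basis.toMatrix_apply, Function.comp_apply, Matrix.toLinearEquiv_apply, Matrix.toLin_self,
      map_sum, Finsupp.finsetSum_apply]
    have hterm : ∀ l, (b.repr ((Pᵀ.map (algebraMap k[X] (RatFunc k))) l j • b l)) i =
        if l = i then (Pᵀ.map (algebraMap k[X] (RatFunc k))) l j else 0 := by
      intro l
      rw [map_smul, Basis.repr_self, Finsupp.smul_apply, Finsupp.single_apply, smul_eq_mul]
      split_ifs <;> simp
    rw [Finset.sum_congr rfl fun l _ => hterm l, Finset.sum_ite_eq' Finset.univ i]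
    simp
  let d : Fin (finrank (RatFunc k) F) → ℤ := fun i => - e i
  have key : (LatticeDims.scaled u d).toMatrix c = Qᵀ.map (NormalBasis.Oinf k).subtype := by
    rw [← Basis.toMatrix_mul_toMatrix (LatticeDims.scaled u d) u c,
      ← Basis.toMatrix_mul_toMatrix u b c, toMatrix_scaled_self, hub, ← hWdef, heqT,
      ← Matrix.mul_assoc, Matrix.diagonal_mul_diagonal]
    have : (fun i => (RatFunc.X : RatFunc k) ^ d i * (RatFunc.X : RatFunc k) ^ e i) =
        fun _ => 1 := by
      funext i
      rw [← zpow_add₀ RatFunc.X_ne_zero]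
      simp [d]
    rw [this, Matrix.diagonal_one, Matrix.one_mul]
  refine ⟨u, d, ?_, ?_⟩
  · rw [← hb]
    exact (span_eq_of_toMatrix_eq u b Pᵀ (by rw [Matrix.det_transpose]; exact hP) hub).symm
  · rw [← hc]
    have hQt : IsUnit Qᵀ.det := by rw [Matrix.det_transpose]; exact hQ
    exact (span_eq_of_toMatrix_eq (LatticeDims.scaled u d) c Qᵀ hQt key).symm

variable [Module k F] [IsScalarTower k (RatFunc k) F]

open Algebra in
/-- **Dedekind–Weber, packaged for the integral closures.**  `B` = integral closure of `k[X]`,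
`B_∞` = integral closure of `O_∞`.  If the `k`-space `L0 = B ∩ B_∞` is one-dimensional then the
`k`-space `H = {f | f ∈ C_B ∧ X² f ∈ C_{B_∞}}` (`C` = trace dual) has dimension `Σ d i - n + 1`,
where `(u, d)` is a simultaneous normal basis. -/
theorem dedekind_weber_finrank (L0 H : Submodule k F)
    (hL0 : ∀ v, v ∈ L0 ↔ (IsIntegral k[X] v ∧ IsIntegral (NormalBasis.Oinf k) v))
    (hH : ∀ f, f ∈ H ↔
      (f ∈ (traceForm (RatFunc k) F).dualSubmodule
          (Subalgebra.toSubmodule (integralClosure k[X] F)) ∧
        ((RatFunc.X : RatFunc k) ^ 2 • f) ∈ (traceForm (RatFunc k) F).dualSubmodule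
          (Subalgebra.toSubmodule (integralClosure (NormalBasis.Oinf k) F))))
    (h1 : finrank k L0 = 1) :
    ∃ (u : Basis (Fin (finrank (RatFunc k) F)) (RatFunc k) F)
      (d : Fin (finrank (RatFunc k) F) → ℤ),
      Submodule.span k[X] (Set.range u) = Subalgebra.toSubmodule (integralClosure k[X] F) ∧
      Submodule.span (NormalBasis.Oinf k) (Set.range (LatticeDims.scaled u d)) =
        Subalgebra.toSubmodule (integralClosure (NormalBasis.Oinf k) F) ∧
      (finrank k H : ℤ) = ∑ i, d i - finrank (RatFunc k) F + 1 ∧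
      finrank k H = ∑ i, (d i - 1).toNat ∧ ∑ i, (1 - d i).toNat = 1 := by
  classical
  obtain ⟨u, d, hu, hd⟩ := exists_normal_basis (k := k) (F := F)
  have hR : ∀ r : RatFunc k, r ∈ Set.range (algebraMap (NormalBasis.Oinf k) (RatFunc k)) ↔
      (r = 0 ∨ r.intDegree ≤ 0) := by
    intro r
    rw [← NormalBasis.mem_Oinf_iff]
    constructor
    · rintro ⟨x, rfl⟩
      exact x.2
    · intro h
      exact ⟨⟨r, h⟩, rfl⟩
  have := LatticeDims.finrank_dual_inter_of_finrank_inter_eq_one hR u d L0 H
    (fun v => by rw [hL0, hu, hd]; rfl) (fun f => by rw [hH, hu, hd]) h1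
  refine ⟨u, d, hu, hd, ?_, this.2.1, this.2.2⟩
  rw [this.1, Fintype.card_fin]

end Main

end Fermat.Agent.S20.NormalBasisGlue
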