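import Mathlib

/-!
# S20 / DW-a (backup, helper79): exact exponent of the different in the tame case

`A ⊆ B` Dedekind domains, `B` finite over `A`, separable fraction field extension.
If the residue field `A ⧸ p` has characteristic zero then for `P^e ∥ pB` the exact power of `P`
dividing the different is `P^(e-1)`.
-/

set_option autoImplicit false

open Algebra

namespace Fermat.Agent.S20.TameDiff79

attribute [local instance] FractionRing.liftAlgebra FractionRing.isScalarTower_liftAlgebra
  Ideal.Quotient.field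

variable (A : Type*) {B : Type*} [CommRing A] [CommRing B] [Algebra A B]
  [IsDedekindDomain A] [IsDedekindDomain B]
  [Module.IsTorsionFree A B] [Module.Finite A B]

/-- If `pB = P' * Q` with `P'`, `Q` coprime, `P' ≠ ⊤` and `A ⧸ p` of characteristic zero,
then `P'` does not divide the different. (`P'` need not be prime.) -/
theorem not_dvd_differentIdeal_of_isCoprime_of_charZero
    [Algebra.IsSeparable (FractionRing A) (FractionRing B)]
    {p : Ideal A} [p.IsMaximal] [CharZero (A ⧸ p)] (P' Q : Ideal B) (hP' : P' ≠ ⊤)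
    (hPQ : IsCoprime P' Q) (hP : P' * Q = Ideal.map (algebraMap A B) p) :
    ¬ P' ∣ differentIdeal A B := by
  let _ : Algebra (A ⧸ p) (B ⧸ Q) := Ideal.Quotient.algebraQuotientOfLEComap (by
      rw [← Ideal.map_le_iff_le_comap, ← hP]
      exact Ideal.mul_le_right)
  let _ : Algebra (A ⧸ p) (B ⧸ P') := Ideal.Quotient.algebraQuotientOfLEComap (by
      rw [← Ideal.map_le_iff_le_comap, ← hP]
      exact Ideal.mul_le_left)
  have : IsScalarTower A (A ⧸ p) (B ⧸ Q) := .of_algebraMap_eq' rfl
  have : IsScalarTower A (A ⧸ p) (B ⧸ P') := .of_algebraMap_eq' rfl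
  have : Module.Finite (A ⧸ p) (B ⧸ Q) :=
    Module.Finite.of_restrictScalars_finite A (A ⧸ p) (B ⧸ Q)
  have : Module.Finite (A ⧸ p) (B ⧸ P') :=
    Module.Finite.of_restrictScalars_finite A (A ⧸ p) (B ⧸ P')
  let e : (B ⧸ p.map (algebraMap A B)) ≃ₐ[A ⧸ p] ((B ⧸ P') × B ⧸ Q) :=
    { __ := (Ideal.quotEquivOfEq hP.symm).trans (Ideal.quotientMulEquivQuotientProd P' Q hPQ),
      commutes' := Quotient.ind fun _ ↦ rfl }
  have : Nontrivial (B ⧸ P') := Ideal.Quotient.nontrivial_iff.mpr hP'
  have htr : Algebra.trace (A ⧸ p) (B ⧸ P') 1 ≠ 0 := by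
    have h1 : (1 : B ⧸ P') = algebraMap (A ⧸ p) (B ⧸ P') 1 := (map_one _).symm
    rw [h1, Algebra.trace_algebraMap, nsmul_eq_mul, mul_one]
    have hpos : 0 < Module.finrank (A ⧸ p) (B ⧸ P') := Module.finrank_pos
    exact_mod_cast hpos.ne'
  obtain ⟨y, hy⟩ := Ideal.Quotient.mk_surjective (e.symm (1, 0))
  refine not_dvd_differentIdeal_of_intTrace_not_mem A P' Q hP y ?_ ?_
  · have := congr((e $hy).2)
    simp at this
    simpa [e, Ideal.Quotient.eq_zero_iff_mem] using this
  · rw [← Ideal.Quotient.eq_zero_iff_mem, ← Algebra.trace_quotient_eq_of_isDedekindDomain,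
      hy, Algebra.trace_eq_of_algEquiv, Algebra.trace_prod_apply]
    simpa using htr

/-- Tame ramification: if `P^e ∥ pB` (`e ≠ 0`) and `A ⧸ p` has characteristic zero, then `P^e`
does not divide the different. -/
theorem not_pow_dvd_differentIdeal
    [Algebra.IsSeparable (FractionRing A) (FractionRing B)]
    {p : Ideal A} [p.IsMaximal] [CharZero (A ⧸ p)] (P : Ideal B) [P.IsPrime] (hPbot : P ≠ ⊥)
    {e : ℕ} (he0 : e ≠ 0) (he1 : P ^ e ∣ p.map (algebraMap A B))
    (he2 : ¬ P ^ (e + 1) ∣ p.map (algebraMap A B)) :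
    ¬ P ^ e ∣ differentIdeal A B := by
  obtain ⟨Q, hQ⟩ := he1
  have hPmax : P.IsMaximal := Ideal.IsPrime.isMaximal inferInstance hPbot
  have hPQ : ¬ P ∣ Q := by
    rintro ⟨Q', rfl⟩
    apply he2
    rw [hQ, pow_succ, ← mul_assoc]
    exact Dvd.intro _ rfl
  have hcop : IsCoprime P Q := by
    rw [Ideal.isCoprime_iff_sup_eq]
    by_contra h
    apply hPQ
    rw [Ideal.dvd_iff_le]
    have h1 : P ⊔ Q = P := by
      rcases hPmax.eq_of_le h le_sup_left with h2
      exact h2.symm
    rw [← h1]; exact le_sup_right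
  refine not_dvd_differentIdeal_of_isCoprime_of_charZero A (P ^ e) Q ?_ hcop.pow_left hQ.symm
  intro htop
  have : P = ⊤ := by
    by_contra hne
    have hle : P ^ e ≤ P := Ideal.pow_le_self he0
    rw [htop] at hle
    exact hne (top_le_iff.mp hle)
  exact hPmax.ne_top this

/-- Tame ramification: exact power of `P` in the different is `e - 1`. -/
theorem pow_dvd_differentIdeal_iff
    [Algebra.IsSeparable (FractionRing A) (FractionRing B)]
    {p : Ideal A} [p.IsMaximal] [CharZero (A ⧸ p)] (hp : p ≠ ⊥)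
    (P : Ideal B) [P.IsPrime] (hPbot : P ≠ ⊥)
    {e : ℕ} (he0 : e ≠ 0) (he1 : P ^ e ∣ p.map (algebraMap A B))
    (he2 : ¬ P ^ (e + 1) ∣ p.map (algebraMap A B)) (n : ℕ) :
    P ^ n ∣ differentIdeal A B ↔ n + 1 ≤ e := by
  constructor
  · intro h
    by_contra hlt
    have hle : e ≤ n := by omega
    exact not_pow_dvd_differentIdeal A P hPbot he0 he1 he2 ((pow_dvd_pow P hle).trans h)
  · intro h
    have h1 : P ^ (e - 1) ∣ differentIdeal A B := pow_sub_one_dvd_differentIdeal A P e hp he1
    exact (pow_dvd_pow P (by omega)).trans h1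

open UniqueFactorizationMonoid in
/-- Tame ramification: multiplicity of `P` in the different is exactly `e - 1`
(`normalizedFactors` form). -/
theorem count_normalizedFactors_differentIdeal
    [Algebra.IsSeparable (FractionRing A) (FractionRing B)]
    {p : Ideal A} [p.IsMaximal] [CharZero (A ⧸ p)] (hp : p ≠ ⊥)
    (P : Ideal B) [P.IsPrime] (hPbot : P ≠ ⊥)
    {e : ℕ} (he0 : e ≠ 0) (he1 : P ^ e ∣ p.map (algebraMap A B))
    (he2 : ¬ P ^ (e + 1) ∣ p.map (algebraMap A B)) :
    (normalizedFactors (differentIdeal A B)).count P = e - 1 := by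
  refine Ideal.count_normalizedFactors_eq ?_ ?_
  · rw [← Ideal.dvd_iff_le]
    exact pow_sub_one_dvd_differentIdeal A P e hp he1
  · rw [← Ideal.dvd_iff_le, Nat.sub_add_cancel (Nat.one_le_iff_ne_zero.mpr he0)]
    exact not_pow_dvd_differentIdeal A P hPbot he0 he1 he2

/-- Convenience: a proper quotient of an algebra over a characteristic-zero field has
characteristic zero (used with `A = K[X]`, `p` maximal). -/
theorem charZero_quotient_of_field_algebra (K : Type*) [Field K] [CharZero K]
    {R : Type*} [CommRing R] [Algebra K R] (I : Ideal R) (hI : I ≠ ⊤) : CharZero (R ⧸ I) := by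
  have : Nontrivial (R ⧸ I) := Ideal.Quotient.nontrivial_iff.mpr hI
  exact charZero_of_injective_algebraMap (algebraMap K (R ⧸ I)).injective

end Fermat.Agent.S20.TameDiff79
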