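import Mathlib
import Fermat.Agent.S20.TameDiff79
import Fermat.Agent.S24.PlaceDedekind

set_option autoImplicit false

open IsDedekindDomain WithZero UniqueFactorizationMonoid AlgebraicCurve
open scoped nonZeroDivisors

namespace Fermat.Agent.S20.T1Dual86

section Dedekind

variable {B : Type*} [CommRing B] [IsDedekindDomain B] {F : Type*} [Field F] [Algebra B F]
  [IsFractionRing B F]

/-- Decompose a nonzero ideal as `P ^ n * J` with `P ∤ J`, `n` the multiplicity of `P`. -/
theorem exists_eq_pow_count_mul (I : Ideal B) (hI : I ≠ ⊥) (P : HeightOneSpectrum B) :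
    ∃ J : Ideal B, I = P.asIdeal ^ ((normalizedFactors I).count P.asIdeal) * J ∧
      ¬ P.asIdeal ∣ J := by
  have hfm : FiniteMultiplicity P.asIdeal I := FiniteMultiplicity.of_prime_left P.prime hI
  obtain ⟨J, hJ, hJ'⟩ := hfm.exists_eq_pow_mul_and_not_dvd
  refine ⟨J, ?_, hJ'⟩
  have h1 : multiplicity P.asIdeal I = (normalizedFactors I).count P.asIdeal := by
    have := UniqueFactorizationMonoid.emultiplicity_eq_count_normalizedFactors P.irreducible hI
    rw [normalize_eq, hfm.emultiplicity_eq_multiplicity] at this
    exact_mod_cast this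
  rw [← h1]; exact hJ

theorem pow_count_dvd (I : Ideal B) (hI : I ≠ ⊥) (P : HeightOneSpectrum B) :
    P.asIdeal ^ ((normalizedFactors I).count P.asIdeal) ∣ I := by
  obtain ⟨J, hJ, -⟩ := exists_eq_pow_count_mul I hI P
  exact ⟨J, hJ⟩

theorem not_pow_count_succ_dvd (I : Ideal B) (hI : I ≠ ⊥) (P : HeightOneSpectrum B) :
    ¬ P.asIdeal ^ ((normalizedFactors I).count P.asIdeal + 1) ∣ I := by
  obtain ⟨J, hJ, hPJ⟩ := exists_eq_pow_count_mul I hI P
  intro h
  apply hPJ
  have hne : P.asIdeal ^ ((normalizedFactors I).count P.asIdeal) ≠ 0 :=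
    pow_ne_zero _ P.ne_bot
  rw [pow_succ] at h
  conv at h => rhs; rw [hJ]
  exact (mul_dvd_mul_iff_left hne).mp h

theorem count_pos_of_le (I : Ideal B) (hI : I ≠ ⊥) (P : HeightOneSpectrum B)
    (hle : I ≤ P.asIdeal) : (normalizedFactors I).count P.asIdeal ≠ 0 := by
  intro h0
  obtain ⟨J, hJ, hPJ⟩ := exists_eq_pow_count_mul I hI P
  rw [h0, pow_zero, one_mul] at hJ
  exact hPJ (hJ ▸ Ideal.dvd_iff_le.mpr hle)

/-- The adic valuation of an element of `B` via the multiplicity of `P` in the principal
ideal. -/
theorem valuation_algebraMap_eq (P : HeightOneSpectrum B) {r : B} (hr : r ≠ 0) :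
    P.valuation F (algebraMap B F r) =
      exp (-((normalizedFactors (Ideal.span {r})).count P.asIdeal : ℤ)) := by
  have hsr : Ideal.span {r} ≠ 0 := Submodule.span_singleton_eq_bot.mp.mt hr
  rw [HeightOneSpectrum.valuation_of_algebraMap (K := F) P r, P.intValuation_if_neg hr,
    Ideal.count_associates_factors_eq hsr P.isPrime P.ne_bot]

theorem valuation_le_of_mem_ideal (I : Ideal B) (hI : I ≠ ⊥) (P : HeightOneSpectrum B) {b : B}
    (hb : b ∈ I) :
    P.valuation F (algebraMap B F b) ≤ exp (-((normalizedFactors I).count P.asIdeal : ℤ)) := by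
  obtain ⟨J, hJ, -⟩ := exists_eq_pow_count_mul I hI P
  rw [HeightOneSpectrum.valuation_of_algebraMap (K := F) P b, P.intValuation_le_pow_iff_mem]
  have : I ≤ P.asIdeal ^ ((normalizedFactors I).count P.asIdeal) := by
    conv_lhs => rw [hJ]
    exact Ideal.mul_le_right (I := J) (J := P.asIdeal ^ ((normalizedFactors I).count P.asIdeal)) |> fun h => by
      rw [mul_comm]; exact h
  exact this hb

theorem exists_mem_ideal_valuation_eq (I : Ideal B) (hI : I ≠ ⊥) (P : HeightOneSpectrum B) :
    ∃ b ∈ I, P.valuation F (algebraMap B F b) =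
      exp (-((normalizedFactors I).count P.asIdeal : ℤ)) := by
  obtain ⟨J, hJ, hPJ⟩ := exists_eq_pow_count_mul I hI P
  set n := (normalizedFactors I).count P.asIdeal with hn
  obtain ⟨π, hπ⟩ := P.intValuation_exists_uniformizer
  have hJP : ¬ J ≤ P.asIdeal := fun h => hPJ (Ideal.dvd_iff_le.mpr h)
  obtain ⟨b₀, hb₀J, hb₀P⟩ := Set.not_subset.mp hJP
  have hπP : π ∈ P.asIdeal := by
    rw [← P.intValuation_lt_one_iff_mem, hπ, ← exp_zero]
    exact exp_lt_exp.mpr (by norm_num)
  refine ⟨π ^ n * b₀, ?_, ?_⟩
  · rw [hJ]
    exact Ideal.mul_mem_mul (Ideal.pow_mem_pow hπP n) hb₀J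
  · rw [HeightOneSpectrum.valuation_of_algebraMap (K := F) P, map_mul, map_pow, hπ]
    have : P.intValuation b₀ = 1 := by
      rw [P.intValuation_eq_one_iff_mem_primeCompl]
      exact hb₀P
    rw [this, mul_one, ← exp_nsmul]
    simp

/-- Membership in the inverse of a nonzero integral ideal of a Dedekind domain, in terms of the
adic valuations. -/
theorem mem_inv_coeIdeal_iff (I : Ideal B) (hI : I ≠ ⊥) (f : F) :
    f ∈ ((I : FractionalIdeal B⁰ F))⁻¹ ↔
      ∀ P : HeightOneSpectrum B,
        P.valuation F f ≤ exp ((normalizedFactors I).count P.asIdeal : ℤ) := by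
  have hI' : (I : FractionalIdeal B⁰ F) ≠ 0 := by
    simpa using hI
  rw [FractionalIdeal.mem_inv_iff hI']
  constructor
  · intro h P
    obtain ⟨b, hbI, hb⟩ := exists_mem_ideal_valuation_eq (F := F) I hI P
    have h1 := h (algebraMap B F b) ((FractionalIdeal.mem_coeIdeal_of_mem _ hbI))
    rw [FractionalIdeal.mem_one_iff] at h1
    obtain ⟨c, hc⟩ := h1
    have h2 : P.valuation F (f * algebraMap B F b) ≤ 1 := by
      rw [← hc]; exact P.valuation_le_one c
    rw [map_mul, hb] at h2
    have h3 := mul_le_mul' h2 (le_refl (exp ((normalizedFactors I).count P.asIdeal : ℤ)))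
    rw [mul_assoc, ← exp_add] at h3
    simpa using h3
  · intro h y hy
    rw [FractionalIdeal.mem_coeIdeal] at hy
    obtain ⟨b, hbI, rfl⟩ := hy
    rw [FractionalIdeal.mem_one_iff]
    have := HeightOneSpectrum.mem_integers_of_valuation_le_one (R := B) F
      (f * algebraMap B F b) ?_
    · obtain ⟨c, hc⟩ := this
      exact ⟨c, hc⟩
    · intro P
      rw [map_mul]
      calc P.valuation F f * P.valuation F (algebraMap B F b)
          ≤ exp ((normalizedFactors I).count P.asIdeal : ℤ) *
            exp (-((normalizedFactors I).count P.asIdeal : ℤ)) :=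
            mul_le_mul' (h P) (valuation_le_of_mem_ideal I hI P hbI)
        _ = 1 := by rw [← exp_add]; simp

end Dedekind

section Different

variable (A E : Type*) {B : Type*} (F : Type*) [CommRing A] [Field E] [CommRing B] [Field F]
  [Algebra A E] [Algebra B F] [Algebra A B] [Algebra E F] [Algebra A F]
  [IsScalarTower A E F] [IsScalarTower A B F]
  [IsDomain A] [IsFractionRing A E] [FiniteDimensional E F] [Algebra.IsSeparable E F]
  [IsIntegralClosure B A F] [IsFractionRing B F] [IsIntegrallyClosed A] [IsDedekindDomain B]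
  [Module.IsTorsionFree A B]

include E F in
theorem differentIdeal_ne_bot' : differentIdeal A B ≠ ⊥ := by
  rw [ne_eq, ← FractionalIdeal.coeIdeal_inj (K := F), coeIdeal_differentIdeal A E F B]
  simp

/-- The trace dual of `B` consists of the elements `f` with `v_P(f) ≥ -d_P` for all primes `P`
of `B`, where `d_P` is the exponent of `P` in the different. -/
theorem mem_traceDual_one_iff (f : F) :
    f ∈ Submodule.traceDual A E (1 : Submodule B F) ↔
      ∀ P : HeightOneSpectrum B, P.valuation F f ≤
        exp ((normalizedFactors (differentIdeal A B)).count P.asIdeal : ℤ) := by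
  rw [← mem_inv_coeIdeal_iff (differentIdeal A B) (differentIdeal_ne_bot' A E F) f,
    coeIdeal_differentIdeal A E F B, inv_inv, ← FractionalIdeal.mem_coe,
    FractionalIdeal.coe_dual_one]

end Different

section Tame

attribute [local instance] FractionRing.liftAlgebra FractionRing.isScalarTower_liftAlgebra
  Ideal.Quotient.field

variable (A : Type*) {B : Type*} [CommRing A] [CommRing B] [Algebra A B]
  [IsDedekindDomain A] [IsDedekindDomain B]
  [Module.IsTorsionFree A B] [Module.Finite A B]
  [Algebra.IsSeparable (FractionRing A) (FractionRing B)]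

/-- Tame case: the exponent of `P` in the different is `e_P - 1`, `e_P` being the exponent of `P`
in `pB`. -/
theorem count_differentIdeal_eq (P : HeightOneSpectrum B) (p : Ideal A) [p.IsMaximal]
    [CharZero (A ⧸ p)] (hp : p ≠ ⊥) (hpP : p.map (algebraMap A B) ≤ P.asIdeal) :
    (normalizedFactors (differentIdeal A B)).count P.asIdeal =
      (normalizedFactors (p.map (algebraMap A B))).count P.asIdeal - 1 := by
  have hpB : p.map (algebraMap A B) ≠ ⊥ := Ideal.map_ne_bot_of_ne_bot hp
  have := P.isPrime
  exact TameDiff79.count_normalizedFactors_differentIdeal A hp P.asIdeal P.ne_bot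
    (count_pos_of_le _ hpB P hpP) (pow_count_dvd _ hpB P) (not_pow_count_succ_dvd _ hpB P)

end Tame


section Uniformizer

attribute [local instance] FractionRing.liftAlgebra FractionRing.isScalarTower_liftAlgebra
  Ideal.Quotient.field

variable (A E : Type*) {B : Type*} (F : Type*) [CommRing A] [Field E] [CommRing B] [Field F]
  [Algebra A E] [Algebra B F] [Algebra A B] [Algebra E F] [Algebra A F]
  [IsScalarTower A E F] [IsScalarTower A B F]
  [IsDedekindDomain A] [IsFractionRing A E] [FiniteDimensional E F] [Algebra.IsSeparable E F]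
  [IsIntegralClosure B A F] [IsFractionRing B F] [IsDedekindDomain B]
  [Module.IsTorsionFree A B] [Module.Finite A B]

omit [FiniteDimensional E F] [IsIntegralClosure B A F] in
include E F in
/-- Transport of separability to the canonical fraction fields (as in Mathlib's
`coeSubmodule_differentIdeal`). -/
theorem isSeparable_fractionRing : Algebra.IsSeparable (FractionRing A) (FractionRing B) := by
  have H : RingHom.comp (algebraMap (FractionRing A) (FractionRing B))
      ↑(FractionRing.algEquiv A E).symm.toRingEquiv =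
        RingHom.comp ↑(FractionRing.algEquiv B F).symm.toRingEquiv (algebraMap E F) := by
    apply IsLocalization.ringHom_ext A⁰
    ext
    simp only [RingHom.coe_comp, RingHom.coe_coe,
      AlgEquiv.coe_ringEquiv, Function.comp_apply, AlgEquiv.commutes,
      ← IsScalarTower.algebraMap_apply]
    rw [IsScalarTower.algebraMap_apply A B F, AlgEquiv.commutes, ← IsScalarTower.algebraMap_apply]
  exact Algebra.IsSeparable.of_equiv_equiv _ _ H

omit [FiniteDimensional E F] [IsIntegralClosure B A F] in
include E in
/-- Tame case, valuation of a generator `t` of a maximal ideal `p = (t)` of `A` below `P`: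
`v_P(t) = e_P = d_P + 1`. -/
theorem valuation_uniformizer_eq (P : HeightOneSpectrum B) {t : A}
    (ht : (Ideal.span {t}).IsMaximal) (ht0 : t ≠ 0) (htP : algebraMap A B t ∈ P.asIdeal)
    [CharZero (A ⧸ Ideal.span {t})] :
    P.valuation F (algebraMap A F t) =
      exp (-(((normalizedFactors (differentIdeal A B)).count P.asIdeal : ℤ) + 1)) := by
  have hsep := isSeparable_fractionRing A E (B := B) F
  have hp : Ideal.span {t} ≠ (⊥ : Ideal A) := by
    rwa [ne_eq, Ideal.span_singleton_eq_bot]
  have hmap : (Ideal.span {t}).map (algebraMap A B) = Ideal.span {algebraMap A B t} := by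
    rw [Ideal.map_span, Set.image_singleton]
  have hpP : (Ideal.span {t}).map (algebraMap A B) ≤ P.asIdeal := by
    rw [hmap, Ideal.span_singleton_le_iff_mem]; exact htP
  have hinj : Function.Injective (algebraMap A B) := FaithfulSMul.algebraMap_injective A B
  have ht0' : algebraMap A B t ≠ 0 := by
    rwa [ne_eq, map_eq_zero_iff _ hinj]
  have hcount := count_differentIdeal_eq A P (Ideal.span {t}) hp hpP
  have hpos := count_pos_of_le _ (Ideal.map_ne_bot_of_ne_bot hp) P hpP
  rw [IsScalarTower.algebraMap_apply A B F, valuation_algebraMap_eq P ht0', ← hmap, hcount]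
  congr 2
  omega

/-- **Trace dual criterion, uniformizer form.** Suppose every prime `P` of `B` lies over a
principal maximal ideal `(t P)` of `A` with residue field of characteristic zero.  Then `f` is in
the trace dual of `B` iff `v_P(f) + v_P(t P) ≥ 1` for all `P`. -/
theorem mem_traceDual_one_iff_of_uniformizer (t : HeightOneSpectrum B → A)
    (ht : ∀ P, (Ideal.span {t P}).IsMaximal) (ht0 : ∀ P, t P ≠ 0)
    (htP : ∀ P : HeightOneSpectrum B, algebraMap A B (t P) ∈ P.asIdeal)
    (hchar : ∀ P, CharZero (A ⧸ Ideal.span {t P})) (f : F) :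
    f ∈ Submodule.traceDual A E (1 : Submodule B F) ↔
      ∀ P : HeightOneSpectrum B,
        P.valuation F f * P.valuation F (algebraMap A F (t P)) ≤ exp (-1 : ℤ) := by
  rw [mem_traceDual_one_iff A E F f]
  refine forall_congr' fun P => ?_
  have := hchar P
  rw [valuation_uniformizer_eq A E F P (ht P) (ht0 P) (htP P)]
  set d : ℤ := ((normalizedFactors (differentIdeal A B)).count P.asIdeal : ℤ) with hd
  have h1 : exp (-1 : ℤ) = exp d * exp (-(d + 1)) := by
    rw [← exp_add]; congr 1; ring
  rw [h1, mul_le_mul_iff_of_pos_right (exp_pos)]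

end Uniformizer


section PlaceVersion

variable (K A E : Type*) {B : Type*} (F : Type*) [Field K] [CommRing A] [Field E] [CommRing B]
  [Field F]
  [Algebra A E] [Algebra B F] [Algebra A B] [Algebra E F] [Algebra A F]
  [IsScalarTower A E F] [IsScalarTower A B F]
  [IsDedekindDomain A] [IsFractionRing A E] [FiniteDimensional E F] [Algebra.IsSeparable E F]
  [IsIntegralClosure B A F] [IsFractionRing B F] [IsDedekindDomain B]
  [Module.IsTorsionFree A B] [Module.Finite A B]
  [Algebra K F] [Algebra K B] [IsScalarTower K B F]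

omit [IsDedekindDomain B] in
theorem valuation_eq_exp_neg_ord [IsDedekindDomain B] (P : HeightOneSpectrum B) {f : F}
    (hf : f ≠ 0) :
    P.valuation F f = exp (-(Place.ofHeightOneSpectrum (K := K) P).ord f) := by
  rw [Fermat.Agent.S24.PlaceDedekind.ord_ofHeightOneSpectrum, neg_neg, exp_log]
  exact (Valuation.ne_zero_iff _).mpr hf

/-- **Trace dual criterion, place form.** Same hypotheses as
`mem_traceDual_one_iff_of_uniformizer`; `B` is moreover a `K`-algebra so that its primes define
places of `F/K`.  A nonzero `f` is in the trace dual of `B` iff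
`1 ≤ ord_v f + ord_v (t)` at all the places `v` coming from primes of `B`. -/
theorem mem_traceDual_one_iff_ord (t : HeightOneSpectrum B → A)
    (ht : ∀ P, (Ideal.span {t P}).IsMaximal) (ht0 : ∀ P, t P ≠ 0)
    (htP : ∀ P : HeightOneSpectrum B, algebraMap A B (t P) ∈ P.asIdeal)
    (hchar : ∀ P, CharZero (A ⧸ Ideal.span {t P})) {f : F} (hf : f ≠ 0) :
    f ∈ Submodule.traceDual A E (1 : Submodule B F) ↔
      ∀ P : HeightOneSpectrum B,
        1 ≤ (Place.ofHeightOneSpectrum (K := K) P).ord f +
          (Place.ofHeightOneSpectrum (K := K) P).ord (algebraMap A F (t P)) := by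
  rw [mem_traceDual_one_iff_of_uniformizer A E F t ht ht0 htP hchar f]
  refine forall_congr' fun P => ?_
  have ht0' : algebraMap A F (t P) ≠ 0 := by
    have hinj : Function.Injective (algebraMap A F) := by
      rw [IsScalarTower.algebraMap_eq A B F]
      exact (FaithfulSMul.algebraMap_injective B F).comp (FaithfulSMul.algebraMap_injective A B)
    rw [ne_eq, map_eq_zero_iff _ hinj]; exact ht0 P
  rw [valuation_eq_exp_neg_ord K F P hf, valuation_eq_exp_neg_ord K F P ht0', ← exp_add,
    exp_le_exp]
  constructor <;> intro h <;> linarith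

end PlaceVersion

end Fermat.Agent.S20.T1Dual86
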