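import Mathlib
import Fermat.Agent.S20.NormalBasis

set_option autoImplicit false

namespace Fermat.Agent.S20.T1Const

open Polynomial
open Fermat.Agent.S20.NormalBasis

variable {K : Type*} [Field K] {F : Type*} [Field F] [Algebra K F]
  [Algebra (RatFunc K) F] [IsScalarTower K (RatFunc K) F]
  [Algebra K[X] F] [IsScalarTower K[X] (RatFunc K) F]
  [Algebra (Oinf K) F] [IsScalarTower (Oinf K) (RatFunc K) F]

/-- A rational function which is a polynomial and lies in `O_∞` is a constant. -/
theorem mem_range_C_of_mem_Oinf (g : K[X])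
    (h : algebraMap K[X] (RatFunc K) g ∈ Oinf K) :
    algebraMap K[X] (RatFunc K) g ∈ Set.range (algebraMap K (RatFunc K)) := by
  rw [mem_Oinf_iff] at h
  have hdeg : g.natDegree = 0 := by
    rcases h with h | h
    · have : g = 0 := by
        have hinj := IsFractionRing.injective K[X] (RatFunc K)
        exact hinj (by rw [h, map_zero])
      rw [this]; simp
    · rw [RatFunc.intDegree_polynomial] at h
      omega
  rw [Polynomial.eq_C_of_natDegree_eq_zero hdeg]
  exact ⟨g.coeff 0, by rw [IsScalarTower.algebraMap_apply K K[X] (RatFunc K)]; rfl⟩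

/-- **(G1)** An element integral over `K[X]` and over `O_∞` is algebraic over `K`. -/
theorem isIntegral_of_isIntegral (f : F) (h1 : IsIntegral K[X] f) (h2 : IsIntegral (Oinf K) f) :
    IsIntegral K f := by
  have e1 := minpoly.isIntegrallyClosed_eq_field_fractions' (RatFunc K) h1
  have e2 := minpoly.isIntegrallyClosed_eq_field_fractions' (RatFunc K) h2
  have hfk : IsIntegral (RatFunc K) f := h1.tower_top
  have hlift : minpoly (RatFunc K) f ∈ Polynomial.lifts (algebraMap K (RatFunc K)) := by
    rw [Polynomial.lifts_iff_coeff_lifts]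
    intro n
    have c1 : (minpoly (RatFunc K) f).coeff n =
        algebraMap K[X] (RatFunc K) ((minpoly K[X] f).coeff n) := by
      rw [e1, Polynomial.coeff_map]
    have c2 : (minpoly (RatFunc K) f).coeff n =
        algebraMap (Oinf K) (RatFunc K) ((minpoly (Oinf K) f).coeff n) := by
      rw [e2, Polynomial.coeff_map]
    rw [c1]
    apply mem_range_C_of_mem_Oinf
    rw [← c1, c2]
    exact ((minpoly (Oinf K) f).coeff n).2
  obtain ⟨q, hq, -, hqm⟩ :=
    Polynomial.lifts_and_degree_eq_and_monic hlift (minpoly.monic hfk)
  refine ⟨q, hqm, ?_⟩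
  have : Polynomial.aeval f q = Polynomial.aeval f (q.map (algebraMap K (RatFunc K))) := by
    rw [Polynomial.aeval_map_algebraMap]
  rw [← Polynomial.aeval_def, this, hq, minpoly.aeval]

theorem mem_range_of_isIntegral [IsAlgClosed K] (f : F) (h1 : IsIntegral K[X] f)
    (h2 : IsIntegral (Oinf K) f) : f ∈ Set.range (algebraMap K F) := by
  have hf := isIntegral_of_isIntegral f h1 h2
  have hdeg : (minpoly K f).degree = 1 :=
    IsAlgClosed.degree_eq_one_of_irreducible K (minpoly.irreducible hf)
  exact minpoly.mem_range_of_degree_eq_one K f hdeg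

/-- **(G1, packaged)** `B ∩ B_∞` is one-dimensional over `K`. -/
theorem finrank_eq_one [IsAlgClosed K] (L0 : Submodule K F)
    (hL0 : ∀ v, v ∈ L0 ↔ (IsIntegral K[X] v ∧ IsIntegral (Oinf K) v)) :
    Module.finrank K L0 = 1 := by
  have h : L0 = Submodule.span K {(1 : F)} := by
    ext v
    rw [hL0, Submodule.mem_span_singleton]
    constructor
    · rintro ⟨h1, h2⟩
      obtain ⟨a, rfl⟩ := mem_range_of_isIntegral v h1 h2
      exact ⟨a, by rw [Algebra.smul_def, mul_one]⟩
    · rintro ⟨a, rfl⟩
      rw [Algebra.smul_def, mul_one]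
      refine ⟨?_, ?_⟩
      · have : algebraMap K F a = algebraMap K[X] F (Polynomial.C a) := by
          rw [IsScalarTower.algebraMap_apply K (RatFunc K) F,
            IsScalarTower.algebraMap_apply K[X] (RatFunc K) F, RatFunc.algebraMap_C]
          rfl
        rw [this]
        exact isIntegral_algebraMap
      · have : algebraMap K F a = algebraMap (Oinf K) F (CInf a) := by
          rw [IsScalarTower.algebraMap_apply K (RatFunc K) F,
            IsScalarTower.algebraMap_apply (Oinf K) (RatFunc K) F]
          rfl
        rw [this]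
        exact isIntegral_algebraMap
  rw [h, finrank_span_singleton one_ne_zero]

end Fermat.Agent.S20.T1Const
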