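/-
S20 / T1-LEN = (RING) (helper9, independent backup).

`K` a field, `R` a Dedekind domain and `K`-algebra all of whose residue fields are `K`.
Then for every nonzero ideal `I`, `R ⧸ I` is finite-dimensional over `K` and
`dim_K (R ⧸ I)` is the number of prime factors of `I` counted with multiplicity.

Exports (namespace `Fermat.Agent.S20.QuotLen9`):
* `finite_quotient`                          : `Module.Finite K (R ⧸ I)`
* `finrank_quotient_eq_card_normalizedFactors` : `finrank K (R ⧸ I) = card (normalizedFactors I)`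
* `finrank_quotient_eq_finsum`               : the same as a `finsum` over `HeightOneSpectrum R`.
-/
import Mathlib

set_option autoImplicit false

namespace Fermat.Agent.S20.QuotLen9

open UniqueFactorizationMonoid IsDedekindDomain

variable {K R : Type*} [Field K] [CommRing R] [IsDedekindDomain R] [Algebra K R]

/-- There is no ideal strictly between `P * J` and `J`. -/
theorem span_sup_mul_eq {P J : Ideal R} (hP : P.IsMaximal) (hJ : J ≠ ⊥) {a : R} (haJ : a ∈ J)
    (haPJ : a ∉ P * J) : Ideal.span {a} ⊔ P * J = J := by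
  set L := Ideal.span {a} ⊔ P * J with hL
  have hLJ : L ≤ J :=
    sup_le ((Ideal.span_singleton_le_iff_mem _).mpr haJ) Ideal.mul_le_right
  obtain ⟨M, hM⟩ := Ideal.dvd_iff_le.mpr hLJ
  have hPJL : P * J ≤ L := le_sup_right
  have h1 : J * M ∣ J * P := by
    rw [← hM, mul_comm J P]; exact Ideal.dvd_iff_le.mpr hPJL
  have h2 : M ∣ P := (mul_dvd_mul_iff_left hJ).mp h1
  have h3 : P ≤ M := Ideal.dvd_iff_le.mp h2
  by_cases hMtop : M = ⊤
  · rw [hM, hMtop, Ideal.mul_top]
  · exfalso
    have hPM : P = M := hP.eq_of_le hMtop h3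
    apply haPJ
    have : a ∈ L := Ideal.mem_sup_left (Ideal.mem_span_singleton_self a)
    rw [hM, ← hPM, mul_comm] at this
    exact this

/-- Key step: passing from `J` to `P * J` adds one to the dimension. -/
theorem step {P J : Ideal R} (hresP : Function.Surjective (algebraMap K (R ⧸ P)))
    (hP : P.IsMaximal) (hJ : J ≠ ⊥) (hfin : Module.Finite K (R ⧸ J)) :
    Module.Finite K (R ⧸ (P * J)) ∧
      Module.finrank K (R ⧸ (P * J)) = Module.finrank K (R ⧸ J) + 1 := by
  have hle : P * J ≤ J := Ideal.mul_le_right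
  -- an element of `J` outside `P * J`
  have hne : P * J ≠ J := by
    intro h
    have h' : J * P = J * ⊤ := by rw [mul_comm, h, Ideal.mul_top]
    exact hP.ne_top (mul_left_cancel₀ hJ h')
  obtain ⟨a, haJ, haPJ⟩ := SetLike.exists_of_lt (lt_of_le_of_ne hle hne)
  have hspan := span_sup_mul_eq hP hJ haJ haPJ
  set φ : (R ⧸ (P * J)) →ₗ[K] (R ⧸ J) := (Ideal.Quotient.factorₐ K hle).toLinearMap with hφ
  have hφmk : ∀ c : R, φ (Ideal.Quotient.mk (P * J) c) = Ideal.Quotient.mk J c := fun c => rfl
  have hsurj : Function.Surjective φ := by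
    intro y
    obtain ⟨c, rfl⟩ := Ideal.Quotient.mk_surjective y
    exact ⟨Ideal.Quotient.mk (P * J) c, hφmk c⟩
  set abar : R ⧸ (P * J) := Ideal.Quotient.mk (P * J) a with habar
  have habar0 : abar ≠ 0 := by
    rw [habar, Ne, Ideal.Quotient.eq_zero_iff_mem]; exact haPJ
  -- the kernel is the line spanned by `abar`
  have hker : LinearMap.ker φ = K ∙ abar := by
    apply le_antisymm
    · intro y hy
      obtain ⟨c, rfl⟩ := Ideal.Quotient.mk_surjective y
      rw [LinearMap.mem_ker, hφmk, Ideal.Quotient.eq_zero_iff_mem] at hy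
      rw [← hspan, Ideal.mem_span_singleton_sup] at hy
      obtain ⟨d, e, he, hde⟩ := hy
      obtain ⟨k, hk⟩ := hresP (Ideal.Quotient.mk P d)
      have hk' : d - algebraMap K R k ∈ P := by
        rw [← Ideal.Quotient.eq_zero_iff_mem, map_sub, sub_eq_zero]
        exact hk.symm
      rw [Submodule.mem_span_singleton]
      refine ⟨k, ?_⟩
      rw [habar, Algebra.smul_def]
      change Ideal.Quotient.mk (P * J) (algebraMap K R k) * Ideal.Quotient.mk (P * J) a = _
      rw [← map_mul, Ideal.Quotient.mk_eq_mk_iff_sub_mem]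
      have h1 : (d - algebraMap K R k) * a ∈ P * J := Ideal.mul_mem_mul hk' haJ
      have h2 : algebraMap K R k * a - c = -((d - algebraMap K R k) * a) - e := by
        rw [← hde]; ring
      rw [h2]
      exact (P * J).sub_mem ((P * J).neg_mem h1) he
    · rw [Submodule.span_singleton_le_iff_mem, LinearMap.mem_ker, habar, hφmk,
        Ideal.Quotient.eq_zero_iff_mem]
      exact haJ
  have hkfin : Module.Finite K (LinearMap.ker φ) := by
    rw [hker]; infer_instance
  have hqfin : Module.Finite K ((R ⧸ (P * J)) ⧸ LinearMap.ker φ) :=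
    Module.Finite.equiv (φ.quotKerEquivOfSurjective hsurj).symm
  have hfin' : Module.Finite K (R ⧸ (P * J)) := Module.Finite.of_submodule_quotient (LinearMap.ker φ)
  refine ⟨hfin', ?_⟩
  have h := LinearMap.finrank_range_add_finrank_ker φ
  rw [LinearMap.range_eq_top.mpr hsurj, finrank_top, hker, finrank_span_singleton habar0] at h
  exact h.symm

/-- Main statement, both parts (residue-field hypothesis only at nonzero primes). -/
theorem finite_and_finrank_of_prime
    (hres : ∀ P : Ideal R, P.IsPrime → P ≠ ⊥ → Function.Surjective (algebraMap K (R ⧸ P)))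
    (I : Ideal R) (hI : I ≠ ⊥) :
    Module.Finite K (R ⧸ I) ∧
      Module.finrank K (R ⧸ I) = Multiset.card (normalizedFactors I) := by
  induction I using UniqueFactorizationMonoid.induction_on_prime with
  | h₁ => exact absurd rfl hI
  | h₂ x hx =>
    rw [Ideal.isUnit_iff] at hx
    subst hx
    have : Subsingleton (R ⧸ (⊤ : Ideal R)) := Ideal.Quotient.subsingleton_iff.mpr rfl
    refine ⟨inferInstance, ?_⟩
    rw [Module.finrank_zero_of_subsingleton, ← Ideal.one_eq_top, normalizedFactors_one]
    rfl
  | h₃ J P hJ hP ih =>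
    have hJ' : J ≠ ⊥ := hJ
    have hP0 : P ≠ ⊥ := hP.ne_zero
    have hPprime : P.IsPrime := (Ideal.prime_iff_isPrime hP0).mp hP
    have hPmax : P.IsMaximal := hPprime.isMaximal hP0
    obtain ⟨hfin, hrank⟩ := ih hJ'
    obtain ⟨hfin', hrank'⟩ := step (hres P hPprime hP0) hPmax hJ' hfin
    refine ⟨hfin', ?_⟩
    rw [hrank', hrank, normalizedFactors_mul hP0 hJ', normalizedFactors_irreducible hP.irreducible,
      Multiset.card_add, Multiset.card_singleton, add_comm]

/-- Main statement, both parts. -/
theorem finite_and_finrank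
    (hres : ∀ P : Ideal R, P.IsMaximal → Function.Surjective (algebraMap K (R ⧸ P)))
    (I : Ideal R) (hI : I ≠ ⊥) :
    Module.Finite K (R ⧸ I) ∧
      Module.finrank K (R ⧸ I) = Multiset.card (normalizedFactors I) :=
  finite_and_finrank_of_prime (fun P hP hP0 => hres P (hP.isMaximal hP0)) I hI

theorem finite_quotient
    (hres : ∀ P : Ideal R, P.IsMaximal → Function.Surjective (algebraMap K (R ⧸ P)))
    {I : Ideal R} (hI : I ≠ ⊥) : Module.Finite K (R ⧸ I) :=
  (finite_and_finrank hres I hI).1

/-- **(RING)**: `dim_K (R ⧸ I)` is the number of prime factors of `I` with multiplicity. -/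
theorem finrank_quotient_eq_card_normalizedFactors
    (hres : ∀ P : Ideal R, P.IsMaximal → Function.Surjective (algebraMap K (R ⧸ P)))
    {I : Ideal R} (hI : I ≠ ⊥) :
    Module.finrank K (R ⧸ I) = Multiset.card (normalizedFactors I) :=
  (finite_and_finrank hres I hI).2

open Classical in
/-- The number of prime factors as a `finsum` over the height-one spectrum. -/
theorem card_normalizedFactors_eq_finsum {I : Ideal R} :
    Multiset.card (normalizedFactors I) =
      ∑ᶠ P : HeightOneSpectrum R, (normalizedFactors I).count P.asIdeal := by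
  set s := normalizedFactors I with hs
  have hprime : ∀ a ∈ s.toFinset, a.IsPrime ∧ a ≠ ⊥ := by
    intro a ha
    rw [Multiset.mem_toFinset] at ha
    have hp : Prime a := prime_of_normalized_factor a ha
    exact ⟨Ideal.isPrime_of_prime hp, hp.ne_zero⟩
  let g : {a // a ∈ s.toFinset} → HeightOneSpectrum R :=
    fun a => ⟨a.1, (hprime a.1 a.2).1, (hprime a.1 a.2).2⟩
  have hg : Function.Injective g := by
    intro a b hab
    apply Subtype.ext
    exact congrArg HeightOneSpectrum.asIdeal hab
  have hsupp : Function.support (fun P : HeightOneSpectrum R => s.count P.asIdeal) ⊆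
      ↑(s.toFinset.attach.image g) := by
    intro P hP
    rw [Function.mem_support, Multiset.count_ne_zero] at hP
    rw [Finset.coe_image, Set.mem_image]
    refine ⟨⟨P.asIdeal, Multiset.mem_toFinset.mpr hP⟩, Finset.mem_coe.mpr (Finset.mem_attach _ _), ?_⟩
    rfl
  rw [finsum_eq_sum_of_support_subset _ hsupp, Finset.sum_image (fun a _ b _ h => hg h)]
  have : ∀ a : {a // a ∈ s.toFinset}, s.count (g a).asIdeal = s.count a.1 := fun a => rfl
  simp_rw [this]
  rw [Finset.sum_attach s.toFinset (fun a => s.count a), Multiset.toFinset_sum_count_eq]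

open Classical in
/-- **T1-LEN** (shape of helper92's `T1/Skeleton.lean`). -/
theorem finrank_quotient_eq_finsum
    (hres : ∀ P : HeightOneSpectrum R, Function.Surjective (algebraMap K (R ⧸ P.asIdeal)))
    {I : Ideal R} (hI : I ≠ ⊥) :
    Module.finrank K (R ⧸ I) =
      ∑ᶠ P : HeightOneSpectrum R, (normalizedFactors I).count P.asIdeal := by
  rw [← card_normalizedFactors_eq_finsum]
  exact (finite_and_finrank_of_prime (fun P hP hP0 => hres ⟨P, hP, hP0⟩) I hI).2

/-- Finiteness in the `HeightOneSpectrum` shape. -/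
theorem finite_quotient_of_heightOneSpectrum
    (hres : ∀ P : HeightOneSpectrum R, Function.Surjective (algebraMap K (R ⧸ P.asIdeal)))
    {I : Ideal R} (hI : I ≠ ⊥) : Module.Finite K (R ⧸ I) :=
  (finite_and_finrank_of_prime (fun P hP hP0 => hres ⟨P, hP, hP0⟩) I hI).1

end Fermat.Agent.S20.QuotLen9
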