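import Mathlib

/-!
# S20 / DW-d : degree of the discriminant and of the different  (helper53)

`A` is a principal ideal domain which is an algebra over a field `K`, such that `A ⧸ (a)` is finite
dimensional over `K` for `a ≠ 0` (e.g. `A = K[X]`, or `A` = the valuation ring at infinity of
`K(X)`).

* `finrank_quotient_span_mul` : `dim_K A/(ab) = dim_K A/(a) + dim_K A/(b)`.
* `finrank_quotient_eq_finrank_quotient_det` : for `N ≤ M` free of the same finite rank,
  `dim_K M/N = dim_K A/(det)`.
-/

set_option autoImplicit false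
set_option linter.unusedSectionVars false
set_option linter.style.haveILetI false

open Module
open scoped nonZeroDivisors

namespace Fermat.Agent.S20.DiscDegree

section Mul

variable {K A : Type*} [Field K] [CommRing A] [IsDomain A] [Algebra K A]

/-- multiplication by `a` as a map `A/(b) → A/(ab)` -/
noncomputable def mulQ (a b : A) :
    (A ⧸ Ideal.span ({b} : Set A)) →ₗ[A] (A ⧸ Ideal.span ({a * b} : Set A)) :=
  Submodule.mapQ (Ideal.span ({b} : Set A)) (Ideal.span ({a * b} : Set A))
    (LinearMap.mulLeft A a) (by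
      intro x hx
      rw [Ideal.mem_span_singleton'] at hx
      obtain ⟨c, rfl⟩ := hx
      rw [Submodule.mem_comap, LinearMap.mulLeft_apply, Ideal.mem_span_singleton']
      exact ⟨c, by ring⟩)

theorem mulQ_mk (a b x : A) :
    mulQ a b (Ideal.Quotient.mk _ x) = Ideal.Quotient.mk _ (a * x) := rfl

theorem mulQ_injective {a : A} (ha : a ≠ 0) (b : A) : Function.Injective (mulQ a b) := by
  rw [← LinearMap.ker_eq_bot, LinearMap.ker_eq_bot']
  intro x hx
  obtain ⟨x, rfl⟩ := Ideal.Quotient.mk_surjective x
  rw [mulQ_mk, Ideal.Quotient.eq_zero_iff_mem, Ideal.mem_span_singleton'] at hx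
  obtain ⟨c, hc⟩ := hx
  rw [Ideal.Quotient.eq_zero_iff_mem, Ideal.mem_span_singleton']
  refine ⟨c, mul_left_cancel₀ ha ?_⟩
  rw [← hc]
  ring

/-- the projection `A/(ab) → A/(a)` -/
noncomputable def projQ (a b : A) :
    (A ⧸ Ideal.span ({a * b} : Set A)) →ₗ[A] (A ⧸ Ideal.span ({a} : Set A)) :=
  Submodule.mapQ (Ideal.span ({a * b} : Set A)) (Ideal.span ({a} : Set A)) LinearMap.id (by
    intro x hx
    rw [Ideal.mem_span_singleton'] at hx
    obtain ⟨c, rfl⟩ := hx
    rw [Submodule.mem_comap, LinearMap.id_apply, Ideal.mem_span_singleton']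
    exact ⟨c * b, by ring⟩)

theorem projQ_mk (a b x : A) :
    projQ a b (Ideal.Quotient.mk _ x) = Ideal.Quotient.mk _ x := rfl

theorem projQ_surjective (a b : A) : Function.Surjective (projQ a b) := by
  intro y
  obtain ⟨y, rfl⟩ := Ideal.Quotient.mk_surjective y
  exact ⟨Ideal.Quotient.mk _ y, rfl⟩

theorem range_mulQ_eq_ker_projQ (a b : A) :
    LinearMap.range (mulQ a b) = LinearMap.ker (projQ a b) := by
  ext y
  obtain ⟨y, rfl⟩ := Ideal.Quotient.mk_surjective y
  rw [LinearMap.mem_range, LinearMap.mem_ker, projQ_mk, Ideal.Quotient.eq_zero_iff_mem,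
    Ideal.mem_span_singleton']
  constructor
  · rintro ⟨x, hx⟩
    obtain ⟨x, rfl⟩ := Ideal.Quotient.mk_surjective x
    rw [mulQ_mk, Ideal.Quotient.eq, Ideal.mem_span_singleton'] at hx
    obtain ⟨c, hc⟩ := hx
    refine ⟨x - c * b, ?_⟩
    linear_combination -hc
  · rintro ⟨c, rfl⟩
    exact ⟨Ideal.Quotient.mk _ c, by rw [mulQ_mk, mul_comm a c]⟩

/-- `dim_K A/(ab) = dim_K A/(a) + dim_K A/(b)`. -/
theorem finrank_quotient_span_mul {a b : A} (ha : a ≠ 0)
    [Module.Finite K (A ⧸ Ideal.span ({a * b} : Set A))] :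
    finrank K (A ⧸ Ideal.span ({a * b} : Set A)) =
      finrank K (A ⧸ Ideal.span ({a} : Set A)) + finrank K (A ⧸ Ideal.span ({b} : Set A)) := by
  have h1 := LinearMap.finrank_range_add_finrank_ker ((projQ a b).restrictScalars K)
  have h2 : LinearMap.range ((projQ a b).restrictScalars K) = ⊤ :=
    LinearMap.range_eq_top.mpr (projQ_surjective a b)
  rw [h2, finrank_top] at h1
  have e : (A ⧸ Ideal.span ({b} : Set A)) ≃ₗ[K]
      LinearMap.range ((mulQ a b).restrictScalars K) :=
    LinearEquiv.ofInjective ((mulQ a b).restrictScalars K) (mulQ_injective ha b)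
  have h3 : LinearMap.range ((mulQ a b).restrictScalars K) =
      LinearMap.ker ((projQ a b).restrictScalars K) := by
    ext y
    have := congrArg (fun S => y ∈ S) (range_mulQ_eq_ker_projQ a b)
    simpa using this
  rw [← h1, ← h3, ← e.finrank_eq]

/-- finiteness of `A/(ab)` from that of `A/(a)` and `A/(b)` -/
theorem finite_quotient_span_mul (a b : A)
    [Module.Finite K (A ⧸ Ideal.span ({a} : Set A))]
    [Module.Finite K (A ⧸ Ideal.span ({b} : Set A))] :
    Module.Finite K (A ⧸ Ideal.span ({a * b} : Set A)) := by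
  refine Module.Finite.of_exact (f := (mulQ a b).restrictScalars K)
    (g := (projQ a b).restrictScalars K) ?_ (projQ_surjective a b)
  rw [LinearMap.exact_iff]
  ext y
  have := congrArg (fun S => y ∈ S) (range_mulQ_eq_ker_projQ a b)
  simpa using this.symm

end Mul

section Delta

variable (K : Type*) {A : Type*} [Field K] [CommRing A] [IsDomain A] [Algebra K A]

/-- `δ a = dim_K A/(a)`. -/
noncomputable def δ (a : A) : ℕ := finrank K (A ⧸ Ideal.span ({a} : Set A))

variable {K}

theorem δ_mul (hfin : ∀ a : A, a ≠ 0 → Module.Finite K (A ⧸ Ideal.span ({a} : Set A)))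
    {a b : A} (ha : a ≠ 0) (hb : b ≠ 0) : δ K (a * b) = δ K a + δ K b := by
  have := hfin (a * b) (mul_ne_zero ha hb)
  exact finrank_quotient_span_mul ha

theorem δ_of_isUnit {a : A} (ha : IsUnit a) : δ K a = 0 := by
  unfold δ
  have : Ideal.span ({a} : Set A) = ⊤ := Ideal.span_singleton_eq_top.mpr ha
  have hs : Subsingleton (A ⧸ Ideal.span ({a} : Set A)) := by
    rw [Ideal.Quotient.subsingleton_iff]
    exact this
  exact finrank_zero_of_subsingleton

theorem δ_of_associated {a b : A} (h : Associated a b) : δ K a = δ K b := by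
  unfold δ
  rw [Ideal.span_singleton_eq_span_singleton.mpr h]

theorem δ_prod (hfin : ∀ a : A, a ≠ 0 → Module.Finite K (A ⧸ Ideal.span ({a} : Set A)))
    {ι : Type*} (s : Finset ι) (a : ι → A) (ha : ∀ i ∈ s, a i ≠ 0) :
    δ K (∏ i ∈ s, a i) = ∑ i ∈ s, δ K (a i) := by
  classical
  induction s using Finset.induction_on with
  | empty => simpa using δ_of_isUnit (K := K) (A := A) isUnit_one
  | insert i s hi ih =>
    rw [Finset.prod_insert hi, Finset.sum_insert hi,
      δ_mul hfin (ha i (Finset.mem_insert_self i s))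
        (Finset.prod_ne_zero_iff.mpr fun j hj => ha j (Finset.mem_insert_of_mem hj)),
      ih fun j hj => ha j (Finset.mem_insert_of_mem hj)]

end Delta

section Lattice

variable {K A : Type*} [Field K] [CommRing A] [IsDomain A] [IsPrincipalIdealRing A] [Algebra K A]
variable {M : Type*} [AddCommGroup M] [Module A M] [Module K M] [IsScalarTower K A M]
variable {ι : Type*} [Fintype ι] [DecidableEq ι]

/-- **(G1)** Index formula: for a free module `M` over the PID `A` with basis `b` and a submodule
`N` with basis `bN` (same index type), `dim_K M/N = dim_K A/(det)`. -/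
theorem finrank_quotient_eq_δ_det
    (hfin : ∀ a : A, a ≠ 0 → Module.Finite K (A ⧸ Ideal.span ({a} : Set A)))
    (b : Basis ι A M) (N : Submodule A M) (bN : Basis ι A N) :
    finrank K (M ⧸ N) = δ K (b.det ((↑) ∘ bN)) := by
  have h : Module.finrank A N = Module.finrank A M := by
    rw [Module.finrank_eq_card_basis b, Module.finrank_eq_card_basis bN]
  let a := N.smithNormalFormCoeffs b h
  let b' := N.smithNormalFormTopBasis b h
  let ab := N.smithNormalFormBotBasis b h
  have ab_eq := N.smithNormalFormBotBasis_def b h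
  have ha0 : ∀ i, a i ≠ 0 := N.smithNormalFormCoeffs_ne_zero b h
  -- the quotient
  have hq : finrank K (M ⧸ N) = ∑ i, δ K (a i) := by
    have : ∀ i, Module.Finite K (A ⧸ Ideal.span ({N.smithNormalFormCoeffs b h i} : Set A)) :=
      fun i => hfin _ (ha0 i)
    exact Submodule.finrank_quotient_eq_sum K b h
  -- the determinant
  let e := b.equiv bN (Equiv.refl _)
  let e' : M ≃ₗ[A] N := b'.equiv ab (Equiv.refl _)
  let f : M →ₗ[A] M := N.subtype.comp (e' : M →ₗ[A] N)
  have hdet1 : b.det ((↑) ∘ bN) = LinearMap.det (N.subtype ∘ₗ (e : M →ₗ[A] N)) := by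
    exact Basis.det_comp_basis bN b N.subtype
  have hassoc : Associated (LinearMap.det (N.subtype ∘ₗ (e : M →ₗ[A] N))) (LinearMap.det f) :=
    LinearMap.associated_det_comp_equiv _ _ _
  have hf : ∀ i, f (b' i) = a i • b' i := by
    intro i
    change ((b'.equiv ab (Equiv.refl _)) (b' i) : M) = _
    rw [b'.equiv_apply, Equiv.refl_apply]
    exact ab_eq i
  have hdetf : LinearMap.det f = ∏ i, a i := by
    rw [← LinearMap.det_toMatrix b', ← Matrix.det_diagonal]
    congr 1
    ext i j
    rw [LinearMap.toMatrix_apply, hf, map_smul, Basis.repr_self, Finsupp.smul_single,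
      smul_eq_mul, mul_one]
    by_cases hij : i = j
    · rw [hij, Matrix.diagonal_apply_eq, Finsupp.single_eq_same]
    · rw [Matrix.diagonal_apply_ne _ hij, Finsupp.single_eq_of_ne hij]
  rw [hq, hdet1, δ_of_associated hassoc, hdetf, δ_prod hfin _ _ fun i _ => ha0 i]

end Lattice



section RelDim

variable (K : Type*) {R E : Type*} [Field K] [CommRing R] [Algebra K R] [AddCommGroup E]
  [Module R E] [Module K E] [IsScalarTower K R E]

/-- `dim_K V/(V ∩ W)` for `R`-submodules of `E`. -/
noncomputable def relDim (V W : Submodule R E) : ℕ :=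
  finrank K (↥V ⧸ W.comap V.subtype)

variable {K}

/-- the projection `H/J → H/I` -/
noncomputable def relProj (H I J : Submodule R E) (hJI : J ≤ I) :
    (↥H ⧸ J.comap H.subtype) →ₗ[R] (↥H ⧸ I.comap H.subtype) :=
  Submodule.mapQ _ _ LinearMap.id (by
    rw [Submodule.comap_id]
    exact Submodule.comap_mono hJI)

/-- the inclusion `I/J → H/J` -/
noncomputable def relIncl (H I J : Submodule R E) (hIH : I ≤ H) :
    (↥I ⧸ J.comap I.subtype) →ₗ[R] (↥H ⧸ J.comap H.subtype) :=
  Submodule.mapQ _ _ (Submodule.inclusion hIH) (by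
    rw [← Submodule.comap_comp, Submodule.subtype_comp_inclusion])

theorem relProj_surjective (H I J : Submodule R E) (hJI : J ≤ I) :
    Function.Surjective (relProj H I J hJI) := by
  intro y
  obtain ⟨y, rfl⟩ := Submodule.Quotient.mk_surjective _ y
  exact ⟨Submodule.Quotient.mk y, rfl⟩

theorem relIncl_injective (H I J : Submodule R E) (hIH : I ≤ H) :
    Function.Injective (relIncl H I J hIH) := by
  rw [← LinearMap.ker_eq_bot, LinearMap.ker_eq_bot']
  intro x hx
  obtain ⟨x, rfl⟩ := Submodule.Quotient.mk_surjective _ x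
  rw [relIncl, Submodule.mapQ_apply, Submodule.Quotient.mk_eq_zero] at hx
  rw [Submodule.Quotient.mk_eq_zero]
  exact hx

theorem range_relIncl_eq_ker_relProj (H I J : Submodule R E) (hJI : J ≤ I) (hIH : I ≤ H) :
    LinearMap.range (relIncl H I J hIH) = LinearMap.ker (relProj H I J hJI) := by
  ext y
  obtain ⟨y, rfl⟩ := Submodule.Quotient.mk_surjective _ y
  rw [LinearMap.mem_range, LinearMap.mem_ker, relProj, Submodule.mapQ_apply,
    Submodule.Quotient.mk_eq_zero]
  constructor
  · rintro ⟨x, hx⟩
    obtain ⟨x, rfl⟩ := Submodule.Quotient.mk_surjective _ x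
    rw [relIncl, Submodule.mapQ_apply, Submodule.Quotient.eq] at hx
    have h1 : ((Submodule.inclusion hIH x - y : ↥H) : E) ∈ J := hx
    have h2 : ((y : ↥H) : E) = (x : E) - ((Submodule.inclusion hIH x - y : ↥H) : E) := by
      simp
    change ((y : ↥H) : E) ∈ I
    rw [h2]
    exact I.sub_mem x.2 (hJI h1)
  · intro hy
    have hy' : ((y : ↥H) : E) ∈ I := hy
    refine ⟨Submodule.Quotient.mk ⟨(y : E), hy'⟩, ?_⟩
    rw [relIncl, Submodule.mapQ_apply]
    rfl

/-- chain rule for relative dimensions -/
theorem relDim_chain (H I J : Submodule R E) (hJI : J ≤ I) (hIH : I ≤ H)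
    [Module.Finite K (↥H ⧸ J.comap H.subtype)] :
    relDim K H J = relDim K H I + relDim K I J := by
  unfold relDim
  have h1 := LinearMap.finrank_range_add_finrank_ker ((relProj H I J hJI).restrictScalars K)
  have h2 : LinearMap.range ((relProj H I J hJI).restrictScalars K) = ⊤ :=
    LinearMap.range_eq_top.mpr (relProj_surjective H I J hJI)
  rw [h2, finrank_top] at h1
  have e : (↥I ⧸ J.comap I.subtype) ≃ₗ[K]
      LinearMap.range ((relIncl H I J hIH).restrictScalars K) :=
    LinearEquiv.ofInjective ((relIncl H I J hIH).restrictScalars K) (relIncl_injective H I J hIH)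
  have h3 : LinearMap.range ((relIncl H I J hIH).restrictScalars K) =
      LinearMap.ker ((relProj H I J hJI).restrictScalars K) := by
    ext y
    have := congrArg (fun S => y ∈ S) (range_relIncl_eq_ker_relProj H I J hJI hIH)
    simpa using this
  rw [← h1, ← h3, ← e.finrank_eq]

end RelDim

section Dedekind

variable (K : Type*) {B L : Type*} [Field K] [CommRing B] [IsDedekindDomain B] [Field L]
  [Algebra B L] [IsFractionRing B L] [Algebra K B] [Algebra K L] [IsScalarTower K B L]

/-- relative dimension of fractional ideals -/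
noncomputable def fracDim (I J : FractionalIdeal B⁰ L) : ℕ :=
  relDim K (I : Submodule B L) (J : Submodule B L)

variable {K}

theorem fracDim_eq_of_mul_eq (I J I' J' : FractionalIdeal B⁰ L) (H : I * J' = I' * J)
    (h : J ≤ I) (h' : J' ≤ I') (hJ' : J' ≠ 0) (hI : I ≠ 0) :
    fracDim K I J = fracDim K I' J' :=
  LinearEquiv.finrank_eq
    ((FractionalIdeal.quotientEquiv I J I' J' H h h' hJ' hI).restrictScalars K)

/-- `B ≃ (1 : FractionalIdeal)` -/
noncomputable def oneEquiv : B ≃ₗ[B] ↥((1 : FractionalIdeal B⁰ L) : Submodule B L) :=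
  LinearEquiv.ofBijective
    (LinearMap.codRestrict _ (Algebra.linearMap B L) (fun b => by
      change algebraMap B L b ∈ (1 : FractionalIdeal B⁰ L)
      rw [FractionalIdeal.mem_one_iff]
      exact ⟨b, rfl⟩))
    ⟨by
      intro x y hxy
      have := congrArg Subtype.val hxy
      exact IsFractionRing.injective B L this,
     by
      rintro ⟨y, hy⟩
      have hy' : y ∈ (1 : FractionalIdeal B⁰ L) := hy
      rw [FractionalIdeal.mem_one_iff] at hy'
      obtain ⟨b, rfl⟩ := hy'
      exact ⟨b, rfl⟩⟩

theorem coe_oneEquiv (b : B) : ((oneEquiv (L := L) b : ↥((1 : FractionalIdeal B⁰ L) : Submodule B L)) : L) =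
    algebraMap B L b := rfl

theorem map_oneEquiv (𝔞 : Ideal B) :
    Submodule.map (oneEquiv (B := B) (L := L)).toLinearMap 𝔞 =
      (((𝔞 : FractionalIdeal B⁰ L) : Submodule B L).comap
        ((1 : FractionalIdeal B⁰ L) : Submodule B L).subtype) := by
  have he : Submodule.map (oneEquiv (B := B) (L := L)).toLinearMap 𝔞 =
      (((𝔞 : FractionalIdeal B⁰ L) : Submodule B L).comap
        ((1 : FractionalIdeal B⁰ L) : Submodule B L).subtype) := by
    ext y
    rw [Submodule.mem_map, Submodule.mem_comap]
    constructor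
    · rintro ⟨b, hb, rfl⟩
      change algebraMap B L b ∈ ((𝔞 : FractionalIdeal B⁰ L) : Submodule B L)
      rw [FractionalIdeal.mem_coe]
      rw [FractionalIdeal.mem_coeIdeal]
      exact ⟨b, hb, rfl⟩
    · intro hy
      have hy' : (y : L) ∈ (𝔞 : FractionalIdeal B⁰ L) := hy
      rw [FractionalIdeal.mem_coeIdeal] at hy'
      obtain ⟨b, hb, hby⟩ := hy'
      exact ⟨b, hb, Subtype.ext hby⟩
  exact he

variable (K L) in
/-- `B/𝔞 ≃ 1/𝔞` -/
noncomputable def oneQuotEquiv (𝔞 : Ideal B) :
    (B ⧸ 𝔞) ≃ₗ[K] (↥((1 : FractionalIdeal B⁰ L) : Submodule B L) ⧸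
      (((𝔞 : FractionalIdeal B⁰ L) : Submodule B L).comap
        ((1 : FractionalIdeal B⁰ L) : Submodule B L).subtype)) :=
  (Submodule.Quotient.equiv 𝔞 _ (oneEquiv (L := L)) (map_oneEquiv 𝔞)).restrictScalars K

theorem fracDim_one_coeIdeal (𝔞 : Ideal B) :
    fracDim K (1 : FractionalIdeal B⁰ L) (𝔞 : FractionalIdeal B⁰ L) = finrank K (B ⧸ 𝔞) :=
  (LinearEquiv.finrank_eq (oneQuotEquiv K L 𝔞)).symm

variable (L) in
include L in
/-- **(N-mul)** additivity of `dim_K B/I` on products of nonzero ideals of a Dedekind domain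
(version with an auxiliary fraction field `L`). -/
theorem finrank_quotient_mul_aux (I J : Ideal B) (hI : I ≠ ⊥) (hJ : J ≠ ⊥)
    [Module.Finite K (B ⧸ I * J)] :
    finrank K (B ⧸ I * J) = finrank K (B ⧸ I) + finrank K (B ⧸ J) := by
  have hI' : (I : FractionalIdeal B⁰ L) ≠ 0 := FractionalIdeal.coeIdeal_ne_zero.mpr hI
  have hJ' : (J : FractionalIdeal B⁰ L) ≠ 0 := FractionalIdeal.coeIdeal_ne_zero.mpr hJ
  have hI1 : (I : FractionalIdeal B⁰ L) ≤ 1 := FractionalIdeal.coeIdeal_le_one
  have hJ1 : (J : FractionalIdeal B⁰ L) ≤ 1 := FractionalIdeal.coeIdeal_le_one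
  have hIJ : ((I * J : Ideal B) : FractionalIdeal B⁰ L) ≤ I :=
    FractionalIdeal.coeIdeal_le_coeIdeal L |>.mpr Ideal.mul_le_left
  have hfin : Module.Finite K (↥((1 : FractionalIdeal B⁰ L) : Submodule B L) ⧸
      ((((I * J : Ideal B) : FractionalIdeal B⁰ L) : Submodule B L).comap
        ((1 : FractionalIdeal B⁰ L) : Submodule B L).subtype)) :=
    Module.Finite.equiv (oneQuotEquiv K L (I * J))
  have h1 := relDim_chain (K := K) ((1 : FractionalIdeal B⁰ L) : Submodule B L)
    ((I : FractionalIdeal B⁰ L) : Submodule B L)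
    (((I * J : Ideal B) : FractionalIdeal B⁰ L) : Submodule B L) hIJ hI1
  have h2 : fracDim K (I : FractionalIdeal B⁰ L) ((I * J : Ideal B) : FractionalIdeal B⁰ L) =
      fracDim K (1 : FractionalIdeal B⁰ L) (J : FractionalIdeal B⁰ L) :=
    fracDim_eq_of_mul_eq _ _ _ _ (by rw [FractionalIdeal.coeIdeal_mul, one_mul]) hIJ hJ1 hJ' hI'
  rw [← fracDim_one_coeIdeal (L := L), ← fracDim_one_coeIdeal (L := L) I,
    ← fracDim_one_coeIdeal (L := L) J, ← h2]
  exact h1

end Dedekind



section TwoBases

variable {K A k : Type*} [Field K] [CommRing A] [IsDomain A] [IsPrincipalIdealRing A]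
  [Algebra K A] [Field k] [Algebra A k] [IsFractionRing A k]
variable {B V : Type*} [CommRing B] [Algebra A B] [Algebra K B] [AddCommGroup V] [Module k V]
  [Module A V] [IsScalarTower A k V] [Module B V] [IsScalarTower A B V] [Module K V]
  [IsScalarTower K A V] [IsScalarTower K B V]
variable {ι : Type*} [Fintype ι] [DecidableEq ι]

/-- the quotient by a `B`-submodule and by its restriction of scalars to `A` have the same
`K`-dimension -/
theorem finrank_quotient_restrictScalars {M : Type*} [AddCommGroup M] [Module A M] [Module B M]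
    [IsScalarTower A B M] [Module K M] [IsScalarTower K A M] [IsScalarTower K B M]
    (P : Submodule B M) :
    finrank K (M ⧸ P.restrictScalars A) = finrank K (M ⧸ P) := by
  let e : (M ⧸ P.restrictScalars A) ≃ₗ[K] (M ⧸ P) :=
    { (Submodule.Quotient.restrictScalarsEquiv A P).toAddEquiv with
      map_smul' := by
        intro c x
        obtain ⟨x, rfl⟩ := Submodule.Quotient.mk_surjective _ x
        rfl }
  exact e.finrank_eq

/-- **(G1')** Two `k`-bases `w`, `v` of `V` with `v` integral over `w`; `M'`, `N'` are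
`B`-submodules whose underlying `A`-modules are spanned by `w`, `v`.  Then
`dim_K M'/N' = dim_K A/(det)`. -/
theorem finrank_quotient_of_bases
    (hfin : ∀ a : A, a ≠ 0 → Module.Finite K (A ⧸ Ideal.span ({a} : Set A)))
    (w v : Basis ι k V) (G : Matrix ι ι A)
    (hG : G.map (algebraMap A k) = w.toMatrix v)
    (M' N' : Submodule B V)
    (hM : M'.restrictScalars A = Submodule.span A (Set.range w))
    (hN : N'.restrictScalars A = Submodule.span A (Set.range v)) :
    finrank K (↥M' ⧸ N'.comap M'.subtype) = δ K G.det := by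
  have hNM : N' ≤ M' := by
    intro x hx
    have hx' : x ∈ N'.restrictScalars A := hx
    rw [hN] at hx'
    have : x ∈ M'.restrictScalars A := by
      rw [hM]
      refine Submodule.span_le.mpr ?_ hx'
      rintro _ ⟨j, rfl⟩
      -- v j = Σ G i j • w i
      have h1 : v j = ∑ i, (w.toMatrix v i j) • w i := by
        rw [← w.sum_repr (v j)]
        simp [Basis.toMatrix_apply]
      rw [SetLike.mem_coe, h1]
      refine Submodule.sum_mem _ fun i _ => ?_
      rw [← hG, Matrix.map_apply, algebraMap_smul]
      exact Submodule.smul_mem _ _ (Submodule.subset_span ⟨i, rfl⟩)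
    exact this
  -- bases
  let eM : ↥(Submodule.span A (Set.range w)) ≃ₗ[A] ↥M' :=
    { toFun := fun x => ⟨(x : V), by
          have : (x : V) ∈ M'.restrictScalars A := by rw [hM]; exact x.2
          exact this⟩
      map_add' := fun x y => rfl
      map_smul' := fun c x => rfl
      invFun := fun y => ⟨(y : V), by
          have : (y : V) ∈ M'.restrictScalars A := y.2
          rw [hM] at this
          exact this⟩
      left_inv := fun x => rfl
      right_inv := fun y => rfl }
  let bM : Basis ι A ↥M' := (w.restrictScalars A).map eM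
  have hbM : ∀ i, ((bM i : ↥M') : V) = w i := by
    intro i
    simp [bM, eM]
  let NA : Submodule A ↥M' := (N'.comap M'.subtype).restrictScalars A
  let eN : ↥(Submodule.span A (Set.range v)) ≃ₗ[A] ↥NA :=
    { toFun := fun x => ⟨⟨(x : V), hNM (by
          have : (x : V) ∈ N'.restrictScalars A := by rw [hN]; exact x.2
          exact this)⟩, by
          have : (x : V) ∈ N'.restrictScalars A := by rw [hN]; exact x.2
          exact this⟩
      map_add' := fun x y => rfl
      map_smul' := fun c x => rfl
      invFun := fun y => ⟨((y : ↥M') : V), by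
          have : ((y : ↥M') : V) ∈ N'.restrictScalars A := y.2
          rw [hN] at this
          exact this⟩
      left_inv := fun x => rfl
      right_inv := fun y => rfl }
  let bN : Basis ι A ↥NA := (v.restrictScalars A).map eN
  have hbN : ∀ j, (((bN j : ↥NA) : ↥M') : V) = v j := by
    intro j
    simp [bN, eN]
  have h1 := finrank_quotient_eq_δ_det hfin bM NA bN
  rw [finrank_quotient_restrictScalars] at h1
  rw [h1]
  congr 1
  -- the determinant
  rw [Basis.det_apply]
  congr 1
  ext i j
  rw [Basis.toMatrix_apply]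
  apply IsFractionRing.injective A k
  have h2 : algebraMap A k (G i j) = w.toMatrix v i j := by
    rw [← hG, Matrix.map_apply]
  rw [h2, Basis.toMatrix_apply, Function.comp_apply]
  -- coordinates
  have h3 : bM.repr ((bN j : ↥NA) : ↥M') i =
      (w.restrictScalars A).repr (eM.symm ((bN j : ↥NA) : ↥M')) i := by
    simp [bM]
  rw [h3, Basis.restrictScalars_repr_apply]
  congr 2
  rw [← hbN j]
  simp [eM]

end TwoBases



section Different

variable {K A k B L : Type*} [Field K] [CommRing A] [IsDomain A] [IsPrincipalIdealRing A]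
  [Algebra K A] [Field k] [Algebra A k] [IsFractionRing A k]
  [CommRing B] [IsDedekindDomain B] [Field L] [Algebra B L] [IsFractionRing B L]
  [Algebra A B] [Algebra k L] [Algebra A L] [IsScalarTower A k L] [IsScalarTower A B L]
  [FiniteDimensional k L] [Algebra.IsSeparable k L] [IsIntegralClosure B A L]
  [IsTorsionFree A B]
  [Algebra K B] [Algebra K L] [IsScalarTower K A L] [IsScalarTower K B L]
  {ι : Type*} [Fintype ι] [DecidableEq ι]

variable (k L) in
/-- the `k`-basis of `L` induced by an `A`-basis of `B` -/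
noncomputable def fracBasis (u : Basis ι A B) : Basis ι k L :=
  haveI : IsLocalization (Algebra.algebraMapSubmonoid B A⁰) L :=
    IsIntegralClosure.isLocalization_of_isSeparable A k L B
  u.localizationLocalization k A⁰ L

theorem fracBasis_apply (u : Basis ι A B) (i : ι) :
    fracBasis k L u i = algebraMap B L (u i) := by
  haveI : IsLocalization (Algebra.algebraMapSubmonoid B A⁰) L :=
    IsIntegralClosure.isLocalization_of_isSeparable A k L B
  exact Basis.localizationLocalization_apply _ _ _ _ _

theorem restrictScalars_one_eq_span (u : Basis ι A B) :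
    ((1 : FractionalIdeal B⁰ L) : Submodule B L).restrictScalars A =
      Submodule.span A (Set.range (fracBasis k L u)) := by
  ext x
  rw [Submodule.restrictScalars_mem, FractionalIdeal.coe_one, Submodule.mem_one]
  constructor
  · rintro ⟨b, rfl⟩
    rw [← u.sum_repr b, map_sum]
    refine Submodule.sum_mem _ fun i _ => ?_
    rw [Algebra.smul_def, map_mul, ← IsScalarTower.algebraMap_apply, ← Algebra.smul_def,
      ← fracBasis_apply (k := k)]
    exact Submodule.smul_mem _ _ (Submodule.subset_span ⟨i, rfl⟩)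
  · intro hx
    refine Submodule.span_induction ?_ ?_ ?_ ?_ hx
    · rintro _ ⟨i, rfl⟩
      exact ⟨u i, (fracBasis_apply u i).symm⟩
    · exact ⟨0, map_zero _⟩
    · rintro _ _ _ _ ⟨a, rfl⟩ ⟨b, rfl⟩
      exact ⟨a + b, map_add _ _ _⟩
    · rintro c _ _ ⟨a, rfl⟩
      exact ⟨c • a, by rw [Algebra.smul_def, map_mul, ← IsScalarTower.algebraMap_apply,
        ← Algebra.smul_def]⟩

variable (k L) in
include k L in
/-- **(D1)** `dim_K B/𝔇_{B/A} = dim_K A/(disc)`. -/
theorem finrank_quotient_differentIdeal
    (hfin : ∀ a : A, a ≠ 0 → Module.Finite K (A ⧸ Ideal.span ({a} : Set A)))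
    (u : Basis ι A B) :
    finrank K (B ⧸ differentIdeal A B) = δ K (Algebra.discr A u) := by
  haveI : IsLocalization (Algebra.algebraMapSubmonoid B A⁰) L :=
    IsIntegralClosure.isLocalization_of_isSeparable A k L B
  have : Module.Finite A B := Module.Finite.of_basis u
  have : Module.Free A B := Module.Free.of_basis u
  set D' : FractionalIdeal B⁰ L := FractionalIdeal.dual A k 1 with hD'
  have hD'0 : D' ≠ 0 := FractionalIdeal.dual_ne_zero A k one_ne_zero
  have h𝔇 : ((differentIdeal A B : Ideal B) : FractionalIdeal B⁰ L) = D'⁻¹ :=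
    coeIdeal_differentIdeal A k L B
  have h1 : fracDim K (1 : FractionalIdeal B⁰ L) ((differentIdeal A B : Ideal B) :
      FractionalIdeal B⁰ L) = fracDim K D' 1 := by
    apply fracDim_eq_of_mul_eq
    · rw [h𝔇, mul_inv_cancel₀ hD'0, one_mul]
    · exact FractionalIdeal.coeIdeal_le_one
    · exact FractionalIdeal.one_le_dual_one A k
    · exact one_ne_zero
    · exact one_ne_zero
  rw [← fracDim_one_coeIdeal (L := L), h1]
  unfold fracDim relDim
  have hN := restrictScalars_one_eq_span (k := k) (L := L) u
  have hM : (D' : Submodule B L).restrictScalars A =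
      Submodule.span A (Set.range (fracBasis k L u).traceDual) := by
    rw [hD', FractionalIdeal.coe_dual_one]
    exact Submodule.traceDual_span_of_basis A (1 : Submodule B L) (fracBasis k L u)
      (by rw [← FractionalIdeal.coe_one (S := B⁰) (P := L)]; exact hN)
  rw [finrank_quotient_of_bases hfin (fracBasis k L u).traceDual (fracBasis k L u)
    (Algebra.traceMatrix A u) ?_ (D' : Submodule B L)
    ((1 : FractionalIdeal B⁰ L) : Submodule B L) hM hN, Algebra.discr_def]
  ext i j
  rw [Matrix.map_apply, Basis.toMatrix_apply, Basis.traceDual_repr_apply,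
    Algebra.traceMatrix_apply, Algebra.traceForm_apply, Algebra.traceForm_apply,
    fracBasis_apply, fracBasis_apply, ← map_mul (algebraMap B L),
    Algebra.trace_localization A A⁰, mul_comm]

end Different

section Dedekind2

variable (K : Type*) {B : Type*} [Field K] [CommRing B] [IsDedekindDomain B] [Algebra K B]

/-- `dim_K B/I` -/
noncomputable def idealDim (I : Ideal B) : ℕ := finrank K (B ⧸ I)

variable {K}

theorem idealDim_mul (hfinB : ∀ J : Ideal B, J ≠ ⊥ → Module.Finite K (B ⧸ J))
    (I J : Ideal B) (hI : I ≠ ⊥) (hJ : J ≠ ⊥) :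
    idealDim K (I * J) = idealDim K I + idealDim K J := by
  have := hfinB (I * J) (mul_ne_zero hI hJ)
  exact finrank_quotient_mul_aux (FractionRing B) I J hI hJ

theorem idealDim_top : idealDim K (⊤ : Ideal B) = 0 := by
  unfold idealDim
  have : Subsingleton (B ⧸ (⊤ : Ideal B)) := Ideal.Quotient.subsingleton_iff.mpr rfl
  exact finrank_zero_of_subsingleton

theorem idealDim_pow (hfinB : ∀ J : Ideal B, J ≠ ⊥ → Module.Finite K (B ⧸ J))
    (I : Ideal B) (hI : I ≠ ⊥) (n : ℕ) : idealDim K (I ^ n) = n * idealDim K I := by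
  induction n with
  | zero => rw [pow_zero, Ideal.one_eq_top, idealDim_top, zero_mul]
  | succ n ih =>
    rw [pow_succ, idealDim_mul hfinB _ _ (pow_ne_zero n hI) hI, ih]
    ring

/-- **(D2)** `dim_K B/∏ I_i^{n_i} = Σ n_i dim_K B/I_i`. -/
theorem idealDim_prod_pow (hfinB : ∀ J : Ideal B, J ≠ ⊥ → Module.Finite K (B ⧸ J))
    {ι : Type*} (s : Finset ι) (I : ι → Ideal B) (n : ι → ℕ) (hI : ∀ i ∈ s, I i ≠ ⊥) :
    idealDim K (∏ i ∈ s, I i ^ n i) = ∑ i ∈ s, n i * idealDim K (I i) := by
  classical
  induction s using Finset.induction_on with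
  | empty => simpa using idealDim_top (K := K) (B := B)
  | insert i s hi ih =>
    rw [Finset.prod_insert hi, Finset.sum_insert hi,
      idealDim_mul hfinB _ _ (pow_ne_zero _ (hI i (Finset.mem_insert_self i s)))
        (Finset.prod_ne_zero_iff.mpr fun j hj =>
          pow_ne_zero _ (hI j (Finset.mem_insert_of_mem hj))),
      idealDim_pow hfinB _ (hI i (Finset.mem_insert_self i s)),
      ih fun j hj => hI j (Finset.mem_insert_of_mem hj)]

end Dedekind2



section FiniteQuot

variable {K A B : Type*} [Field K] [CommRing A] [IsDomain A] [Algebra K A]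
  [CommRing B] [IsDomain B] [Algebra A B] [Algebra K B] [IsScalarTower K A B]
  {ι : Type*} [Fintype ι]

/-- quotients of `B` by nonzero ideals are finite dimensional over `K` -/
theorem finite_quotient_of_basis
    (hfin : ∀ a : A, a ≠ 0 → Module.Finite K (A ⧸ Ideal.span ({a} : Set A)))
    (u : Basis ι A B) (J : Ideal B) (hJ : J ≠ ⊥) : Module.Finite K (B ⧸ J) := by
  classical
  have : Module.Finite A B := Module.Finite.of_basis u
  have : Algebra.IsIntegral A B := Algebra.IsIntegral.of_finite A B
  have hc : J.comap (algebraMap A B) ≠ ⊥ := fun h => hJ (Ideal.eq_bot_of_comap_eq_bot h)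
  obtain ⟨a, haJ, ha0⟩ := Submodule.exists_mem_ne_zero_of_ne_bot hc
  have haJ' : algebraMap A B a ∈ J := haJ
  have := hfin a ha0
  -- the submodule `a B`
  let N : Submodule A (ι → A) :=
    Submodule.pi Set.univ fun _ => (Ideal.span ({a} : Set A) : Submodule A A)
  let N' : Submodule A B := N.comap (u.equivFun : B →ₗ[A] (ι → A))
  have hN'J : N' ≤ J.restrictScalars A := by
    intro b hb
    have hb' : ∀ i, u.repr b i ∈ Ideal.span ({a} : Set A) := fun i => hb i (Set.mem_univ i)
    rw [Submodule.restrictScalars_mem, ← u.sum_repr b]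
    refine J.sum_mem fun i _ => ?_
    obtain ⟨c, hc⟩ := Ideal.mem_span_singleton'.mp (hb' i)
    rw [← hc, mul_comm, mul_smul, Algebra.smul_def]
    exact J.mul_mem_right _ haJ'
  -- `B / aB` is finite over `K`
  let e : (B ⧸ N') ≃ₗ[A] ((i : ι) → A ⧸ (Ideal.span ({a} : Set A) : Submodule A A)) :=
    (Submodule.Quotient.equiv N' N u.equivFun
      (Submodule.map_comap_eq_of_surjective u.equivFun.surjective N)).trans
      (Submodule.quotientPi fun _ => (Ideal.span ({a} : Set A) : Submodule A A))
  have hfin1 : Module.Finite K (B ⧸ N') :=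
    Module.Finite.equiv (e.restrictScalars K).symm
  -- surjection onto `B / J`
  let g : (B ⧸ N') →ₗ[A] (B ⧸ J) :=
    Submodule.liftQ N' ((J.mkQ : B →ₗ[B] B ⧸ J).restrictScalars A) (by
      intro b hb
      rw [LinearMap.mem_ker, LinearMap.restrictScalars_apply, Submodule.mkQ_apply,
        Submodule.Quotient.mk_eq_zero]
      exact hN'J hb)
  refine Module.Finite.of_surjective (g.restrictScalars K) ?_
  intro y
  obtain ⟨y, rfl⟩ := Submodule.Quotient.mk_surjective _ y
  exact ⟨Submodule.Quotient.mk y, rfl⟩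

end FiniteQuot

end Fermat.Agent.S20.DiscDegree
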