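import Mathlib
import Fermat.Agent.S20.DiscDegree
import Fermat.Agent.S20.NormalBasis

/-!
# S20 / DW-d, part 2: the two concrete base rings `k[X]` and `O_∞`  (helper53)
-/

set_option autoImplicit false
set_option linter.unusedSectionVars false
set_option linter.style.haveILetI false

open Module Polynomial
open scoped nonZeroDivisors

namespace Fermat.Agent.S20.DiscDegreeX

open Fermat.Agent.S20.DiscDegree Fermat.Agent.S20.NormalBasis

section Poly

variable {k : Type*} [Field k]

theorem finite_quotient_poly (a : k[X]) (ha : a ≠ 0) :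
    Module.Finite k (k[X] ⧸ Ideal.span ({a} : Set k[X])) :=
  PowerBasis.finite (AdjoinRoot.powerBasis ha)

theorem δ_poly (a : k[X]) : δ k a = a.natDegree :=
  finrank_quotient_span_eq_natDegree

end Poly

section Infinity

variable {k : Type*} [Field k] [Algebra k (Oinf k)] [IsScalarTower k (Oinf k) (RatFunc k)]

theorem coe_algebraMap_Oinf (c : k) :
    ((algebraMap k (Oinf k) c : Oinf k) : RatFunc k) = RatFunc.C c := by
  have h := IsScalarTower.algebraMap_apply k (Oinf k) (RatFunc k) c
  rw [RatFunc.algebraMap_eq_C] at h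
  exact h.symm

theorem algebraMap_Oinf_eq_CInf (c : k) : algebraMap k (Oinf k) c = CInf c :=
  Subtype.ext (coe_algebraMap_Oinf c)

/-- the uniformizer `1/X` at infinity -/
noncomputable def πInf : Oinf k :=
  ⟨(RatFunc.X : RatFunc k)⁻¹, by
    rw [mem_Oinf_iff]
    right
    have := intDegree_X_zpow (K := k) (-1)
    rw [zpow_neg_one] at this
    rw [this]
    norm_num⟩

theorem coe_πInf : ((πInf : Oinf k) : RatFunc k) = (RatFunc.X : RatFunc k)⁻¹ := rfl

theorem coe_πInf_pow (m : ℕ) :
    (((πInf : Oinf k) ^ m : Oinf k) : RatFunc k) = (RatFunc.X : RatFunc k) ^ (-(m : ℤ)) := by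
  rw [SubmonoidClass.coe_pow, coe_πInf, zpow_neg, zpow_natCast, inv_pow]

/-- divisibility in `O_∞` -/
theorem dvd_iff_intDegree_le {a b : Oinf k} (ha : a ≠ 0) (hb : b ≠ 0) :
    a ∣ b ↔ (b : RatFunc k).intDegree ≤ (a : RatFunc k).intDegree := by
  have ha' : (a : RatFunc k) ≠ 0 := fun h => ha (Subtype.ext h)
  have hb' : (b : RatFunc k) ≠ 0 := fun h => hb (Subtype.ext h)
  constructor
  · rintro ⟨c, rfl⟩
    have hc : c ≠ 0 := right_ne_zero_of_mul hb
    have hc' : (c : RatFunc k) ≠ 0 := fun h => hc (Subtype.ext h)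
    have hcdeg := (mem_Oinf_iff.mp c.2).resolve_left hc'
    rw [MulMemClass.coe_mul, RatFunc.intDegree_mul ha' hc']
    omega
  · intro h
    have hq : (b : RatFunc k) / (a : RatFunc k) ∈ Oinf k := by
      rw [mem_Oinf_iff]
      right
      rw [RatFunc.intDegree_div hb' ha']
      omega
    refine ⟨⟨_, hq⟩, Subtype.ext ?_⟩
    rw [MulMemClass.coe_mul]
    field_simp

theorem associated_πInf_pow {a : Oinf k} (ha : a ≠ 0) :
    Associated a ((πInf : Oinf k) ^ (-(a : RatFunc k).intDegree).toNat) := by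
  have ha' : (a : RatFunc k) ≠ 0 := fun h => ha (Subtype.ext h)
  have hdeg := (mem_Oinf_iff.mp a.2).resolve_left ha'
  have hπ : ((πInf : Oinf k) ^ (-(a : RatFunc k).intDegree).toNat) ≠ 0 := by
    apply pow_ne_zero
    intro h
    have := congrArg Subtype.val h
    rw [coe_πInf] at this
    simp at this
    exact RatFunc.X_ne_zero this
  have hdegπ : ((((πInf : Oinf k) ^ (-(a : RatFunc k).intDegree).toNat : Oinf k)) :
      RatFunc k).intDegree = (a : RatFunc k).intDegree := by
    rw [coe_πInf_pow, intDegree_X_zpow, Int.toNat_of_nonneg (by omega)]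
    ring
  apply associated_of_dvd_dvd
  · rw [dvd_iff_intDegree_le ha hπ, hdegπ]
  · rw [dvd_iff_intDegree_le hπ ha, hdegπ]

instance isPrincipalIdealRing_Oinf : IsPrincipalIdealRing (Oinf k) := by
  refine ⟨fun I => ?_⟩
  by_cases hI : I = ⊥
  · rw [hI]
    exact ⟨0, by simp⟩
  -- choose an element of maximal degree
  obtain ⟨a0, ha0I, ha0⟩ := Submodule.exists_mem_ne_zero_of_ne_bot hI
  have ha0' : (a0 : RatFunc k) ≠ 0 := fun h => ha0 (Subtype.ext h)
  let S : Set ℕ := {n | ∃ a ∈ I, a ≠ 0 ∧ n = (-(a : RatFunc k).intDegree).toNat}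
  have hS : S.Nonempty := ⟨_, a0, ha0I, ha0, rfl⟩
  obtain ⟨a, haI, ha, hmin⟩ := Nat.sInf_mem hS
  have ha' : (a : RatFunc k) ≠ 0 := fun h => ha (Subtype.ext h)
  refine ⟨a, le_antisymm ?_ ?_⟩
  · intro b hb
    by_cases hb0 : b = 0
    · rw [hb0]; exact Submodule.zero_mem _
    have hb' : (b : RatFunc k) ≠ 0 := fun h => hb0 (Subtype.ext h)
    have hle : sInf S ≤ (-(b : RatFunc k).intDegree).toNat := Nat.sInf_le ⟨b, hb, hb0, rfl⟩
    rw [hmin] at hle
    have hdega := (mem_Oinf_iff.mp a.2).resolve_left ha'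
    have hdegb := (mem_Oinf_iff.mp b.2).resolve_left hb'
    have : a ∣ b := by
      rw [dvd_iff_intDegree_le ha hb0]
      omega
    exact Ideal.mem_span_singleton.mpr this
  · rw [Submodule.span_singleton_le_iff_mem]
    exact haI

theorem span_πInf_eq_mInf : Ideal.span ({(πInf : Oinf k)} : Set (Oinf k)) = mInf := by
  have hπ0 : (πInf : Oinf k) ≠ 0 := by
    intro h
    have := congrArg Subtype.val h
    rw [coe_πInf] at this
    simp at this
    exact RatFunc.X_ne_zero this
  have hdegπ : ((πInf : Oinf k) : RatFunc k).intDegree = -1 := by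
    have := intDegree_X_zpow (K := k) (-1)
    rwa [zpow_neg_one] at this
  ext f
  rw [Ideal.mem_span_singleton, mem_mInf]
  by_cases hf : f = 0
  · subst hf
    simp [IsNeg]
  have hf' : (f : RatFunc k) ≠ 0 := fun h => hf (Subtype.ext h)
  rw [dvd_iff_intDegree_le hπ0 hf, hdegπ, IsNeg]
  constructor
  · intro h
    right
    omega
  · rintro (h | h)
    · exact absurd h hf'
    · omega

/-- `O_∞ / 𝔪_∞` is one-dimensional over `k`. -/
theorem finite_and_finrank_quotient_of_eq_mInf (I : Ideal (Oinf k)) (hI : I = mInf) :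
    Module.Finite k (Oinf k ⧸ I) ∧ finrank k (Oinf k ⧸ I) = 1 := by
  subst hI
  let φ : k →ₗ[k] (Oinf k ⧸ (mInf : Ideal (Oinf k))) := Algebra.linearMap k _
  have hφ : Function.Bijective φ := by
    have hb := bijective_mk_comp_CInf (K := k)
    have : (φ : k → (Oinf k ⧸ (mInf : Ideal (Oinf k)))) =
        ((Ideal.Quotient.mk (mInf (K := k))).comp CInf) := by
      funext c
      change algebraMap k (Oinf k ⧸ (mInf : Ideal (Oinf k))) c = _
      rw [RingHom.comp_apply, ← algebraMap_Oinf_eq_CInf]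
      rfl
    rw [this]
    exact hb
  let e : k ≃ₗ[k] (Oinf k ⧸ (mInf : Ideal (Oinf k))) := LinearEquiv.ofBijective φ hφ
  exact ⟨Module.Finite.equiv e, by rw [← e.finrank_eq, finrank_self]⟩

theorem finite_and_δ_πInf_pow (m : ℕ) :
    Module.Finite k (Oinf k ⧸ Ideal.span ({(πInf : Oinf k) ^ m} : Set (Oinf k))) ∧
      δ k ((πInf : Oinf k) ^ m) = m := by
  have hπ0 : (πInf : Oinf k) ≠ 0 := by
    intro h
    have := congrArg Subtype.val h
    rw [coe_πInf] at this
    simp at this
    exact RatFunc.X_ne_zero this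
  induction m with
  | zero =>
    have hs : Subsingleton (Oinf k ⧸ Ideal.span ({(πInf : Oinf k) ^ 0} : Set (Oinf k))) := by
      rw [Ideal.Quotient.subsingleton_iff, pow_zero, Ideal.span_singleton_one]
    refine ⟨inferInstance, ?_⟩
    rw [pow_zero]
    simpa using δ_of_isUnit (K := k) (A := Oinf k) isUnit_one
  | succ m ih =>
    obtain ⟨hfin, hδ⟩ := ih
    obtain ⟨hfin1, h1⟩ := finite_and_finrank_quotient_of_eq_mInf _ (span_πInf_eq_mInf (k := k))
    have hfin' : Module.Finite k (Oinf k ⧸ Ideal.span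
        ({(πInf : Oinf k) * (πInf : Oinf k) ^ m} : Set (Oinf k))) :=
      finite_quotient_span_mul _ _
    rw [pow_succ']
    refine ⟨hfin', ?_⟩
    have := finrank_quotient_span_mul (K := k) (a := (πInf : Oinf k)) (b := (πInf : Oinf k) ^ m) hπ0
    unfold δ at hδ ⊢
    rw [this, h1, hδ, add_comm]

/-- finiteness for `O_∞` -/
theorem finite_quotient_Oinf (a : Oinf k) (ha : a ≠ 0) :
    Module.Finite k (Oinf k ⧸ Ideal.span ({a} : Set (Oinf k))) := by
  rw [Ideal.span_singleton_eq_span_singleton.mpr (associated_πInf_pow ha)]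
  exact (finite_and_δ_πInf_pow _).1

/-- `dim_k O_∞/(a) = -deg a` -/
theorem δ_Oinf (a : Oinf k) (ha : a ≠ 0) :
    (δ k a : ℤ) = -(a : RatFunc k).intDegree := by
  have ha' : (a : RatFunc k) ≠ 0 := fun h => ha (Subtype.ext h)
  have hdeg := (mem_Oinf_iff.mp a.2).resolve_left ha'
  rw [δ_of_associated (associated_πInf_pow ha), (finite_and_δ_πInf_pow _).2,
    Int.toNat_of_nonneg (by omega)]

end Infinity

section Final

variable {k : Type*} [Field k] [Algebra k (Oinf k)] [IsScalarTower k (Oinf k) (RatFunc k)]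
variable {F : Type*} [Field F] [Algebra (RatFunc k) F] [FiniteDimensional (RatFunc k) F]
  [Algebra.IsSeparable (RatFunc k) F] [Algebra k F]
variable {ι : Type*} [Fintype ι] [DecidableEq ι]

/-- discriminant of a rescaled family -/
theorem discr_smul (u : ι → F) (c : ι → RatFunc k) :
    Algebra.discr (RatFunc k) (fun i => c i • u i) =
      (∏ i, c i) ^ 2 * Algebra.discr (RatFunc k) u := by
  have h := Algebra.discr_of_matrix_vecMul (A := RatFunc k) u (Matrix.diagonal c)
  rw [Matrix.det_diagonal] at h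
  rw [← h]
  congr 1
  funext i
  rw [Matrix.vecMul, dotProduct, Finset.sum_eq_single i]
  · rw [Matrix.map_apply, Matrix.diagonal_apply_eq, Algebra.smul_def, mul_comm]
  · intro j _ hji
    rw [Matrix.map_apply, Matrix.diagonal_apply_ne _ hji, map_zero, mul_zero]
  · intro h
    exact absurd (Finset.mem_univ i) h

section Fin

variable {B : Type*} [CommRing B] [IsDedekindDomain B] [Algebra B F] [IsFractionRing B F]
  [Algebra k[X] B] [Algebra k[X] F] [IsScalarTower k[X] (RatFunc k) F] [IsScalarTower k[X] B F]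
  [IsIntegralClosure B k[X] F] [IsTorsionFree k[X] B]
  [Algebra k B] [IsScalarTower k k[X] F] [IsScalarTower k B F]

/-- **finite part**: `dim_k B/𝔇 = deg disc(u)`. -/
theorem finrank_quotient_different_poly (u : Basis ι (RatFunc k) F)
    (uB : Basis ι k[X] B) (huB : ∀ i, algebraMap B F (uB i) = u i) :
    (finrank k (B ⧸ differentIdeal k[X] B) : ℤ) =
      (Algebra.discr (RatFunc k) u).intDegree := by
  haveI : IsLocalization (Algebra.algebraMapSubmonoid B k[X]⁰) F :=
    IsIntegralClosure.isLocalization_of_isSeparable k[X] (RatFunc k) F B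
  rw [finrank_quotient_differentIdeal (RatFunc k) F finite_quotient_poly uB, δ_poly,
    ← RatFunc.intDegree_polynomial,
    ← Algebra.discr_localizationLocalization k[X] k[X]⁰ (Rₘ := RatFunc k) F uB]
  congr 2
  funext i
  rw [Basis.localizationLocalization_apply, huB]

end Fin

section Inf

variable {Binf : Type*} [CommRing Binf] [IsDedekindDomain Binf] [Algebra Binf F]
  [IsFractionRing Binf F] [Algebra (Oinf k) Binf] [Algebra (Oinf k) F]
  [IsScalarTower (Oinf k) (RatFunc k) F] [IsScalarTower (Oinf k) Binf F]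
  [IsIntegralClosure Binf (Oinf k) F] [IsTorsionFree (Oinf k) Binf]
  [Algebra k Binf] [IsScalarTower k (Oinf k) F] [IsScalarTower k Binf F]

/-- **infinite part**: `dim_k B_∞/𝔇_∞ = - deg disc(u_∞)`. -/
theorem finrank_quotient_different_inf (v : ι → F) (hv : Algebra.discr (RatFunc k) v ≠ 0)
    (uInf : Basis ι (Oinf k) Binf) (huInf : ∀ i, algebraMap Binf F (uInf i) = v i) :
    (finrank k (Binf ⧸ differentIdeal (Oinf k) Binf) : ℤ) =
      -(Algebra.discr (RatFunc k) v).intDegree := by
  haveI : IsLocalization (Algebra.algebraMapSubmonoid Binf (Oinf k)⁰) F :=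
    IsIntegralClosure.isLocalization_of_isSeparable (Oinf k) (RatFunc k) F Binf
  have hd : algebraMap (Oinf k) (RatFunc k) (Algebra.discr (Oinf k) uInf) =
      Algebra.discr (RatFunc k) v := by
    rw [← Algebra.discr_localizationLocalization (Oinf k) (Oinf k)⁰ (Rₘ := RatFunc k) F uInf]
    congr 1
    funext i
    rw [Basis.localizationLocalization_apply, huInf]
  have hne : Algebra.discr (Oinf k) uInf ≠ 0 := by
    intro h
    rw [h, map_zero] at hd
    exact hv hd.symm
  rw [finrank_quotient_differentIdeal (RatFunc k) F finite_quotient_Oinf uInf,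
    δ_Oinf _ hne, ← hd]
  rfl

end Inf

section Both

variable {B : Type*} [CommRing B] [IsDedekindDomain B] [Algebra B F] [IsFractionRing B F]
  [Algebra k[X] B] [Algebra k[X] F] [IsScalarTower k[X] (RatFunc k) F] [IsScalarTower k[X] B F]
  [IsIntegralClosure B k[X] F] [IsTorsionFree k[X] B]
  [Algebra k B] [IsScalarTower k k[X] F] [IsScalarTower k B F]
variable {Binf : Type*} [CommRing Binf] [IsDedekindDomain Binf] [Algebra Binf F]
  [IsFractionRing Binf F] [Algebra (Oinf k) Binf] [Algebra (Oinf k) F]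
  [IsScalarTower (Oinf k) (RatFunc k) F] [IsScalarTower (Oinf k) Binf F]
  [IsIntegralClosure Binf (Oinf k) F] [IsTorsionFree (Oinf k) Binf]
  [Algebra k Binf] [IsScalarTower k (Oinf k) F] [IsScalarTower k Binf F]

/-- **(DW-d)** `dim_k B/𝔇 + dim_k B_∞/𝔇_∞ = 2 Σ d_i` for a Dedekind–Weber normal basis
`u_i` of `B`, `X^(-d_i) u_i` of `B_∞`. -/
theorem finrank_different_add_finrank_different (u : Basis ι (RatFunc k) F) (d : ι → ℤ)
    (uB : Basis ι k[X] B) (huB : ∀ i, algebraMap B F (uB i) = u i)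
    (uInf : Basis ι (Oinf k) Binf)
    (huInf : ∀ i, algebraMap Binf F (uInf i) = (RatFunc.X : RatFunc k) ^ (-d i) • u i) :
    (finrank k (B ⧸ differentIdeal k[X] B) : ℤ) +
      finrank k (Binf ⧸ differentIdeal (Oinf k) Binf) = 2 * ∑ i, d i := by
  have hΔ : Algebra.discr (RatFunc k) u ≠ 0 := Algebra.discr_not_zero_of_basis _ u
  have hscal := discr_smul (k := k) (fun i => u i) fun i => (RatFunc.X : RatFunc k) ^ (-d i)
  have hprod : (∏ i, (RatFunc.X : RatFunc k) ^ (-d i)) = (RatFunc.X : RatFunc k) ^ (-∑ i, d i) := by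
    rw [← Finset.sum_neg_distrib]
    exact prod_zpow_eq Finset.univ RatFunc.X_ne_zero _
  have hX : (RatFunc.X : RatFunc k) ^ (-∑ i, d i) ≠ 0 := zpow_ne_zero _ RatFunc.X_ne_zero
  have hv : Algebra.discr (RatFunc k) (fun i => (RatFunc.X : RatFunc k) ^ (-d i) • u i) ≠ 0 := by
    rw [hscal, hprod]
    exact mul_ne_zero (pow_ne_zero _ hX) hΔ
  rw [finrank_quotient_different_poly u uB huB,
    finrank_quotient_different_inf (fun i => (RatFunc.X : RatFunc k) ^ (-d i) • u i) hv uInf huInf,
    hscal, hprod, RatFunc.intDegree_mul (pow_ne_zero _ hX) hΔ, pow_two,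
    RatFunc.intDegree_mul hX hX, intDegree_X_zpow]
  ring

end Both

end Final

end Fermat.Agent.S20.DiscDegreeX
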