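import Mathlib

/-!
# S20 / DW-a (second seat, helper36): exact exponent of the different in the tame case

`A ⊆ B` Dedekind domains, `B` finite torsion-free over `A`, separable fraction field extension.
If `P ^ e * Q = p B` with `P`, `Q` coprime, and the residue field `A ⧸ p` has
characteristic zero, then `P ^ e ∤ differentIdeal A B`; with Mathlib's
`pow_sub_one_dvd_differentIdeal` the exponent of `P` in the different is exactly `e - 1`.
-/

set_option autoImplicit false

open Algebra Module nonZeroDivisors IsDedekindDomain HeightOneSpectrum WithZero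
  UniqueFactorizationMonoid

namespace Fermat.Agent.S20.TameDifferent36

section General

variable {R : Type*} [CommRing R] [IsDedekindDomain R] {K : Type*} [Field K] [Algebra R K]
  [IsFractionRing R K]

/-- `I ≤ v ^ (count of v in I)`. -/
theorem le_pow_count (I : Ideal R) (hI : I ≠ ⊥) (v : HeightOneSpectrum R) :
    I ≤ v.asIdeal ^ Multiset.count v.asIdeal (normalizedFactors I) := by
  rw [← Ideal.dvd_iff_le]
  have h := emultiplicity_eq_count_normalizedFactors v.irreducible hI
  rw [normalize_eq] at h
  exact pow_dvd_of_le_emultiplicity h.ge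

/-- `I` is not contained in `v ^ (count + 1)`. -/
theorem not_le_pow_count_succ (I : Ideal R) (hI : I ≠ ⊥) (v : HeightOneSpectrum R) :
    ¬ I ≤ v.asIdeal ^ (Multiset.count v.asIdeal (normalizedFactors I) + 1) := by
  rw [← Ideal.dvd_iff_le]
  have h := emultiplicity_eq_count_normalizedFactors v.irreducible hI
  rw [normalize_eq] at h
  intro hdvd
  have := le_emultiplicity_of_pow_dvd hdvd
  rw [h] at this
  exact_mod_cast (Nat.lt_succ_self _).not_ge (by exact_mod_cast this)

/-- Membership in the inverse of a nonzero integral ideal in terms of adic valuations. -/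
theorem mem_inv_iff_forall_valuation_le (I : Ideal R) (hI : I ≠ ⊥) (x : K) :
    x ∈ ((I : FractionalIdeal R⁰ K))⁻¹ ↔
      ∀ v : HeightOneSpectrum R,
        v.valuation K x ≤ exp ((Multiset.count v.asIdeal (normalizedFactors I) : ℤ)) := by
  have hI' : (I : FractionalIdeal R⁰ K) ≠ 0 := by simpa using hI
  rw [FractionalIdeal.mem_inv_iff hI']
  constructor
  · intro h v
    set c := Multiset.count v.asIdeal (normalizedFactors I) with hc
    obtain ⟨r, hrI, hrv⟩ := SetLike.not_le_iff_exists.mp (not_le_pow_count_succ I hI v)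
    have hr0 : r ≠ 0 := fun h0 => hrv (h0 ▸ Ideal.zero_mem _)
    have hxr := h (algebraMap R K r) ((FractionalIdeal.mem_coeIdeal _).mpr ⟨r, hrI, rfl⟩)
    obtain ⟨s, hs⟩ := (FractionalIdeal.mem_one_iff _).mp hxr
    have h1 : v.valuation K (x * algebraMap R K r) ≤ 1 := by
      rw [← hs]; exact v.valuation_le_one s
    rw [map_mul, valuation_of_algebraMap] at h1
    have h2 : ¬ v.intValuation r ≤ exp (-((c + 1 : ℕ) : ℤ)) := by
      rw [intValuation_le_pow_iff_mem]; exact hrv
    by_cases hx : x = 0
    · simp [hx]
    have hvx : v.valuation K x ≠ 0 := (Valuation.ne_zero_iff _).mpr hx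
    have hvr : v.intValuation r ≠ 0 := by
      rw [ne_eq, ← valuation_of_algebraMap (K := K), Valuation.zero_iff]
      simpa using hr0
    rw [← exp_log hvx, ← exp_log hvr, ← exp_add, ← exp_zero, exp_le_exp] at h1
    rw [← exp_log hvr, exp_le_exp] at h2
    rw [← exp_log hvx, exp_le_exp]
    push_cast at h2
    omega
  · intro h y hy
    obtain ⟨r, hrI, rfl⟩ := (FractionalIdeal.mem_coeIdeal _).mp hy
    rw [FractionalIdeal.mem_one_iff]
    have := mem_integers_of_valuation_le_one (R := R) K (x * algebraMap R K r) (fun v => ?_)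
    · obtain ⟨s, hs⟩ := this
      exact ⟨s, hs⟩
    · rw [map_mul, valuation_of_algebraMap]
      have h1 := h v
      have h2 : v.intValuation r ≤
          exp (-((Multiset.count v.asIdeal (normalizedFactors I) : ℕ) : ℤ)) := by
        rw [intValuation_le_pow_iff_mem]; exact le_pow_count I hI v hrI
      calc v.valuation K x * v.intValuation r
          ≤ exp ((Multiset.count v.asIdeal (normalizedFactors I) : ℤ)) *
            exp (-((Multiset.count v.asIdeal (normalizedFactors I) : ℕ) : ℤ)) :=
            mul_le_mul' h1 h2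
        _ = 1 := by rw [← exp_add]; simp

end General

attribute [local instance] FractionRing.liftAlgebra FractionRing.isScalarTower_liftAlgebra
  Ideal.Quotient.field

variable (A : Type*) {B : Type*} [CommRing A] [CommRing B] [Algebra A B]
  [IsDedekindDomain A] [IsDedekindDomain B]
  [IsTorsionFree A B] [Module.Finite A B]

/-- Core criterion: if `I * Q = p B`, `I` and `Q` coprime, and the `A ⧸ p`-dimension of `B ⧸ I`
is nonzero in `A ⧸ p`, then `I ∤ differentIdeal A B`. -/
theorem not_dvd_differentIdeal_of_finrank_ne_zero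
    [Algebra.IsSeparable (FractionRing A) (FractionRing B)]
    {p : Ideal A} [p.IsMaximal] (I Q : Ideal B)
    (hIQ : IsCoprime I Q) (hP : I * Q = Ideal.map (algebraMap A B) p)
    (htame : ∀ (_ : Algebra (A ⧸ p) (B ⧸ I)) (_ : IsScalarTower A (A ⧸ p) (B ⧸ I)),
      ((Module.finrank (A ⧸ p) (B ⧸ I) : ℕ) : A ⧸ p) ≠ 0) :
    ¬ I ∣ differentIdeal A B := by
  let _ : Algebra (A ⧸ p) (B ⧸ Q) := Ideal.Quotient.algebraQuotientOfLEComap (by
      rw [← Ideal.map_le_iff_le_comap, ← hP]
      exact Ideal.mul_le_right)
  let algI : Algebra (A ⧸ p) (B ⧸ I) := Ideal.Quotient.algebraQuotientOfLEComap (by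
      rw [← Ideal.map_le_iff_le_comap, ← hP]
      exact Ideal.mul_le_left)
  have : IsScalarTower A (A ⧸ p) (B ⧸ Q) := .of_algebraMap_eq' rfl
  have towI : IsScalarTower A (A ⧸ p) (B ⧸ I) := .of_algebraMap_eq' rfl
  have : Module.Finite (A ⧸ p) (B ⧸ Q) :=
    Module.Finite.of_restrictScalars_finite A (A ⧸ p) (B ⧸ Q)
  have : Module.Finite (A ⧸ p) (B ⧸ I) :=
    Module.Finite.of_restrictScalars_finite A (A ⧸ p) (B ⧸ I)
  let e : (B ⧸ p.map (algebraMap A B)) ≃ₐ[A ⧸ p] ((B ⧸ I) × B ⧸ Q) :=
    { __ := (Ideal.quotEquivOfEq hP.symm).trans (Ideal.quotientMulEquivQuotientProd I Q hIQ),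
      commutes' := Quotient.ind fun _ ↦ rfl }
  obtain ⟨y, hy⟩ := Ideal.Quotient.mk_surjective (e.symm (1, 0))
  refine not_dvd_differentIdeal_of_intTrace_not_mem A I Q hP y ?_ ?_
  · have := congr((e $hy).2)
    simp at this
    simpa [e, Ideal.Quotient.eq_zero_iff_mem] using this
  · rw [← Ideal.Quotient.eq_zero_iff_mem, ← Algebra.trace_quotient_eq_of_isDedekindDomain,
      hy, Algebra.trace_eq_of_algEquiv, Algebra.trace_prod_apply]
    simp only [map_zero, add_zero]
    have h1 : (1 : B ⧸ I) = algebraMap (A ⧸ p) (B ⧸ I) 1 := by simp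
    rw [h1, Algebra.trace_algebraMap]
    simpa using htame algI towI

/-- Characteristic-zero residue field: if `I * Q = p B` with `I ≠ ⊤` coprime to `Q`, then
`I ∤ differentIdeal A B`. -/
theorem not_dvd_differentIdeal_of_charZero
    [Algebra.IsSeparable (FractionRing A) (FractionRing B)]
    {p : Ideal A} [p.IsMaximal] [CharZero (A ⧸ p)] (I Q : Ideal B) (hI : I ≠ ⊤)
    (hIQ : IsCoprime I Q) (hP : I * Q = Ideal.map (algebraMap A B) p) :
    ¬ I ∣ differentIdeal A B := by
  refine not_dvd_differentIdeal_of_finrank_ne_zero A I Q hIQ hP ?_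
  intro alg tow
  have : Module.Finite (A ⧸ p) (B ⧸ I) :=
    Module.Finite.of_restrictScalars_finite A (A ⧸ p) (B ⧸ I)
  have : Nontrivial (B ⧸ I) := Ideal.Quotient.nontrivial_iff.mpr hI
  have hpos : 0 < Module.finrank (A ⧸ p) (B ⧸ I) := Module.finrank_pos
  exact_mod_cast hpos.ne'

/-- The exponent of a nonzero prime `P` of `B` in `(P ∩ A) B` is at least one. -/
theorem one_le_count_map_under (P : Ideal B) [P.IsPrime] (hP : P ≠ ⊥) :
    1 ≤ Multiset.count P (normalizedFactors ((P.under A).map (algebraMap A B))) := by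
  have hp : P.under A ≠ ⊥ := mt Ideal.eq_bot_of_comap_eq_bot hP
  have hp' := (Ideal.map_eq_bot_iff_of_injective
    (FaithfulSMul.algebraMap_injective A B)).not.mpr hp
  have hle : (P.under A).map (algebraMap A B) ≤ P := Ideal.map_comap_le
  rw [Nat.one_le_iff_ne_zero, Multiset.count_ne_zero]
  have hPprime : Prime P := Ideal.prime_of_isPrime hP inferInstance
  obtain ⟨q, hq, hq'⟩ := exists_mem_normalizedFactors_of_dvd hp'
    hPprime.irreducible (Ideal.dvd_iff_le.mpr hle)
  have hPq : q = P := (associated_iff_eq.mp hq').symm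
  exact hPq ▸ hq

/-- **Tame different, exact exponent.**  For a nonzero prime `P` of `B` over `p = P ∩ A` with
`A ⧸ p` of characteristic zero, the exponent of `P` in `differentIdeal A B` is `e(P | p) - 1`,
where `e(P | p)` is the exponent of `P` in `p B`. -/
theorem count_normalizedFactors_differentIdeal
    [Algebra.IsSeparable (FractionRing A) (FractionRing B)]
    (P : Ideal B) [P.IsPrime] (hP : P ≠ ⊥) [CharZero (A ⧸ P.under A)] :
    Multiset.count P (UniqueFactorizationMonoid.normalizedFactors (differentIdeal A B)) =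
      Multiset.count P (UniqueFactorizationMonoid.normalizedFactors
        ((P.under A).map (algebraMap A B))) - 1 := by
  have hp : P.under A ≠ ⊥ := mt Ideal.eq_bot_of_comap_eq_bot hP
  have hp' := (Ideal.map_eq_bot_iff_of_injective
    (FaithfulSMul.algebraMap_injective A B)).not.mpr hp
  have hPmax : P.IsMaximal := Ideal.IsPrime.isMaximal inferInstance hP
  have hpmax : (P.under A).IsMaximal := Ideal.IsPrime.isMaximal inferInstance hp
  set e := Multiset.count P (UniqueFactorizationMonoid.normalizedFactors
        ((P.under A).map (algebraMap A B))) with he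
  obtain ⟨Q, hsup, hmap⟩ := Ideal.eq_prime_pow_mul_coprime hp' P
  rw [← he] at hmap
  have hle : (P.under A).map (algebraMap A B) ≤ P := Ideal.map_comap_le
  have he1 : 1 ≤ e := one_le_count_map_under A P hP
  have hcop : IsCoprime (P ^ e) Q := (Ideal.isCoprime_iff_sup_eq.mpr hsup).pow_left
  have hne_top : P ^ e ≠ ⊤ := by
    intro h
    exact hPmax.ne_top (top_le_iff.mp (h ▸ Ideal.pow_le_self (by omega)))
  have h1 : ¬ P ^ e ∣ differentIdeal A B :=
    not_dvd_differentIdeal_of_charZero A (P ^ e) Q hne_top hcop hmap.symm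
  have h2 : P ^ (e - 1) ∣ differentIdeal A B :=
    pow_sub_one_dvd_differentIdeal A P e hp ⟨Q, hmap⟩
  refine Ideal.count_normalizedFactors_eq (Ideal.dvd_iff_le.mp h2) ?_
  rw [Nat.sub_add_cancel he1, ← Ideal.dvd_iff_le]
  exact h1

section AKLB

variable (A K L : Type*) (B : Type*) [CommRing A] [Field K] [CommRing B] [Field L]
  [Algebra A K] [Algebra B L] [Algebra A B] [Algebra K L] [Algebra A L]
  [IsScalarTower A K L] [IsScalarTower A B L]
  [IsDedekindDomain A] [IsDedekindDomain B] [IsFractionRing A K] [IsFractionRing B L]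
  [FiniteDimensional K L] [Algebra.IsSeparable K L] [IsIntegralClosure B A L]
  [IsTorsionFree A B] [Module.Finite A B]

omit [FiniteDimensional K L] [IsIntegralClosure B A L] in
include K L in
/-- Separability of the fraction rings from separability of `L / K`. -/
theorem isSeparable_fractionRing :
    Algebra.IsSeparable (FractionRing A) (FractionRing B) := by
  have H : RingHom.comp (algebraMap (FractionRing A) (FractionRing B))
      ↑(FractionRing.algEquiv A K).symm.toRingEquiv =
        RingHom.comp ↑(FractionRing.algEquiv B L).symm.toRingEquiv (algebraMap K L) := by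
    apply IsLocalization.ringHom_ext A⁰
    ext
    simp only [RingHom.coe_comp, RingHom.coe_coe,
      AlgEquiv.coe_ringEquiv, Function.comp_apply, AlgEquiv.commutes,
      ← IsScalarTower.algebraMap_apply]
    rw [IsScalarTower.algebraMap_apply A B L, AlgEquiv.commutes, ← IsScalarTower.algebraMap_apply]
  exact Algebra.IsSeparable.of_equiv_equiv _ _ H

/-- The ramification exponent of `w` over `A`: exponent of `w` in `(w ∩ A) B`. -/
noncomputable def ramExp (w : HeightOneSpectrum B) : ℕ :=
  Multiset.count w.asIdeal (normalizedFactors ((w.asIdeal.under A).map (algebraMap A B)))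

theorem one_le_ramExp (w : HeightOneSpectrum B) : 1 ≤ ramExp A B w :=
  one_le_count_map_under A w.asIdeal w.ne_bot

/-- **Tame trace dual.**  If all residue fields of `A` at the primes below primes of `B` have
characteristic zero, then `x : L` lies in the trace dual of `B` iff
`ord_w x ≥ -(e_w - 1)` for all primes `w` of `B`, i.e. `w.valuation L x ≤ exp (e_w - 1)`. -/
theorem mem_traceDual_one_iff_forall_valuation_le
    (hchar : ∀ w : HeightOneSpectrum B, CharZero (A ⧸ w.asIdeal.under A)) (x : L) :
    x ∈ Submodule.traceDual A K (1 : Submodule B L) ↔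
      ∀ w : HeightOneSpectrum B, w.valuation L x ≤ exp ((ramExp A B w : ℤ) - 1) := by
  have hsep : Algebra.IsSeparable (FractionRing A) (FractionRing B) :=
    isSeparable_fractionRing A K L B
  have hD : differentIdeal A B ≠ ⊥ := differentIdeal_ne_bot
  have h1 : (FractionalIdeal.dual A K (1 : FractionalIdeal B⁰ L)) =
      ((differentIdeal A B : Ideal B) : FractionalIdeal B⁰ L)⁻¹ := by
    rw [coeIdeal_differentIdeal A K L B, inv_inv]
  rw [← FractionalIdeal.coe_dual_one, FractionalIdeal.mem_coe, h1,
    mem_inv_iff_forall_valuation_le _ hD]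
  refine forall_congr' fun w => ?_
  have := hchar w
  have hc := count_normalizedFactors_differentIdeal A w.asIdeal w.ne_bot
  have he := one_le_ramExp A B w
  rw [hc]
  unfold ramExp at he ⊢
  rw [Nat.cast_sub he, Nat.cast_one]

omit [IsDedekindDomain A] [IsFractionRing A K] [FiniteDimensional K L] [Algebra.IsSeparable K L]
  [IsIntegralClosure B A L] [IsTorsionFree A B] [Module.Finite A B] [Algebra A K] [Algebra K L]
  [IsScalarTower A K L] in
/-- If the prime of `A` below `w` is generated by `a`, then `ord_w a` is the ramification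
exponent: `w.valuation L a = exp (- e_w)`. -/
theorem valuation_algebraMap_eq_exp_neg_ramExp (w : HeightOneSpectrum B) (a : A)
    (ha : w.asIdeal.under A = Ideal.span {a}) (ha0 : algebraMap A B a ≠ 0) :
    w.valuation L (algebraMap A L a) = exp (-(ramExp A B w : ℤ)) := by
  rw [IsScalarTower.algebraMap_apply A B L, valuation_of_algebraMap,
    intValuation_eq_exp_neg_multiplicity w ha0]
  have hsr : (Ideal.span {algebraMap A B a} : Ideal B) ≠ 0 := by
    simpa [Ideal.span_singleton_eq_bot] using ha0
  have hfm : FiniteMultiplicity w.asIdeal (Ideal.span {algebraMap A B a}) :=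
    FiniteMultiplicity.of_prime_left w.prime hsr
  have hmap : (w.asIdeal.under A).map (algebraMap A B) = Ideal.span {algebraMap A B a} := by
    rw [ha, Ideal.map_span, Set.image_singleton]
  rw [exp_inj, neg_inj, Int.natCast_inj, ← ENat.natCast_inj,
    ← FiniteMultiplicity.emultiplicity_eq_multiplicity hfm,
    emultiplicity_eq_count_normalizedFactors (irreducible w) hsr, normalize_eq, ramExp, hmap]

end AKLB

end Fermat.Agent.S20.TameDifferent36
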