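import Mathlib
import Fermat.Agent.S20.TameDifferent36

/-!
# S20 / T1-G4-ABS (helper31): degree of the different = ramification count

Abstract Dedekind half of step (G4) / assembly half of (DW-d) of the Dedekind–Weber chain.

Setting: `A ⊆ B` Dedekind, `B` finite torsion-free over `A`, separable fraction fields, `K0` a field
of characteristic zero with `Algebra K0 A`, `Algebra K0 B` (tower), and **all residue fields of `B`
equal to `K0`** (`hres : ∀ P maximal, Function.Surjective (algebraMap K0 (B ⧸ P))`).  Put
`n = finrank A B`, `e(P|p) = count P (normalizedFactors (pB))`.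

* `finrank_quotient_eq_one` : residue degree one.
* `sum_count_primesOver` : `∑_{P ∣ p} e(P|p) = n`.
* `sum_count_sub_one_add_card` : `∑_{P ∣ p} (e(P|p) - 1) + #{P ∣ p} = n`.
* `count_eq_one_of_card_primesOverFinset_eq` : `#{P ∣ p} = n` implies `p` unramified.
* `count_differentIdeal_of_mem_primesOverFinset` : exponent of the different at `P ∣ p` is
  `e(P|p) - 1` (from `TameDifferent36`).
* `card_normalizedFactors_differentIdeal_add` (RC3) :
  `deg 𝔇 + ∑_{p ∈ S} #{P ∣ p} = #S * n` for a finite set `S` of nonzero maximal ideals of `A` outside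
  of which `B / A` is unramified; `card_normalizedFactors_differentIdeal` is the `ℤ`-form
  `deg 𝔇 = ∑_{p ∈ S} (n - #{P ∣ p})`, primed versions take "unramified outside `S`" in the form
  `#{P ∣ p} = n` (the shape of `S24.AssemblyRH.degree_canonical`).
* `finrank_quotient_differentIdeal` (RC4) : the same for `finrank K0 (B ⧸ 𝔇)`, given the (RING)
  input `finrank K0 (B ⧸ 𝔇) = card (normalizedFactors 𝔇)`.
-/

set_option autoImplicit false

namespace Fermat.Agent.S20.RamCount

open Module UniqueFactorizationMonoid Ideal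

attribute [local instance] FractionRing.liftAlgebra FractionRing.isScalarTower_liftAlgebra
  Ideal.Quotient.field

section ResidueDegree

variable (K0 : Type*) [Field K0]
variable {A : Type*} {B : Type*} [CommRing A] [CommRing B] [Algebra A B]
  [Algebra K0 A] [Algebra K0 B] [IsScalarTower K0 A B]

/-- If the residue field of `P` is `K0`, the residue degree of `P` over `p` is one. -/
theorem finrank_quotient_eq_one (p : Ideal A) [p.IsMaximal] (P : Ideal B) [P.IsMaximal]
    [P.LiesOver p] (hP : Function.Surjective (algebraMap K0 (B ⧸ P))) :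
    finrank (A ⧸ p) (B ⧸ P) = 1 := by
  have h1 : (1 : B ⧸ P) ≠ 0 := one_ne_zero
  rw [finrank_eq_one_iff_of_nonzero' (1 : B ⧸ P) h1]
  intro w
  obtain ⟨c, rfl⟩ := hP w
  refine ⟨algebraMap K0 (A ⧸ p) c, ?_⟩
  rw [Algebra.smul_def, mul_one]
  rw [IsScalarTower.algebraMap_apply K0 A (A ⧸ p), IsScalarTower.algebraMap_apply K0 B (B ⧸ P),
    IsScalarTower.algebraMap_apply K0 A B]
  rfl

end ResidueDegree

section Count

variable (K0 : Type*) [Field K0]
variable (A : Type*) (B : Type*) [CommRing A] [CommRing B] [Algebra A B]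
  [Algebra K0 A] [Algebra K0 B] [IsScalarTower K0 A B]
  [IsDedekindDomain A] [IsDedekindDomain B] [Module.IsTorsionFree A B] [Module.Finite A B]

/-- `∑_{P ∣ p} e(P|p) = n` when all residue fields of `B` are `K0`. -/
theorem sum_count_primesOver
    (hres : ∀ P : Ideal B, P.IsMaximal → Function.Surjective (algebraMap K0 (B ⧸ P)))
    (p : Ideal A) [p.IsMaximal] (hp0 : p ≠ ⊥) :
    ∑ P ∈ IsDedekindDomain.primesOverFinset p B,
      (normalizedFactors (p.map (algebraMap A B))).count P = finrank A B := by
  classical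
  have hpB : p.map (algebraMap A B) ≠ ⊥ := map_ne_bot_of_ne_bot hp0
  let _ : Fintype (p.primesOver B) := Fintype.ofFinite _
  rw [← Ideal.sum_ramification_inertia_eq_finrank p B]
  rw [Finset.sum_subtype (IsDedekindDomain.primesOverFinset p B)
    (fun P => IsDedekindDomain.mem_primesOverFinset_iff hp0 B)]
  refine Finset.sum_congr rfl fun q _ => ?_
  have hq1 : q.1.IsPrime := q.2.1
  have hq2 : q.1.LiesOver p := q.2.2
  have hq0 : q.1 ≠ ⊥ := ne_bot_of_le_ne_bot hpB (map_le_of_le_comap (q.1.over_def p).le)
  have hqmax : q.1.IsMaximal := hq1.isMaximal hq0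
  rw [IsDedekindDomain.ramificationIdx_eq_normalizedFactors_count p q.1 hpB,
    inertiaDeg_eq_of_isMaximal p q.1, finrank_quotient_eq_one K0 p q.1 (hres q.1 hqmax), mul_one]

/-- A prime over `p` occurs in `pB`. -/
theorem one_le_count_of_mem_primesOverFinset (p : Ideal A) [p.IsMaximal] (hp0 : p ≠ ⊥)
    {P : Ideal B} (hP : P ∈ IsDedekindDomain.primesOverFinset p B) :
    1 ≤ (normalizedFactors (p.map (algebraMap A B))).count P := by
  classical
  rw [IsDedekindDomain.mem_primesOverFinset_iff hp0 B] at hP
  have hq1 : P.IsPrime := hP.1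
  have hq2 : P.LiesOver p := hP.2
  have hpB : p.map (algebraMap A B) ≠ ⊥ := map_ne_bot_of_ne_bot hp0
  have hq0 : P ≠ ⊥ := ne_bot_of_le_ne_bot hpB (map_le_of_le_comap (P.over_def p).le)
  have := Fermat.Agent.S20.TameDifferent36.one_le_count_map_under A P hq0
  rwa [← P.over_def p] at this

/-- `∑_{P ∣ p} (e(P|p) - 1) + #{P ∣ p} = n`. -/
theorem sum_count_sub_one_add_card
    (hres : ∀ P : Ideal B, P.IsMaximal → Function.Surjective (algebraMap K0 (B ⧸ P)))
    (p : Ideal A) [p.IsMaximal] (hp0 : p ≠ ⊥) :
    ∑ P ∈ IsDedekindDomain.primesOverFinset p B,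
      ((normalizedFactors (p.map (algebraMap A B))).count P - 1)
      + (IsDedekindDomain.primesOverFinset p B).card = finrank A B := by
  classical
  rw [← sum_count_primesOver K0 A B hres p hp0, Finset.card_eq_sum_ones, ← Finset.sum_add_distrib]
  refine Finset.sum_congr rfl fun P hP => ?_
  have := one_le_count_of_mem_primesOverFinset A B p hp0 hP
  omega

/-- If `#{P ∣ p} = n` then every prime over `p` is unramified. -/
theorem count_eq_one_of_card_primesOverFinset_eq
    (hres : ∀ P : Ideal B, P.IsMaximal → Function.Surjective (algebraMap K0 (B ⧸ P)))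
    (p : Ideal A) [p.IsMaximal] (hp0 : p ≠ ⊥)
    (hcard : (IsDedekindDomain.primesOverFinset p B).card = finrank A B)
    {P : Ideal B} (hP : P ∈ IsDedekindDomain.primesOverFinset p B) :
    (normalizedFactors (p.map (algebraMap A B))).count P = 1 := by
  classical
  have h := sum_count_sub_one_add_card K0 A B hres p hp0
  rw [hcard] at h
  have h0 : ∑ P ∈ IsDedekindDomain.primesOverFinset p B,
      ((normalizedFactors (p.map (algebraMap A B))).count P - 1) = 0 := by omega
  have h1 := (Finset.sum_eq_zero_iff.mp h0) P hP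
  have h2 := one_le_count_of_mem_primesOverFinset A B p hp0 hP
  omega

end Count

section Different

variable (K0 : Type*) [Field K0] [CharZero K0]
variable (A : Type*) (B : Type*) [CommRing A] [CommRing B] [Algebra A B]
  [Algebra K0 A] [Algebra K0 B] [IsScalarTower K0 A B]
  [IsDedekindDomain A] [IsDedekindDomain B] [Module.IsTorsionFree A B] [Module.Finite A B]
  [Algebra.IsSeparable (FractionRing A) (FractionRing B)]

include K0 in
omit [Algebra K0 B] [IsScalarTower K0 A B] in
/-- Exponent of the different at a prime over `p`: `e(P|p) - 1` (tame: `char K0 = 0`). -/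
theorem count_differentIdeal_of_mem_primesOverFinset (p : Ideal A) [p.IsMaximal] (hp0 : p ≠ ⊥)
    {P : Ideal B} (hP : P ∈ IsDedekindDomain.primesOverFinset p B) :
    (normalizedFactors (differentIdeal A B)).count P =
      (normalizedFactors (p.map (algebraMap A B))).count P - 1 := by
  classical
  rw [IsDedekindDomain.mem_primesOverFinset_iff hp0 B] at hP
  have hq1 : P.IsPrime := hP.1
  have hq2 : P.LiesOver p := hP.2
  have hpB : p.map (algebraMap A B) ≠ ⊥ := map_ne_bot_of_ne_bot hp0
  have hq0 : P ≠ ⊥ := ne_bot_of_le_ne_bot hpB (map_le_of_le_comap (P.over_def p).le)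
  have hpu : P.under A = p := (P.over_def p).symm
  have hchar : CharZero (A ⧸ P.under A) := by
    rw [hpu]
    have : Nontrivial (A ⧸ p) := Ideal.Quotient.nontrivial_iff.mpr (IsMaximal.ne_top inferInstance)
    exact charZero_of_injective_algebraMap (algebraMap K0 (A ⧸ p)).injective
  have := Fermat.Agent.S20.TameDifferent36.count_normalizedFactors_differentIdeal A P hq0
  rw [this, hpu]

/-- **(RC3)** Number of prime factors (with multiplicity) of the different, in terms of the number
of primes over the finitely many branch points: `deg 𝔇 + ∑_{p ∈ S} #{P ∣ p} = #S · n`. -/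
theorem card_normalizedFactors_differentIdeal_add
    (hres : ∀ P : Ideal B, P.IsMaximal → Function.Surjective (algebraMap K0 (B ⧸ P)))
    (S : Finset (Ideal A)) (hSmax : ∀ p ∈ S, p.IsMaximal ∧ p ≠ ⊥)
    (hS : ∀ P : Ideal B, P.IsPrime → P ≠ ⊥ → P.under A ∉ S →
      (normalizedFactors ((P.under A).map (algebraMap A B))).count P = 1) :
    Multiset.card (normalizedFactors (differentIdeal A B))
      + ∑ p ∈ S, (IsDedekindDomain.primesOverFinset p B).card = S.card * finrank A B := by
  classical
  set T : Finset (Ideal B) := S.biUnion (fun p => IsDedekindDomain.primesOverFinset p B) with hTdef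
  have hT : ∀ P ∈ normalizedFactors (differentIdeal A B), P ∈ T := by
    intro P hP
    have hPprime : P.IsPrime := Ideal.isPrime_of_prime (prime_of_normalized_factor P hP)
    have hP0 : P ≠ ⊥ := (prime_of_normalized_factor P hP).ne_zero
    have hPmax : P.IsMaximal := hPprime.isMaximal hP0
    have hp0 : P.under A ≠ ⊥ := mt Ideal.eq_bot_of_comap_eq_bot hP0
    have hpmax : (P.under A).IsMaximal := Ideal.IsMaximal.under A P
    by_cases hmem : P.under A ∈ S
    · rw [hTdef, Finset.mem_biUnion]
      refine ⟨P.under A, hmem, ?_⟩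
      rw [IsDedekindDomain.mem_primesOverFinset_iff hp0 B]
      exact ⟨hPprime, ⟨rfl⟩⟩
    · exfalso
      have h1 := hS P hPprime hP0 hmem
      have hPin : P ∈ IsDedekindDomain.primesOverFinset (P.under A) B := by
        rw [IsDedekindDomain.mem_primesOverFinset_iff hp0 B]
        exact ⟨hPprime, ⟨rfl⟩⟩
      have h2 := count_differentIdeal_of_mem_primesOverFinset K0 A B (P.under A) hp0 hPin
      rw [h1] at h2
      have h3 : 0 < (normalizedFactors (differentIdeal A B)).count P := Multiset.count_pos.mpr hP
      omega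
  have hdisj : (S : Set (Ideal A)).PairwiseDisjoint
      (fun p => IsDedekindDomain.primesOverFinset p B) := by
    intro p hp p' hp' hpp'
    rw [Function.onFun, Finset.disjoint_left]
    intro P hP hP'
    have := (hSmax p hp).1
    have := (hSmax p' hp').1
    rw [IsDedekindDomain.mem_primesOverFinset_iff (hSmax p hp).2 B] at hP
    rw [IsDedekindDomain.mem_primesOverFinset_iff (hSmax p' hp').2 B] at hP'
    have h1 : P.LiesOver p := hP.2
    have h2 : P.LiesOver p' := hP'.2
    exact hpp' ((P.over_def p).trans (P.over_def p').symm)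
  rw [← Multiset.sum_count_eq_card hT, hTdef, Finset.sum_biUnion hdisj, ← Finset.sum_add_distrib,
    Finset.card_eq_sum_ones, Finset.sum_mul]
  refine Finset.sum_congr rfl fun p hp => ?_
  have := (hSmax p hp).1
  rw [one_mul, ← sum_count_sub_one_add_card K0 A B hres p (hSmax p hp).2]
  congr 1
  exact Finset.sum_congr rfl fun P hP =>
    count_differentIdeal_of_mem_primesOverFinset K0 A B p (hSmax p hp).2 hP

/-- (RC3), `ℤ`-form: `deg 𝔇 = ∑_{p ∈ S} (n - #{P ∣ p})`. -/
theorem card_normalizedFactors_differentIdeal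
    (hres : ∀ P : Ideal B, P.IsMaximal → Function.Surjective (algebraMap K0 (B ⧸ P)))
    (S : Finset (Ideal A)) (hSmax : ∀ p ∈ S, p.IsMaximal ∧ p ≠ ⊥)
    (hS : ∀ P : Ideal B, P.IsPrime → P ≠ ⊥ → P.under A ∉ S →
      (normalizedFactors ((P.under A).map (algebraMap A B))).count P = 1) :
    (Multiset.card (normalizedFactors (differentIdeal A B)) : ℤ)
      = ∑ p ∈ S, ((finrank A B : ℤ) - (IsDedekindDomain.primesOverFinset p B).card) := by
  have h := card_normalizedFactors_differentIdeal_add K0 A B hres S hSmax hS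
  rw [Finset.sum_sub_distrib, Finset.sum_const, nsmul_eq_mul]
  have h' : (Multiset.card (normalizedFactors (differentIdeal A B)) : ℤ)
      + ∑ p ∈ S, ((IsDedekindDomain.primesOverFinset p B).card : ℤ)
      = (S.card : ℤ) * (finrank A B : ℤ) := by exact_mod_cast h
  linarith

omit [CharZero K0] [Algebra.IsSeparable (FractionRing A) (FractionRing B)] in
/-- Unramifiedness outside `S` in the form "`#{P ∣ p} = n` for `p ∉ S`" implies the pointwise
form used in (RC3). -/
theorem count_eq_one_of_forall_card_eq
    (hres : ∀ P : Ideal B, P.IsMaximal → Function.Surjective (algebraMap K0 (B ⧸ P)))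
    (S : Finset (Ideal A))
    (hS : ∀ p : Ideal A, p.IsMaximal → p ≠ ⊥ → p ∉ S →
      (IsDedekindDomain.primesOverFinset p B).card = finrank A B)
    (P : Ideal B) (hPprime : P.IsPrime) (hP0 : P ≠ ⊥) (hmem : P.under A ∉ S) :
    (normalizedFactors ((P.under A).map (algebraMap A B))).count P = 1 := by
  have hPmax : P.IsMaximal := hPprime.isMaximal hP0
  have hp0 : P.under A ≠ ⊥ := mt Ideal.eq_bot_of_comap_eq_bot hP0
  have hpmax : (P.under A).IsMaximal := Ideal.IsMaximal.under A P
  have hPin : P ∈ IsDedekindDomain.primesOverFinset (P.under A) B := by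
    rw [IsDedekindDomain.mem_primesOverFinset_iff hp0 B]
    exact ⟨hPprime, ⟨rfl⟩⟩
  exact count_eq_one_of_card_primesOverFinset_eq K0 A B hres (P.under A) hp0
    (hS (P.under A) hpmax hp0 hmem) hPin

/-- (RC3'), `ℕ`-form with unramifiedness outside `S` stated as `#{P ∣ p} = n`. -/
theorem card_normalizedFactors_differentIdeal_add'
    (hres : ∀ P : Ideal B, P.IsMaximal → Function.Surjective (algebraMap K0 (B ⧸ P)))
    (S : Finset (Ideal A)) (hSmax : ∀ p ∈ S, p.IsMaximal ∧ p ≠ ⊥)
    (hS : ∀ p : Ideal A, p.IsMaximal → p ≠ ⊥ → p ∉ S →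
      (IsDedekindDomain.primesOverFinset p B).card = finrank A B) :
    Multiset.card (normalizedFactors (differentIdeal A B))
      + ∑ p ∈ S, (IsDedekindDomain.primesOverFinset p B).card = S.card * finrank A B :=
  card_normalizedFactors_differentIdeal_add K0 A B hres S hSmax
    (count_eq_one_of_forall_card_eq K0 A B hres S hS)

/-- (RC3'), `ℤ`-form with unramifiedness outside `S` stated as `#{P ∣ p} = n`. -/
theorem card_normalizedFactors_differentIdeal'
    (hres : ∀ P : Ideal B, P.IsMaximal → Function.Surjective (algebraMap K0 (B ⧸ P)))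
    (S : Finset (Ideal A)) (hSmax : ∀ p ∈ S, p.IsMaximal ∧ p ≠ ⊥)
    (hS : ∀ p : Ideal A, p.IsMaximal → p ≠ ⊥ → p ∉ S →
      (IsDedekindDomain.primesOverFinset p B).card = finrank A B) :
    (Multiset.card (normalizedFactors (differentIdeal A B)) : ℤ)
      = ∑ p ∈ S, ((finrank A B : ℤ) - (IsDedekindDomain.primesOverFinset p B).card) :=
  card_normalizedFactors_differentIdeal K0 A B hres S hSmax
    (count_eq_one_of_forall_card_eq K0 A B hres S hS)

/-- **(RC4)** `dim_{K0} (B ⧸ 𝔇) = ∑_{p ∈ S} (n - #{P ∣ p})`, given the (RING) input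
`finrank K0 (B ⧸ 𝔇) = card (normalizedFactors 𝔇)`. -/
theorem finrank_quotient_differentIdeal
    (hres : ∀ P : Ideal B, P.IsMaximal → Function.Surjective (algebraMap K0 (B ⧸ P)))
    (hring : finrank K0 (B ⧸ differentIdeal A B)
      = Multiset.card (normalizedFactors (differentIdeal A B)))
    (S : Finset (Ideal A)) (hSmax : ∀ p ∈ S, p.IsMaximal ∧ p ≠ ⊥)
    (hS : ∀ p : Ideal A, p.IsMaximal → p ≠ ⊥ → p ∉ S →
      (IsDedekindDomain.primesOverFinset p B).card = finrank A B) :
    (finrank K0 (B ⧸ differentIdeal A B) : ℤ)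
      = ∑ p ∈ S, ((finrank A B : ℤ) - (IsDedekindDomain.primesOverFinset p B).card) := by
  rw [hring]
  exact card_normalizedFactors_differentIdeal' K0 A B hres S hSmax hS

end Different

end Fermat.Agent.S20.RamCount
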