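import Mathlib
import Fermat.Agent.S20.RamCount

/-!
# S20 / T1-G4-ABS, concrete instances (helper31)

Instantiations of `RamCount` for the two base rings of the Dedekind–Weber chain:
`A = K[X]` (`K` algebraically closed of characteristic zero, branch points `c ∈ S : Finset K`,
`p_c = span {X - C c}`) and `A` a discrete valuation ring with residue field `K0` (the valuation
ring at infinity of `RatFunc K`).
-/

set_option autoImplicit false

namespace Fermat.Agent.S20.RamCountPoly

open Module UniqueFactorizationMonoid Ideal Polynomial Fermat.Agent.S20.RamCount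

attribute [local instance] FractionRing.liftAlgebra FractionRing.isScalarTower_liftAlgebra
  Ideal.Quotient.field

section P1
variable (K0 : Type*) [Field K0] [IsAlgClosed K0]
variable (A : Type*) {B : Type*} [CommRing A] [CommRing B] [Algebra A B]
  [Algebra K0 A] [Algebra K0 B] [IsScalarTower K0 A B] [Algebra.IsIntegral A B]

theorem surjective_algebraMap_quotient_of_isAlgClosed
    (hresA : ∀ p : Ideal A, p.IsMaximal → Function.Surjective (algebraMap K0 (A ⧸ p)))
    (P : Ideal B) [P.IsMaximal] : Function.Surjective (algebraMap K0 (B ⧸ P)) := by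
  have hpmax : (P.under A).IsMaximal := Ideal.IsMaximal.under A P
  have : P.LiesOver (P.under A) := ⟨rfl⟩
  have h1 : Algebra.IsIntegral (A ⧸ P.under A) (B ⧸ P) := inferInstance
  have h2 : Algebra.IsIntegral K0 (A ⧸ P.under A) :=
    Algebra.isIntegral_of_surjective (hresA _ hpmax)
  have : IsScalarTower K0 (A ⧸ P.under A) (B ⧸ P) := by
    refine IsScalarTower.of_algebraMap_eq' ?_
    ext c
    simp only [RingHom.comp_apply]
    rw [IsScalarTower.algebraMap_apply K0 A (A ⧸ P.under A),
      IsScalarTower.algebraMap_apply K0 B (B ⧸ P), IsScalarTower.algebraMap_apply K0 A B]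
    rfl
  have h3 : Algebra.IsIntegral K0 (B ⧸ P) := Algebra.IsIntegral.trans (A ⧸ P.under A)
  let _ : Field (B ⧸ P) := Ideal.Quotient.field P
  exact (IsAlgClosed.algebraMap_bijective_of_isIntegral (k := K0) (K := B ⧸ P)).2
end P1

section PolyFacts
variable {K : Type*} [Field K]

theorem isMaximal_span_X_sub_C (c : K) : (span {X - C c} : Ideal K[X]).IsMaximal :=
  PrincipalIdealRing.isMaximal_of_irreducible (irreducible_X_sub_C c)

theorem span_X_sub_C_ne_bot (c : K) : (span {X - C c} : Ideal K[X]) ≠ ⊥ := by
  rw [Ne, span_singleton_eq_bot]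
  exact X_sub_C_ne_zero c

theorem span_X_sub_C_injective :
    Function.Injective (fun c : K => (span {X - C c} : Ideal K[X])) := by
  intro c c' h
  have h1 : X - C c' ∈ (span {X - C c} : Ideal K[X]) := by
    have : (span {X - C c} : Ideal K[X]) = span {X - C c'} := h
    rw [this]; exact mem_span_singleton_self _
  rw [mem_span_singleton, dvd_iff_isRoot, IsRoot, eval_sub, eval_X, eval_C, sub_eq_zero] at h1
  exact h1

theorem surjective_algebraMap_quotient_span_X_sub_C (c : K) :
    Function.Surjective (algebraMap K (K[X] ⧸ (span {X - C c} : Ideal K[X]))) := by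
  intro y
  obtain ⟨f, rfl⟩ := Ideal.Quotient.mk_surjective y
  refine ⟨f.eval c, ?_⟩
  rw [IsScalarTower.algebraMap_apply K K[X] (K[X] ⧸ (span {X - C c} : Ideal K[X])),
    Ideal.Quotient.algebraMap_eq, Ideal.Quotient.eq, ← neg_mem_iff, neg_sub,
    mem_span_singleton]
  exact X_sub_C_dvd_sub_C_eval

theorem exists_eq_span_X_sub_C [IsAlgClosed K] (p : Ideal K[X]) [hp : p.IsMaximal] :
    ∃ c : K, p = span {X - C c} := by
  have hp0 : p ≠ ⊥ := Ring.ne_bot_of_isMaximal_of_not_isField hp (Polynomial.not_isField K)
  obtain ⟨f, hf⟩ := (IsPrincipalIdealRing.principal p).principal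
  rw [Ideal.submodule_span_eq] at hf
  subst hf
  have hdeg : f.degree ≠ 0 := by
    intro h
    have hu : IsUnit f := isUnit_iff_degree_eq_zero.mpr h
    exact hp.ne_top (Ideal.span_singleton_eq_top.mpr hu)
  obtain ⟨c, hc⟩ := IsAlgClosed.exists_root f hdeg
  refine ⟨c, ?_⟩
  have hle : (span {f} : Ideal K[X]) ≤ span {X - C c} := by
    rw [span_singleton_le_span_singleton]
    exact dvd_iff_isRoot.mpr hc
  exact hp.eq_of_le (isMaximal_span_X_sub_C c).ne_top hle

end PolyFacts

section Poly

variable (K : Type*) [Field K] [IsAlgClosed K] [CharZero K]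
variable (B : Type*) [CommRing B] [IsDedekindDomain B] [Algebra K[X] B] [Algebra K B]
  [IsScalarTower K K[X] B] [Module.IsTorsionFree K[X] B] [Module.Finite K[X] B]

omit [CharZero K] [IsDedekindDomain B] [Module.IsTorsionFree K[X] B] in
/-- All residue fields of a finite `K[X]`-algebra are `K` (`K` algebraically closed). -/
theorem poly_hres (P : Ideal B) (hP : P.IsMaximal) :
    Function.Surjective (algebraMap K (B ⧸ P)) := by
  refine surjective_algebraMap_quotient_of_isAlgClosed K K[X] ?_ P
  intro p hp
  obtain ⟨c, rfl⟩ := exists_eq_span_X_sub_C p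
  exact surjective_algebraMap_quotient_span_X_sub_C c

variable [Algebra.IsSeparable (FractionRing K[X]) (FractionRing B)]

/-- **(P2)** `A = K[X]`: `deg 𝔇 = ∑_{c ∈ S} (n - #{P ∣ (X - c)})` if `B` is unramified over all
`c ∉ S` (in the form `#{P ∣ (X - c)} = n`). -/
theorem poly_card_normalizedFactors_differentIdeal (S : Finset K)
    (hS : ∀ c ∉ S, (IsDedekindDomain.primesOverFinset (span {X - C c} : Ideal K[X]) B).card
      = finrank K[X] B) :
    (Multiset.card (normalizedFactors (differentIdeal K[X] B)) : ℤ)
      = ∑ c ∈ S, ((finrank K[X] B : ℤ)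
          - (IsDedekindDomain.primesOverFinset (span {X - C c} : Ideal K[X]) B).card) := by
  classical
  have h := card_normalizedFactors_differentIdeal' K K[X] B (poly_hres K B)
    (S.image (fun c : K => (span {X - C c} : Ideal K[X]))) ?_ ?_
  · rw [h, Finset.sum_image (fun c _ c' _ hcc => span_X_sub_C_injective hcc)]
  · intro p hp
    obtain ⟨c, _, rfl⟩ := Finset.mem_image.mp hp
    exact ⟨isMaximal_span_X_sub_C c, span_X_sub_C_ne_bot c⟩
  · intro p hpmax _ hpS
    obtain ⟨c, rfl⟩ := exists_eq_span_X_sub_C p
    refine hS c fun hc => hpS ?_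
    exact Finset.mem_image.mpr ⟨c, hc, rfl⟩

/-- (P2) + (RING): `dim_K (B ⧸ 𝔇) = ∑_{c ∈ S} (n - #{P ∣ (X - c)})`. -/
theorem poly_finrank_quotient_differentIdeal
    (hring : finrank K (B ⧸ differentIdeal K[X] B)
      = Multiset.card (normalizedFactors (differentIdeal K[X] B)))
    (S : Finset K)
    (hS : ∀ c ∉ S, (IsDedekindDomain.primesOverFinset (span {X - C c} : Ideal K[X]) B).card
      = finrank K[X] B) :
    (finrank K (B ⧸ differentIdeal K[X] B) : ℤ)
      = ∑ c ∈ S, ((finrank K[X] B : ℤ)
          - (IsDedekindDomain.primesOverFinset (span {X - C c} : Ideal K[X]) B).card) := by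
  rw [hring]
  exact poly_card_normalizedFactors_differentIdeal K B S hS

end Poly

section DVR

variable (K0 : Type*) [Field K0] [IsAlgClosed K0] [CharZero K0]
variable (A : Type*) (B : Type*) [CommRing A] [IsDomain A] [IsDiscreteValuationRing A]
  [CommRing B] [IsDedekindDomain B] [Algebra A B] [Algebra K0 A] [Algebra K0 B]
  [IsScalarTower K0 A B] [Module.IsTorsionFree A B] [Module.Finite A B]

omit [CharZero K0] [IsDedekindDomain B] [Module.IsTorsionFree A B] [IsDomain A]
  [IsDiscreteValuationRing A] in
/-- All residue fields of a finite algebra over a local ring with residue field `K0` are `K0`. -/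
theorem local_hres [IsLocalRing A]
    (hA : Function.Surjective (algebraMap K0 (A ⧸ IsLocalRing.maximalIdeal A)))
    (P : Ideal B) (hP : P.IsMaximal) :
    Function.Surjective (algebraMap K0 (B ⧸ P)) := by
  refine surjective_algebraMap_quotient_of_isAlgClosed K0 A ?_ P
  intro p hp
  obtain rfl := IsLocalRing.eq_maximalIdeal hp
  exact hA

variable [Algebra.IsSeparable (FractionRing A) (FractionRing B)]

/-- **(P3)** `A` a discrete valuation ring with residue field `K0` (the place at infinity):
`deg 𝔇 = n - #{P ∣ 𝔪}`. -/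
theorem dvr_card_normalizedFactors_differentIdeal
    (hA : Function.Surjective (algebraMap K0 (A ⧸ IsLocalRing.maximalIdeal A))) :
    (Multiset.card (normalizedFactors (differentIdeal A B)) : ℤ)
      = (finrank A B : ℤ)
          - (IsDedekindDomain.primesOverFinset (IsLocalRing.maximalIdeal A) B).card := by
  classical
  have h := card_normalizedFactors_differentIdeal' K0 A B (local_hres K0 A B hA)
    {IsLocalRing.maximalIdeal A} ?_ ?_
  · rw [h, Finset.sum_singleton]
  · intro p hp
    rw [Finset.mem_singleton] at hp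
    subst hp
    exact ⟨inferInstance, IsDiscreteValuationRing.not_a_field A⟩
  · intro p hpmax _ hpS
    exact absurd (Finset.mem_singleton.mpr (IsLocalRing.eq_maximalIdeal hpmax)) hpS

/-- (P3) + (RING). -/
theorem dvr_finrank_quotient_differentIdeal
    (hA : Function.Surjective (algebraMap K0 (A ⧸ IsLocalRing.maximalIdeal A)))
    (hring : finrank K0 (B ⧸ differentIdeal A B)
      = Multiset.card (normalizedFactors (differentIdeal A B))) :
    (finrank K0 (B ⧸ differentIdeal A B) : ℤ)
      = (finrank A B : ℤ)
          - (IsDedekindDomain.primesOverFinset (IsLocalRing.maximalIdeal A) B).card := by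
  rw [hring]
  exact dvr_card_normalizedFactors_differentIdeal K0 A B hA

end DVR

end Fermat.Agent.S20.RamCountPoly
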