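import Mathlib
import Fermat.Agent.S20.TameDiff79

/-!
# S20 / DW-a supplement (helper79): valuation criterion for the trace dual in the tame case

`f ∈ traceDual A K (1 : Submodule B L)  ↔  ∀ P, ord_P f ≥ -(e_P - 1)`.
-/

set_option autoImplicit false
set_option linter.unusedSectionVars false

open Algebra IsDedekindDomain IsDedekindDomain.HeightOneSpectrum nonZeroDivisors

namespace Fermat.Agent.S20.TameDual79

attribute [local instance] FractionRing.liftAlgebra FractionRing.isScalarTower_liftAlgebra
  Ideal.Quotient.field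

variable (A K L B : Type*) [CommRing A] [Field K] [CommRing B] [Field L]
  [Algebra A K] [Algebra B L] [Algebra A B] [Algebra K L] [Algebra A L]
  [IsScalarTower A K L] [IsScalarTower A B L]
  [IsFractionRing A K] [IsFractionRing B L]
  [IsDedekindDomain A] [IsDedekindDomain B]
  [Module.IsTorsionFree A B] [Module.Finite A B]
  [FiniteDimensional K L] [Algebra.IsSeparable K L]

include K L in
/-- transport of separability to the canonical fraction fields -/
theorem isSeparable_fractionRing :
    Algebra.IsSeparable (FractionRing A) (FractionRing B) := by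
  have H : RingHom.comp (algebraMap (FractionRing A) (FractionRing B))
      ↑(FractionRing.algEquiv A K).symm.toRingEquiv =
        RingHom.comp ↑(FractionRing.algEquiv B L).symm.toRingEquiv (algebraMap K L) := by
    apply IsLocalization.ringHom_ext A⁰
    ext
    simp only [RingHom.coe_comp, RingHom.coe_coe,
      AlgEquiv.coe_ringEquiv, Function.comp_apply, AlgEquiv.commutes,
      ← IsScalarTower.algebraMap_apply]
    rw [IsScalarTower.algebraMap_apply A B L, AlgEquiv.commutes, ← IsScalarTower.algebraMap_apply]
  exact Algebra.IsSeparable.of_equiv_equiv _ _ H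

/-- Step 1: membership in the trace dual of `B` is membership in the inverse different. -/
theorem mem_traceDual_one_iff_mul_mem (f : L) :
    f ∈ Submodule.traceDual A K (1 : Submodule B L) ↔
      ∀ d ∈ differentIdeal A B, f * algebraMap B L d ∈ (algebraMap B L).range := by
  have hsep : Algebra.IsSeparable (FractionRing A) (FractionRing B) :=
    isSeparable_fractionRing A K L B
  have hne : ((differentIdeal A B : Ideal B) : FractionalIdeal B⁰ L) ≠ 0 := by
    rw [ne_eq, FractionalIdeal.coeIdeal_eq_zero]
    exact differentIdeal_ne_bot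
  rw [← FractionalIdeal.coe_dual_one, FractionalIdeal.mem_coe,
    ← inv_inv (FractionalIdeal.dual A K (1 : FractionalIdeal B⁰ L)),
    ← coeIdeal_differentIdeal A K L B, FractionalIdeal.mem_inv_iff hne]
  constructor
  · intro h d hd
    have := h (algebraMap B L d) ((FractionalIdeal.mem_coeIdeal _).mpr ⟨d, hd, rfl⟩)
    rw [FractionalIdeal.mem_one_iff] at this
    obtain ⟨b, hb⟩ := this
    exact ⟨b, hb⟩
  · intro h y hy
    obtain ⟨d, hd, rfl⟩ := (FractionalIdeal.mem_coeIdeal _).mp hy
    obtain ⟨b, hb⟩ := h d hd
    rw [FractionalIdeal.mem_one_iff]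
    exact ⟨b, hb⟩

include K L in
/-- exact `P`-adic valuation of the different in the tame case -/
theorem different_intValuation
    (P : HeightOneSpectrum B) [CharZero (A ⧸ P.asIdeal.under A)] :
    (∀ d ∈ differentIdeal A B,
        P.intValuation d ≤ WithZero.exp (-((P.asIdeal.ramificationIdx A : ℤ) - 1))) ∧
      ∃ d ∈ differentIdeal A B,
        P.intValuation d = WithZero.exp (-((P.asIdeal.ramificationIdx A : ℤ) - 1)) := by
  have hsep : Algebra.IsSeparable (FractionRing A) (FractionRing B) :=
    isSeparable_fractionRing A K L B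
  set p := P.asIdeal.under A with hpdef
  have hPbot : P.asIdeal ≠ ⊥ := P.ne_bot
  have hp : p ≠ ⊥ := mt Ideal.eq_bot_of_comap_eq_bot hPbot
  have hpmax : p.IsMaximal := Ideal.IsPrime.isMaximal inferInstance hp
  have hp' : p.map (algebraMap A B) ≠ ⊥ := (Ideal.map_eq_bot_iff_of_injective
    (FaithfulSMul.algebraMap_injective A B)).not.mpr hp
  set e := P.asIdeal.ramificationIdx A with hedef
  have he : e = multiplicity P.asIdeal (p.map (algebraMap A B)) :=
    Ideal.IsDedekindDomain.ramificationIdx_eq_multiplicity p P.asIdeal hp'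
  have he0 : e ≠ 0 := (Ideal.ramificationIdx_pos P.asIdeal A).ne'
  have hfin : FiniteMultiplicity P.asIdeal (p.map (algebraMap A B)) :=
    FiniteMultiplicity.of_not_isUnit (by
      rw [Ideal.isUnit_iff]; exact P.isPrime.ne_top) hp'
  have he1 : P.asIdeal ^ e ∣ p.map (algebraMap A B) := by
    rw [he]; exact pow_multiplicity_dvd _ _
  have he2 : ¬ P.asIdeal ^ (e + 1) ∣ p.map (algebraMap A B) := by
    rw [he]; exact hfin.not_pow_dvd_of_multiplicity_lt (Nat.lt_succ_self _)
  have hdiv : P.asIdeal ^ (e - 1) ∣ differentIdeal A B :=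
    pow_sub_one_dvd_differentIdeal A P.asIdeal e hp he1
  have hndiv : ¬ P.asIdeal ^ e ∣ differentIdeal A B :=
    TameDiff79.not_pow_dvd_differentIdeal A P.asIdeal hPbot he0 he1 he2
  have hcast : (-((e : ℤ) - 1)) = -(((e - 1 : ℕ) : ℤ)) := by
    have : 1 ≤ e := Nat.one_le_iff_ne_zero.mpr he0
    push_cast [Nat.cast_sub this]; ring
  have hle : ∀ d ∈ differentIdeal A B,
      P.intValuation d ≤ WithZero.exp (-((e : ℤ) - 1)) := by
    intro d hd
    rw [hcast, intValuation_le_pow_iff_mem]
    exact (Ideal.dvd_iff_le.mp hdiv) hd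
  refine ⟨hle, ?_⟩
  rw [Ideal.dvd_iff_le, SetLike.not_le_iff_exists] at hndiv
  obtain ⟨d, hd, hdn⟩ := hndiv
  refine ⟨d, hd, le_antisymm (hle d hd) ?_⟩
  rw [← intValuation_le_pow_iff_mem] at hdn
  have hd0 : P.intValuation d ≠ 0 := by
    intro h0; apply hdn; rw [h0]; exact zero_le
  obtain ⟨k, hk⟩ : ∃ k : ℤ, P.intValuation d = WithZero.exp k :=
    ⟨WithZero.log (P.intValuation d), (WithZero.exp_log hd0).symm⟩
  rw [hk, WithZero.exp_le_exp] at hdn ⊢
  omega

/-- **Tame trace dual**: if all residue characteristics are zero then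
`f ∈ traceDual A K (1 : Submodule B L)` iff `ord_P f ≥ -(e_P - 1)` for all primes `P` of `B`. -/
theorem mem_traceDual_one_iff_valuation
    (htame : ∀ P : HeightOneSpectrum B, CharZero (A ⧸ P.asIdeal.under A)) (f : L) :
    f ∈ Submodule.traceDual A K (1 : Submodule B L) ↔
      ∀ P : HeightOneSpectrum B,
        P.valuation L f ≤ WithZero.exp ((P.asIdeal.ramificationIdx A : ℤ) - 1) := by
  rw [mem_traceDual_one_iff_mul_mem]
  constructor
  · intro h P
    have := htame P
    obtain ⟨-, d, hd, hval⟩ := different_intValuation A K L B P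
    obtain ⟨b, hb⟩ := h d hd
    have h1 : P.valuation L (f * algebraMap B L d) ≤ 1 := by
      rw [← hb]; exact P.valuation_le_one b
    rw [map_mul, valuation_of_algebraMap, hval] at h1
    have h2 : P.valuation L f = P.valuation L f *
        WithZero.exp (-((P.asIdeal.ramificationIdx A : ℤ) - 1)) *
        WithZero.exp ((P.asIdeal.ramificationIdx A : ℤ) - 1) := by
      rw [mul_assoc, ← WithZero.exp_add]; simp
    rw [h2]
    calc _ ≤ 1 * WithZero.exp ((P.asIdeal.ramificationIdx A : ℤ) - 1) :=
          mul_le_mul_left h1 _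
      _ = _ := one_mul _
  · intro h d hd
    apply mem_integers_of_valuation_le_one
    intro P
    have := htame P
    obtain ⟨hle, -⟩ := different_intValuation A K L B P
    rw [map_mul, valuation_of_algebraMap]
    calc P.valuation L f * P.intValuation d
        ≤ WithZero.exp ((P.asIdeal.ramificationIdx A : ℤ) - 1) *
          WithZero.exp (-((P.asIdeal.ramificationIdx A : ℤ) - 1)) :=
          mul_le_mul' (h P) (hle d hd)
      _ = 1 := by rw [← WithZero.exp_add]; simp

/-- Version with a characteristic-zero base field `k ⊆ A` (e.g. `A = k[X]` or the valuation ring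
at infinity of `k(X)`): tameness is automatic. -/
theorem mem_traceDual_one_iff_valuation_of_field (k : Type*) [Field k] [CharZero k] [Algebra k A]
    (f : L) :
    f ∈ Submodule.traceDual A K (1 : Submodule B L) ↔
      ∀ P : HeightOneSpectrum B,
        P.valuation L f ≤ WithZero.exp ((P.asIdeal.ramificationIdx A : ℤ) - 1) :=
  mem_traceDual_one_iff_valuation A K L B
    (fun P => TameDiff79.charZero_quotient_of_field_algebra k _
      (Ideal.IsPrime.ne_top inferInstance)) f

end Fermat.Agent.S20.TameDual79
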