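import Mathlib
import Fermat.Agent.S20.NormalBasis
import Fermat.Agent.S24.PlaceDedekind
import Fermat.Agent.S24.PlaceLocal
import Fermat.Agent.S24.Defs

/-!
# S20 / T1-GLUE, step (ii)-infinity (helper69)

The valuation ring at infinity `O_∞` of `k(X)` is a discrete valuation ring; its integral closure
`B_∞` in a finite separable extension `F` is a Dedekind domain whose height one primes are exactly
the places of `F` over `X = ∞`.
-/

set_option autoImplicit false

open Polynomial IsDedekindDomain AlgebraicCurve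
open scoped Classical

noncomputable section

namespace Fermat.Agent.S20.T1Inf69

open Fermat.Agent.S20.NormalBasis

variable {k : Type*} [Field k]

/-- Shortcut instance: without it, the search for `SMul O_∞ k(X)` wanders through the
localization instances of `RatFunc` and takes more than a second (or times out). -/
instance instSMulOinfRatFunc : SMul (Oinf k) (RatFunc k) := Algebra.toSMul

/-! ### (INF0) `O_∞` is a discrete valuation ring -/

theorem intDegree_X_inv : ((RatFunc.X : RatFunc k)⁻¹).intDegree = -1 := by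
  rw [RatFunc.intDegree_inv, RatFunc.intDegree_X]

theorem X_inv_mem_Oinf : (RatFunc.X : RatFunc k)⁻¹ ∈ Oinf k := by
  rw [mem_Oinf_iff]; right; rw [intDegree_X_inv]; norm_num

/-- The uniformizer `X⁻¹` of `O_∞`. -/
def piInf : Oinf k := ⟨(RatFunc.X : RatFunc k)⁻¹, X_inv_mem_Oinf⟩

@[simp] theorem coe_piInf : ((piInf : Oinf k) : RatFunc k) = (RatFunc.X : RatFunc k)⁻¹ := rfl

theorem piInf_ne_zero : (piInf : Oinf k) ≠ 0 := by
  intro h
  have := congrArg (Subtype.val) h
  simp [RatFunc.X_ne_zero] at this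

/-- An element of `O_∞` of degree `0` is a unit. -/
theorem isUnit_of_intDegree_eq_zero {f : Oinf k} (hf : (f : RatFunc k) ≠ 0)
    (hd : (f : RatFunc k).intDegree = 0) : IsUnit f := by
  have hinv : (f : RatFunc k)⁻¹ ∈ Oinf k := by
    rw [mem_Oinf_iff]; right; rw [RatFunc.intDegree_inv, hd]; norm_num
  refine IsUnit.of_mul_eq_one ⟨(f : RatFunc k)⁻¹, hinv⟩ ?_
  ext
  simp [hf]

theorem intDegree_eq_zero_of_isUnit {f : Oinf k} (hf : IsUnit f) :
    (f : RatFunc k).intDegree = 0 := by
  obtain ⟨u, rfl⟩ := hf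
  have h1 : ((u : Oinf k) : RatFunc k) * ((u⁻¹ : (Oinf k)ˣ) : Oinf k) = 1 :=
    congrArg Subtype.val u.mul_inv
  have hu0 : ((u : Oinf k) : RatFunc k) ≠ 0 := left_ne_zero_of_mul_eq_one h1
  have hv0 : (((u⁻¹ : (Oinf k)ˣ) : Oinf k) : RatFunc k) ≠ 0 := right_ne_zero_of_mul_eq_one h1
  have hadd := RatFunc.intDegree_mul hu0 hv0
  rw [h1, RatFunc.intDegree_one] at hadd
  have h2 := (mem_Oinf_iff.mp (u : Oinf k).2).resolve_left hu0
  have h3 := (mem_Oinf_iff.mp ((u⁻¹ : (Oinf k)ˣ) : Oinf k).2).resolve_left hv0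
  omega

theorem not_isUnit_piInf : ¬ IsUnit (piInf : Oinf k) := by
  intro h
  have := intDegree_eq_zero_of_isUnit h
  rw [coe_piInf, intDegree_X_inv] at this
  omega

theorem irreducible_piInf : Irreducible (piInf : Oinf k) := by
  refine ⟨not_isUnit_piInf, fun a b hab => ?_⟩
  have hab' : (RatFunc.X : RatFunc k)⁻¹ = (a : RatFunc k) * (b : RatFunc k) := by
    have := congrArg Subtype.val hab
    simpa using this
  have hX : (RatFunc.X : RatFunc k)⁻¹ ≠ 0 := inv_ne_zero RatFunc.X_ne_zero
  have ha0 : (a : RatFunc k) ≠ 0 := fun h => hX (by rw [hab', h, zero_mul])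
  have hb0 : (b : RatFunc k) ≠ 0 := fun h => hX (by rw [hab', h, mul_zero])
  have hdeg := RatFunc.intDegree_mul ha0 hb0
  rw [← hab', intDegree_X_inv] at hdeg
  have h2 := (mem_Oinf_iff.mp a.2).resolve_left ha0
  have h3 := (mem_Oinf_iff.mp b.2).resolve_left hb0
  by_cases h : (a : RatFunc k).intDegree = 0
  · exact Or.inl (isUnit_of_intDegree_eq_zero ha0 h)
  · exact Or.inr (isUnit_of_intDegree_eq_zero hb0 (by omega))

theorem associated_piInf_pow {f : Oinf k} (hf : f ≠ 0) :
    ∃ n : ℕ, Associated (piInf ^ n) f ∧ (f : RatFunc k).intDegree = -(n : ℤ) := by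
  have hf0 : (f : RatFunc k) ≠ 0 := fun h => hf (Subtype.ext h)
  have hd := (mem_Oinf_iff.mp f.2).resolve_left hf0
  obtain ⟨n, hn⟩ := Int.eq_ofNat_of_zero_le (neg_nonneg.mpr hd)
  refine ⟨n, ?_, by omega⟩
  have hXn : ((RatFunc.X : RatFunc k) ^ n) ≠ 0 := pow_ne_zero _ RatFunc.X_ne_zero
  have hdeg : ((f : RatFunc k) * (RatFunc.X : RatFunc k) ^ n).intDegree = 0 := by
    rw [RatFunc.intDegree_mul hf0 hXn, ← zpow_natCast, intDegree_X_zpow]; omega
  have hmem : (f : RatFunc k) * (RatFunc.X : RatFunc k) ^ n ∈ Oinf k := by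
    rw [mem_Oinf_iff]; right; rw [hdeg]
  have hu : IsUnit (⟨_, hmem⟩ : Oinf k) :=
    isUnit_of_intDegree_eq_zero (mul_ne_zero hf0 hXn) hdeg
  obtain ⟨u, hu'⟩ := hu
  refine ⟨u, ?_⟩
  rw [hu']
  ext
  simp only [MulMemClass.coe_mul, SubmonoidClass.coe_pow, coe_piInf, inv_pow]
  field_simp

instance : IsDiscreteValuationRing (Oinf k) :=
  IsDiscreteValuationRing.ofHasUnitMulPowIrreducibleFactorization
    ⟨piInf, irreducible_piInf, fun hx => (associated_piInf_pow hx).imp fun _ h => h.1⟩

theorem mInf_eq_maximalIdeal : (mInf : Ideal (Oinf k)) = IsLocalRing.maximalIdeal (Oinf k) := by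
  ext f
  rw [mem_mInf, IsLocalRing.mem_maximalIdeal, mem_nonunits_iff]
  constructor
  · rintro (h | h) hu
    · exact hu.ne_zero (Subtype.ext h)
    · have := intDegree_eq_zero_of_isUnit hu
      omega
  · intro hnu
    by_cases h0 : (f : RatFunc k) = 0
    · exact Or.inl h0
    · right
      have hle := (mem_Oinf_iff.mp f.2).resolve_left h0
      by_contra hlt
      exact hnu (isUnit_of_intDegree_eq_zero h0 (by omega))

theorem mInf_eq_span : (mInf : Ideal (Oinf k)) = Ideal.span {piInf} := by
  rw [mInf_eq_maximalIdeal]; exact irreducible_piInf.maximalIdeal_eq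

instance isMaximal_mInf : (mInf : Ideal (Oinf k)).IsMaximal := by
  rw [mInf_eq_maximalIdeal]; infer_instance

theorem mInf_ne_bot : (mInf : Ideal (Oinf k)) ≠ ⊥ := by
  rw [mInf_eq_span, Ne, Ideal.span_singleton_eq_bot]; exact piInf_ne_zero

/-! ### Valuation subrings of an extension of `k(X)` -/

section ValSub

variable {F : Type*} [Field F] [Algebra (RatFunc k) F] [Algebra k F]
  [IsScalarTower k (RatFunc k) F]

/-- Integral elements over a ring mapping into a valuation subring lie in it. -/
theorem mem_valuationSubring_of_isIntegral {R : Type*} [CommRing R] [Algebra R F]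
    (V : ValuationSubring F) (h : ∀ r : R, algebraMap R F r ∈ V) {f : F}
    (hf : IsIntegral R f) : f ∈ V := by
  let φ : R →+* V := (algebraMap R F).codRestrict V.toSubring h
  have hφ : (algebraMap V F).comp φ = algebraMap R F := by
    ext r; rfl
  have hint : IsIntegral V f := by
    obtain ⟨p, hp, hpf⟩ := hf
    refine ⟨p.map φ, hp.map φ, ?_⟩
    rw [Polynomial.eval₂_map, hφ]
    exact hpf
  obtain ⟨y, hy⟩ := IsIntegrallyClosed.isIntegral_iff.mp hint
  rw [← hy]
  exact y.2

/-- The restriction to `k(X)` of the valuation of a valuation subring of `F`. -/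
def wOf (V : ValuationSubring F) : Valuation (RatFunc k) V.ValueGroup :=
  V.valuation.comap (algebraMap (RatFunc k) F)

omit [Algebra k F] [IsScalarTower k (RatFunc k) F] in
theorem wOf_apply (V : ValuationSubring F) (r : RatFunc k) :
    wOf V r = V.valuation (algebraMap (RatFunc k) F r) := rfl

omit [Algebra k F] [IsScalarTower k (RatFunc k) F] in
theorem wOf_le_one_iff (V : ValuationSubring F) (r : RatFunc k) :
    wOf V r ≤ 1 ↔ algebraMap (RatFunc k) F r ∈ V := by
  rw [wOf_apply, ValuationSubring.valuation_le_one_iff]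

theorem isTrivialOn_wOf (V : ValuationSubring F) (hK : ∀ c : k, algebraMap k F c ∈ V) :
    (wOf (k := k) V).IsTrivialOn k := by
  refine ⟨fun c hc => ?_⟩
  have h1 : wOf V (algebraMap k (RatFunc k) c) ≤ 1 := by
    rw [wOf_le_one_iff, ← IsScalarTower.algebraMap_apply]; exact hK c
  have h2 : wOf V (algebraMap k (RatFunc k) c⁻¹) ≤ 1 := by
    rw [wOf_le_one_iff, ← IsScalarTower.algebraMap_apply]; exact hK c⁻¹
  have h3 : wOf V (algebraMap k (RatFunc k) c) * wOf V (algebraMap k (RatFunc k) c⁻¹) = 1 := by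
    rw [← map_mul, ← map_mul, mul_inv_cancel₀ hc, map_one, map_one]
  refine le_antisymm h1 ?_
  by_contra hlt
  rw [not_le] at hlt
  have : wOf V (algebraMap k (RatFunc k) c) * wOf V (algebraMap k (RatFunc k) c⁻¹) < 1 := by
    calc _ ≤ wOf V (algebraMap k (RatFunc k) c) * 1 := by gcongr
      _ < 1 := by rwa [mul_one]
  exact absurd h3 this.ne

/-- If `x ∉ V` then `O_∞ ⊆ V`. -/
theorem algebraMap_mem_of_mem_Oinf (V : ValuationSubring F) (hK : ∀ c : k, algebraMap k F c ∈ V)
    (hx : algebraMap (RatFunc k) F RatFunc.X ∉ V) {r : RatFunc k} (hr : r ∈ Oinf k) :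
    algebraMap (RatFunc k) F r ∈ V := by
  have := isTrivialOn_wOf V hK
  rcases eq_or_ne r 0 with rfl | hr0
  · rw [map_zero]; exact V.zero_mem
  have hlt : 1 < wOf V (RatFunc.X : RatFunc k) := by
    rw [← not_le, wOf_le_one_iff]; exact hx
  rw [← wOf_le_one_iff, RatFunc.valuation_eq_valuation_X_zpow_intDegree_of_one_lt_valuation_X hlt hr0]
  have hd := (mem_Oinf_iff.mp hr).resolve_left hr0
  obtain ⟨n, hn⟩ := Int.eq_ofNat_of_zero_le (neg_nonneg.mpr hd)
  have : r.intDegree = -(n : ℤ) := by omega
  rw [this, zpow_neg, zpow_natCast]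
  exact inv_le_one_of_one_le₀ (one_le_pow₀ hlt.le)

/-- If `x ∈ V` and `O_∞ ⊆ V` then `k(X) ⊆ V`. -/
theorem algebraMap_mem_of_X_mem (V : ValuationSubring F) (hK : ∀ c : k, algebraMap k F c ∈ V)
    (hx : algebraMap (RatFunc k) F RatFunc.X ∈ V)
    (hO : ∀ r : RatFunc k, r ∈ Oinf k → algebraMap (RatFunc k) F r ∈ V) (r : RatFunc k) :
    algebraMap (RatFunc k) F r ∈ V := by
  have htriv := isTrivialOn_wOf V hK
  have hXle : wOf V (RatFunc.X : RatFunc k) ≤ 1 := (wOf_le_one_iff V _).mpr hx
  have hXinv : wOf V ((RatFunc.X : RatFunc k)⁻¹) ≤ 1 :=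
    (wOf_le_one_iff V _).mpr (hO _ X_inv_mem_Oinf)
  rw [← wOf_le_one_iff]
  have hq0 : r.denom ≠ 0 := r.denom_ne_zero
  have hq0' : (algebraMap k[X] (RatFunc k) r.denom) ≠ 0 := by
    rw [Ne, map_eq_zero_iff _ (IsFractionRing.injective k[X] (RatFunc k))]; exact hq0
  set n := r.denom.natDegree with hn
  -- `X^n / q` lies in `O_∞`
  have hmem : (RatFunc.X : RatFunc k) ^ n * (algebraMap k[X] (RatFunc k) r.denom)⁻¹ ∈ Oinf k := by
    rw [mem_Oinf_iff]; right
    rw [RatFunc.intDegree_mul (pow_ne_zero _ RatFunc.X_ne_zero) (inv_ne_zero hq0'),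
      RatFunc.intDegree_inv, RatFunc.intDegree_polynomial, ← zpow_natCast, intDegree_X_zpow]
    omega
  have h1 : wOf V ((RatFunc.X : RatFunc k) ^ n * (algebraMap k[X] (RatFunc k) r.denom)⁻¹) ≤ 1 :=
    (wOf_le_one_iff V _).mpr (hO _ hmem)
  have h2 : wOf V ((algebraMap k[X] (RatFunc k) r.denom)⁻¹) ≤ 1 := by
    have : (algebraMap k[X] (RatFunc k) r.denom)⁻¹ =
        ((RatFunc.X : RatFunc k) ^ n * (algebraMap k[X] (RatFunc k) r.denom)⁻¹) *
          ((RatFunc.X : RatFunc k)⁻¹) ^ n := by
      rw [mul_right_comm, ← mul_pow, mul_inv_cancel₀ RatFunc.X_ne_zero, one_pow, one_mul]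
    rw [this, map_mul, map_pow]
    exact mul_le_one' h1 (pow_le_one' hXinv n)
  have h3 : wOf V (algebraMap k[X] (RatFunc k) r.num) ≤ 1 :=
    Polynomial.valuation_le_one_of_valuation_X_le_one (K := k) (v := wOf V) hXle r.num
  have hr : r = algebraMap k[X] (RatFunc k) r.num * (algebraMap k[X] (RatFunc k) r.denom)⁻¹ := by
    rw [← div_eq_mul_inv, RatFunc.num_div_denom]
  rw [hr, map_mul]
  exact mul_le_one' h3 h2

/-- **(INF2)** For a valuation subring `V ≠ ⊤` of `F` containing the constants, `V` contains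
`O_∞` iff `x ∉ V`. -/
theorem Oinf_le_iff [Algebra.IsIntegral (RatFunc k) F] (V : ValuationSubring F)
    (hK : ∀ c : k, algebraMap k F c ∈ V) (hV : V ≠ ⊤) :
    (∀ r : RatFunc k, r ∈ Oinf k → algebraMap (RatFunc k) F r ∈ V) ↔
      algebraMap (RatFunc k) F RatFunc.X ∉ V := by
  refine ⟨fun hO hx => hV ?_, fun hx r hr => algebraMap_mem_of_mem_Oinf V hK hx hr⟩
  refine SetLike.ext fun f => ⟨fun _ => ValuationSubring.mem_top f, fun _ => ?_⟩
  exact mem_valuationSubring_of_isIntegral V (algebraMap_mem_of_X_mem V hK hx hO)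
    (Algebra.IsIntegral.isIntegral (R := RatFunc k) f)

end ValSub

/-! ### (INF1) The integral closure `B_∞` of `O_∞` -/

section Binf

variable (k) (F : Type*) [Field F] [Algebra (RatFunc k) F]
  [Algebra (Oinf k) F] [IsScalarTower (Oinf k) (RatFunc k) F]

/-- The integral closure of `O_∞` in `F`. -/
abbrev Binf : Subalgebra (Oinf k) F := integralClosure (Oinf k) F

variable {k F}

theorem algebraMap_Oinf_eq (r : Oinf k) :
    algebraMap (Oinf k) F r = algebraMap (RatFunc k) F (r : RatFunc k) :=
  IsScalarTower.algebraMap_apply (Oinf k) (RatFunc k) F r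

instance isTorsionFree_Oinf : Module.IsTorsionFree (Oinf k) F := by
  refine Module.IsTorsionFree.of_smul_eq_zero fun r m h => ?_
  rw [Algebra.smul_def, algebraMap_Oinf_eq, mul_eq_zero] at h
  rcases h with h | h
  · left
    rw [map_eq_zero] at h
    exact Subtype.ext h
  · exact Or.inr h

variable [FiniteDimensional (RatFunc k) F] [Algebra.IsSeparable (RatFunc k) F]

instance isDedekindDomain_Binf : IsDedekindDomain (Binf k F) :=
  integralClosure.isDedekindDomain (Oinf k) (RatFunc k) F

instance isFractionRing_Binf : IsFractionRing (Binf k F) F :=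
  integralClosure.isFractionRing_of_finite_extension (RatFunc k) F

instance finite_Binf : Module.Finite (Oinf k) (Binf k F) :=
  IsIntegralClosure.finite (Oinf k) (RatFunc k) F (Binf k F)

instance free_Binf : Module.Free (Oinf k) (Binf k F) :=
  IsIntegralClosure.module_free (Oinf k) (RatFunc k) F (Binf k F)

theorem finrank_Binf : Module.finrank (Oinf k) (Binf k F) = Module.finrank (RatFunc k) F :=
  IsIntegralClosure.rank (Oinf k) (RatFunc k) F (Binf k F)

variable [Algebra k F] [IsScalarTower k (RatFunc k) F]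

omit [FiniteDimensional (RatFunc k) F] in
/-- **(INF2)** For a valuation subring `V ≠ ⊤` of `F` containing the constants, `V` contains
`B_∞` iff `x ∉ V`. -/
theorem Binf_le_iff (V : ValuationSubring F)
    (hK : ∀ c : k, algebraMap k F c ∈ V) (hV : V ≠ ⊤) :
    (∀ b : Binf k F, (b : F) ∈ V) ↔ algebraMap (RatFunc k) F RatFunc.X ∉ V := by
  rw [← Oinf_le_iff V hK hV]
  constructor
  · intro h r hr
    have h1 := h ⟨algebraMap (Oinf k) F ⟨r, hr⟩, Subalgebra.algebraMap_mem _ _⟩
    have h2 : algebraMap (Oinf k) F ⟨r, hr⟩ = algebraMap (RatFunc k) F r :=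
      algebraMap_Oinf_eq ⟨r, hr⟩
    rw [← h2]
    exact h1
  · intro h b
    refine mem_valuationSubring_of_isIntegral (R := Oinf k) V (fun r => ?_) b.2
    rw [algebraMap_Oinf_eq]
    exact h _ r.2

/-- **(INF3, valuation form)** every height one prime of `B_∞` is a pole of `x`. -/
theorem one_lt_valuation_X [Algebra k (Oinf k)] [IsScalarTower k (Oinf k) F]
    (w : HeightOneSpectrum (Binf k F)) :
    1 < w.valuation F (algebraMap (RatFunc k) F RatFunc.X) := by
  set v : Place k F := Place.ofHeightOneSpectrum (K := k) w with hv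
  have h := (Binf_le_iff (k := k) v.toValuationSubring v.algebraMap_mem' v.ne_top').mp
    (fun b => w.valuation_le_one b)
  rw [hv, Place.ofHeightOneSpectrum_toValuationSubring, Valuation.mem_valuationSubring_iff,
    not_le] at h
  exact h

/-! ### (INF3) Height one primes of `B_∞` = places over `x = ∞` -/

variable [Algebra k (Oinf k)] [IsScalarTower k (Oinf k) F]

open Fermat.Agent.S24 Fermat.Agent.S24.PlaceDedekind Fermat.Agent.S24.PlaceLocal

/-- The place of `F / k` attached to a height one prime of `B_∞`. -/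
def placeOf (w : HeightOneSpectrum (Binf k F)) : Place k F :=
  Place.ofHeightOneSpectrum (K := k) w

omit [IsScalarTower k (RatFunc k) F] in
theorem ord_placeOf (w : HeightOneSpectrum (Binf k F)) (f : F) :
    (placeOf w).ord f = -WithZero.log (w.valuation F f) :=
  ord_ofHeightOneSpectrum w f

omit [IsScalarTower k (RatFunc k) F] in
theorem placeOf_injective :
    Function.Injective (placeOf : HeightOneSpectrum (Binf k F) → Place k F) :=
  ofHeightOneSpectrum_injective

theorem placeOf_mem_placesOverInfty (w : HeightOneSpectrum (Binf k F)) :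
    placeOf w ∈ placesOverInfty k (algebraMap (RatFunc k) F RatFunc.X) := by
  change (placeOf w).ord _ < 0
  rw [← not_le, ← mem_iff_ord_nonneg]
  change ¬ _ ∈ (w.valuation F).valuationSubring
  rw [Valuation.mem_valuationSubring_iff, not_le]
  exact one_lt_valuation_X w

theorem exists_placeOf_eq {v : Place k F}
    (hv : v ∈ placesOverInfty k (algebraMap (RatFunc k) F RatFunc.X)) :
    ∃ w : HeightOneSpectrum (Binf k F), placeOf w = v := by
  have hx : algebraMap (RatFunc k) F RatFunc.X ∉ v.toValuationSubring := by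
    rw [mem_iff_ord_nonneg, not_le]; exact hv
  exact exists_ofHeightOneSpectrum_eq v
    ((Binf_le_iff (k := k) v.toValuationSubring v.algebraMap_mem' v.ne_top').mpr hx)

theorem mem_placesOverInfty_iff (v : Place k F) :
    v ∈ placesOverInfty k (algebraMap (RatFunc k) F RatFunc.X) ↔
      ∃ w : HeightOneSpectrum (Binf k F), placeOf w = v :=
  ⟨exists_placeOf_eq, fun ⟨w, hw⟩ => hw ▸ placeOf_mem_placesOverInfty w⟩

/-- **(INF3)** The bijection between height one primes of `B_∞` and places over `x = ∞`. -/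
def equivPlacesOverInfty :
    HeightOneSpectrum (Binf k F) ≃ placesOverInfty k (algebraMap (RatFunc k) F RatFunc.X) :=
  Equiv.ofBijective (fun w => ⟨placeOf w, placeOf_mem_placesOverInfty w⟩)
    ⟨fun _ _ h => placeOf_injective (congrArg Subtype.val h),
     fun v => (exists_placeOf_eq v.2).imp fun _ h => Subtype.ext h⟩

@[simp] theorem coe_equivPlacesOverInfty (w : HeightOneSpectrum (Binf k F)) :
    ((equivPlacesOverInfty w : placesOverInfty k (algebraMap (RatFunc k) F RatFunc.X)) :
      Place k F) = placeOf w := rfl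

/-! ### (INF5) Ramification over `∞` -/

omit [Algebra k F] [IsScalarTower k (RatFunc k) F] [Algebra k (Oinf k)]
  [IsScalarTower k (Oinf k) F] [Algebra (RatFunc k) F] [IsScalarTower (Oinf k) (RatFunc k) F]
  [FiniteDimensional (RatFunc k) F] [Algebra.IsSeparable (RatFunc k) F] in
theorem map_mInf :
    (mInf : Ideal (Oinf k)).map (algebraMap (Oinf k) (Binf k F)) =
      Ideal.span {algebraMap (Oinf k) (Binf k F) piInf} := by
  rw [mInf_eq_span, Ideal.map_span, Set.image_singleton]

omit [Algebra k F] [IsScalarTower k (RatFunc k) F] [Algebra k (Oinf k)]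
  [IsScalarTower k (Oinf k) F] in
theorem valuation_piInf (w : HeightOneSpectrum (Binf k F)) :
    w.intValuation (algebraMap (Oinf k) (Binf k F) piInf) =
      (w.valuation F (algebraMap (RatFunc k) F RatFunc.X))⁻¹ := by
  have h1 : ((algebraMap (Oinf k) (Binf k F) piInf : Binf k F) : F) =
      (algebraMap (RatFunc k) F RatFunc.X)⁻¹ := by
    change algebraMap (Oinf k) F piInf = _
    rw [algebraMap_Oinf_eq, coe_piInf, map_inv₀]
  rw [← w.valuation_of_algebraMap (K := F)]
  change w.valuation F ((algebraMap (Oinf k) (Binf k F) piInf : Binf k F) : F) = _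
  rw [h1, map_inv₀]

omit [IsScalarTower k (RatFunc k) F] in
/-- **(INF5)** `w ^ e` divides `𝔪_∞ B_∞` iff `e ≤ -ord_w x`: the ramification index of `w` over `∞`
is `-ord_w x`. -/
theorem pow_dvd_map_mInf_iff (w : HeightOneSpectrum (Binf k F)) (e : ℕ) :
    w.asIdeal ^ e ∣ (mInf : Ideal (Oinf k)).map (algebraMap (Oinf k) (Binf k F)) ↔
      (e : ℤ) ≤ -(placeOf (k := k) w).ord (algebraMap (RatFunc k) F RatFunc.X) := by
  rw [map_mInf, ← w.intValuation_le_pow_iff_dvd, valuation_piInf, ord_placeOf, neg_neg]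
  have hx0 : w.valuation F (algebraMap (RatFunc k) F RatFunc.X) ≠ 0 := by
    rw [Ne, map_eq_zero, map_eq_zero]; exact RatFunc.X_ne_zero
  rw [← WithZero.log_le_iff_le_exp (inv_ne_zero hx0), WithZero.log_inv]
  omega

theorem ord_X_neg (w : HeightOneSpectrum (Binf k F)) :
    (placeOf (k := k) w).ord (algebraMap (RatFunc k) F RatFunc.X) < 0 :=
  placeOf_mem_placesOverInfty w

/-- The ramification index `e_w = -ord_w x` as a natural number, in the shape used by
`TameDiff79.count_normalizedFactors_differentIdeal`. -/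
theorem exists_ramification (w : HeightOneSpectrum (Binf k F)) :
    ∃ e : ℕ, e ≠ 0 ∧ (e : ℤ) = -(placeOf (k := k) w).ord (algebraMap (RatFunc k) F RatFunc.X) ∧
      w.asIdeal ^ e ∣ (mInf : Ideal (Oinf k)).map (algebraMap (Oinf k) (Binf k F)) ∧
      ¬ w.asIdeal ^ (e + 1) ∣ (mInf : Ideal (Oinf k)).map (algebraMap (Oinf k) (Binf k F)) := by
  have hneg := ord_X_neg (k := k) w
  obtain ⟨e, he⟩ := Int.eq_ofNat_of_zero_le (a := -(placeOf (k := k) w).ord
    (algebraMap (RatFunc k) F RatFunc.X)) (by omega)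
  refine ⟨e, by omega, he.symm, ?_, ?_⟩
  · rw [pow_dvd_map_mInf_iff]; omega
  · rw [pow_dvd_map_mInf_iff]; push_cast; omega

end Binf

/-! ### Default algebra structures (not global instances; activate with `letI` or
`attribute [local instance]`) -/

section Defaults

variable (k)

/-- The canonical `k`-algebra structure on `O_∞` (constants). -/
@[reducible] def algebraConstOinf : Algebra k (Oinf k) := (CInf (K := k)).toAlgebra

theorem isScalarTower_const_Oinf_ratFunc :
    letI := algebraConstOinf k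
    IsScalarTower k (Oinf k) (RatFunc k) := by
  let _ := algebraConstOinf k
  exact IsScalarTower.of_algebraMap_eq fun c => congrFun (congrArg DFunLike.coe RatFunc.algebraMap_eq_C) c

variable (F : Type*) [Field F] [Algebra (RatFunc k) F]

/-- The canonical `O_∞`-algebra structure on a `k(X)`-algebra `F`. -/
@[reducible] def algebraOinfF : Algebra (Oinf k) F :=
  ((algebraMap (RatFunc k) F).comp (Oinf k).subtype).toAlgebra

theorem isScalarTower_Oinf_ratFunc_F :
    letI := algebraOinfF k F
    IsScalarTower (Oinf k) (RatFunc k) F := by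
  let _ := algebraOinfF k F
  exact IsScalarTower.of_algebraMap_eq fun _ => rfl

theorem isScalarTower_const_Oinf_F [Algebra k F] [IsScalarTower k (RatFunc k) F]
    [Algebra (Oinf k) F] [IsScalarTower (Oinf k) (RatFunc k) F] :
    letI := algebraConstOinf k
    IsScalarTower k (Oinf k) F := by
  let _ := algebraConstOinf k
  refine IsScalarTower.of_algebraMap_eq fun c => ?_
  rw [IsScalarTower.algebraMap_apply k (RatFunc k) F, RatFunc.algebraMap_eq_C]
  exact (algebraMap_Oinf_eq (CInf c)).symm

end Defaults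

/-! ### (INF4) `B ∩ B_∞` consists of constants -/

section Constants

theorem mem_range_of_isIntegral_of_isAlgClosed {F : Type*} [Field F] [Algebra k F]
    [IsAlgClosed k] {f : F} (h : IsIntegral k f) :
    f ∈ Set.range (algebraMap k F) := by
  refine ⟨-(minpoly k f).coeff 0, ?_⟩
  have hq : (minpoly k f).leadingCoeff = 1 := minpoly.monic h
  have hd : (minpoly k f).degree = 1 :=
    IsAlgClosed.degree_eq_one_of_irreducible k (minpoly.irreducible h)
  have h0 : aeval f (minpoly k f) = 0 := minpoly.aeval k f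
  rw [eq_X_add_C_of_degree_eq_one hd, hq, C_1, one_mul, aeval_add, aeval_X, aeval_C,
    add_eq_zero_iff_eq_neg] at h0
  rw [map_neg]; exact h0.symm

theorem polynomial_mem_Oinf_iff (q : k[X]) :
    algebraMap k[X] (RatFunc k) q ∈ Oinf k ↔ q.natDegree = 0 := by
  rw [mem_Oinf_iff]
  constructor
  · rintro (h | h)
    · rw [map_eq_zero_iff _ (IsFractionRing.injective k[X] (RatFunc k))] at h
      rw [h, natDegree_zero]
    · rw [RatFunc.intDegree_polynomial] at h; omega
  · intro h; right; rw [RatFunc.intDegree_polynomial]; omega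

variable {F : Type*} [Field F] [Algebra (RatFunc k) F] [Algebra k F]
  [IsScalarTower k (RatFunc k) F] [Algebra k[X] F] [IsScalarTower k[X] (RatFunc k) F]
  [Algebra (Oinf k) F] [IsScalarTower (Oinf k) (RatFunc k) F]

omit [Algebra (Oinf k) F] [IsScalarTower (Oinf k) (RatFunc k) F] in
theorem algebraMap_polynomial_C (a : k) :
    algebraMap k[X] F (Polynomial.C a) = algebraMap k F a := by
  rw [IsScalarTower.algebraMap_apply k[X] (RatFunc k) F, RatFunc.algebraMap_C,
    ← RatFunc.algebraMap_eq_C, ← IsScalarTower.algebraMap_apply]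

/-- **(INF4)** An element of `F` integral over `k[X]` and over `O_∞` is integral over `k`. -/
theorem isIntegral_of_isIntegral_of_isIntegral {f : F} (h1 : IsIntegral k[X] f)
    (h2 : IsIntegral (Oinf k) f) : IsIntegral k f := by
  have e1 := minpoly.isIntegrallyClosed_eq_field_fractions' (RatFunc k) h1
  have e2 := minpoly.isIntegrallyClosed_eq_field_fractions' (RatFunc k) h2
  set P0 := minpoly k[X] f with hP0def
  have hcoeff : ∀ i, (P0.coeff i).natDegree = 0 := by
    intro i
    rw [← polynomial_mem_Oinf_iff]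
    have : algebraMap k[X] (RatFunc k) (P0.coeff i) =
        (((minpoly (Oinf k) f).coeff i : Oinf k) : RatFunc k) := by
      rw [← Polynomial.coeff_map, ← e1, e2, Polynomial.coeff_map]; rfl
    rw [this]; exact Subtype.property _
  refine ⟨P0.map Polynomial.constantCoeff, (minpoly.monic h1).map _, ?_⟩
  have hP0 : (P0.map Polynomial.constantCoeff).map Polynomial.C = P0 := by
    refine Polynomial.ext fun i => ?_
    rw [coeff_map, coeff_map]
    exact (eq_C_of_natDegree_eq_zero (hcoeff i)).symm
  have hcomp : (algebraMap k[X] F).comp Polynomial.C = algebraMap k F :=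
    RingHom.ext fun a => algebraMap_polynomial_C a
  rw [← hcomp, ← Polynomial.eval₂_map, hP0]
  exact minpoly.aeval k[X] f

/-- **(INF4')** If `k` is algebraically closed, `B ∩ B_∞ = k`. -/
theorem mem_range_algebraMap_of_isIntegral [IsAlgClosed k] {f : F} (h1 : IsIntegral k[X] f)
    (h2 : IsIntegral (Oinf k) f) : f ∈ Set.range (algebraMap k F) :=
  mem_range_of_isIntegral_of_isAlgClosed (isIntegral_of_isIntegral_of_isIntegral h1 h2)

theorem isIntegral_algebraMap_const (c : k) :
    IsIntegral k[X] (algebraMap k F c) ∧ IsIntegral (Oinf k) (algebraMap k F c) := by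
  constructor
  · rw [← algebraMap_polynomial_C]; exact isIntegral_algebraMap
  · have : algebraMap k F c = algebraMap (Oinf k) F (CInf c) := by
      rw [algebraMap_Oinf_eq, coe_CInf, ← RatFunc.algebraMap_eq_C,
        ← IsScalarTower.algebraMap_apply]
    rw [this]; exact isIntegral_algebraMap

/-- **(INF4'')** in the shape consumed by `LatticeDims.finrank_dual_inter_of_finrank_inter_eq_one`:
a `k`-subspace whose elements are exactly the elements integral over both `k[X]` and `O_∞` is
one-dimensional (for `k` algebraically closed). -/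
theorem finrank_eq_one_of_mem_iff [IsAlgClosed k] (L0 : Submodule k F)
    (hL0 : ∀ v, v ∈ L0 ↔ (IsIntegral k[X] v ∧ IsIntegral (Oinf k) v)) :
    Module.finrank k L0 = 1 := by
  have : L0 = Submodule.span k {(1 : F)} := by
    ext v
    rw [hL0, Submodule.mem_span_singleton]
    constructor
    · rintro ⟨h1, h2⟩
      obtain ⟨c, hc⟩ := mem_range_algebraMap_of_isIntegral h1 h2
      exact ⟨c, by rw [Algebra.smul_def, mul_one, hc]⟩
    · rintro ⟨c, rfl⟩
      rw [Algebra.smul_def, mul_one]
      exact isIntegral_algebraMap_const c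
  rw [this, finrank_span_singleton one_ne_zero]

end Constants

end Fermat.Agent.S20.T1Inf69
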