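import Mathlib
import Fermat.Agent.S24.Defs
import Fermat.Agent.S20.NormalBasis

/-!
# S20 / T1 glue, step (G0): the `RatFunc K`-algebra structure on a function field

Given `x : F` transcendental over `K`, we make `F` an algebra over `RatFunc K` (`X ↦ x`) and
over `K[X]`, and transport finiteness / degree from `K⟮x⟯` (the shape used by
`Fermat.Agent.S24.IsFunctionFieldOver`) to `RatFunc K` (the shape used by the Dedekind–Weber
packages `NormalBasis`, `LatticeDims`, `T1Const`, ...).

Nothing here is an instance: use `letI := algRat hx` etc. in the consumer.
-/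

set_option autoImplicit false
set_option linter.style.haveILetI false

open Polynomial IntermediateField

namespace Fermat.Agent.S20.T1Setup

variable {K F : Type*} [Field K] [Field F] [Algebra K F] {x : F}

/-- The `K`-algebra embedding `RatFunc K → F`, `X ↦ x`, for `x` transcendental. -/
noncomputable def ratHom (hx : Transcendental K x) : RatFunc K →ₐ[K] F :=
  (IntermediateField.val K⟮x⟯).comp (RatFunc.algEquivOfTranscendental x hx).toAlgHom

theorem ratHom_X (hx : Transcendental K x) : ratHom hx RatFunc.X = x := by
  simp [ratHom, RatFunc.algEquivOfTranscendental_X]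

theorem ratHom_algebraMap (hx : Transcendental K x) (p : K[X]) :
    ratHom hx (algebraMap K[X] (RatFunc K) p) = Polynomial.aeval x p := by
  simp [ratHom, RatFunc.algEquivOfTranscendental_algebraMap]

/-- `F` as a `RatFunc K`-algebra via `X ↦ x`. -/
@[reducible] noncomputable def algRat (hx : Transcendental K x) : Algebra (RatFunc K) F :=
  (ratHom hx).toRingHom.toAlgebra

/-- `F` as a `K[X]`-algebra via `X ↦ x`. -/
@[reducible] noncomputable def algPoly (x : F) : Algebra K[X] F :=
  (Polynomial.aeval x : K[X] →ₐ[K] F).toRingHom.toAlgebra

theorem algebraMap_rat_apply (hx : Transcendental K x) (r : RatFunc K) :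
    letI := algRat hx
    algebraMap (RatFunc K) F r = ratHom hx r := rfl

theorem algebraMap_poly_apply (x : F) (p : K[X]) :
    letI := algPoly (K := K) x
    algebraMap K[X] F p = Polynomial.aeval x p := rfl

theorem algebraMap_X (hx : Transcendental K x) :
    letI := algRat hx
    algebraMap (RatFunc K) F RatFunc.X = x := ratHom_X hx

theorem isScalarTower_K (hx : Transcendental K x) :
    letI := algRat hx
    IsScalarTower K (RatFunc K) F := by
  letI := algRat hx
  exact IsScalarTower.of_algebraMap_eq fun c => ((ratHom hx).commutes c).symm

theorem isScalarTower_poly (hx : Transcendental K x) :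
    letI := algRat hx
    letI := algPoly (K := K) x
    IsScalarTower K[X] (RatFunc K) F := by
  letI := algRat hx
  letI := algPoly (K := K) x
  exact IsScalarTower.of_algebraMap_eq fun p => (ratHom_algebraMap hx p).symm

theorem isScalarTower_K_poly (x : F) :
    letI := algPoly (K := K) x
    IsScalarTower K K[X] F := by
  letI := algPoly (K := K) x
  refine IsScalarTower.of_algebraMap_eq fun c => ?_
  show algebraMap K F c = Polynomial.aeval x (Polynomial.C c)
  rw [Polynomial.aeval_C]

/-- The ring isomorphism `RatFunc K ≃+* K⟮x⟯` intertwines the two algebra structures on `F`. -/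
theorem comp_eq (hx : Transcendental K x) :
    letI := algRat hx
    (algebraMap K⟮x⟯ F).comp ((RatFunc.algEquivOfTranscendental x hx).toRingEquiv : RatFunc K →+* K⟮x⟯)
      = (RingEquiv.refl F : F →+* F).comp (algebraMap (RatFunc K) F) := by
  letI := algRat hx
  ext r
  rfl

theorem finiteDimensional (hx : Transcendental K x) [FiniteDimensional K⟮x⟯ F] :
    letI := algRat hx
    FiniteDimensional (RatFunc K) F := by
  letI := algRat hx
  exact Module.Finite.of_equiv_equiv (A₁ := K⟮x⟯) (B₁ := F) (A₂ := RatFunc K) (B₂ := F)
    (RatFunc.algEquivOfTranscendental x hx).toRingEquiv.symm (RingEquiv.refl F) (by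
      ext r
      show ratHom hx ((RatFunc.algEquivOfTranscendental x hx).symm r) = (r : F)
      simp [ratHom])

theorem finrank_eq (hx : Transcendental K x) :
    letI := algRat hx
    Module.finrank (RatFunc K) F = Module.finrank K⟮x⟯ F := by
  letI := algRat hx
  exact Algebra.finrank_eq_of_equiv_equiv
    (RatFunc.algEquivOfTranscendental x hx).toRingEquiv (RingEquiv.refl F) (by
      ext r
      rfl)

theorem isSeparable [CharZero K] (hx : Transcendental K x) [FiniteDimensional K⟮x⟯ F] :
    letI := algRat hx
    Algebra.IsSeparable (RatFunc K) F := by
  letI := algRat hx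
  haveI := finiteDimensional hx
  haveI : CharZero (RatFunc K) :=
    charZero_of_injective_algebraMap (algebraMap K (RatFunc K)).injective
  infer_instance

/-! ### Packaged for `hF : S24.IsFunctionFieldOver K x` -/

open Fermat.Agent.S24

theorem finiteDimensional_of (hF : IsFunctionFieldOver K x) :
    letI := algRat hF.transcendental
    FiniteDimensional (RatFunc K) F :=
  haveI := hF.finite
  finiteDimensional hF.transcendental

theorem isSeparable_of [CharZero K] (hF : IsFunctionFieldOver K x) :
    letI := algRat hF.transcendental
    Algebra.IsSeparable (RatFunc K) F :=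
  haveI := hF.finite
  isSeparable hF.transcendental

theorem finrank_eq_degOver (hF : IsFunctionFieldOver K x) :
    letI := algRat hF.transcendental
    Module.finrank (RatFunc K) F = degOver K x :=
  finrank_eq hF.transcendental

end Fermat.Agent.S20.T1Setup
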