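/-
S20 / T3-CUSP (helper26): the ring of `N`-periodic holomorphic functions on `ℍ` which are
meromorphic at `i∞`, and the order function `ordInf` at the cusp `∞` (local parameter
`q_N = exp(2πiτ/N)`).
-/
import Mathlib
import Fermat.Agent.S24.HolH
import Fermat.Agent.S24.ValExt
import Fermat.Agent.S24.JStab
import Fermat.Agent.S24.ModGrowth

set_option autoImplicit false

open UpperHalfPlane hiding I
open Complex Filter Topology Function
open scoped MatrixGroups Manifold Real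

namespace Fermat.Agent.S20.CuspRing

open Fermat.Agent.S24.HolH Fermat.Agent.S24.ValExt

local notation "𝕢" => Periodic.qParam

/-- The local parameter `q_N = exp(2πiτ/N)` at the cusp `∞` (width `N`). -/
noncomputable def qN (N : ℕ) (τ : ℍ) : ℂ := 𝕢 (N : ℝ) (τ : ℂ)

theorem qN_ne_zero (N : ℕ) (τ : ℍ) : qN N τ ≠ 0 := Periodic.qParam_ne_zero _

theorem tendsto_qN (N : ℕ) [NeZero N] : Tendsto (qN N) atImInfty (𝓝 0) :=
  qParam_tendsto_atImInfty (by exact_mod_cast Nat.pos_of_ne_zero (NeZero.ne N))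

theorem qN_zpow_eq (N : ℕ) (k : ℤ) (τ : ℍ) :
    qN N τ ^ k = cexp ((k : ℂ) * (2 * π * I / N) * (τ : ℂ)) := by
  rw [qN, Periodic.qParam, ← Complex.exp_int_mul]
  congr 1
  simp only [Complex.ofReal_natCast]
  ring

theorem qN_vadd (N : ℕ) [NeZero N] (τ : ℍ) : qN N ((N : ℝ) +ᵥ τ) = qN N τ := by
  have hN : (N : ℂ) ≠ 0 := Nat.cast_ne_zero.mpr (NeZero.ne N)
  simp only [qN, Periodic.qParam, coe_vadd]
  have : 2 * π * I * ((N : ℝ) + (τ : ℂ)) / (N : ℝ) = 2 * π * I * (τ : ℂ) / (N : ℝ) + 2 * π * I := by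
    push_cast
    field_simp
    ring
  rw [this, Complex.exp_add, Complex.exp_two_pi_mul_I, mul_one]

theorem mdiff_qN_zpow (N : ℕ) (k : ℤ) : MDiff (fun τ : ℍ => qN N τ ^ k) := by
  have h : (fun τ : ℍ => qN N τ ^ k) =
      (fun z : ℂ => cexp ((k : ℂ) * (2 * π * I / N) * z)) ∘ ((↑) : ℍ → ℂ) := by
    funext τ
    simp [qN_zpow_eq]
  rw [h]
  have hd : Differentiable ℂ (fun z : ℂ => cexp ((k : ℂ) * (2 * π * I / N) * z)) :=
    (differentiable_id.const_mul _).cexp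
  exact hd.mdifferentiable.comp mdifferentiable_coe

/-- `q_N ^ k` as a holomorphic function on `ℍ`. -/
noncomputable def qPow (N : ℕ) (k : ℤ) : Hol := ⟨fun τ => qN N τ ^ k, mdiff_qN_zpow N k⟩

@[simp] theorem qPow_apply (N : ℕ) (k : ℤ) (τ : ℍ) : (qPow N k : ℍ → ℂ) τ = qN N τ ^ k := rfl

theorem qPow_add (N : ℕ) (k l : ℤ) : qPow N (k + l) = qPow N k * qPow N l := by
  ext τ
  simp [zpow_add₀ (qN_ne_zero N τ)]

theorem qPow_zero (N : ℕ) : qPow N 0 = 1 := by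
  ext τ; simp

theorem qPow_ne_zero (N : ℕ) (k : ℤ) : qPow N k ≠ 0 := by
  intro h
  have := congrArg (fun f : Hol => (f : ℍ → ℂ) UpperHalfPlane.I) h
  simp only [qPow_apply] at this
  exact zpow_ne_zero k (qN_ne_zero N _) this


/-! ### The cusp ring -/

/-- `a : ℍ → ℂ` is `N`-periodic and meromorphic at `i∞` w.r.t. `q_N`. -/
def IsCuspMero (N : ℕ) (a : ℍ → ℂ) : Prop :=
  (∀ τ : ℍ, a ((N : ℝ) +ᵥ τ) = a τ) ∧
    ∃ k : ℤ, IsBoundedAtImInfty (fun τ => qN N τ ^ k * a τ)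

theorem isBounded_congr {f g : ℍ → ℂ} (h : ∀ τ, f τ = g τ) (hg : IsBoundedAtImInfty g) :
    IsBoundedAtImInfty f := by
  have : f = g := funext h
  rw [this]; exact hg

theorem isBounded_qN_zpow (N : ℕ) [NeZero N] {k : ℤ} (hk : 0 ≤ k) :
    IsBoundedAtImInfty (fun τ => qN N τ ^ k) := by
  obtain ⟨n, rfl⟩ := Int.eq_ofNat_of_zero_le hk
  simp only [zpow_natCast]
  have h : Tendsto (fun τ => qN N τ ^ n) atImInfty (𝓝 ((0 : ℂ) ^ n)) := (tendsto_qN N).pow n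
  exact h.isBigO_one ℝ

theorem IsCuspMero.bounded_of_le {N : ℕ} [NeZero N] {a : ℍ → ℂ} {k l : ℤ} (hkl : k ≤ l)
    (h : IsBoundedAtImInfty (fun τ => qN N τ ^ k * a τ)) :
    IsBoundedAtImInfty (fun τ => qN N τ ^ l * a τ) := by
  have h2 := (isBounded_qN_zpow N (sub_nonneg.mpr hkl)).mul h
  refine isBounded_congr (fun τ => ?_) h2
  simp only [Pi.mul_apply]
  rw [← mul_assoc, ← zpow_add₀ (qN_ne_zero N τ)]
  congr 2
  ring

theorem IsCuspMero.mul {N : ℕ} {a b : ℍ → ℂ} (ha : IsCuspMero N a) (hb : IsCuspMero N b) :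
    IsCuspMero N (a * b) := by
  obtain ⟨hap, k, hk⟩ := ha
  obtain ⟨hbp, l, hl⟩ := hb
  refine ⟨fun τ => by simp [hap τ, hbp τ], k + l, ?_⟩
  have h2 := hk.mul hl
  refine isBounded_congr (fun τ => ?_) h2
  simp only [Pi.mul_apply]
  rw [zpow_add₀ (qN_ne_zero N τ)]
  ring

theorem IsCuspMero.add {N : ℕ} [NeZero N] {a b : ℍ → ℂ} (ha : IsCuspMero N a)
    (hb : IsCuspMero N b) : IsCuspMero N (a + b) := by
  obtain ⟨hap, k, hk⟩ := ha
  obtain ⟨hbp, l, hl⟩ := hb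
  refine ⟨fun τ => by simp [hap τ, hbp τ], max k l, ?_⟩
  have h1 := IsCuspMero.bounded_of_le (le_max_left k l) hk
  have h2 := IsCuspMero.bounded_of_le (le_max_right k l) hl
  have h3 := h1.add h2
  refine isBounded_congr (fun τ => ?_) h3
  simp only [Pi.add_apply]
  ring

theorem IsCuspMero.const (N : ℕ) (c : ℂ) : IsCuspMero N (fun _ => c) := by
  refine ⟨fun τ => rfl, 0, ?_⟩
  simp only [zpow_zero, one_mul]
  exact (tendsto_const_nhds (x := c)).isBigO_one ℝ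

/-- The ring `P_N` of `N`-periodic holomorphic functions on `ℍ`, meromorphic at `i∞`. -/
def cuspRing (N : ℕ) [NeZero N] : Subalgebra ℂ Hol where
  carrier := {a | IsCuspMero N (a : ℍ → ℂ)}
  mul_mem' := fun {a b} ha hb => by
    show IsCuspMero N ((a : ℍ → ℂ) * (b : ℍ → ℂ))
    exact IsCuspMero.mul ha hb
  add_mem' := fun {a b} ha hb => by
    show IsCuspMero N ((a : ℍ → ℂ) + (b : ℍ → ℂ))
    exact IsCuspMero.add ha hb
  algebraMap_mem' := fun c => by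
    show IsCuspMero N (fun _ => c)
    exact IsCuspMero.const N c

theorem mem_cuspRing {N : ℕ} [NeZero N] {a : Hol} :
    a ∈ cuspRing N ↔ IsCuspMero N (a : ℍ → ℂ) := Iff.rfl

theorem qPow_mem_cuspRing (N : ℕ) [NeZero N] (k : ℤ) : qPow N k ∈ cuspRing N := by
  refine ⟨fun τ => by simp [qN_vadd], -k, ?_⟩
  have : (fun τ : ℍ => qN N τ ^ (-k) * (qPow N k : ℍ → ℂ) τ) = fun _ => (1 : ℂ) := by
    funext τ
    simp only [qPow_apply]
    rw [← zpow_add₀ (qN_ne_zero N τ)]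
    simp
  rw [this]
  exact (tendsto_const_nhds (x := (1 : ℂ))).isBigO_one ℝ

/-! ### Existence and uniqueness of the order at `i∞` -/

theorem periodic_comp_ofComplex {N : ℕ} {a : ℍ → ℂ} (hper : ∀ τ : ℍ, a ((N : ℝ) +ᵥ τ) = a τ) :
    Periodic (a ∘ ofComplex) ((N : ℝ) : ℂ) := by
  intro w
  by_cases hw : 0 < im w
  · have h2 : 0 < im (w + ((N : ℝ) : ℂ)) := by simp [hw]
    simp only [comp_apply, ofComplex_apply_of_im_pos h2, ofComplex_apply_of_im_pos hw]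
    rw [← hper ⟨w, hw⟩]
    congr 1
    ext
    simp [add_comm]
  · have hw' : im w ≤ 0 := not_lt.mp hw
    have h2 : im (w + ((N : ℝ) : ℂ)) ≤ 0 := by simpa using hw'
    simp only [comp_apply]
    rw [ofComplex_apply_of_im_nonpos h2, ofComplex_apply_of_im_nonpos hw']

/-- Identity theorem at `i∞`: a holomorphic function vanishing for `im τ` large vanishes. -/
theorem Hol_eq_zero_of_eventually_atImInfty (a : Hol)
    (h : ∀ᶠ τ in atImInfty, (a : ℍ → ℂ) τ = 0) : a = 0 := by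
  rw [Filter.eventually_iff, atImInfty_mem] at h
  obtain ⟨A, hA⟩ := h
  have hpos : 0 < max A 0 + 1 := by positivity
  let τ₀ : ℍ := ⟨⟨0, max A 0 + 1⟩, hpos⟩
  apply Hol.eq_zero_of_eventuallyEq_zero a τ₀
  have hopen : IsOpen {z : ℂ | max A 0 < z.im} := isOpen_lt continuous_const Complex.continuous_im
  have hmem : (τ₀ : ℂ) ∈ {z : ℂ | max A 0 < z.im} := by
    show max A 0 < (τ₀ : ℂ).im
    show max A 0 < max A 0 + 1
    linarith
  filter_upwards [hopen.mem_nhds hmem] with z hz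
  have hz0 : 0 < z.im := lt_of_le_of_lt (le_max_right _ _) hz
  simp only [comp_apply, ofComplex_apply_of_im_pos hz0, Pi.zero_apply]
  exact hA ⟨z, hz0⟩ (le_trans (le_max_left _ _) (le_of_lt hz))

/-- EXISTENCE: a nonzero element of `P_N` has an order and a nonzero leading coefficient. -/
theorem exists_tendsto_of_mem_cuspRing {N : ℕ} [NeZero N] {a : Hol} (ha : a ∈ cuspRing N)
    (ha0 : a ≠ 0) :
    ∃ r : ℤ, ∃ c : ℂ, c ≠ 0 ∧
      Tendsto (fun τ => qN N τ ^ (-r) * (a : ℍ → ℂ) τ) atImInfty (𝓝 c) := by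
  obtain ⟨hper, k, hk⟩ := ha
  have hN : (0 : ℝ) < N := by exact_mod_cast Nat.pos_of_ne_zero (NeZero.ne N)
  set g : ℍ → ℂ := fun τ => qN N τ ^ k * (a : ℍ → ℂ) τ with hg
  have hgper : ∀ τ : ℍ, g ((N : ℝ) +ᵥ τ) = g τ := fun τ => by simp [hg, qN_vadd, hper τ]
  have hgmd : MDiff g := (mdiff_qN_zpow N k).mul (Hol.mdiff a)
  have hGan := analyticAt_cuspFunction_zero hN (periodic_comp_ofComplex hgper) hgmd hk
  have hGq : ∀ τ : ℍ, cuspFunction (N : ℝ) g (qN N τ) = g τ := fun τ =>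
    eq_cuspFunction τ hN.ne' (periodic_comp_ofComplex hgper)
  -- the cusp function does not vanish identically near `0`
  have hne : ¬ (∀ᶠ q in 𝓝 (0 : ℂ), cuspFunction (N : ℝ) g q = 0) := by
    intro h0
    have h1 : ∀ᶠ τ in atImInfty, g τ = 0 := by
      filter_upwards [(tendsto_qN N).eventually h0] with τ hτ
      rw [← hGq τ]; exact hτ
    have h2 : ∀ᶠ τ in atImInfty, (a : ℍ → ℂ) τ = 0 := by
      filter_upwards [h1] with τ hτ
      exact (mul_eq_zero.mp hτ).resolve_left (zpow_ne_zero k (qN_ne_zero N τ))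
    exact ha0 (Hol_eq_zero_of_eventually_atImInfty a h2)
  have hfin : analyticOrderAt (cuspFunction (N : ℝ) g) 0 ≠ ⊤ := by
    rw [ne_eq, analyticOrderAt_eq_top]; exact hne
  obtain ⟨n, hn⟩ := ENat.ne_top_iff_exists.mp hfin
  obtain ⟨u, hu_an, hu0, hu⟩ := (hGan.analyticOrderAt_eq_natCast).mp hn.symm
  refine ⟨n - k, u 0, hu0, ?_⟩
  have h3 : Tendsto (fun τ => u (qN N τ)) atImInfty (𝓝 (u 0)) :=
    hu_an.continuousAt.tendsto.comp (tendsto_qN N)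
  refine h3.congr' ?_
  filter_upwards [(tendsto_qN N).eventually hu] with τ hτ
  rw [hGq τ, sub_zero, smul_eq_mul] at hτ
  have hq := qN_ne_zero N τ
  have ha_eq : (a : ℍ → ℂ) τ = qN N τ ^ (-k) * (qN N τ ^ n * u (qN N τ)) := by
    rw [← hτ, hg]
    simp only
    rw [← mul_assoc, ← zpow_add₀ hq]
    simp
  rw [ha_eq, ← mul_assoc, ← mul_assoc, ← zpow_natCast, ← zpow_add₀ hq, ← zpow_add₀ hq]
  have : -(↑n - k) + -k + (n : ℤ) = 0 := by ring
  rw [this]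
  simp

/-- UNIQUENESS of the order. -/
theorem order_unique {N : ℕ} [NeZero N] {a : ℍ → ℂ} {r r' : ℤ} {c c' : ℂ} (hc : c ≠ 0)
    (hc' : c' ≠ 0) (h : Tendsto (fun τ => qN N τ ^ (-r) * a τ) atImInfty (𝓝 c))
    (h' : Tendsto (fun τ => qN N τ ^ (-r') * a τ) atImInfty (𝓝 c')) : r = r' := by
  -- if `r < r'` then `q^(-r) a = q^(r'-r) q^(-r') a → 0`
  have key : ∀ {s s' : ℤ} {d d' : ℂ}, d ≠ 0 →
      Tendsto (fun τ => qN N τ ^ (-s) * a τ) atImInfty (𝓝 d) →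
      Tendsto (fun τ => qN N τ ^ (-s') * a τ) atImInfty (𝓝 d') → ¬ s < s' := by
    intro s s' d d' hd hs hs' hlt
    obtain ⟨m, hm⟩ := Int.eq_ofNat_of_zero_le (sub_nonneg.mpr hlt.le)
    have hm0 : m ≠ 0 := by
      rintro rfl
      simp at hm
      omega
    have h1 : Tendsto (fun τ => qN N τ ^ m) atImInfty (𝓝 0) := by
      have := (tendsto_qN N).pow m
      rwa [zero_pow hm0] at this
    have h2 := h1.mul hs'
    rw [zero_mul] at h2
    have h3 : (fun τ => qN N τ ^ m * (qN N τ ^ (-s') * a τ)) = fun τ => qN N τ ^ (-s) * a τ := by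
      funext τ
      rw [← mul_assoc, ← zpow_natCast, ← zpow_add₀ (qN_ne_zero N τ), ← hm]
      congr 2
      ring
    rw [h3] at h2
    exact hd (tendsto_nhds_unique hs h2)
  rcases lt_trichotomy r r' with hlt | heq | hgt
  · exact absurd hlt (key hc h h')
  · exact heq
  · exact absurd hgt (key hc' h' h)

/-! ### The order function `ordInf` -/

/-- `a` has order `r` at `i∞` (w.r.t. `q_N`): `q_N^(-r) a` tends to a nonzero limit. -/
def HasOrdInf (N : ℕ) (a : ℍ → ℂ) (r : ℤ) : Prop :=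
  ∃ c : ℂ, c ≠ 0 ∧ Tendsto (fun τ => qN N τ ^ (-r) * a τ) atImInfty (𝓝 c)

open Classical in
/-- The order at `i∞` w.r.t. the local parameter `q_N` (junk value `0` if there is none). -/
noncomputable def ordInf (N : ℕ) (a : ℍ → ℂ) : ℤ :=
  if h : ∃ r : ℤ, HasOrdInf N a r then h.choose else 0

theorem HasOrdInf.unique {N : ℕ} [NeZero N] {a : ℍ → ℂ} {r r' : ℤ} (h : HasOrdInf N a r)
    (h' : HasOrdInf N a r') : r = r' := by
  obtain ⟨c, hc, hlim⟩ := h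
  obtain ⟨c', hc', hlim'⟩ := h'
  exact order_unique hc hc' hlim hlim'

theorem HasOrdInf.ordInf_eq {N : ℕ} [NeZero N] {a : ℍ → ℂ} {r : ℤ} (h : HasOrdInf N a r) :
    ordInf N a = r := by
  have hex : ∃ r : ℤ, HasOrdInf N a r := ⟨r, h⟩
  rw [ordInf, dif_pos hex]
  exact hex.choose_spec.unique h

theorem ordInf_eq_of_tendsto {N : ℕ} [NeZero N] {a : ℍ → ℂ} {r : ℤ} {c : ℂ} (hc : c ≠ 0)
    (h : Tendsto (fun τ => qN N τ ^ (-r) * a τ) atImInfty (𝓝 c)) : ordInf N a = r :=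
  HasOrdInf.ordInf_eq ⟨c, hc, h⟩

theorem hasOrdInf_ordInf {N : ℕ} [NeZero N] {a : Hol} (ha : a ∈ cuspRing N) (ha0 : a ≠ 0) :
    HasOrdInf N (a : ℍ → ℂ) (ordInf N (a : ℍ → ℂ)) := by
  obtain ⟨r, c, hc, h⟩ := exists_tendsto_of_mem_cuspRing ha ha0
  have hr : HasOrdInf N (a : ℍ → ℂ) r := ⟨c, hc, h⟩
  rw [hr.ordInf_eq]
  exact hr

/-- EXISTENCE + UNIQUENESS in the `∃!` form. -/
theorem existsUnique_order {N : ℕ} [NeZero N] {a : Hol} (ha : a ∈ cuspRing N) (ha0 : a ≠ 0) :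
    ∃! r : ℤ, ∃ c : ℂ, c ≠ 0 ∧
      Tendsto (fun τ => qN N τ ^ (-r) * (a : ℍ → ℂ) τ) atImInfty (𝓝 c) := by
  obtain ⟨r, c, hc, h⟩ := exists_tendsto_of_mem_cuspRing ha ha0
  refine ⟨r, ⟨c, hc, h⟩, ?_⟩
  rintro r' ⟨c', hc', h'⟩
  exact order_unique hc' hc h' h

theorem ordInf_spec {N : ℕ} [NeZero N] {a : Hol} (ha : a ∈ cuspRing N) (ha0 : a ≠ 0) :
    ∃ c : ℂ, c ≠ 0 ∧
      Tendsto (fun τ => qN N τ ^ (-ordInf N (a : ℍ → ℂ)) * (a : ℍ → ℂ) τ) atImInfty (𝓝 c) :=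
  hasOrdInf_ordInf ha ha0

theorem HasOrdInf.mul {N : ℕ} {a b : ℍ → ℂ} {r s : ℤ} (ha : HasOrdInf N a r)
    (hb : HasOrdInf N b s) : HasOrdInf N (a * b) (r + s) := by
  obtain ⟨c, hc, hlim⟩ := ha
  obtain ⟨d, hd, hlim'⟩ := hb
  refine ⟨c * d, mul_ne_zero hc hd, ?_⟩
  refine (hlim.mul hlim').congr fun τ => ?_
  simp only [Pi.mul_apply, neg_add]
  rw [zpow_add₀ (qN_ne_zero N τ)]
  ring

/-- Multiplying by `q_N^(s)` with `s ≥ 0` preserves having a limit. -/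
theorem tendsto_qN_zpow_mul (N : ℕ) [NeZero N] {f : ℍ → ℂ} {c : ℂ} {s : ℤ} (hs : 0 ≤ s)
    (h : Tendsto f atImInfty (𝓝 c)) :
    Tendsto (fun τ => qN N τ ^ s * f τ) atImInfty (𝓝 (if s = 0 then c else 0)) := by
  obtain ⟨m, rfl⟩ := Int.eq_ofNat_of_zero_le hs
  simp only [zpow_natCast, Nat.cast_eq_zero]
  have h1 := ((tendsto_qN N).pow m).mul h
  by_cases hm : m = 0
  · subst hm
    simpa using h
  · rw [zero_pow hm, zero_mul] at h1
    simpa [hm] using h1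

theorem HasOrdInf.tendsto_of_le {N : ℕ} [NeZero N] {a : ℍ → ℂ} {r m : ℤ} (ha : HasOrdInf N a r)
    (hm : m ≤ r) : ∃ c : ℂ, Tendsto (fun τ => qN N τ ^ (-m) * a τ) atImInfty (𝓝 c) := by
  obtain ⟨c, -, hlim⟩ := ha
  refine ⟨_, (tendsto_qN_zpow_mul N (sub_nonneg.mpr hm) hlim).congr fun τ => ?_⟩
  rw [← mul_assoc, ← zpow_add₀ (qN_ne_zero N τ)]
  congr 2
  ring

theorem HasOrdInf.tendsto_zero_of_lt {N : ℕ} [NeZero N] {a : ℍ → ℂ} {r m : ℤ}
    (ha : HasOrdInf N a r) (hm : m < r) :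
    Tendsto (fun τ => qN N τ ^ (-m) * a τ) atImInfty (𝓝 0) := by
  obtain ⟨c, -, hlim⟩ := ha
  have h1 := tendsto_qN_zpow_mul N (sub_nonneg.mpr hm.le) hlim
  rw [if_neg (sub_ne_zero.mpr hm.ne')] at h1
  refine h1.congr fun τ => ?_
  rw [← mul_assoc, ← zpow_add₀ (qN_ne_zero N τ)]
  congr 2
  ring

/-- Ultrametric inequality. -/
theorem HasOrdInf.le_add {N : ℕ} [NeZero N] {a b : ℍ → ℂ} {r s t : ℤ} (ha : HasOrdInf N a r)
    (hb : HasOrdInf N b s) (hab : HasOrdInf N (a + b) t) : min r s ≤ t := by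
  by_contra hlt
  rw [not_le] at hlt
  -- `q^(-min r s) (a + b)` has a limit, hence `q^(-t) (a+b) → 0`
  obtain ⟨c₁, h₁⟩ := ha.tendsto_of_le (min_le_left r s)
  obtain ⟨c₂, h₂⟩ := hb.tendsto_of_le (min_le_right r s)
  have h3 : Tendsto (fun τ => qN N τ ^ (-(min r s)) * (a + b) τ) atImInfty (𝓝 (c₁ + c₂)) := by
    refine (h₁.add h₂).congr fun τ => ?_
    simp only [Pi.add_apply]
    ring
  have h4 := tendsto_qN_zpow_mul N (sub_nonneg.mpr hlt.le) h3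
  rw [if_neg (sub_ne_zero.mpr hlt.ne')] at h4
  obtain ⟨c, hc, hlim⟩ := hab
  have h5 : Tendsto (fun τ => qN N τ ^ (-t) * (a + b) τ) atImInfty (𝓝 0) := by
    refine h4.congr fun τ => ?_
    rw [← mul_assoc, ← zpow_add₀ (qN_ne_zero N τ)]
    congr 2
    ring
  exact hc (tendsto_nhds_unique hlim h5)

theorem ordInf_mul {N : ℕ} [NeZero N] {a b : Hol} (ha : a ∈ cuspRing N) (hb : b ∈ cuspRing N)
    (ha0 : a ≠ 0) (hb0 : b ≠ 0) :
    ordInf N ((a * b : Hol) : ℍ → ℂ) = ordInf N (a : ℍ → ℂ) + ordInf N (b : ℍ → ℂ) :=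
  ((hasOrdInf_ordInf ha ha0).mul (hasOrdInf_ordInf hb hb0)).ordInf_eq

theorem le_ordInf_add {N : ℕ} [NeZero N] {a b : Hol} (ha : a ∈ cuspRing N) (hb : b ∈ cuspRing N)
    (ha0 : a ≠ 0) (hb0 : b ≠ 0) (hab : a + b ≠ 0) :
    min (ordInf N (a : ℍ → ℂ)) (ordInf N (b : ℍ → ℂ)) ≤ ordInf N ((a + b : Hol) : ℍ → ℂ) :=
  (hasOrdInf_ordInf ha ha0).le_add (hasOrdInf_ordInf hb hb0)
    (hasOrdInf_ordInf ((cuspRing N).add_mem ha hb) hab)

theorem hasOrdInf_qPow (N : ℕ) (k : ℤ) : HasOrdInf N (qPow N k : ℍ → ℂ) k := by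
  refine ⟨1, one_ne_zero, ?_⟩
  have : (fun τ : ℍ => qN N τ ^ (-k) * (qPow N k : ℍ → ℂ) τ) = fun _ => (1 : ℂ) := by
    funext τ
    simp only [qPow_apply]
    rw [← zpow_add₀ (qN_ne_zero N τ)]
    simp
  rw [this]
  exact tendsto_const_nhds

theorem ordInf_qPow (N : ℕ) [NeZero N] (k : ℤ) : ordInf N (qPow N k : ℍ → ℂ) = k :=
  (hasOrdInf_qPow N k).ordInf_eq

theorem hasOrdInf_const (N : ℕ) {c : ℂ} (hc : c ≠ 0) : HasOrdInf N (fun _ => c) 0 := by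
  refine ⟨c, hc, ?_⟩
  simp only [neg_zero, zpow_zero, one_mul]
  exact tendsto_const_nhds

theorem ordInf_algebraMap (N : ℕ) [NeZero N] {c : ℂ} (hc : c ≠ 0) :
    ordInf N ((algebraMap ℂ Hol c : Hol) : ℍ → ℂ) = 0 :=
  HasOrdInf.ordInf_eq (hasOrdInf_const N hc)

/-- The order function on the cusp ring, as a function on the subalgebra. -/
noncomputable def ordInfRing (N : ℕ) [NeZero N] (a : cuspRing N) : ℤ :=
  ordInf N ((a : Hol) : ℍ → ℂ)

theorem isOrderFunction_ordInfRing (N : ℕ) [NeZero N] : IsOrderFunction (ordInfRing N) where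
  map_mul := fun a b ha hb => by
    have ha0 : (a : Hol) ≠ 0 := fun h => ha (Subtype.ext h)
    have hb0 : (b : Hol) ≠ 0 := fun h => hb (Subtype.ext h)
    exact ordInf_mul a.2 b.2 ha0 hb0
  map_add := fun a b ha hb hab => by
    have ha0 : (a : Hol) ≠ 0 := fun h => ha (Subtype.ext h)
    have hb0 : (b : Hol) ≠ 0 := fun h => hb (Subtype.ext h)
    have hab0 : (a : Hol) + (b : Hol) ≠ 0 := fun h => hab (Subtype.ext h)
    exact le_ordInf_add a.2 b.2 ha0 hb0 hab0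

/-- `q_N^k` is a unit of the cusp ring. -/
theorem isUnit_qPow (N : ℕ) [NeZero N] (k : ℤ) :
    IsUnit (⟨qPow N k, qPow_mem_cuspRing N k⟩ : cuspRing N) := by
  refine IsUnit.of_mul_eq_one (⟨qPow N (-k), qPow_mem_cuspRing N (-k)⟩ : cuspRing N) ?_
  apply Subtype.ext
  show qPow N k * qPow N (-k) = 1
  rw [← qPow_add, add_neg_cancel, qPow_zero]

/-! ### Consequences on fractions, and derivatives -/

theorem HasOrdInf.isCuspMero_bounded {N : ℕ} {a : ℍ → ℂ} {r : ℤ} (h : HasOrdInf N a r) :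
    IsBoundedAtImInfty (fun τ => qN N τ ^ (-r) * a τ) := by
  obtain ⟨c, -, hlim⟩ := h
  exact hlim.isBigO_one ℝ

/-- A fraction `a / b` of elements of `P_N` with `ordInf b ≤ ordInf a` can be rewritten as
`a₁ / b₁` with `a₁, b₁ ∈ P_N` having limits at `i∞`, the limit of `b₁` being nonzero. -/
theorem exists_bounded_rep {N : ℕ} [NeZero N] {a b : Hol} (ha : a ∈ cuspRing N)
    (hb : b ∈ cuspRing N) (hb0 : b ≠ 0)
    (hle : a = 0 ∨ ordInf N (b : ℍ → ℂ) ≤ ordInf N (a : ℍ → ℂ)) :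
    ∃ a1 b1 : Hol, a1 ∈ cuspRing N ∧ b1 ∈ cuspRing N ∧ b1 ≠ 0 ∧
      algebraMap Hol Mer a / algebraMap Hol Mer b =
        algebraMap Hol Mer a1 / algebraMap Hol Mer b1 ∧
      (∃ c : ℂ, Tendsto (a1 : ℍ → ℂ) atImInfty (𝓝 c)) ∧
      (∃ c : ℂ, c ≠ 0 ∧ Tendsto (b1 : ℍ → ℂ) atImInfty (𝓝 c)) ∧
      IsBoundedAtImInfty (a1 : ℍ → ℂ) ∧ IsBoundedAtImInfty (b1 : ℍ → ℂ) := by
  set s := ordInf N (b : ℍ → ℂ) with hs
  have hQ : qPow N (-s) ≠ 0 := qPow_ne_zero N (-s)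
  have hQ' : algebraMap Hol Mer (qPow N (-s)) ≠ 0 :=
    (map_ne_zero_iff _ (IsFractionRing.injective Hol Mer)).mpr hQ
  have hb1 : ∃ c : ℂ, c ≠ 0 ∧ Tendsto ((qPow N (-s) * b : Hol) : ℍ → ℂ) atImInfty (𝓝 c) := by
    obtain ⟨c, hc, hlim⟩ := hasOrdInf_ordInf hb hb0
    exact ⟨c, hc, hlim.congr fun τ => by simp [hs]⟩
  have ha1 : ∃ c : ℂ, Tendsto ((qPow N (-s) * a : Hol) : ℍ → ℂ) atImInfty (𝓝 c) := by
    rcases hle with rfl | hle
    · refine ⟨0, ?_⟩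
      rw [mul_zero]
      exact tendsto_const_nhds
    · by_cases ha0 : a = 0
      · subst ha0
        refine ⟨0, ?_⟩
        rw [mul_zero]
        exact tendsto_const_nhds
      · obtain ⟨c, hlim⟩ := (hasOrdInf_ordInf ha ha0).tendsto_of_le hle
        exact ⟨c, hlim.congr fun τ => by simp [hs]⟩
  refine ⟨qPow N (-s) * a, qPow N (-s) * b, (cuspRing N).mul_mem (qPow_mem_cuspRing N _) ha,
    (cuspRing N).mul_mem (qPow_mem_cuspRing N _) hb, mul_ne_zero hQ hb0, ?_, ha1, hb1, ?_, ?_⟩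
  · rw [map_mul, map_mul, mul_div_mul_left _ _ hQ']
  · obtain ⟨c, hc⟩ := ha1
    exact hc.isBigO_one ℝ
  · obtain ⟨c, -, hc⟩ := hb1
    exact hc.isBigO_one ℝ

theorem hasDerivAt_qParam (h : ℝ) (z : ℂ) :
    HasDerivAt (𝕢 h) (𝕢 h z * (2 * π * I / h)) z := by
  have h1 := (((hasDerivAt_id z).const_mul (2 * π * I)).div_const (h : ℂ)).cexp
  simp only [id_eq, mul_one] at h1
  exact h1

/-- The derivative of a bounded element of `P_N` tends to `0` at `i∞`. -/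
theorem isZeroAtImInfty_deriv {N : ℕ} [NeZero N] {a : ℍ → ℂ} (hmd : MDiff a)
    (hper : ∀ τ : ℍ, a ((N : ℝ) +ᵥ τ) = a τ) (hbd : IsBoundedAtImInfty a) :
    IsZeroAtImInfty (fun τ : ℍ => deriv (a ∘ ofComplex) (τ : ℂ)) := by
  have hN : (0 : ℝ) < N := by exact_mod_cast Nat.pos_of_ne_zero (NeZero.ne N)
  have hP := periodic_comp_ofComplex hper
  have hGan : AnalyticAt ℂ (cuspFunction (N : ℝ) a) 0 :=
    analyticAt_cuspFunction_zero hN hP hmd hbd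
  have hderiv : ∀ τ : ℍ, deriv (a ∘ ofComplex) (τ : ℂ) =
      deriv (cuspFunction (N : ℝ) a) (qN N τ) * (qN N τ * (2 * π * I / (N : ℝ))) := by
    intro τ
    have hG : DifferentiableAt ℂ (cuspFunction (N : ℝ) a) (qN N τ) :=
      differentiableAt_cuspFunction hN hP hmd hbd (Periodic.norm_qParam_lt_one hN τ.im_pos)
    have hcomp : HasDerivAt (cuspFunction (N : ℝ) a ∘ 𝕢 (N : ℝ))
        (deriv (cuspFunction (N : ℝ) a) (qN N τ) * (qN N τ * (2 * π * I / (N : ℝ)))) (τ : ℂ) :=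
      hG.hasDerivAt.comp (τ : ℂ) (hasDerivAt_qParam N τ)
    have heq : (a ∘ ofComplex) =ᶠ[𝓝 (τ : ℂ)] cuspFunction (N : ℝ) a ∘ 𝕢 (N : ℝ) := by
      filter_upwards [isOpen_upperHalfPlaneSet.mem_nhds τ.im_pos] with z hz
      simp only [comp_apply]
      exact (Periodic.eq_cuspFunction hN.ne' hP z).symm
    rw [heq.deriv_eq]
    exact hcomp.deriv
  have h1 : Tendsto (fun τ : ℍ => deriv (cuspFunction (N : ℝ) a) (qN N τ)) atImInfty
      (𝓝 (deriv (cuspFunction (N : ℝ) a) 0)) :=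
    hGan.deriv.continuousAt.tendsto.comp (tendsto_qN N)
  have h2 : Tendsto (fun τ : ℍ => qN N τ * (2 * π * I / (N : ℝ))) atImInfty
      (𝓝 (0 * (2 * π * I / (N : ℝ)))) := (tendsto_qN N).mul_const _
  have h3 := h1.mul h2
  rw [zero_mul, mul_zero] at h3
  exact h3.congr fun τ => (hderiv τ).symm

theorem isZeroAtImInfty_deriv_of_mem {N : ℕ} [NeZero N] {a : Hol} (ha : a ∈ cuspRing N)
    (hbd : IsBoundedAtImInfty (a : ℍ → ℂ)) :
    IsZeroAtImInfty (fun τ : ℍ => deriv ((a : ℍ → ℂ) ∘ ofComplex) (τ : ℂ)) :=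
  isZeroAtImInfty_deriv (Hol.mdiff a) ha.1 hbd

/-! ### Real translations -/

theorem qN_vadd_real (N : ℕ) (x : ℝ) (τ : ℍ) :
    qN N (x +ᵥ τ) = 𝕢 (N : ℝ) (x : ℂ) * qN N τ := by
  simp only [qN, Periodic.qParam, coe_vadd]
  rw [← Complex.exp_add]
  congr 1
  ring

theorem tendsto_vadd_atImInfty (x : ℝ) : Tendsto (fun τ : ℍ => x +ᵥ τ) atImInfty atImInfty := by
  rw [atImInfty, tendsto_comap_iff]
  have : (UpperHalfPlane.im ∘ fun τ : ℍ => x +ᵥ τ) = UpperHalfPlane.im := by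
    funext τ
    simp [vadd_im]
  rw [this]
  exact tendsto_comap

theorem HasOrdInf.vadd {N : ℕ} {a : ℍ → ℂ} {r : ℤ} (h : HasOrdInf N a r) (x : ℝ) :
    HasOrdInf N (fun τ => a (x +ᵥ τ)) r := by
  obtain ⟨c, hc, hlim⟩ := h
  have hζ : 𝕢 (N : ℝ) (x : ℂ) ≠ 0 := Periodic.qParam_ne_zero _
  refine ⟨𝕢 (N : ℝ) (x : ℂ) ^ r * c, mul_ne_zero (zpow_ne_zero r hζ) hc, ?_⟩
  have h1 := (hlim.comp (tendsto_vadd_atImInfty x)).const_mul (𝕢 (N : ℝ) (x : ℂ) ^ r)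
  refine h1.congr fun τ => ?_
  simp only [comp_apply]
  rw [qN_vadd_real, mul_zpow, ← mul_assoc, ← mul_assoc, ← zpow_add₀ hζ]
  simp

theorem IsCuspMero.vadd {N : ℕ} {a : ℍ → ℂ} (h : IsCuspMero N a) (x : ℝ) :
    IsCuspMero N (fun τ => a (x +ᵥ τ)) := by
  obtain ⟨hper, k, hk⟩ := h
  refine ⟨fun τ => ?_, k, ?_⟩
  · show a (x +ᵥ ((N : ℝ) +ᵥ τ)) = a (x +ᵥ τ)
    rw [vadd_comm, hper]
  · have hζ : 𝕢 (N : ℝ) (x : ℂ) ≠ 0 := Periodic.qParam_ne_zero _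
    have h1 : IsBoundedAtImInfty (fun τ : ℍ => qN N (x +ᵥ τ) ^ k * a (x +ᵥ τ)) :=
      hk.comp_tendsto (tendsto_vadd_atImInfty x)
    have h2 := (Filter.const_boundedAtFilter atImInfty (𝕢 (N : ℝ) (x : ℂ) ^ (-k))).mul h1
    refine isBounded_congr (fun τ => ?_) h2
    simp only [Pi.mul_apply, Function.const_apply]
    rw [qN_vadd_real, mul_zpow, ← mul_assoc, ← mul_assoc, ← zpow_add₀ hζ]
    simp

/-- The cusp ring is stable under `T^n`, and `ordInf` is invariant. -/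
theorem T_zpow_smul_mem_cuspRing {N : ℕ} [NeZero N] {a : Hol} (ha : a ∈ cuspRing N) (n : ℤ) :
    (ModularGroup.T ^ n • a : Hol) ∈ cuspRing N := by
  have h := IsCuspMero.vadd ha ((-n : ℤ) : ℝ)
  refine (?_ : IsCuspMero N _)
  convert h using 1
  funext τ
  rw [Hol.smul_apply, ← zpow_neg, modular_T_zpow_smul]

theorem ordInf_T_zpow_smul {N : ℕ} [NeZero N] {a : Hol} (ha : a ∈ cuspRing N) (ha0 : a ≠ 0)
    (n : ℤ) :
    ordInf N ((ModularGroup.T ^ n • a : Hol) : ℍ → ℂ) = ordInf N (a : ℍ → ℂ) := by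
  have h := (hasOrdInf_ordInf ha ha0).vadd ((-n : ℤ) : ℝ)
  refine HasOrdInf.ordInf_eq ?_
  convert h using 1
  funext τ
  rw [Hol.smul_apply, ← zpow_neg, modular_T_zpow_smul]

/-! ### Generators: `τ ↦ J ((a τ + b) / e)` -/

open Fermat.Agent.S24.Hermite Fermat.Agent.S24.ModGrowth Fermat.Agent.S24.JAnalytic

theorem qParam_one_affPoint (N : ℕ) [NeZero N] (a b e : ℤ) (ha : 0 < a) (he : 0 < e) (m : ℤ)
    (hm : m * e = a * N) (τ : ℍ) :
    𝕢 1 (affPoint a b e ha he τ : ℍ) = 𝕢 (e : ℝ) (b : ℂ) * qN N τ ^ m := by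
  have hN : (N : ℂ) ≠ 0 := Nat.cast_ne_zero.mpr (NeZero.ne N)
  have he' : (e : ℂ) ≠ 0 := by exact_mod_cast he.ne'
  have hm' : (m : ℂ) * e = a * N := by exact_mod_cast hm
  rw [qN_zpow_eq, coe_affPoint, Periodic.qParam, Periodic.qParam, ← Complex.exp_add]
  congr 1
  have hm2 : (m : ℂ) = a * N / e := by
    field_simp
    exact hm'
  rw [hm2]
  push_cast
  field_simp
  ring

theorem affPoint_vadd (N : ℕ) (a b e : ℤ) (ha : 0 < a) (he : 0 < e) (m : ℤ)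
    (hm : m * e = a * N) (τ : ℍ) :
    affPoint a b e ha he ((N : ℝ) +ᵥ τ) = ((m : ℤ) : ℝ) +ᵥ affPoint a b e ha he τ := by
  have he' : (e : ℂ) ≠ 0 := by exact_mod_cast he.ne'
  have hm' : (m : ℂ) * e = a * N := by exact_mod_cast hm
  apply UpperHalfPlane.ext
  rw [coe_vadd, coe_affPoint, coe_affPoint, coe_vadd]
  push_cast
  field_simp
  linear_combination (-1 : ℂ) * hm'

/-- General form: `J` with `J · q → 1` at `i∞`; then `τ ↦ J ((a τ + b) / e)` has order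
`-(a N / e)` w.r.t. `q_N`. -/
theorem hasOrdInf_comp_affPoint {N : ℕ} [NeZero N] (J : ℍ → ℂ)
    (hJq : Tendsto (fun τ : ℍ => J τ * 𝕢 1 τ) atImInfty (𝓝 1))
    (a b e : ℤ) (ha : 0 < a) (he : 0 < e) (m : ℤ) (hm : m * e = a * N) :
    HasOrdInf N (fun τ => J (affPoint a b e ha he τ)) (-m) := by
  have hζ : 𝕢 (e : ℝ) (b : ℂ) ≠ 0 := Periodic.qParam_ne_zero _
  refine ⟨(𝕢 (e : ℝ) (b : ℂ))⁻¹ * 1, mul_ne_zero (inv_ne_zero hζ) one_ne_zero, ?_⟩
  have h1 := ((hJq.comp (tendsto_affPoint a b e ha he)).const_mul (𝕢 (e : ℝ) (b : ℂ))⁻¹)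
  refine h1.congr fun τ => ?_
  simp only [comp_apply]
  rw [qParam_one_affPoint N a b e ha he m hm τ, neg_neg]
  field_simp

theorem isCuspMero_comp_affPoint {N : ℕ} [NeZero N] (J : ℍ → ℂ)
    (hJper : ∀ (n : ℤ) (z : ℍ), J ((n : ℝ) +ᵥ z) = J z)
    (hJq : Tendsto (fun τ : ℍ => J τ * 𝕢 1 τ) atImInfty (𝓝 1))
    (a b e : ℤ) (ha : 0 < a) (he : 0 < e) (m : ℤ) (hm : m * e = a * N) :
    IsCuspMero N (fun τ => J (affPoint a b e ha he τ)) := by
  refine ⟨fun τ => ?_, m, ?_⟩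
  · show J (affPoint a b e ha he ((N : ℝ) +ᵥ τ)) = J (affPoint a b e ha he τ)
    rw [affPoint_vadd N a b e ha he m hm τ, hJper]
  · have h := (hasOrdInf_comp_affPoint J hJq a b e ha he m hm).isCuspMero_bounded
    simpa only [neg_neg] using h

theorem jFun_vadd_int (n : ℤ) (z : ℍ) : jFun ((n : ℝ) +ᵥ z) = jFun z := by
  rw [← modular_T_zpow_smul, jFun_smul]

theorem tendsto_jFun_mul_q : Tendsto (fun τ : ℍ => jFun τ * 𝕢 1 τ) atImInfty (𝓝 1) :=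
  Fermat.Agent.S24.JStab.tendsto_jA_mul_q

/-- The generator `τ ↦ j ((a τ + b) / e)` as an element of `Hol`. -/
noncomputable def jAff (a b e : ℤ) (ha : 0 < a) (he : 0 < e) : Hol :=
  ⟨fun τ => jFun (affPoint a b e ha he τ), mdiff_jFun_affPoint a b e ha he⟩

@[simp] theorem jAff_apply (a b e : ℤ) (ha : 0 < a) (he : 0 < e) (τ : ℍ) :
    (jAff a b e ha he : ℍ → ℂ) τ = jFun (affPoint a b e ha he τ) := rfl

theorem jAff_mem_cuspRing {N : ℕ} [NeZero N] (a b e : ℤ) (ha : 0 < a) (he : 0 < e) (m : ℤ)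
    (hm : m * e = a * N) : jAff a b e ha he ∈ cuspRing N :=
  isCuspMero_comp_affPoint jFun jFun_vadd_int tendsto_jFun_mul_q a b e ha he m hm

theorem hasOrdInf_jAff {N : ℕ} [NeZero N] (a b e : ℤ) (ha : 0 < a) (he : 0 < e) (m : ℤ)
    (hm : m * e = a * N) : HasOrdInf N (jAff a b e ha he : ℍ → ℂ) (-m) :=
  hasOrdInf_comp_affPoint jFun tendsto_jFun_mul_q a b e ha he m hm

theorem ordInf_jAff {N : ℕ} [NeZero N] (a b e : ℤ) (ha : 0 < a) (he : 0 < e) (m : ℤ)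
    (hm : m * e = a * N) : ordInf N (jAff a b e ha he : ℍ → ℂ) = -m :=
  (hasOrdInf_jAff a b e ha he m hm).ordInf_eq

theorem jAff_ne_zero (a b e : ℤ) (ha : 0 < a) (he : 0 < e) : jAff a b e ha he ≠ 0 := by
  intro h0
  have h1 := tendsto_jFun_mul_q.comp (tendsto_affPoint a b e ha he)
  have h2 : Tendsto (fun _ : ℍ => (0 : ℂ)) atImInfty (𝓝 1) := by
    refine h1.congr fun τ => ?_
    have h3 := congrArg (fun f : Hol => (f : ℍ → ℂ) τ) h0
    simp only [jAff_apply] at h3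
    simp only [comp_apply, h3]
    simp
  exact one_ne_zero (tendsto_nhds_unique h2 tendsto_const_nhds)

/-- Version with `e ∣ N`. -/
theorem jAff_mem_cuspRing_of_dvd {N : ℕ} [NeZero N] (a b e : ℤ) (ha : 0 < a) (he : 0 < e)
    (hd : e ∣ (N : ℤ)) : jAff a b e ha he ∈ cuspRing N := by
  obtain ⟨f, hf⟩ := hd
  exact jAff_mem_cuspRing a b e ha he (a * f) (by rw [hf]; ring)

theorem ordInf_jAff_of_dvd {N : ℕ} [NeZero N] (a b e : ℤ) (ha : 0 < a) (he : 0 < e)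
    (hd : e ∣ (N : ℤ)) : ordInf N (jAff a b e ha he : ℍ → ℂ) = -(a * ((N : ℤ) / e)) := by
  obtain ⟨f, hf⟩ := hd
  rw [ordInf_jAff a b e ha he (a * f) (by rw [hf]; ring), hf,
    Int.mul_ediv_cancel_left _ he.ne']

/-! ### Conjugates of `j (d τ)` under `SL(2,ℤ)` -/

/-- Any holomorphic `c` of the shape `τ ↦ j (d · (g τ))` with `d ∣ N`, `g ∈ SL(2,ℤ)` is one of the
generators `jAff a b e`, with `a e = d`; in particular it lies in `P_N`, it is nonzero and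
`-(N d) ≤ -(a N / e) = ordInf ≤ -1`. -/
theorem conj_eq_jAff (d : ℤ) (hd : 0 < d) (g : SL(2, ℤ)) (c : Hol)
    (hc : ∀ τ z : ℍ, (z : ℂ) = (d : ℂ) * ((g • τ : ℍ) : ℂ) → (c : ℍ → ℂ) τ = jFun z) :
    ∃ (a b e : ℤ) (_ : a * e = d) (ha : 0 < a) (he : 0 < e), c = jAff a b e ha he := by
  obtain ⟨g', a, b, e, hae, ha, -, -, he, h⟩ := exists_hermite_smul d hd g
  refine ⟨a, b, e, hae, ha, he, ?_⟩
  ext τ
  rw [hc τ (g' • affPoint a b e ha he τ) (h τ).symm, jFun_smul, jAff_apply]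

theorem conj_mem_cuspRing {N : ℕ} [NeZero N] (d : ℤ) (hd : 0 < d) (hdN : d ∣ (N : ℤ))
    (g : SL(2, ℤ)) (c : Hol)
    (hc : ∀ τ z : ℍ, (z : ℂ) = (d : ℂ) * ((g • τ : ℍ) : ℂ) → (c : ℍ → ℂ) τ = jFun z) :
    c ∈ cuspRing N ∧ c ≠ 0 ∧ ordInf N (c : ℍ → ℂ) < 0 := by
  obtain ⟨a, b, e, hae, ha, he, rfl⟩ := conj_eq_jAff d hd g c hc
  have heN : e ∣ (N : ℤ) := (Dvd.intro_left a hae).trans hdN
  refine ⟨jAff_mem_cuspRing_of_dvd a b e ha he heN, jAff_ne_zero a b e ha he, ?_⟩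
  rw [ordInf_jAff_of_dvd a b e ha he heN]
  have hNpos : (0 : ℤ) < N := by exact_mod_cast Nat.pos_of_ne_zero (NeZero.ne N)
  have h1 : 0 < (N : ℤ) / e := Int.ediv_pos_of_pos_of_dvd hNpos he.le heN
  have := mul_pos ha h1
  linarith

/-- `j` itself: `ordInf N j = -N`. -/
theorem ordInf_j (N : ℕ) [NeZero N] :
    ordInf N (jAff 1 0 1 one_pos one_pos : ℍ → ℂ) = -(N : ℤ) := by
  rw [ordInf_jAff 1 0 1 one_pos one_pos (N : ℤ) (by ring)]

theorem jAff_one_zero_one_apply (τ : ℍ) :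
    (jAff 1 0 1 one_pos one_pos : ℍ → ℂ) τ = jFun τ := by
  rw [jAff_apply]
  congr 1
  apply UpperHalfPlane.ext
  rw [coe_affPoint]
  simp

/-- The algebra generated by elements of `P_N` is contained in `P_N`. -/
theorem adjoin_le_cuspRing {N : ℕ} [NeZero N] {S : Set Hol} (hS : ∀ s ∈ S, s ∈ cuspRing N) :
    Algebra.adjoin ℂ S ≤ cuspRing N :=
  Algebra.adjoin_le hS

end Fermat.Agent.S20.CuspRing
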