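import Fermat.Agent.S20.MerPhi
import Fermat.Agent.S24.Pkg_FF1a
import Fermat.Agent.S24.Pkg_FF3_86

/-!
# S20 / T3 (g): point places (helper20)

For a realisation `R : Realization K F` of a function field `F/K` (`K` algebraically closed of
characteristic zero) inside `Mer`, every point `τ₀ : ℍ` defines the valuation subring
`V τ₀ = φ⁻¹ (local ring of Mer at τ₀)` of `F`, which contains the constants.  Either `V τ₀ = ⊤`
(then every `φ y` is regular at `τ₀`) or `V τ₀` is a place of `F`.  In both cases, a
differential `ω` regular at all places of `F` has `R.Phi ω` regular at `τ₀`; by the local–global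
principle of `MerDiv`, `R.Phi ω` is (the image of) a holomorphic function on `ℍ`.
-/

set_option autoImplicit false
set_option linter.style.haveILetI false

open UpperHalfPlane KaehlerDifferential AlgebraicCurve
open scoped WithZero

namespace Fermat.Agent.S20.PointPlace

open Fermat.Agent.S24.HolH Fermat.Agent.S20.MerDiv Fermat.Agent.S20.MerLocal
open Fermat.Agent.S20.MerPhi Fermat.Agent.S24

variable {K F : Type*} [Field K] [Field F] [Algebra K F]

/-- The valuation subring of `F` of elements whose realisation is regular at `τ₀`. -/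
noncomputable def pointSubring (R : Realization K F) (τ₀ : ℍ) : ValuationSubring F :=
  (valAt τ₀).valuationSubring.comap R.φ

lemma mem_pointSubring (R : Realization K F) (τ₀ : ℍ) (y : F) :
    y ∈ pointSubring R τ₀ ↔ valAt τ₀ (R.φ y) ≤ 1 := by
  unfold pointSubring
  rw [ValuationSubring.mem_comap, Valuation.mem_valuationSubring_iff]

lemma valAt_algebraMap_complex_le_one (τ₀ : ℍ) (c : ℂ) : valAt τ₀ (algebraMap ℂ Mer c) ≤ 1 := by
  by_cases hc : c = 0
  · rw [hc, map_zero, map_zero]
    exact zero_le
  · exact (valAt_algebraMap_complex τ₀ hc).le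

lemma algebraMap_mem_pointSubring (R : Realization K F) (τ₀ : ℍ) (c : K) :
    algebraMap K F c ∈ pointSubring R τ₀ := by
  rw [mem_pointSubring, R.map_const]
  exact valAt_algebraMap_complex_le_one τ₀ _

variable [IsAlgClosed K] [CharZero K] {x : F}

/-- **Pointwise regularity.** A differential regular at every place of `F` is realised by a
meromorphic function regular at every point of `ℍ`. -/
theorem valAt_Phi_le_one_of_regular (hF : IsFunctionFieldOver K x) (R : Realization K F)
    {ω : Ω[F⁄K]} (hω : ∀ v : Place K F, 0 ≤ v.ordDifferential ω) (τ₀ : ℍ) :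
    valAt τ₀ (R.Phi ω) ≤ 1 := by
  by_cases hV : pointSubring R τ₀ = ⊤
  · -- every `φ y` is regular at `τ₀`
    have hall : ∀ y : F, valAt τ₀ (R.φ y) ≤ 1 := fun y => by
      rw [← mem_pointSubring, hV]
      exact ValuationSubring.mem_top y
    have hω' : ω ∈ Submodule.span F {D K F x} := by
      rw [Fermat.Agent.S24.span_D_eq_top hF]
      exact Submodule.mem_top
    obtain ⟨h, rfl⟩ := Submodule.mem_span_singleton.mp hω'
    rw [Realization.Phi_smul, Realization.Phi_D, map_mul]
    exact mul_le_one' (hall h) (valAt_dMer_le_one (hall x))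
  · -- `pointSubring` is a place
    have hK : ∀ a : K, algebraMap K F a ∈ pointSubring R τ₀ :=
      algebraMap_mem_pointSubring R τ₀
    have hPIR : IsPrincipalIdealRing (pointSubring R τ₀) :=
      Fermat.Agent.S24.isPrincipalIdealRing_of_valuationSubring hF _ hK hV
    let v : Place K F := ⟨pointSubring R τ₀, hK, hV, hPIR⟩
    haveI : v.DCoordGenerates := Fermat.Agent.S24.dCoordGenerates hF v
    exact R.valAt_Phi_le_one v τ₀ (fun y hy => (mem_pointSubring R τ₀ y).mp hy) (hω v)

/-- **Global regularity.** A differential regular at every place of `F` is realised by a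
holomorphic function on `ℍ`. -/
theorem exists_hol_eq_Phi (hF : IsFunctionFieldOver K x) (R : Realization K F)
    {ω : Ω[F⁄K]} (hω : ∀ v : Place K F, 0 ≤ v.ordDifferential ω) :
    ∃ f : Hol, algebraMap Hol Mer f = R.Phi ω :=
  mem_range_algebraMap_of_valAt_le_one _ (fun τ₀ => valAt_Phi_le_one_of_regular hF R hω τ₀)

end Fermat.Agent.S20.PointPlace
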