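/-
S20 / T3-CUSPPLACE (helper26): the cusp analog of `PointPlace.lean`.

For a realisation `R : Realization K F` whose image lies in the field of fractions of the cusp ring
`P_N` (inside `Mer`), the elements `x` with `R.φ x` regular at `i∞` form a valuation subring of `F`
containing the constants; if it is not everything it is a place of `F`.  A differential regular
at all places of `F` is realised by a meromorphic function which is `a / b` with `a → 0`,
`b → c ≠ 0` at `i∞`; if it is holomorphic, it is zero at `i∞`.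
-/
import Fermat.Agent.S20.CuspRing
import Fermat.Agent.S20.PointPlace

set_option autoImplicit false
set_option linter.style.haveILetI false

open UpperHalfPlane hiding I
open Complex Filter Topology Function KaehlerDifferential AlgebraicCurve
open scoped MatrixGroups Manifold Real

namespace Fermat.Agent.S20.CuspPlace

open Fermat.Agent.S24.HolH Fermat.Agent.S20.CuspRing Fermat.Agent.S20.MerLocal
open Fermat.Agent.S20.MerPhi Fermat.Agent.S24

/-- `m` is a fraction of elements of the cusp ring `P_N`. -/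
def IsCuspFrac (N : ℕ) [NeZero N] (m : Mer) : Prop :=
  ∃ a b : Hol, a ∈ cuspRing N ∧ b ∈ cuspRing N ∧ b ≠ 0 ∧
    m * algebraMap Hol Mer b = algebraMap Hol Mer a

/-- `m` is regular at `i∞`: `m = a / b` with `a, b ∈ P_N` having limits at `i∞`, the limit of `b`
being nonzero. -/
def RegInf (N : ℕ) [NeZero N] (m : Mer) : Prop :=
  ∃ a b : Hol, a ∈ cuspRing N ∧ b ∈ cuspRing N ∧
    m * algebraMap Hol Mer b = algebraMap Hol Mer a ∧
    (∃ c : ℂ, Tendsto (a : ℍ → ℂ) atImInfty (𝓝 c)) ∧
    (∃ c : ℂ, c ≠ 0 ∧ Tendsto (b : ℍ → ℂ) atImInfty (𝓝 c))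

/-- `m` vanishes at `i∞`: `m = a / b` with `a → 0` and `b → c ≠ 0` at `i∞`. -/
def ZeroInf (m : Mer) : Prop :=
  ∃ a b : Hol, m * algebraMap Hol Mer b = algebraMap Hol Mer a ∧
    Tendsto (a : ℍ → ℂ) atImInfty (𝓝 0) ∧
    (∃ c : ℂ, c ≠ 0 ∧ Tendsto (b : ℍ → ℂ) atImInfty (𝓝 c))

theorem Hol_ne_zero_of_tendsto {b : Hol} {c : ℂ} (hc : c ≠ 0)
    (h : Tendsto (b : ℍ → ℂ) atImInfty (𝓝 c)) : b ≠ 0 := by
  rintro rfl
  have h0 : Tendsto (fun _ : ℍ => (0 : ℂ)) atImInfty (𝓝 c) := h
  exact hc (tendsto_nhds_unique h0 tendsto_const_nhds)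

theorem ofHol_ne_zero {b : Hol} (hb : b ≠ 0) : algebraMap Hol Mer b ≠ 0 :=
  (map_ne_zero_iff _ (IsFractionRing.injective Hol Mer)).mpr hb

section Basic

variable {N : ℕ} [NeZero N]

theorem RegInf.isCuspFrac {m : Mer} (h : RegInf N m) : IsCuspFrac N m := by
  obtain ⟨a, b, ha, hb, hab, -, c, hc, hlim⟩ := h
  exact ⟨a, b, ha, hb, Hol_ne_zero_of_tendsto hc hlim, hab⟩

theorem regInf_ofHol {a : Hol} (ha : a ∈ cuspRing N) {c : ℂ}
    (h : Tendsto (a : ℍ → ℂ) atImInfty (𝓝 c)) : RegInf N (algebraMap Hol Mer a) := by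
  refine ⟨a, 1, ha, (cuspRing N).one_mem, by simp, ⟨c, h⟩, 1, one_ne_zero, ?_⟩
  exact tendsto_const_nhds

theorem regInf_const (c : ℂ) : RegInf N (algebraMap ℂ Mer c) := by
  have h := regInf_ofHol (N := N) (a := algebraMap ℂ Hol c) ((cuspRing N).algebraMap_mem c)
    (c := c) tendsto_const_nhds
  rwa [← IsScalarTower.algebraMap_apply] at h

theorem regInf_zero : RegInf N (0 : Mer) := by
  simpa using regInf_const (N := N) 0

theorem regInf_one : RegInf N (1 : Mer) := by
  simpa using regInf_const (N := N) 1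

theorem RegInf.mul {m m' : Mer} (h : RegInf N m) (h' : RegInf N m') : RegInf N (m * m') := by
  obtain ⟨a, b, ha, hb, hab, ⟨ca, hca⟩, cb, hcb, hlb⟩ := h
  obtain ⟨a', b', ha', hb', hab', ⟨ca', hca'⟩, cb', hcb', hlb'⟩ := h'
  refine ⟨a * a', b * b', (cuspRing N).mul_mem ha ha', (cuspRing N).mul_mem hb hb', ?_,
    ⟨ca * ca', hca.mul hca'⟩, cb * cb', mul_ne_zero hcb hcb', hlb.mul hlb'⟩
  rw [map_mul, map_mul, ← hab, ← hab']
  ring

theorem RegInf.add {m m' : Mer} (h : RegInf N m) (h' : RegInf N m') : RegInf N (m + m') := by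
  obtain ⟨a, b, ha, hb, hab, ⟨ca, hca⟩, cb, hcb, hlb⟩ := h
  obtain ⟨a', b', ha', hb', hab', ⟨ca', hca'⟩, cb', hcb', hlb'⟩ := h'
  refine ⟨a * b' + a' * b, b * b',
    (cuspRing N).add_mem ((cuspRing N).mul_mem ha hb') ((cuspRing N).mul_mem ha' hb),
    (cuspRing N).mul_mem hb hb', ?_,
    ⟨ca * cb' + ca' * cb, (hca.mul hlb').add (hca'.mul hlb)⟩, cb * cb', mul_ne_zero hcb hcb',
    hlb.mul hlb'⟩
  rw [map_add, map_mul, map_mul, map_mul, ← hab, ← hab']
  ring

theorem RegInf.neg {m : Mer} (h : RegInf N m) : RegInf N (-m) := by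
  have := (regInf_const (N := N) (-1)).mul h
  simpa using this

theorem ZeroInf.of_regInf_mul {m m' : Mer} (h : RegInf N m) (h' : ZeroInf m') :
    ZeroInf (m * m') := by
  obtain ⟨a, b, -, -, hab, ⟨ca, hca⟩, cb, hcb, hlb⟩ := h
  obtain ⟨a', b', hab', hca', cb', hcb', hlb'⟩ := h'
  refine ⟨a * a', b * b', ?_, ?_, cb * cb', mul_ne_zero hcb hcb', hlb.mul hlb'⟩
  · rw [map_mul, map_mul, ← hab, ← hab']
    ring
  · have := hca.mul hca'
    rwa [mul_zero] at this

/-- The derivative of an element regular at `i∞` vanishes at `i∞`. -/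
theorem RegInf.zeroInf_dMer {m : Mer} (h : RegInf N m) : ZeroInf (dMer m) := by
  obtain ⟨a, b, ha, hb, hab, ⟨ca, hca⟩, cb, hcb, hlb⟩ := h
  have hb0 : b ≠ 0 := Hol_ne_zero_of_tendsto hcb hlb
  have hb0' := ofHol_ne_zero hb0
  have hm : m = algebraMap Hol Mer a / algebraMap Hol Mer b := by
    rw [eq_div_iff hb0']
    exact hab
  have hda : Tendsto ((dHol a : Hol) : ℍ → ℂ) atImInfty (𝓝 0) :=
    isZeroAtImInfty_deriv_of_mem ha (hca.isBigO_one ℝ)
  have hdb : Tendsto ((dHol b : Hol) : ℍ → ℂ) atImInfty (𝓝 0) :=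
    isZeroAtImInfty_deriv_of_mem hb (hlb.isBigO_one ℝ)
  refine ⟨dHol a * b - a * dHol b, b * b, ?_, ?_, cb * cb, mul_ne_zero hcb hcb, hlb.mul hlb⟩
  · rw [hm, dMer_div a b hb0]
    exact div_mul_cancel₀ _ (ofHol_ne_zero (mul_ne_zero hb0 hb0))
  · have h1 := (hda.mul hlb).sub (hca.mul hdb)
    simp only [zero_mul, mul_zero, sub_zero] at h1
    exact h1

/-- A holomorphic function which vanishes at `i∞` in the sense of `ZeroInf` is zero at `i∞`. -/
theorem ZeroInf.isZeroAtImInfty {f : Hol} (h : ZeroInf (algebraMap Hol Mer f)) :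
    IsZeroAtImInfty (f : ℍ → ℂ) := by
  obtain ⟨a, b, hab, hca, cb, hcb, hlb⟩ := h
  have hfb : f * b = a := by
    apply IsFractionRing.injective Hol Mer
    rw [map_mul]
    exact hab
  have hdiv : Tendsto (fun τ => (a : ℍ → ℂ) τ / (b : ℍ → ℂ) τ) atImInfty (𝓝 (0 / cb)) :=
    hca.div hlb hcb
  rw [zero_div] at hdiv
  refine hdiv.congr' ?_
  filter_upwards [hlb.eventually_ne hcb] with τ hτ
  have h1 := congrArg (fun g : Hol => (g : ℍ → ℂ) τ) hfb
  simp only [Subalgebra.coe_mul, Pi.mul_apply] at h1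
  rw [← h1, mul_div_cancel_right₀ _ hτ]

/-- Elements of negative order at `i∞` are not regular at `i∞`. -/
theorem not_regInf_of_ordInf_neg {J : Hol} {r : ℤ} (hJ : HasOrdInf N (J : ℍ → ℂ) r)
    (hr : r < 0) : ¬ RegInf N (algebraMap Hol Mer J) := by
  rintro ⟨a, b, -, -, hab, ⟨ca, hca⟩, cb, hcb, hlb⟩
  have hJb : J * b = a := by
    apply IsFractionRing.injective Hol Mer
    rw [map_mul]
    exact hab
  -- `J = a / b` tends to `ca / cb`, hence `q^(-r) J → 0`
  have hdiv : Tendsto (fun τ => (a : ℍ → ℂ) τ / (b : ℍ → ℂ) τ) atImInfty (𝓝 (ca / cb)) :=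
    hca.div hlb hcb
  have hJlim : Tendsto (J : ℍ → ℂ) atImInfty (𝓝 (ca / cb)) := by
    refine hdiv.congr' ?_
    filter_upwards [hlb.eventually_ne hcb] with τ hτ
    have h1 := congrArg (fun g : Hol => (g : ℍ → ℂ) τ) hJb
    simp only [Subalgebra.coe_mul, Pi.mul_apply] at h1
    rw [← h1, mul_div_cancel_right₀ _ hτ]
  obtain ⟨c, hc, hlim⟩ := hJ
  have h2 := tendsto_qN_zpow_mul N (neg_nonneg.mpr hr.le) hJlim
  rw [if_neg (neg_ne_zero.mpr hr.ne)] at h2
  exact hc (tendsto_nhds_unique hlim h2)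

theorem IsCuspFrac.regInf_or_inv {m : Mer} (h : IsCuspFrac N m) :
    RegInf N m ∨ RegInf N m⁻¹ := by
  obtain ⟨a, b, ha, hb, hb0, hab⟩ := h
  have hb0' := ofHol_ne_zero hb0
  have hm : m = algebraMap Hol Mer a / algebraMap Hol Mer b := by
    rw [eq_div_iff hb0']
    exact hab
  by_cases ha0 : a = 0
  · left
    rw [hm, ha0, map_zero, zero_div]
    exact regInf_zero
  · have ha0' := ofHol_ne_zero ha0
    rcases le_total (ordInf N (b : ℍ → ℂ)) (ordInf N (a : ℍ → ℂ)) with hle | hle
    · left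
      obtain ⟨a1, b1, ha1, hb1, hb10, heq, hla, hlb, -, -⟩ :=
        exists_bounded_rep ha hb hb0 (Or.inr hle)
      refine ⟨a1, b1, ha1, hb1, ?_, hla, hlb⟩
      rw [hm, heq]
      exact div_mul_cancel₀ _ (ofHol_ne_zero hb10)
    · right
      obtain ⟨a1, b1, ha1, hb1, hb10, heq, hla, hlb, -, -⟩ :=
        exists_bounded_rep hb ha ha0 (Or.inr hle)
      refine ⟨a1, b1, ha1, hb1, ?_, hla, hlb⟩
      rw [hm, inv_div, heq]
      exact div_mul_cancel₀ _ (ofHol_ne_zero hb10)

/-! ### The field of fractions of the cusp ring inside `Mer` -/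

theorem IsCuspFrac.ofHol {a : Hol} (ha : a ∈ cuspRing N) : IsCuspFrac N (algebraMap Hol Mer a) :=
  ⟨a, 1, ha, (cuspRing N).one_mem, one_ne_zero, by simp⟩

theorem IsCuspFrac.const (c : ℂ) : IsCuspFrac N (algebraMap ℂ Mer c) :=
  (regInf_const c).isCuspFrac

theorem IsCuspFrac.mul {m m' : Mer} (h : IsCuspFrac N m) (h' : IsCuspFrac N m') :
    IsCuspFrac N (m * m') := by
  obtain ⟨a, b, ha, hb, hb0, hab⟩ := h
  obtain ⟨a', b', ha', hb', hb0', hab'⟩ := h'
  refine ⟨a * a', b * b', (cuspRing N).mul_mem ha ha', (cuspRing N).mul_mem hb hb',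
    mul_ne_zero hb0 hb0', ?_⟩
  rw [map_mul, map_mul, ← hab, ← hab']
  ring

theorem IsCuspFrac.add {m m' : Mer} (h : IsCuspFrac N m) (h' : IsCuspFrac N m') :
    IsCuspFrac N (m + m') := by
  obtain ⟨a, b, ha, hb, hb0, hab⟩ := h
  obtain ⟨a', b', ha', hb', hb0', hab'⟩ := h'
  refine ⟨a * b' + a' * b, b * b',
    (cuspRing N).add_mem ((cuspRing N).mul_mem ha hb') ((cuspRing N).mul_mem ha' hb),
    (cuspRing N).mul_mem hb hb', mul_ne_zero hb0 hb0', ?_⟩
  rw [map_add, map_mul, map_mul, map_mul, ← hab, ← hab']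
  ring

theorem IsCuspFrac.neg {m : Mer} (h : IsCuspFrac N m) : IsCuspFrac N (-m) := by
  have := (IsCuspFrac.const (N := N) (-1)).mul h
  simpa using this

theorem IsCuspFrac.inv {m : Mer} (h : IsCuspFrac N m) : IsCuspFrac N m⁻¹ := by
  obtain ⟨a, b, ha, hb, hb0, hab⟩ := h
  have hb0' := ofHol_ne_zero hb0
  by_cases ha0 : a = 0
  · have hm : m = 0 := by
      rw [ha0, map_zero] at hab
      exact (mul_eq_zero.mp hab).resolve_right hb0'
    rw [hm, inv_zero]
    exact (regInf_zero (N := N)).isCuspFrac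
  · refine ⟨b, a, hb, ha, ha0, ?_⟩
    have ha0' := ofHol_ne_zero ha0
    have hm : m = algebraMap Hol Mer a / algebraMap Hol Mer b := by
      rw [eq_div_iff hb0']
      exact hab
    rw [hm, inv_div]
    exact div_mul_cancel₀ _ ha0'

/-- The field of fractions of `P_N` inside `Mer`. -/
def cuspField (N : ℕ) [NeZero N] : Subfield Mer where
  carrier := {m | IsCuspFrac N m}
  mul_mem' := fun h h' => h.mul h'
  one_mem' := by simpa using IsCuspFrac.const (N := N) 1
  add_mem' := fun h h' => h.add h'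
  zero_mem' := by simpa using IsCuspFrac.const (N := N) 0
  neg_mem' := fun h => h.neg
  inv_mem' := fun _ h => h.inv

theorem mem_cuspField {m : Mer} : m ∈ cuspField N ↔ IsCuspFrac N m := Iff.rfl

theorem ofHol_mem_cuspField {a : Hol} (ha : a ∈ cuspRing N) :
    algebraMap Hol Mer a ∈ cuspField N := IsCuspFrac.ofHol ha

theorem const_mem_cuspField (c : ℂ) : algebraMap ℂ Mer c ∈ cuspField N := IsCuspFrac.const c

end Basic

/-! ### The cusp place of a realisation -/

variable {K F : Type*} [Field K] [Field F] [Algebra K F]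

/-- The valuation subring of `F` of the elements whose realisation is regular at `i∞`. -/
noncomputable def cuspSubring (R : Realization K F) (N : ℕ) [NeZero N]
    (hR : ∀ y : F, R.φ y ∈ cuspField N) : ValuationSubring F where
  carrier := {y | RegInf N (R.φ y)}
  mul_mem' := fun {y z} hy hz => by
    show RegInf N (R.φ (y * z))
    rw [map_mul]
    exact RegInf.mul hy hz
  one_mem' := by
    show RegInf N (R.φ 1)
    rw [map_one]
    exact regInf_one
  add_mem' := fun {y z} hy hz => by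
    show RegInf N (R.φ (y + z))
    rw [map_add]
    exact RegInf.add hy hz
  zero_mem' := by
    show RegInf N (R.φ 0)
    rw [map_zero]
    exact regInf_zero
  neg_mem' := fun {y} hy => by
    show RegInf N (R.φ (-y))
    rw [map_neg]
    exact RegInf.neg hy
  mem_or_inv_mem' := fun y => by
    show RegInf N (R.φ y) ∨ RegInf N (R.φ y⁻¹)
    rw [map_inv₀]
    exact IsCuspFrac.regInf_or_inv (hR y)

theorem mem_cuspSubring (R : Realization K F) (N : ℕ) [NeZero N]
    (hR : ∀ y : F, R.φ y ∈ cuspField N) (y : F) :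
    y ∈ cuspSubring R N hR ↔ RegInf N (R.φ y) := Iff.rfl

theorem algebraMap_mem_cuspSubring (R : Realization K F) (N : ℕ) [NeZero N]
    (hR : ∀ y : F, R.φ y ∈ cuspField N) (c : K) : algebraMap K F c ∈ cuspSubring R N hR := by
  rw [mem_cuspSubring, R.map_const]
  exact regInf_const _

/-- The cusp subring is not everything as soon as some element is realised by a holomorphic
function with a pole at `i∞` (e.g. `j`). -/
theorem cuspSubring_ne_top (R : Realization K F) (N : ℕ) [NeZero N]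
    (hR : ∀ y : F, R.φ y ∈ cuspField N) {y : F} {J : Hol} {r : ℤ}
    (hy : R.φ y = algebraMap Hol Mer J) (hJ : HasOrdInf N (J : ℍ → ℂ) r) (hr : r < 0) :
    cuspSubring R N hR ≠ ⊤ := by
  intro htop
  have hmem : y ∈ cuspSubring R N hR := by
    rw [htop]
    exact ValuationSubring.mem_top y
  rw [mem_cuspSubring, hy] at hmem
  exact not_regInf_of_ordInf_neg hJ hr hmem

/-- **Regularity at the cusp, abstract form.** If `φ` maps the valuation ring of the place `v`
into the elements regular at `i∞` and `ω` is regular at `v`, then `Phi ω` vanishes at `i∞`. -/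
theorem zeroInf_Phi (R : Realization K F) (N : ℕ) [NeZero N] (v : Place K F)
    [v.DCoordGenerates] (hv : ∀ y ∈ v.toValuationSubring, RegInf N (R.φ y))
    {ω : Ω[F⁄K]} (hω : 0 ≤ v.ordDifferential ω) : ZeroInf (R.Phi ω) := by
  have h1 := v.differentialCoeff_smul_dCoord ω
  rw [← h1, Realization.Phi_smul, Fermat.Agent.S24.LocalDiff.dCoord_eq, Realization.Phi_D]
  have hc : RegInf N (R.φ (v.differentialCoeff ω)) := by
    by_cases h0 : v.differentialCoeff ω = 0
    · rw [h0, map_zero]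
      exact regInf_zero
    · exact hv _ ((Fermat.Agent.S24.ord_nonneg_iff v h0).mp hω)
  have ht : ZeroInf
      (dMer (R.φ ((Fermat.Agent.S24.LocalDiff.unif v : v.toValuationSubring) : F))) :=
    (hv _ (Fermat.Agent.S24.LocalDiff.unif v).2).zeroInf_dMer
  exact ZeroInf.of_regInf_mul hc ht

variable [IsAlgClosed K] [CharZero K] {x : F}

/-- **Regularity at the cusp.** A differential regular at every place of `F` is realised by a
meromorphic function vanishing at `i∞`. -/
theorem zeroInf_Phi_of_regular (hF : IsFunctionFieldOver K x) (R : Realization K F) (N : ℕ)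
    [NeZero N] (hR : ∀ y : F, R.φ y ∈ cuspField N)
    {ω : Ω[F⁄K]} (hω : ∀ v : Place K F, 0 ≤ v.ordDifferential ω) : ZeroInf (R.Phi ω) := by
  by_cases hV : cuspSubring R N hR = ⊤
  · have hall : ∀ y : F, RegInf N (R.φ y) := fun y => by
      rw [← mem_cuspSubring R N hR, hV]
      exact ValuationSubring.mem_top y
    have hω' : ω ∈ Submodule.span F {D K F x} := by
      rw [Fermat.Agent.S24.span_D_eq_top hF]
      exact Submodule.mem_top
    obtain ⟨h, rfl⟩ := Submodule.mem_span_singleton.mp hω'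
    rw [Realization.Phi_smul, Realization.Phi_D]
    exact ZeroInf.of_regInf_mul (hall h) (hall x).zeroInf_dMer
  · have hK : ∀ a : K, algebraMap K F a ∈ cuspSubring R N hR :=
      algebraMap_mem_cuspSubring R N hR
    have hPIR : IsPrincipalIdealRing (cuspSubring R N hR) :=
      Fermat.Agent.S24.isPrincipalIdealRing_of_valuationSubring hF _ hK hV
    let v : Place K F := ⟨cuspSubring R N hR, hK, hV, hPIR⟩
    haveI : v.DCoordGenerates := Fermat.Agent.S24.dCoordGenerates hF v
    exact zeroInf_Phi R N v (fun y hy => (mem_cuspSubring R N hR y).mp hy) (hω v)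

/-- **Vanishing at the cusp.** If the holomorphic function `f` realises a differential regular at
every place of `F`, then `f` is zero at `i∞`. -/
theorem isZeroAtImInfty_of_regular (hF : IsFunctionFieldOver K x) (R : Realization K F) (N : ℕ)
    [NeZero N] (hR : ∀ y : F, R.φ y ∈ cuspField N)
    {ω : Ω[F⁄K]} (hω : ∀ v : Place K F, 0 ≤ v.ordDifferential ω) {f : Hol}
    (hf : algebraMap Hol Mer f = R.Phi ω) : IsZeroAtImInfty (f : ℍ → ℂ) := by
  have h := zeroInf_Phi_of_regular hF R N hR hω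
  rw [← hf] at h
  exact h.isZeroAtImInfty

end Fermat.Agent.S20.CuspPlace
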