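import Mathlib
import Fermat.Agent.S24.HolH

/-!
# S20 / T3-LOC (helper23, parallel seat): the derivation `d/dτ` on `Hol` and on `Mer = Frac Hol`

* `dHol : Derivation ℂ Hol Hol`, `(dHol f) τ = deriv (f ∘ ofComplex) τ`;
* `dMer : Derivation ℂ Mer Mer` extending it;
* local factorisation `a = (τ - τ₀)^k * u` in `Hol`;
* regular elements of `Mer` at `τ₀` are fractions with denominator not vanishing at `τ₀`;
* `dMer` preserves regularity at every point;
* chain rule for the `SL(2,ℤ)`-action.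
-/

set_option autoImplicit false

open UpperHalfPlane Complex Filter Topology
open scoped MatrixGroups Manifold WithZero

namespace Fermat.Agent.S20.MerLocal23

open Fermat.Agent.S24.HolH

/-! ### The derivation on `Hol` -/

theorem comp_ofComplex_eventuallyEq (F : ℍ → ℂ) (τ : ℍ) :
    ∀ᶠ z in 𝓝 (τ : ℂ), 0 < z.im :=
  isOpen_upperHalfPlaneSet.mem_nhds τ.im_pos

/-- The derivative of a holomorphic function on `ℍ`, as a function on `ℍ`. -/
noncomputable def derivH (f : ℍ → ℂ) : ℍ → ℂ := fun τ => deriv (f ∘ ofComplex) (τ : ℂ)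

theorem derivH_comp_ofComplex_eqOn (f : ℍ → ℂ) :
    Set.EqOn ((derivH f) ∘ ofComplex) (deriv (f ∘ ofComplex)) upperHalfPlaneSet := by
  intro z hz
  simp only [Function.comp_apply, derivH]
  rw [ofComplex_apply_of_im_pos hz]

theorem mdiff_derivH {f : ℍ → ℂ} (hf : MDiff f) : MDiff (derivH f) := by
  rw [UpperHalfPlane.mdifferentiable_iff] at hf ⊢
  have h1 : DifferentiableOn ℂ (deriv (f ∘ ofComplex)) upperHalfPlaneSet :=
    hf.deriv isOpen_upperHalfPlaneSet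
  exact h1.congr (derivH_comp_ofComplex_eqOn f)

theorem hasDerivAt_of_mdiff {f : ℍ → ℂ} (hf : MDiff f) (τ : ℍ) :
    HasDerivAt (f ∘ ofComplex) (derivH f τ) (τ : ℂ) := by
  rw [UpperHalfPlane.mdifferentiable_iff] at hf
  exact (hf.differentiableAt (isOpen_upperHalfPlaneSet.mem_nhds τ.im_pos)).hasDerivAt

/-- `d/dτ` on `Hol` as a function. -/
noncomputable def dHolFun (f : Hol) : Hol := ⟨derivH (f : ℍ → ℂ), mdiff_derivH (Hol.mdiff f)⟩

@[simp] theorem dHolFun_apply (f : Hol) (τ : ℍ) :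
    ((dHolFun f : Hol) : ℍ → ℂ) τ = deriv ((f : ℍ → ℂ) ∘ ofComplex) (τ : ℂ) := rfl

theorem hasDerivAt_hol (f : Hol) (τ : ℍ) :
    HasDerivAt ((f : ℍ → ℂ) ∘ ofComplex) (((dHolFun f : Hol) : ℍ → ℂ) τ) (τ : ℂ) :=
  hasDerivAt_of_mdiff (Hol.mdiff f) τ

theorem dHolFun_eq_of_hasDerivAt (f : Hol) (τ : ℍ) {c : ℂ}
    (h : HasDerivAt ((f : ℍ → ℂ) ∘ ofComplex) c (τ : ℂ)) :
    ((dHolFun f : Hol) : ℍ → ℂ) τ = c := h.deriv

theorem dHolFun_add (f g : Hol) : dHolFun (f + g) = dHolFun f + dHolFun g := by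
  ext τ
  have h := (hasDerivAt_hol f τ).add (hasDerivAt_hol g τ)
  have : ((f + g : Hol) : ℍ → ℂ) ∘ ofComplex
      = ((f : ℍ → ℂ) ∘ ofComplex) + ((g : ℍ → ℂ) ∘ ofComplex) := by
    ext z; simp
  rw [dHolFun_eq_of_hasDerivAt (f + g) τ (by rw [this]; exact h)]
  rfl

theorem dHolFun_smul (c : ℂ) (f : Hol) : dHolFun (c • f) = c • dHolFun f := by
  ext τ
  have h := (hasDerivAt_hol f τ).const_mul c
  have : ((c • f : Hol) : ℍ → ℂ) ∘ ofComplex
      = fun z => c * ((f : ℍ → ℂ) ∘ ofComplex) z := by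
    ext z; simp
  rw [dHolFun_eq_of_hasDerivAt (c • f) τ (by rw [this]; exact h)]
  rfl

theorem dHolFun_mul (f g : Hol) : dHolFun (f * g) = f • dHolFun g + g • dHolFun f := by
  ext τ
  have h := (hasDerivAt_hol f τ).mul (hasDerivAt_hol g τ)
  have : ((f * g : Hol) : ℍ → ℂ) ∘ ofComplex
      = ((f : ℍ → ℂ) ∘ ofComplex) * ((g : ℍ → ℂ) ∘ ofComplex) := by
    ext z; simp
  rw [dHolFun_eq_of_hasDerivAt (f * g) τ (by rw [this]; exact h)]
  simp only [Function.comp_apply, ofComplex_apply, smul_eq_mul, Subalgebra.coe_add,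
    Subalgebra.coe_mul, Pi.add_apply, Pi.mul_apply]
  ring

/-- The derivation `d/dτ` on `Hol`. -/
noncomputable def dHol : Derivation ℂ Hol Hol :=
  Derivation.mk' { toFun := dHolFun, map_add' := dHolFun_add, map_smul' := dHolFun_smul }
    dHolFun_mul

theorem dHol_eq (f : Hol) : dHol f = dHolFun f := rfl

@[simp] theorem dHol_apply (f : Hol) (τ : ℍ) :
    ((dHol f : Hol) : ℍ → ℂ) τ = deriv ((f : ℍ → ℂ) ∘ ofComplex) (τ : ℂ) := rfl

/-! ### Extension to `Mer = Frac Hol` -/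

/-- The ring hom `f ↦ f + ε f'` into the dual numbers over `Mer`. -/
noncomputable def toTSZ : Hol →+* TrivSqZeroExt Mer Mer where
  toFun f := TrivSqZeroExt.inl (algebraMap Hol Mer f) + TrivSqZeroExt.inr (algebraMap Hol Mer (dHol f))
  map_one' := by
    rw [map_one, Derivation.map_one_eq_zero, map_zero, TrivSqZeroExt.inr_zero, add_zero,
      TrivSqZeroExt.inl_one]
  map_mul' f g := by
    ext
    · simp
    · simp only [TrivSqZeroExt.snd_add, TrivSqZeroExt.snd_inl, TrivSqZeroExt.snd_inr, zero_add,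
        TrivSqZeroExt.snd_mul, TrivSqZeroExt.fst_add, TrivSqZeroExt.fst_inl,
        TrivSqZeroExt.fst_inr, add_zero, Derivation.leibniz, map_add, smul_eq_mul, map_mul,
        MulOpposite.smul_eq_mul_unop, MulOpposite.unop_op]
      ring
  map_zero' := by simp
  map_add' f g := by
    ext
    · simp
    · simp only [map_add, TrivSqZeroExt.snd_add, TrivSqZeroExt.snd_inl, TrivSqZeroExt.snd_inr]
      ring

@[simp] theorem fst_toTSZ (f : Hol) : (toTSZ f).fst = algebraMap Hol Mer f := by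
  show (TrivSqZeroExt.inl (algebraMap Hol Mer f)
    + TrivSqZeroExt.inr (algebraMap Hol Mer (dHol f)) : TrivSqZeroExt Mer Mer).fst = _
  rw [TrivSqZeroExt.fst_add, TrivSqZeroExt.fst_inl, TrivSqZeroExt.fst_inr, add_zero]

@[simp] theorem snd_toTSZ (f : Hol) : (toTSZ f).snd = algebraMap Hol Mer (dHol f) := by
  show (TrivSqZeroExt.inl (algebraMap Hol Mer f)
    + TrivSqZeroExt.inr (algebraMap Hol Mer (dHol f)) : TrivSqZeroExt Mer Mer).snd = _
  rw [TrivSqZeroExt.snd_add, TrivSqZeroExt.snd_inl, TrivSqZeroExt.snd_inr, zero_add]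

theorem isUnit_toTSZ (y : nonZeroDivisors Hol) : IsUnit (toTSZ (y : Hol)) := by
  rw [TrivSqZeroExt.isUnit_iff_isUnit_fst, fst_toTSZ]
  exact IsLocalization.map_units Mer y

/-- The lift of `toTSZ` to `Mer`. -/
noncomputable def merTSZ : Mer →+* TrivSqZeroExt Mer Mer :=
  IsLocalization.lift (M := nonZeroDivisors Hol) (g := toTSZ) isUnit_toTSZ

@[simp] theorem merTSZ_algebraMap (f : Hol) : merTSZ (algebraMap Hol Mer f) = toTSZ f :=
  IsLocalization.lift_eq _ _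

theorem fst_merTSZ (x : Mer) : (merTSZ x).fst = x := by
  have h : (TrivSqZeroExt.fstHom Mer Mer Mer : TrivSqZeroExt Mer Mer →+* Mer).comp merTSZ
      = RingHom.id Mer := by
    apply IsLocalization.ringHom_ext (nonZeroDivisors Hol)
    ext f
    simp
  exact congrArg (fun φ : Mer →+* Mer => φ x) h

/-- The derivation `d/dτ` on `Mer`. -/
noncomputable def dMer : Derivation ℂ Mer Mer :=
  Derivation.mk'
    { toFun := fun x => (merTSZ x).snd
      map_add' := fun x y => by simp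
      map_smul' := fun c x => by
        have h1 : c • x = algebraMap Hol Mer (algebraMap ℂ Hol c) * x := by
          rw [← IsScalarTower.algebraMap_apply, Algebra.smul_def]
        simp only [RingHom.id_apply]
        rw [h1, map_mul, merTSZ_algebraMap, TrivSqZeroExt.snd_mul, fst_toTSZ, snd_toTSZ,
          Derivation.map_algebraMap, map_zero, smul_zero, add_zero,
          ← IsScalarTower.algebraMap_apply, smul_eq_mul, Algebra.smul_def] }
    (fun x y => by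
      show (merTSZ (x * y)).snd = x • (merTSZ y).snd + y • (merTSZ x).snd
      rw [map_mul, TrivSqZeroExt.snd_mul, fst_merTSZ, fst_merTSZ]
      simp only [smul_eq_mul, MulOpposite.smul_eq_mul_unop, MulOpposite.unop_op]
      ring)

theorem dMer_apply (x : Mer) : dMer x = (merTSZ x).snd := rfl

@[simp] theorem dMer_algebraMap (f : Hol) :
    dMer (algebraMap Hol Mer f) = algebraMap Hol Mer (dHol f) := by
  rw [dMer_apply, merTSZ_algebraMap, snd_toTSZ]

/-- Quotient rule. -/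
theorem dMer_div (a b : Hol) (hb : b ≠ 0) :
    dMer (algebraMap Hol Mer a / algebraMap Hol Mer b)
      = (algebraMap Hol Mer (dHol a) * algebraMap Hol Mer b
          - algebraMap Hol Mer a * algebraMap Hol Mer (dHol b)) / (algebraMap Hol Mer b) ^ 2 := by
  have hb' : algebraMap Hol Mer b ≠ 0 := by
    simpa using (IsFractionRing.injective Hol Mer).ne hb
  set m := algebraMap Hol Mer a / algebraMap Hol Mer b with hm
  have h1 : m * algebraMap Hol Mer b = algebraMap Hol Mer a := by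
    rw [hm]; field_simp
  have h2 := congrArg dMer h1
  rw [Derivation.leibniz, dMer_algebraMap, dMer_algebraMap, smul_eq_mul, smul_eq_mul] at h2
  have h3 : dMer m = (algebraMap Hol Mer (dHol a) - m * algebraMap Hol Mer (dHol b))
      / algebraMap Hol Mer b := by
    field_simp
    linear_combination h2
  rw [h3, hm]
  field_simp

/-! ### Local factorisation in `Hol` -/

/-- The coordinate `τ ↦ τ - τ₀`. -/
noncomputable def tHol (τ₀ : ℍ) : Hol :=
  ⟨fun τ => (τ : ℂ) - (τ₀ : ℂ), UpperHalfPlane.mdifferentiable_coe.sub mdifferentiable_const⟩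

@[simp] theorem tHol_apply (τ₀ τ : ℍ) : ((tHol τ₀ : Hol) : ℍ → ℂ) τ = (τ : ℂ) - (τ₀ : ℂ) := rfl

theorem tHol_comp_ofComplex_eventuallyEq (τ₀ τ : ℍ) :
    (((tHol τ₀ : Hol) : ℍ → ℂ) ∘ ofComplex) =ᶠ[𝓝 (τ : ℂ)] (· - (τ₀ : ℂ)) := by
  filter_upwards [isOpen_upperHalfPlaneSet.mem_nhds τ.im_pos] with z hz
  simp only [Function.comp_apply, tHol_apply]
  rw [ofComplex_apply_of_im_pos hz]

theorem ordAt_tHol_self (τ₀ : ℍ) : ordAt τ₀ (tHol τ₀) = 1 := by
  unfold ordAt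
  rw [analyticOrderAt_congr (tHol_comp_ofComplex_eventuallyEq τ₀ τ₀)]
  exact analyticOrderAt_id_sub_const_self

theorem tHol_ne_zero (τ₀ : ℍ) : tHol τ₀ ≠ 0 := by
  intro h
  have := ordAt_tHol_self τ₀
  rw [h, ordAt_zero] at this
  exact absurd this (by simp)

/-- Division by the coordinate: a holomorphic function vanishing at `τ₀` is divisible by
`τ - τ₀` in `Hol`. -/
theorem exists_eq_tHol_mul (τ₀ : ℍ) (a : Hol) (ha : (a : ℍ → ℂ) τ₀ = 0) :
    ∃ a₁ : Hol, a = tHol τ₀ * a₁ := by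
  set F : ℂ → ℂ := (a : ℍ → ℂ) ∘ ofComplex with hF
  have hFd : DifferentiableOn ℂ F upperHalfPlaneSet := Hol.differentiableOn a
  have hG : DifferentiableOn ℂ (dslope F (τ₀ : ℂ)) upperHalfPlaneSet :=
    (Complex.differentiableOn_dslope (isOpen_upperHalfPlaneSet.mem_nhds τ₀.im_pos)).mpr hFd
  have hmd : MDiff (fun τ : ℍ => dslope F (τ₀ : ℂ) (τ : ℂ)) := by
    rw [UpperHalfPlane.mdifferentiable_iff]
    refine hG.congr ?_
    intro z hz
    simp only [Function.comp_apply]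
    rw [ofComplex_apply_of_im_pos hz]
  refine ⟨⟨fun τ : ℍ => dslope F (τ₀ : ℂ) (τ : ℂ), hmd⟩, ?_⟩
  ext τ
  simp only [Subalgebra.coe_mul, Pi.mul_apply, tHol_apply]
  have h := sub_smul_dslope F (τ₀ : ℂ) (τ : ℂ)
  have hF0 : F (τ₀ : ℂ) = 0 := by simp [hF, ha]
  have hFτ : F (τ : ℂ) = (a : ℍ → ℂ) τ := by simp [hF]
  rw [hF0, sub_zero, hFτ, smul_eq_mul] at h
  exact h.symm

/-- Local factorisation: if `k ≤ ord_{τ₀} a` then `a = (τ - τ₀)^k * u` with `u` holomorphic. -/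
theorem exists_eq_tHol_pow_mul (τ₀ : ℍ) (k : ℕ) :
    ∀ a : Hol, (k : ℕ∞) ≤ ordAt τ₀ a → ∃ u : Hol, a = tHol τ₀ ^ k * u := by
  induction k with
  | zero => intro a _; exact ⟨a, by simp⟩
  | succ k ih =>
    intro a hk
    have hpos : 0 < ordAt τ₀ a := lt_of_lt_of_le (by simp) hk
    obtain ⟨a₁, ha₁⟩ := exists_eq_tHol_mul τ₀ a (ordAt_pos_iff.mp hpos)
    have hk1 : (k : ℕ∞) ≤ ordAt τ₀ a₁ := by
      rw [ha₁, ordAt_mul, ordAt_tHol_self] at hk
      have hk' : (1 : ℕ∞) + (k : ℕ∞) ≤ 1 + ordAt τ₀ a₁ := by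
        rw [add_comm (1 : ℕ∞) (k : ℕ∞)]
        exact_mod_cast hk
      exact (ENat.add_le_add_iff_left ENat.one_ne_top).mp hk'
    obtain ⟨u, hu⟩ := ih a₁ hk1
    exact ⟨u, by rw [ha₁, hu, pow_succ]; ring⟩

/-- Exact local factorisation with a unit at `τ₀`. -/
theorem exists_eq_tHol_pow_mul_unit (τ₀ : ℍ) (a : Hol) (ha : a ≠ 0) :
    ∃ u : Hol, (u : ℍ → ℂ) τ₀ ≠ 0 ∧ a = tHol τ₀ ^ (ordAt τ₀ a).toNat * u := by
  obtain ⟨u, hu⟩ := exists_eq_tHol_pow_mul τ₀ (ordAt τ₀ a).toNat a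
    (by rw [ENat.coe_toNat (ordAt_ne_top ha)])
  refine ⟨u, ?_, hu⟩
  have h := congrArg (ordAt τ₀) hu
  rw [ordAt_mul, ordAt_pow, ordAt_tHol_self] at h
  have hn : ordAt τ₀ a = ((ordAt τ₀ a).toNat : ℕ∞) := (ENat.coe_toNat (ordAt_ne_top ha)).symm
  rw [← ordAt_eq_zero_iff]
  have h' : ((ordAt τ₀ a).toNat : ℕ∞) + 0 = ((ordAt τ₀ a).toNat : ℕ∞) + ordAt τ₀ u := by
    rw [add_zero]
    conv_lhs => rw [← hn, h]
    simp
  exact (ENat.add_right_injective_of_ne_top (ENat.coe_ne_top _) h').symm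

/-! ### Regular elements of `Mer` at a point -/

theorem holVal_le_one (τ₀ : ℍ) (f : Hol) : holVal τ₀ f ≤ 1 := by
  by_cases hf : f = 0
  · simp [hf]
  · rw [holVal_apply hf, ← WithZero.exp_zero, WithZero.exp_le_exp]
    simp

theorem holVal_eq_one_of_ne_zero {τ₀ : ℍ} {f : Hol} (h : (f : ℍ → ℂ) τ₀ ≠ 0) :
    holVal τ₀ f = 1 := by
  have hf : f ≠ 0 := by
    rintro rfl
    exact h rfl
  rw [holVal_apply hf, ordAt_eq_zero_iff.mpr h]
  simp

theorem valAt_algebraMap_le_one (τ₀ : ℍ) (f : Hol) : valAt τ₀ (algebraMap Hol Mer f) ≤ 1 := by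
  rw [valAt_algebraMap]; exact holVal_le_one τ₀ f

theorem algebraMap_ne_zero {f : Hol} (hf : f ≠ 0) : algebraMap Hol Mer f ≠ 0 := by
  simpa using (IsFractionRing.injective Hol Mer).ne hf

/-- A fraction whose denominator does not vanish at `τ₀` is regular at `τ₀`. -/
theorem valAt_div_le_one {τ₀ : ℍ} (a : Hol) {b : Hol} (hb : (b : ℍ → ℂ) τ₀ ≠ 0) :
    valAt τ₀ (algebraMap Hol Mer a / algebraMap Hol Mer b) ≤ 1 := by
  rw [map_div₀, valAt_algebraMap, valAt_algebraMap, holVal_eq_one_of_ne_zero hb, div_one]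
  exact holVal_le_one τ₀ a

/-- An element of `Mer` regular at `τ₀` is a fraction whose denominator does not vanish at `τ₀`. -/
theorem exists_div_of_valAt_le_one {τ₀ : ℍ} {x : Mer} (hx : valAt τ₀ x ≤ 1) :
    ∃ a b : Hol, (b : ℍ → ℂ) τ₀ ≠ 0 ∧ x = algebraMap Hol Mer a / algebraMap Hol Mer b := by
  obtain ⟨a, b, hb, rfl⟩ := IsFractionRing.div_surjective Hol x
  have hb0 : b ≠ 0 := nonZeroDivisors.ne_zero hb
  by_cases ha0 : a = 0
  · refine ⟨0, 1, by simp, ?_⟩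
    simp [ha0]
  obtain ⟨u, hu, hau⟩ := exists_eq_tHol_pow_mul_unit τ₀ a ha0
  obtain ⟨v, hv, hbv⟩ := exists_eq_tHol_pow_mul_unit τ₀ b hb0
  set m := (ordAt τ₀ a).toNat with hm
  set n := (ordAt τ₀ b).toNat with hn
  have hnm : n ≤ m := by
    rw [map_div₀, valAt_algebraMap, valAt_algebraMap, holVal_apply ha0, holVal_apply hb0,
      div_le_one₀ (by exact WithZero.exp_pos), WithZero.exp_le_exp] at hx
    rw [hm, hn]
    omega
  have ht : algebraMap Hol Mer (tHol τ₀) ≠ 0 := algebraMap_ne_zero (tHol_ne_zero τ₀)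
  have hv0 : v ≠ 0 := by
    rintro rfl
    exact hv rfl
  have hv' : algebraMap Hol Mer v ≠ 0 := algebraMap_ne_zero hv0
  refine ⟨tHol τ₀ ^ (m - n) * u, v, hv, ?_⟩
  rw [hau, hbv]
  simp only [map_mul, map_pow]
  have hpow : (algebraMap Hol Mer (tHol τ₀)) ^ m
      = (algebraMap Hol Mer (tHol τ₀)) ^ n * (algebraMap Hol Mer (tHol τ₀)) ^ (m - n) := by
    rw [← pow_add, Nat.add_sub_cancel' hnm]
  rw [hpow]
  field_simp

/-- **`dMer` preserves regularity at every point.** -/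
theorem valAt_dMer_le_one {τ₀ : ℍ} {x : Mer} (hx : valAt τ₀ x ≤ 1) : valAt τ₀ (dMer x) ≤ 1 := by
  obtain ⟨a, b, hb, rfl⟩ := exists_div_of_valAt_le_one hx
  have hb0 : b ≠ 0 := by
    rintro rfl
    exact hb rfl
  rw [dMer_div a b hb0, ← map_mul, ← map_mul, ← map_sub, ← map_pow]
  exact valAt_div_le_one _ (by simpa using hb)

/-! ### Chain rule for the `SL(2,ℤ)`-action -/

/-- The automorphy factor `τ ↦ c τ + d` of `g`, as a holomorphic function. -/
noncomputable def cdHol (g : SL(2, ℤ)) : Hol :=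
  ⟨fun τ => (g 1 0 : ℂ) * (τ : ℂ) + (g 1 1 : ℂ),
    (mdifferentiable_const.mul UpperHalfPlane.mdifferentiable_coe).add mdifferentiable_const⟩

@[simp] theorem cdHol_apply (g : SL(2, ℤ)) (τ : ℍ) :
    ((cdHol g : Hol) : ℍ → ℂ) τ = (g 1 0 : ℂ) * (τ : ℂ) + (g 1 1 : ℂ) := rfl

theorem cdHol_apply_ne_zero (g : SL(2, ℤ)) (τ : ℍ) : ((cdHol g : Hol) : ℍ → ℂ) τ ≠ 0 :=
  moeb_denom_ne_zero g τ.im_pos

theorem cdHol_ne_zero (g : SL(2, ℤ)) : cdHol g ≠ 0 := by
  intro h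
  exact cdHol_apply_ne_zero g UpperHalfPlane.I (by rw [h]; rfl)

theorem cdHol_apply_eq_denom (g : SL(2, ℤ)) (τ : ℍ) :
    ((cdHol g : Hol) : ℍ → ℂ) τ = UpperHalfPlane.denom (Matrix.SpecialLinearGroup.mapGL ℝ g) τ := by
  simp [UpperHalfPlane.denom]

/-- Chain rule on `Hol`: `(c τ + d)² (g • f)'(τ) = f'(g⁻¹ τ)` with `(c, d)` the bottom row of `g⁻¹`. -/
theorem dHol_smul (g : SL(2, ℤ)) (f : Hol) :
    dHol (g • f) * cdHol g⁻¹ ^ 2 = g • dHol f := by
  ext τ
  simp only [Subalgebra.coe_mul, Subalgebra.coe_pow, Pi.mul_apply, Pi.pow_apply, Hol.smul_apply]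
  have hev : (((g • f : Hol) : ℍ → ℂ) ∘ ofComplex) =ᶠ[𝓝 (τ : ℂ)]
      (((f : ℍ → ℂ) ∘ ofComplex) ∘ moeb g⁻¹) := by
    filter_upwards [isOpen_upperHalfPlaneSet.mem_nhds τ.im_pos] with z hz
    simp only [Function.comp_apply, Hol.smul_apply]
    rw [ofComplex_moeb g⁻¹ hz]
  have h1 := hasDerivAt_moeb g⁻¹ τ.im_pos
  have hpt : moeb g⁻¹ (τ : ℂ) = ((g⁻¹ • τ : ℍ) : ℂ) := (coe_smul_eq_moeb g⁻¹ τ).symm
  have h2 : HasDerivAt ((f : ℍ → ℂ) ∘ ofComplex) (((dHolFun f : Hol) : ℍ → ℂ) (g⁻¹ • τ))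
      (moeb g⁻¹ (τ : ℂ)) := by
    rw [hpt]; exact hasDerivAt_hol f (g⁻¹ • τ)
  have h3 := (h2.comp (τ : ℂ) h1).congr_of_eventuallyEq hev
  have h4 : ((dHol (g • f) : Hol) : ℍ → ℂ) τ = _ := h3.deriv
  rw [h4]
  have hne := cdHol_apply_ne_zero g⁻¹ τ
  rw [cdHol_apply] at hne ⊢
  rw [dHol_eq]
  field_simp

/-- Chain rule on `Mer`. -/
theorem dMer_smul (g : SL(2, ℤ)) (x : Mer) :
    dMer (g • x) * algebraMap Hol Mer (cdHol g⁻¹) ^ 2 = g • dMer x := by
  obtain ⟨a, b, hb, rfl⟩ := IsFractionRing.div_surjective Hol x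
  have hb0 : b ≠ 0 := nonZeroDivisors.ne_zero hb
  have hgb0 : g • b ≠ 0 := by
    intro h
    apply hb0
    have := congrArg (fun F => g⁻¹ • F) h
    simpa using this
  have hgb' : algebraMap Hol Mer (g • b) ≠ 0 := algebraMap_ne_zero hgb0
  rw [smul_div₀', Mer.smul_algebraMap, Mer.smul_algebraMap, dMer_div _ _ hgb0, dMer_div _ _ hb0,
    smul_div₀', smul_sub, smul_mul', smul_mul', smul_pow', Mer.smul_algebraMap,
    Mer.smul_algebraMap, Mer.smul_algebraMap, Mer.smul_algebraMap, ← dHol_smul g a,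
    ← dHol_smul g b]
  simp only [map_mul, map_pow]
  field_simp

/-- If `x` is fixed by `g`, then `dMer x` transforms with weight `2`. -/
theorem dMer_of_smul_eq {g : SL(2, ℤ)} {x : Mer} (hx : g • x = x) :
    g • dMer x = dMer x * algebraMap Hol Mer (cdHol g⁻¹) ^ 2 := by
  rw [← dMer_smul g x, hx]

end Fermat.Agent.S20.MerLocal23
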