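import Fermat.Agent.S20.MerLocal
import Fermat.Agent.S20.MerLocal23

/-!
# S20 / T3: the two copies of `d/dτ` on `Mer` agree (helper20)

`MerLocal.dMer` (helper20) and `MerLocal23.dMer` (helper23) are the same derivation; this file
transports the `SL(2,ℤ)` chain rule of `MerLocal23` to `MerLocal.dMer`.
-/

set_option autoImplicit false

open UpperHalfPlane
open scoped MatrixGroups

namespace Fermat.Agent.S20.MerBridge

open Fermat.Agent.S24.HolH

theorem dHol_eq (f : Hol) : MerLocal.dHol f = MerLocal23.dHol f := rfl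

theorem dMer_eq (m : Mer) : MerLocal.dMer m = MerLocal23.dMer m := by
  obtain ⟨a, b, hb, rfl⟩ := IsFractionRing.div_surjective Hol m
  have hb0 : b ≠ 0 := nonZeroDivisors.ne_zero hb
  rw [MerLocal.dMer_div a b hb0, MerLocal23.dMer_div a b hb0, dHol_eq, dHol_eq]
  simp only [map_sub, map_mul, sq]

theorem dMer_eq' : MerLocal.dMer = MerLocal23.dMer := Derivation.ext dMer_eq

/-- Chain rule for `MerLocal.dMer`. -/
theorem dMer_smul (g : SL(2, ℤ)) (x : Mer) :
    MerLocal.dMer (g • x) * algebraMap Hol Mer (MerLocal23.cdHol g⁻¹) ^ 2 =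
      g • MerLocal.dMer x := by
  rw [dMer_eq, dMer_eq]
  exact MerLocal23.dMer_smul g x

/-- If `x` is fixed by `g`, then `MerLocal.dMer x` transforms with weight `2`. -/
theorem dMer_of_smul_eq {g : SL(2, ℤ)} {x : Mer} (hx : g • x = x) :
    g • MerLocal.dMer x =
      MerLocal.dMer x * algebraMap Hol Mer (MerLocal23.cdHol g⁻¹) ^ 2 := by
  rw [dMer_eq]
  exact MerLocal23.dMer_of_smul_eq hx

end Fermat.Agent.S20.MerBridge
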