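/-
S20 / T3-H3 (helper26): vanishing at all cusps.

For a realisation `R` of `F/K` in `Mer` and `g ∈ SL(2,ℤ)` the twisted realisation `R.twist g`
(`y ↦ g • R.φ y`) satisfies `(R.twist g).Phi ω * (c τ + d)^2 = g • R.Phi ω` (chain rule).
Consequently, if all `SL(2,ℤ)`-translates of the `R.φ y` lie in the fraction field of the cusp
ring `P_N`, and `ω` is regular at all places of `F`, then the holomorphic function `f` realising
`ω` satisfies: `f ∣[2] δ` is zero at `i∞` for every `δ ∈ SL(2,ℤ)`.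
-/
import Fermat.Agent.S20.CuspPlace
import Fermat.Agent.S20.MerBridge

set_option autoImplicit false
set_option linter.style.haveILetI false

open UpperHalfPlane hiding I
open Complex Filter Topology Function KaehlerDifferential AlgebraicCurve
open scoped MatrixGroups Manifold Real ModularForm

namespace Fermat.Agent.S20.CuspStep

open Fermat.Agent.S24.HolH Fermat.Agent.S20.CuspRing Fermat.Agent.S20.MerLocal
open Fermat.Agent.S20.MerPhi Fermat.Agent.S20.CuspPlace Fermat.Agent.S24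

variable {K F : Type*} [Field K] [Field F] [Algebra K F]

theorem smul_algebraMap_complex (g : SL(2, ℤ)) (c : ℂ) :
    g • (algebraMap ℂ Mer c) = algebraMap ℂ Mer c := by
  rw [IsScalarTower.algebraMap_apply ℂ Hol Mer, Mer.smul_algebraMap, Hol.smul_algebraMap]

/-- The realisation twisted by `g ∈ SL(2,ℤ)`: `y ↦ g • R.φ y`. -/
noncomputable def twist (R : Realization K F) (g : SL(2, ℤ)) : Realization K F where
  ι := R.ι
  φ := (MulSemiringAction.toRingHom SL(2, ℤ) Mer g).comp R.φ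
  map_const := fun c => by
    show g • R.φ (algebraMap K F c) = _
    rw [R.map_const, smul_algebraMap_complex]

@[simp] theorem twist_φ (R : Realization K F) (g : SL(2, ℤ)) (y : F) :
    (twist R g).φ y = g • R.φ y := rfl

/-- Chain rule for the twisted realisation. -/
theorem twist_Phi (R : Realization K F) (g : SL(2, ℤ)) (ω : Ω[F⁄K]) :
    (twist R g).Phi ω * algebraMap Hol Mer (MerLocal23.cdHol g⁻¹) ^ 2 = g • R.Phi ω := by
  have hω : ω ∈ Submodule.span F (Set.range (D K F)) := by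
    rw [KaehlerDifferential.span_range_derivation]
    exact Submodule.mem_top
  induction hω using Submodule.span_induction with
  | mem ω h =>
    obtain ⟨y, rfl⟩ := h
    rw [Realization.Phi_D, Realization.Phi_D, twist_φ]
    exact MerBridge.dMer_smul g (R.φ y)
  | zero =>
    rw [Realization.Phi_zero, Realization.Phi_zero, zero_mul, smul_zero]
  | add ω₁ ω₂ _ _ h₁ h₂ =>
    rw [Realization.Phi_add, Realization.Phi_add, add_mul, h₁, h₂, smul_add]
  | smul y ω _ h =>
    rw [Realization.Phi_smul, Realization.Phi_smul, twist_φ, mul_assoc, h, smul_mul']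

variable [IsAlgClosed K] [CharZero K] {x : F}

/-- **(H3) Vanishing at all cusps.** -/
theorem isZeroAtImInfty_slash (hF : IsFunctionFieldOver K x) (R : Realization K F) (N : ℕ)
    [NeZero N] (hR : ∀ (g : SL(2, ℤ)) (y : F), g • R.φ y ∈ cuspField N)
    {ω : Ω[F⁄K]} (hω : ∀ v : Place K F, 0 ≤ v.ordDifferential ω) {f : Hol}
    (hf : algebraMap Hol Mer f = R.Phi ω) (δ : SL(2, ℤ)) :
    IsZeroAtImInfty ((f : ℍ → ℂ) ∣[(2 : ℤ)] δ) := by
  -- apply the cusp step to the realisation twisted by `g = δ⁻¹`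
  have hZ : ZeroInf ((twist R δ⁻¹).Phi ω) :=
    zeroInf_Phi_of_regular hF (twist R δ⁻¹) N (fun y => hR δ⁻¹ y) hω
  obtain ⟨a, b, hab, hca, cb, hcb, hlb⟩ := hZ
  have hchain := twist_Phi R δ⁻¹ ω
  rw [inv_inv, ← hf, Mer.smul_algebraMap] at hchain
  -- `(δ⁻¹ • f) * b = a * cd^2` in `Hol`
  have hHol : (δ⁻¹ • f : Hol) * b = a * MerLocal23.cdHol δ ^ 2 := by
    apply IsFractionRing.injective Hol Mer
    rw [map_mul, map_mul, map_pow, ← hchain, ← hab]
    ring
  have hdiv : Tendsto (fun τ => (a : ℍ → ℂ) τ / (b : ℍ → ℂ) τ) atImInfty (𝓝 (0 / cb)) :=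
    hca.div hlb hcb
  rw [zero_div] at hdiv
  refine hdiv.congr' ?_
  filter_upwards [hlb.eventually_ne hcb] with τ hτ
  have h1 := congrArg (fun G : Hol => (G : ℍ → ℂ) τ) hHol
  simp only [Subalgebra.coe_mul, Subalgebra.coe_pow, Pi.mul_apply, Pi.pow_apply,
    Hol.smul_apply, inv_inv] at h1
  have hcd : ((MerLocal23.cdHol δ : Hol) : ℍ → ℂ) τ ≠ 0 := MerLocal23.cdHol_apply_ne_zero δ τ
  have hden : UpperHalfPlane.denom (δ : GL (Fin 2) ℝ) τ =
      ((MerLocal23.cdHol δ : Hol) : ℍ → ℂ) τ := by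
    simp [UpperHalfPlane.denom]
  rw [ModularForm.SL_slash_apply, hden]
  rw [div_eq_iff hτ, mul_assoc, mul_comm _ ((b : ℍ → ℂ) τ), ← mul_assoc, h1]
  rw [mul_assoc, zpow_neg, ← zpow_natCast]
  have : ((MerLocal23.cdHol δ : Hol) : ℍ → ℂ) τ ^ ((2 : ℕ) : ℤ) *
      (((MerLocal23.cdHol δ : Hol) : ℍ → ℂ) τ ^ (2 : ℤ))⁻¹ = 1 := by
    norm_cast
    exact mul_inv_cancel₀ (pow_ne_zero 2 hcd)
  rw [this, mul_one]

end Fermat.Agent.S20.CuspStep
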