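import Mathlib

/-!
# Extending a derivation to the fraction field (helper20)

`fracDerivation d : Derivation R K K` for `d : Derivation R A A`, `K = Frac A`, constructed through
the ring hom `K →+* TrivSqZeroExt K K`, `x ↦ (x, x')`.
-/

set_option autoImplicit false
set_option linter.unusedSectionVars false

namespace Fermat.Agent.S20.FracDeriv

variable {R A K : Type*} [CommRing R] [CommRing A] [IsDomain A] [Algebra R A] [Field K]
  [Algebra A K] [Algebra R K] [IsScalarTower R A K] [IsFractionRing A K] (d : Derivation R A A)

/-- The ring hom `A →+* TrivSqZeroExt K K`, `a ↦ (a, a')`. -/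
noncomputable def toTSZ : A →+* TrivSqZeroExt K K where
  toFun a := TrivSqZeroExt.inl (algebraMap A K a) + TrivSqZeroExt.inr (algebraMap A K (d a))
  map_one' := by simp
  map_mul' a b := by
    ext
    · simp
    · simp only [TrivSqZeroExt.snd_add, TrivSqZeroExt.snd_inl, TrivSqZeroExt.snd_inr, zero_add,
        TrivSqZeroExt.snd_mul, TrivSqZeroExt.fst_add, TrivSqZeroExt.fst_inl,
        TrivSqZeroExt.fst_inr, add_zero, Derivation.leibniz, map_add, smul_eq_mul, map_mul,
        MulOpposite.smul_eq_mul_unop, MulOpposite.unop_op]
      ring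
  map_zero' := by simp
  map_add' a b := by
    ext
    · simp
    · simp only [TrivSqZeroExt.snd_add, TrivSqZeroExt.snd_inl, TrivSqZeroExt.snd_inr, zero_add,
        map_add]

omit [Algebra R K] [IsScalarTower R A K] in
lemma isUnit_toTSZ (a : nonZeroDivisors A) : IsUnit (toTSZ (K := K) d (a : A)) := by
  rw [TrivSqZeroExt.isUnit_iff_isUnit_fst]
  simp only [toTSZ, RingHom.coe_mk, MonoidHom.coe_mk, OneHom.coe_mk, TrivSqZeroExt.fst_add,
    TrivSqZeroExt.fst_inl, TrivSqZeroExt.fst_inr, add_zero]
  have h0 : algebraMap A K (a : A) ≠ 0 := by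
    intro h
    exact nonZeroDivisors.ne_zero a.2
      ((IsFractionRing.injective A K) (by rw [h, map_zero]))
  exact h0.isUnit

/-- The ring hom `K →+* TrivSqZeroExt K K`, `x ↦ (x, x')`. -/
noncomputable def fracTSZ : K →+* TrivSqZeroExt K K :=
  IsLocalization.lift (M := nonZeroDivisors A) (g := toTSZ (K := K) d) (isUnit_toTSZ d)

lemma fracTSZ_algebraMap (a : A) : fracTSZ (K := K) d (algebraMap A K a) = toTSZ d a :=
  IsLocalization.lift_eq _ _

lemma fst_fracTSZ (x : K) : (fracTSZ (K := K) d x).fst = x := by
  have h : (TrivSqZeroExt.fstHom ℤ K K : TrivSqZeroExt K K →+* K).comp (fracTSZ (K := K) d)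
      = RingHom.id K := by
    apply IsLocalization.ringHom_ext (nonZeroDivisors A)
    ext a
    simp [fracTSZ_algebraMap, toTSZ]
  have := congrArg (fun f : K →+* K => f x) h
  simpa using this

/-- The derivative on `K`, as a plain function. -/
noncomputable def dFun (x : K) : K := (fracTSZ (K := K) d x).snd

lemma dFun_algebraMap (a : A) : dFun (K := K) d (algebraMap A K a) = algebraMap A K (d a) := by
  rw [dFun, fracTSZ_algebraMap]
  simp only [toTSZ, RingHom.coe_mk, MonoidHom.coe_mk, OneHom.coe_mk, TrivSqZeroExt.snd_add,
    TrivSqZeroExt.snd_inl, TrivSqZeroExt.snd_inr, zero_add]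

lemma dFun_add (x y : K) : dFun d (x + y) = dFun d x + dFun d y := by
  simp [dFun]

lemma dFun_mul (x y : K) : dFun d (x * y) = x * dFun d y + y * dFun d x := by
  simp only [dFun, map_mul, TrivSqZeroExt.snd_mul, fst_fracTSZ, smul_eq_mul,
    MulOpposite.smul_eq_mul_unop, MulOpposite.unop_op]
  ring

lemma dFun_const (c : R) : dFun (K := K) d (algebraMap R K c) = 0 := by
  rw [IsScalarTower.algebraMap_apply R A K, dFun_algebraMap, Derivation.map_algebraMap, map_zero]

/-- The extension of a derivation of `A` to its fraction field `K`. -/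
noncomputable def fracDerivation : Derivation R K K where
  toFun := dFun d
  map_add' := dFun_add d
  map_smul' c x := by
    simp only [RingHom.id_apply, Algebra.smul_def, dFun_mul, dFun_const, mul_zero, add_zero]
  map_one_eq_zero' := by
    have := dFun_const (K := K) d (1 : R)
    simpa using this
  leibniz' x y := by
    show dFun d (x * y) = x • dFun d y + y • dFun d x
    rw [dFun_mul]
    simp [smul_eq_mul]

@[simp] lemma fracDerivation_algebraMap (a : A) :
    fracDerivation (K := K) d (algebraMap A K a) = algebraMap A K (d a) :=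
  dFun_algebraMap d a

/-- Quotient rule. -/
lemma fracDerivation_div (a b : A) (hb : b ≠ 0) :
    fracDerivation (K := K) d (algebraMap A K a / algebraMap A K b) =
      algebraMap A K (d a * b - a * d b) / algebraMap A K (b * b) := by
  have hb' : algebraMap A K b ≠ 0 := by
    intro h
    exact hb ((IsFractionRing.injective A K) (by rw [h, map_zero]))
  have h1 : algebraMap A K a = (algebraMap A K a / algebraMap A K b) * algebraMap A K b := by
    field_simp
  have h2 := congrArg (fracDerivation (K := K) d) h1
  rw [Derivation.leibniz, fracDerivation_algebraMap, fracDerivation_algebraMap, smul_eq_mul,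
    smul_eq_mul] at h2
  rw [map_mul, map_sub, map_mul, map_mul]
  field_simp
  rw [h2]
  field_simp
  ring

end Fermat.Agent.S20.FracDeriv
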