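import Fermat.Agent.S20.MerDiv
import Fermat.Agent.S20.FracDeriv

/-!
# S20 / T3-LOC: the derivation `d/dτ` on `Hol` and on `Mer = Frac Hol` (helper20)

* `dHol : Derivation ℂ Hol Hol`, the derivative.
* `dMer : Derivation ℂ Mer Mer`, its extension to the fraction field.
* `valAt_dMer_le_one`: the derivative of an element regular at `τ₀` is regular at `τ₀`.
-/

set_option autoImplicit false

open UpperHalfPlane Filter Topology
open scoped MatrixGroups Manifold WithZero

namespace Fermat.Agent.S20.MerLocal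

open Fermat.Agent.S24.HolH Fermat.Agent.S20.MerDiv Fermat.Agent.S20.FracDeriv

/-- The derivative of a holomorphic function on `ℍ`, as a plain function `Hol → Hol`. -/
noncomputable def dHolFun (f : Hol) : Hol :=
  ofAnalytic (deriv (MerDiv.ext f)) (fun _ hz => (analyticAt_ext f hz).deriv)

lemma dHolFun_apply (f : Hol) (τ : ℍ) :
    ((dHolFun f : Hol) : ℍ → ℂ) τ = deriv (MerDiv.ext f) (τ : ℂ) := rfl

lemma ext_add (f g : Hol) : MerDiv.ext (f + g) = MerDiv.ext f + MerDiv.ext g := by
  funext z; simp [MerDiv.ext]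

lemma ext_mul (f g : Hol) : MerDiv.ext (f * g) = MerDiv.ext f * MerDiv.ext g := by
  funext z; simp [MerDiv.ext]

lemma differentiableAt_ext (f : Hol) (τ : ℍ) : DifferentiableAt ℂ (MerDiv.ext f) (τ : ℂ) :=
  (analyticAt_ext f τ.im_pos).differentiableAt

lemma dHolFun_add (f g : Hol) : dHolFun (f + g) = dHolFun f + dHolFun g := by
  ext τ
  simp only [dHolFun_apply, Subalgebra.coe_add, Pi.add_apply, ext_add]
  exact deriv_add (differentiableAt_ext f τ) (differentiableAt_ext g τ)

lemma dHolFun_mul (f g : Hol) : dHolFun (f * g) = f * dHolFun g + g * dHolFun f := by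
  ext τ
  simp only [dHolFun_apply, Subalgebra.coe_add, Subalgebra.coe_mul, Pi.add_apply, Pi.mul_apply,
    ext_mul]
  rw [deriv_mul (differentiableAt_ext f τ) (differentiableAt_ext g τ), ext_coe, ext_coe]
  ring

lemma dHolFun_algebraMap (c : ℂ) : dHolFun (algebraMap ℂ Hol c) = 0 := by
  ext τ
  simp only [dHolFun_apply, ZeroMemClass.coe_zero, Pi.zero_apply]
  have : MerDiv.ext (algebraMap ℂ Hol c) = fun _ => c := by
    funext z
    simp [MerDiv.ext, Algebra.algebraMap_eq_smul_one]
  rw [this]
  simp

/-- The derivation `d/dτ` on `Hol`. -/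
noncomputable def dHol : Derivation ℂ Hol Hol where
  toFun := dHolFun
  map_add' := dHolFun_add
  map_smul' c f := by
    simp only [RingHom.id_apply, Algebra.smul_def, dHolFun_mul, dHolFun_algebraMap, mul_zero,
      add_zero]
  map_one_eq_zero' := by
    have := dHolFun_algebraMap 1
    simpa using this
  leibniz' f g := by
    show dHolFun (f * g) = f • dHolFun g + g • dHolFun f
    rw [dHolFun_mul]
    simp [smul_eq_mul]

lemma dHol_apply (f : Hol) (τ : ℍ) :
    ((dHol f : Hol) : ℍ → ℂ) τ = deriv (MerDiv.ext f) (τ : ℂ) := rfl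

/-- The derivation `d/dτ` on the field of meromorphic functions on `ℍ`. -/
noncomputable def dMer : Derivation ℂ Mer Mer := fracDerivation (K := Mer) dHol

@[simp] lemma dMer_algebraMap (a : Hol) : dMer (algebraMap Hol Mer a) = algebraMap Hol Mer (dHol a) :=
  fracDerivation_algebraMap dHol a

/-- Quotient rule. -/
lemma dMer_div (a b : Hol) (hb : b ≠ 0) :
    dMer (algebraMap Hol Mer a / algebraMap Hol Mer b) =
      algebraMap Hol Mer (dHol a * b - a * dHol b) / algebraMap Hol Mer (b * b) :=
  fracDerivation_div dHol a b hb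

/-- The derivative of an element regular at `τ₀` is regular at `τ₀`. -/
theorem valAt_dMer_le_one {τ₀ : ℍ} {m : Mer} (h : valAt τ₀ m ≤ 1) : valAt τ₀ (dMer m) ≤ 1 := by
  obtain ⟨a, b, hb, rfl⟩ := exists_rep_of_valAt_le_one h
  have hb0 : b ≠ 0 := by
    rintro rfl
    simp at hb
  rw [dMer_div a b hb0]
  have hbb : b * b ≠ 0 := mul_ne_zero hb0 hb0
  by_cases hnum : dHol a * b - a * dHol b = 0
  · simp [hnum]
  · rw [valAt_div_le_one_iff hnum hbb]
    have : ordAt τ₀ (b * b) = 0 := by
      rw [ordAt_eq_zero_iff]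
      simp [hb]
    rw [this]
    exact zero_le

end Fermat.Agent.S20.MerLocal
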