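/-
S20 / T3-REALIZE, item (R3) (helper80, second seat): the `q`-EXPANSION BRIDGE for an analytic
realisation of the function field `F_N`.

Let `ι : Kbar →+* ℂ`, let `jd d : Hol` be the holomorphic functions `τ ↦ j(dτ)` (`d ∣ N`) and let
`ψ : F_N →+* Mer` be ANY ring hom with `ψ c = ι c` on constants and `ψ (j(q^d)) = jd d`.
Then for every `x : F_N` (a Laurent series with coefficients in `Kbar`) there are holomorphic
`a b : ℍ → ℂ`, `b ≠ 0`, with global `q`-expansions `A B`, such that `ψ x * b = a` in `Mer` and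
`coeffMap ι x * B = A` in `ℂ((q))` — i.e. `ψ x` "has `q`-expansion `coeffMap ι x`".

Consequence (`qExp_eq_of_mul`): if a function `F` with a global `q`-expansion `E` satisfies
`F * b = a` pointwise, then `E = coeffMap ι x`.

Complete (no placeholders).
-/
import Mathlib
import Fermat.Agent.S24.HolH
import Fermat.Agent.S24.HasQExp
import Fermat.Agent.S24.RelJ
import Fermat.Agent.S24.Br46Alg
import Fermat.Prelude.Thm_CongruenceSubgroup_one_mem_strictPeriods_Gamma0

set_option autoImplicit false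

open UpperHalfPlane ModularCurve
open scoped Manifold

noncomputable section

namespace Fermat.Agent.S20.QBridge80

open Fermat.Agent.S24 Fermat.Agent.S24.HolH

variable (N : ℕ) [NeZero N] (ι : Kbar →+* ℂ)

/-- evaluation of a `Kbar`-polynomial at a family of holomorphic functions, via `ι`. -/
def evalHol (jd : Mod.Dv N → Hol) : MvPolynomial (Mod.Dv N) Kbar →+* Hol :=
  MvPolynomial.eval₂Hom ((algebraMap ℂ Hol).comp ι) jd

/-- evaluation of a `Kbar`-polynomial at the formal series `j(q^d)`, coefficients mapped by `ι`. -/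
def evalSer : MvPolynomial (Mod.Dv N) Kbar →+* LaurentSeries ℂ :=
  (coeffMap ι).comp (MvPolynomial.aeval (Mod.xK N)).toRingHom

lemma evalSer_apply (P : MvPolynomial (Mod.Dv N) Kbar) :
    evalSer N ι P = coeffMap ι (MvPolynomial.aeval (Mod.xK N) P) := rfl

/-- every polynomial expression in the `j(dτ)` has the expected global `q`-expansion. -/
theorem hasQExp_evalHol (jd : Mod.Dv N → Hol)
    (hjd : ∀ d τ, (jd d : ℍ → ℂ) τ = JAnalytic.jFun (RelJ.dil d.1 τ))
    (P : MvPolynomial (Mod.Dv N) Kbar) :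
    HasQExp 1 ((evalHol N ι jd P : Hol) : ℍ → ℂ) (evalSer N ι P) := by
  induction P using MvPolynomial.induction_on with
  | C c =>
    have h1 : ((evalHol N ι jd (MvPolynomial.C c) : Hol) : ℍ → ℂ) = fun _ => ι c := by
      simp only [evalHol, MvPolynomial.coe_eval₂Hom, MvPolynomial.eval₂_C, RingHom.comp_apply]
      rfl
    have h2 : evalSer N ι (MvPolynomial.C c) = HahnSeries.C (ι c) := by
      rw [evalSer_apply, MvPolynomial.aeval_C, algebraMap_laurentSeries_eq_single,
        coeffMap_single]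
      rfl
    rw [h1, h2]
    exact HasQExp.const 1 (ι c)
  | add p q hp hq =>
    rw [map_add, map_add]
    exact HasQExp.add hp hq
  | mul_X p d hp =>
    rw [map_mul, map_mul]
    have hX : HasQExp 1 ((evalHol N ι jd (MvPolynomial.X d) : Hol) : ℍ → ℂ)
        (evalSer N ι (MvPolynomial.X d)) := by
      have h1 : ((evalHol N ι jd (MvPolynomial.X d) : Hol) : ℍ → ℂ)
          = fun τ => JAnalytic.jFun (RelJ.dil d.1 τ) := by
        simp only [evalHol, MvPolynomial.coe_eval₂Hom, MvPolynomial.eval₂_X]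
        exact funext (hjd d)
      have h2 : evalSer N ι (MvPolynomial.X d)
          = coeffMap ι (coeffEmb Kbar (qExpand ℚ d.1 jq)) := by
        rw [evalSer_apply, MvPolynomial.aeval_X]
        rfl
      rw [h1, h2]
      exact RelJ.hasQExp_jFun_dilate_coeffEmb ι d.1 (RelJ.dil d.1) (RelJ.coe_dil d.1)
    exact HasQExp.mul hp hX

/-- the polynomial expressions in the generators, as elements of `F_N`. -/
def evalFN : MvPolynomial (Mod.Dv N) Kbar →+* FN N :=
  (MvPolynomial.aeval (fun d : Mod.Dv N =>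
    (⟨Mod.xK N d, Br46.xK_mem N d⟩ : FN N))).toRingHom

lemma coe_evalFN (P : MvPolynomial (Mod.Dv N) Kbar) :
    ((evalFN N P : FN N) : LaurentSeries Kbar) = MvPolynomial.aeval (Mod.xK N) P := by
  have h : ((modularFunctionFieldBar N).val.toRingHom.comp (evalFN N))
      = (MvPolynomial.aeval (Mod.xK N)).toRingHom := by
    apply MvPolynomial.ringHom_ext
    · intro c
      simp [evalFN]
    · intro d
      simp [evalFN]
  exact congrArg (fun f => f P) h

/-- a realisation `ψ` sends polynomial expressions in the generators to the corresponding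
holomorphic functions. -/
theorem psi_evalFN (jd : Mod.Dv N → Hol) (ψ : FN N →+* Mer)
    (hconst : ∀ c : Kbar, ψ (algebraMap Kbar (FN N) c) = algebraMap ℂ Mer (ι c))
    (hψ : ∀ d : Mod.Dv N, ψ ⟨Mod.xK N d, Br46.xK_mem N d⟩ = algebraMap Hol Mer (jd d))
    (P : MvPolynomial (Mod.Dv N) Kbar) :
    ψ (evalFN N P) = algebraMap Hol Mer (evalHol N ι jd P) := by
  have h : ψ.comp (evalFN N) = (algebraMap Hol Mer).comp (evalHol N ι jd) := by
    apply MvPolynomial.ringHom_ext
    · intro c
      simp only [RingHom.comp_apply, evalFN, evalHol, AlgHom.toRingHom_eq_coe, RingHom.coe_coe,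
        MvPolynomial.aeval_C, MvPolynomial.coe_eval₂Hom, MvPolynomial.eval₂_C]
      rw [hconst c]
      exact (IsScalarTower.algebraMap_apply ℂ Hol Mer (ι c))
    · intro d
      simp only [RingHom.comp_apply, evalFN, evalHol, AlgHom.toRingHom_eq_coe, RingHom.coe_coe,
        MvPolynomial.aeval_X, MvPolynomial.coe_eval₂Hom, MvPolynomial.eval₂_X]
      exact hψ d
  exact congrArg (fun f => f P) h

/-- **(R3) the `q`-expansion bridge.**  For any realisation `ψ : F_N →+* Mer` with
`ψ(j(q^d)) = (τ ↦ j(dτ))` and `ψ = ι` on constants, every `ψ x` is a quotient `a / b` of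
holomorphic functions with global `q`-expansions `A`, `B ≠ 0` and `coeffMap ι x * B = A`. -/
theorem exists_qexp_of_realization (jd : Mod.Dv N → Hol)
    (hjd : ∀ d τ, (jd d : ℍ → ℂ) τ = JAnalytic.jFun (RelJ.dil d.1 τ))
    (ψ : FN N →+* Mer)
    (hconst : ∀ c : Kbar, ψ (algebraMap Kbar (FN N) c) = algebraMap ℂ Mer (ι c))
    (hψ : ∀ d : Mod.Dv N, ψ ⟨Mod.xK N d, Br46.xK_mem N d⟩ = algebraMap Hol Mer (jd d))
    (x : FN N) :
    ∃ (a b : Hol) (A B : LaurentSeries ℂ), b ≠ 0 ∧ B ≠ 0 ∧
      ψ x * algebraMap Hol Mer b = algebraMap Hol Mer a ∧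
      HasQExp 1 (a : ℍ → ℂ) A ∧ HasQExp 1 (b : ℍ → ℂ) B ∧
      coeffMap ι (x : LaurentSeries Kbar) * B = A := by
  have hx : (x : LaurentSeries Kbar) ∈ IntermediateField.adjoin Kbar (Set.range (Mod.xK N)) := by
    rw [← Br46.modularFunctionFieldBar_eq_adjoin N]
    exact x.2
  obtain ⟨r, s, hrs⟩ := (IntermediateField.mem_adjoin_range_iff Kbar (Mod.xK N) _).mp hx
  by_cases hs : MvPolynomial.aeval (Mod.xK N) s = 0
  · -- junk division: `x = 0`
    have hx0 : x = 0 := by
      apply Subtype.ext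
      rw [hrs, hs, div_zero]
      rfl
    refine ⟨0, 1, 0, 1, one_ne_zero, one_ne_zero, ?_, ?_, ?_, ?_⟩
    · rw [hx0, map_zero, map_zero, zero_mul]
    · exact HasQExp.zero 1
    · exact HasQExp.one 1
    · rw [hx0]
      show coeffMap ι (0 : LaurentSeries Kbar) * 1 = 0
      rw [map_zero, zero_mul]
  · have hB : evalSer N ι s ≠ 0 := by
      rw [evalSer_apply]
      exact fun h => hs ((HasQExp.coeffMap_eq_zero_iff ι).mp h)
    have hqb := hasQExp_evalHol N ι jd hjd s
    have hb : evalHol N ι jd s ≠ 0 := by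
      intro h0
      rw [h0] at hqb
      exact hB (HasQExp.eq_zero one_pos hqb)
    have hmul : x * evalFN N s = evalFN N r := by
      apply Subtype.ext
      show (x : LaurentSeries Kbar) * ((evalFN N s : FN N) : LaurentSeries Kbar)
        = ((evalFN N r : FN N) : LaurentSeries Kbar)
      rw [coe_evalFN, coe_evalFN, hrs, div_mul_cancel₀ _ hs]
    refine ⟨evalHol N ι jd r, evalHol N ι jd s, evalSer N ι r, evalSer N ι s, hb, hB, ?_,
      hasQExp_evalHol N ι jd hjd r, hqb, ?_⟩
    · rw [← psi_evalFN N ι jd ψ hconst hψ s, ← psi_evalFN N ι jd ψ hconst hψ r, ← map_mul, hmul]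
    · rw [evalSer_apply, evalSer_apply, ← map_mul]
      congr 1
      rw [hrs, div_mul_cancel₀ _ hs]

/-- **Identification of a `q`-expansion.**  If `F : ℍ → ℂ` has a global `q`-expansion `E` and
`F * b = a` pointwise, where `a`, `b` have `q`-expansions `A`, `B ≠ 0` with `X * B = A`, then
`E = X`. -/
theorem qExp_eq_of_mul {F a b : ℍ → ℂ} {E A B X : LaurentSeries ℂ}
    (hF : HasQExp 1 F E) (ha : HasQExp 1 a A) (hb : HasQExp 1 b B) (hB : B ≠ 0)
    (hXB : X * B = A) (hFab : ∀ τ, F τ * b τ = a τ) : E = X := by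
  have h1 : HasQExp 1 (fun τ => F τ * b τ) (E * B) := HasQExp.mul hF hb
  have h2 : HasQExp 1 (fun τ => F τ * b τ) A := by
    have : (fun τ => F τ * b τ) = a := funext hFab
    rw [this]
    exact ha
  have h3 : E * B = A := HasQExp.unique one_pos h1 h2
  exact mul_right_cancel₀ hB (h3.trans hXB.symm)

/-- The Mathlib `q`-expansion of a cusp form on `Γ₀(N)` is a global `q`-expansion in the sense of
`HasQExp 1`. -/
theorem hasQExp_cuspForm {N : ℕ} {k : ℤ} (F : CuspForm (CongruenceSubgroup.Gamma0 N) k) :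
    HasQExp 1 (F : ℍ → ℂ)
      (HahnSeries.ofPowerSeries ℤ ℂ (UpperHalfPlane.qExpansion (1 : ℝ) (F : ℍ → ℂ))) := by
  have hper : Function.Periodic ((F : ℍ → ℂ) ∘ ofComplex) ((1 : ℕ) : ℝ) := by
    have := SlashInvariantFormClass.periodic_comp_ofComplex F
      (CongruenceSubgroup.one_mem_strictPeriods_Gamma0 N)
    simpa using this
  have : Fact (IsCusp OnePoint.infty
      (Subgroup.map (Matrix.SpecialLinearGroup.mapGL ℝ) (CongruenceSubgroup.Gamma0 N))) :=
    ⟨Subgroup.isCusp_of_mem_strictPeriods one_pos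
      (CongruenceSubgroup.one_mem_strictPeriods_Gamma0 N)⟩
  have hhol : MDifferentiable 𝓘(ℂ) 𝓘(ℂ) (F : ℍ → ℂ) := ModularFormClass.holo F
  have hbdd : IsBoundedAtImInfty (F : ℍ → ℂ) := ModularFormClass.bdd_at_infty F
  have h := HasQExp.of_periodic (N := 1) one_pos hper hhol hbdd
  simpa using h

/-- **Rationality of the `q`-expansion of a cusp form written as a quotient.**  If a cusp form
`F` on `Γ₀(N)` satisfies `F * b = a` pointwise, where `a`, `b` have global `q`-expansions
`A`, `B ≠ 0` with `X * B = A`, then the `q`-expansion of `F` is `X`: in particular `X` has no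
negative exponents and `(qExpansion 1 F).coeff n = X.coeff n`. -/
theorem qExpansion_cuspForm_eq_of_mul {N : ℕ} {k : ℤ}
    (F : CuspForm (CongruenceSubgroup.Gamma0 N) k) {a b : ℍ → ℂ} {A B X : LaurentSeries ℂ}
    (ha : HasQExp 1 a A) (hb : HasQExp 1 b B) (hB : B ≠ 0)
    (hXB : X * B = A) (hFab : ∀ τ, F τ * b τ = a τ) :
    HahnSeries.ofPowerSeries ℤ ℂ (UpperHalfPlane.qExpansion (1 : ℝ) (F : ℍ → ℂ)) = X :=
  qExp_eq_of_mul (hasQExp_cuspForm F) ha hb hB hXB hFab

theorem qExpansion_cuspForm_coeff_of_mul {N : ℕ} {k : ℤ}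
    (F : CuspForm (CongruenceSubgroup.Gamma0 N) k) {a b : ℍ → ℂ} {A B X : LaurentSeries ℂ}
    (ha : HasQExp 1 a A) (hb : HasQExp 1 b B) (hB : B ≠ 0)
    (hXB : X * B = A) (hFab : ∀ τ, F τ * b τ = a τ) (n : ℕ) :
    (UpperHalfPlane.qExpansion (1 : ℝ) (F : ℍ → ℂ)).coeff n = X.coeff (n : ℤ) := by
  rw [← qExpansion_cuspForm_eq_of_mul F ha hb hB hXB hFab]
  exact (HahnSeries.ofPowerSeries_apply_coeff _ n).symm

end Fermat.Agent.S20.QBridge80
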