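import Fermat.Agent.S20.RatIndep

/-!
# S20 / T3 (algebraic side of the rationality step): the map `Θ` (helper20)

Let `F` be an intermediate field of `K ⊆ L` (in the application `L = K((q))`) and `θ : L → L` a
`K`-derivation of `L`, given as a plain function (in the application `θ = q d/dq`).  The derivation
`x ↦ θ x` of `F` with values in `L` induces an `F`-linear map `Θ : Ω[F⁄K] → L`; it is injective as
soon as `Ω[F⁄K]` is spanned by some `D x` with `θ x ≠ 0`.  Combined with
`RatIndep.finrank_le_finrank_cuspForm_of_qCoeff` this gives the abstract form of the lower bound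
`finrank_K V ≤ dim S_k(Γ₀(N))` for a `K`-subspace `V` of differentials whose `Θ`-images are, via
`ι : K →+* ℂ`, the `q`-expansions of cusp forms.
-/

set_option autoImplicit false

open KaehlerDifferential ModularFormClass UpperHalfPlane

namespace Fermat.Agent.S20.ThetaMap

section General

variable {K L : Type*} [Field K] [Field L] [Algebra K L]

/-- `θ : L → L` is a `K`-derivation. -/
structure IsDer (K : Type*) {L : Type*} [Field K] [Field L] [Algebra K L] (θ : L → L) : Prop where
  map_add : ∀ x y, θ (x + y) = θ x + θ y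
  map_mul : ∀ x y, θ (x * y) = x * θ y + y * θ x
  map_const : ∀ c : K, θ (algebraMap K L c) = 0

variable (F : IntermediateField K L) {θ : L → L} (hθ : IsDer K θ)

/-- The restriction of `θ` to `F`, as a derivation with values in `L`. -/
noncomputable def der : Derivation K F L where
  toFun x := θ (x : L)
  map_add' x y := hθ.map_add _ _
  map_smul' c x := by
    have h : ((c • x : F) : L) = algebraMap K L c * (x : L) := by
      rw [IntermediateField.coe_smul, Algebra.smul_def]
    simp only [RingHom.id_apply]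
    rw [h, hθ.map_mul, hθ.map_const, mul_zero, add_zero, Algebra.smul_def]
  map_one_eq_zero' := by
    show θ ((1 : F) : L) = 0
    have := hθ.map_const 1
    simpa using this
  leibniz' x y := by
    show θ ((x * y : F) : L) = x • θ (y : L) + y • θ (x : L)
    rw [IntermediateField.coe_mul, hθ.map_mul]
    rfl

/-- The `F`-linear map `Ω[F⁄K] → L` with `D x ↦ θ x`. -/
noncomputable def Theta : Ω[F⁄K] →ₗ[F] L := (der F hθ).liftKaehlerDifferential

@[simp] lemma Theta_D (x : F) : Theta F hθ (D K F x) = θ (x : L) := by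
  unfold Theta
  rw [Derivation.liftKaehlerDifferential_comp_D]
  rfl

lemma Theta_smul (h : F) (ω : Ω[F⁄K]) : Theta F hθ (h • ω) = (h : L) * Theta F hθ ω := by
  rw [map_smul]
  rfl

lemma Theta_const_smul (c : K) (ω : Ω[F⁄K]) :
    Theta F hθ (c • ω) = algebraMap K L c * Theta F hθ ω := by
  have h1 : c • ω = (algebraMap K F c) • ω := by rw [algebraMap_smul]
  rw [h1, Theta_smul]
  rfl

/-- `Θ` is injective if `Ω[F⁄K]` is spanned by `D x` and `θ x ≠ 0`. -/
theorem Theta_injective {x : F} (hspan : Submodule.span F {D K F x} = ⊤)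
    (hx : θ (x : L) ≠ 0) : Function.Injective (Theta F hθ) := by
  rw [injective_iff_map_eq_zero]
  intro ω hω
  have hmem : ω ∈ Submodule.span F {D K F x} := by
    rw [hspan]; exact Submodule.mem_top
  obtain ⟨h, rfl⟩ := Submodule.mem_span_singleton.mp hmem
  rw [Theta_smul, Theta_D] at hω
  rcases mul_eq_zero.mp hω with h0 | h0
  · have : h = 0 := by
      apply Subtype.ext
      simpa using h0
    rw [this, zero_smul]
  · exact absurd h0 hx

end General

section Laurent

variable {K : Type*} [Field K] (F : IntermediateField K (LaurentSeries K))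
  {θ : LaurentSeries K → LaurentSeries K} (hθ : IsDer K θ)

/-- The `K`-linear coefficient map `ω ↦ (n ↦ (Θ ω).coeff n)`. -/
noncomputable def coeffMapNat : Ω[F⁄K] →ₗ[K] (ℕ → K) where
  toFun ω n := (Theta F hθ ω).coeff (n : ℤ)
  map_add' ω₁ ω₂ := by
    funext n
    simp [map_add]
  map_smul' c ω := by
    funext n
    have h2 : algebraMap K (LaurentSeries K) c = HahnSeries.C c := by
      have h1 : algebraMap K (PowerSeries K) c = PowerSeries.C c := by simp
      rw [HahnSeries.algebraMap_apply', h1, HahnSeries.ofPowerSeries_C]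
    simp only [RingHom.id_apply, Pi.smul_apply, smul_eq_mul]
    rw [Theta_const_smul, h2, HahnSeries.C_mul_eq_smul, HahnSeries.coeff_smul, smul_eq_mul]

@[simp] lemma coeffMapNat_apply (ω : Ω[F⁄K]) (n : ℕ) :
    coeffMapNat F hθ ω n = (Theta F hθ ω).coeff (n : ℤ) := rfl

/-- **Abstract lower bound.** -/
theorem finrank_le_finrank_cuspForm (N : ℕ) [NeZero N] (k : ℤ) (ι : K →+* ℂ) (V : Submodule K Ω[F⁄K])
    (Ψ : V → CuspForm (CongruenceSubgroup.Gamma0 N) k)
    (hinj : Function.Injective (Theta F hθ))
    (hneg : ∀ ω : V, ∀ m : ℤ, m < 0 → (Theta F hθ (ω : Ω[F⁄K])).coeff m = 0)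
    (hΨ : ∀ (ω : V) (n : ℕ),
      (qExpansion 1 (Ψ ω)).coeff n = ι ((Theta F hθ (ω : Ω[F⁄K])).coeff (n : ℤ))) :
    Module.finrank K V ≤ Module.finrank ℂ (CuspForm (CongruenceSubgroup.Gamma0 N) k) := by
  refine RatIndep.finrank_le_finrank_cuspForm_of_qCoeff (N := N) (k := k) ι Ψ
    ((coeffMapNat F hθ).comp V.subtype) ?_ ?_
  · intro ω₁ ω₂ h
    apply Subtype.ext
    apply hinj
    ext m
    by_cases hm : m < 0
    · rw [hneg ω₁ m hm, hneg ω₂ m hm]
    · obtain ⟨n, rfl⟩ := Int.eq_ofNat_of_zero_le (not_lt.mp hm)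
      exact congrFun h n
  · intro ω n
    exact hΨ ω n

end Laurent

section Abstract

/-! ### The same with an abstract coefficient map (avoids slow instance problems on
`LaurentSeries`) -/

variable {K L : Type*} [Field K] [Field L] [Algebra K L] (F : IntermediateField K L)
  {θ : L → L} (hθ : IsDer K θ) (co : L →ₗ[K] (ℤ → K))

/-- **Abstract lower bound**, with an abstract injective `K`-linear coefficient map
`co : L → (ℤ → K)`. -/
theorem finrank_le_finrank_cuspForm' (hco : Function.Injective co)
    (N : ℕ) [NeZero N] (k : ℤ) (ι : K →+* ℂ) (V : Submodule K Ω[F⁄K])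
    (Ψ : V → CuspForm (CongruenceSubgroup.Gamma0 N) k)
    (hinj : Function.Injective (Theta F hθ))
    (hneg : ∀ ω : V, ∀ m : ℤ, m < 0 → co (Theta F hθ (ω : Ω[F⁄K])) m = 0)
    (hΨ : ∀ (ω : V) (n : ℕ),
      (qExpansion 1 (Ψ ω)).coeff n = ι (co (Theta F hθ (ω : Ω[F⁄K])) (n : ℤ))) :
    Module.finrank K V ≤ Module.finrank ℂ (CuspForm (CongruenceSubgroup.Gamma0 N) k) := by
  let E : V →ₗ[K] (ℕ → K) :=
    { toFun := fun ω n => co (Theta F hθ (ω : Ω[F⁄K])) (n : ℤ)
      map_add' := fun ω₁ ω₂ => by
        funext n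
        simp [map_add]
      map_smul' := fun c ω => by
        funext n
        have h1 : Theta F hθ ((c • ω : V) : Ω[F⁄K]) =
            c • Theta F hθ (ω : Ω[F⁄K]) := by
          rw [Submodule.coe_smul, Theta_const_smul, Algebra.smul_def]
        simp only [RingHom.id_apply, Pi.smul_apply, smul_eq_mul]
        rw [h1, map_smul]
        rfl }
  refine RatIndep.finrank_le_finrank_cuspForm_of_qCoeff (N := N) (k := k) ι Ψ E ?_ ?_
  · intro ω₁ ω₂ h
    apply Subtype.ext
    apply hinj
    apply hco
    funext m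
    by_cases hm : m < 0
    · rw [hneg ω₁ m hm, hneg ω₂ m hm]
    · obtain ⟨n, rfl⟩ := Int.eq_ofNat_of_zero_le (not_lt.mp hm)
      exact congrFun h n
  · intro ω n
    exact hΨ ω n

end Abstract

end Fermat.Agent.S20.ThetaMap
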