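/-
S20 / T3 (helper80): the derivation `θ = q d/dq`.

* formal side: `thetaL : LaurentSeries R → LaurentSeries R`, coefficients `m * E.coeff m`;
  additivity, Leibniz rule, vanishing on constants, compatibility with `coeffMap`; hence
  `ThetaMap.IsDer K thetaL` (the hypothesis of helper20's `ThetaMap.lean`);
* analytic side: if `f : ℍ → ℂ` has the global `q`-expansion `E` (helper47's `HasQExp 1 f E`) then
  `τ ↦ (2πi)⁻¹ f'(τ)` has the `q`-expansion `thetaL E` (termwise differentiation).
-/
import Mathlib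
import Fermat.Agent.S24.HasQExp
import Fermat.Agent.S20.ThetaMap

set_option autoImplicit false

open UpperHalfPlane ModularCurve
open scoped Real

noncomputable section

namespace Fermat.Agent.S20.Theta80

open Fermat.Agent.S24

section Formal

variable {R : Type*} [Field R]

/-- The formal derivation `q d/dq` on Laurent series. -/
def thetaL (E : LaurentSeries R) : LaurentSeries R :=
  ⟨fun m => (m : R) * E.coeff m, E.isPWO_support.mono fun m hm => by
    simp only [Function.mem_support, ne_eq, mul_eq_zero, not_or] at hm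
    exact hm.2⟩

@[simp] lemma coeff_thetaL (E : LaurentSeries R) (m : ℤ) :
    (thetaL E).coeff m = (m : R) * E.coeff m := rfl

lemma support_thetaL_subset (E : LaurentSeries R) : (thetaL E).support ⊆ E.support := by
  intro m hm
  simp only [HahnSeries.mem_support, coeff_thetaL, ne_eq, mul_eq_zero, not_or] at hm
  exact hm.2

lemma thetaL_add (x y : LaurentSeries R) : thetaL (x + y) = thetaL x + thetaL y := by
  ext m
  simp [mul_add]

lemma thetaL_zero : thetaL (0 : LaurentSeries R) = 0 := by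
  ext m
  simp

lemma thetaL_single_zero (c : R) : thetaL (HahnSeries.single (0 : ℤ) c) = 0 := by
  ext m
  by_cases hm : m = 0
  · subst hm; simp
  · simp [HahnSeries.coeff_single_of_ne hm]

/-- **Leibniz rule** for `q d/dq`. -/
lemma thetaL_mul (x y : LaurentSeries R) :
    thetaL (x * y) = x * thetaL y + y * thetaL x := by
  ext n
  rw [coeff_thetaL, HahnSeries.coeff_add, HahnSeries.coeff_mul,
    HahnSeries.coeff_mul_right' (x := x) (y := thetaL y) y.isPWO_support
      (support_thetaL_subset y),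
    mul_comm y (thetaL x),
    HahnSeries.coeff_mul_left' (x := thetaL x) (y := y) x.isPWO_support
      (support_thetaL_subset x),
    Finset.mul_sum, ← Finset.sum_add_distrib]
  refine Finset.sum_congr rfl fun ij hij => ?_
  have hn : ij.1 + ij.2 = n := (Finset.mem_antidiagonal.mp hij).2.2
  simp only [coeff_thetaL]
  rw [← hn]
  push_cast
  ring

lemma thetaL_algebraMap (c : R) : thetaL (algebraMap R (LaurentSeries R) c) = 0 := by
  rw [algebraMap_laurentSeries_eq_single]
  exact thetaL_single_zero c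

/-- `q d/dq` is a derivation over the constants, in the sense of `ThetaMap.IsDer`. -/
theorem isDer_thetaL : ThetaMap.IsDer R (thetaL (R := R)) where
  map_add := thetaL_add
  map_mul := thetaL_mul
  map_const := thetaL_algebraMap

/-- `q d/dq` commutes with coefficient maps. -/
lemma coeffMap_thetaL {S : Type*} [Field S] (φ : R →+* S) (E : LaurentSeries R) :
    coeffMap φ (thetaL E) = thetaL (coeffMap φ E) := by
  ext m
  simp [coeffMap_coeff]

end Formal

section Analytic

variable {f : ℍ → ℂ} {E : LaurentSeries ℂ}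

/-- the `m`-th term of a `q`-expansion, as an entire function of `z`. -/
private def term (E : LaurentSeries ℂ) (m : ℤ) (z : ℂ) : ℂ :=
  E.coeff m * Complex.exp ((m : ℂ) * (2 * π * Complex.I * z))

private lemma term_eq' (E : LaurentSeries ℂ) (m : ℤ) (z : ℂ) :
    term E m z = E.coeff m * Complex.exp (2 * π * Complex.I * z) ^ m := by
  rw [term, Complex.exp_int_mul]

private lemma term_eq (E : LaurentSeries ℂ) (m : ℤ) (τ : ℍ) :
    term E m (τ : ℂ) = E.coeff m * HasQExp.qN 1 τ ^ m := by
  rw [term_eq', HasQExp.qN_eq]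
  simp

private lemma hasDerivAt_term (E : LaurentSeries ℂ) (m : ℤ) (z : ℂ) :
    HasDerivAt (term E m) (E.coeff m * ((m : ℂ) * (2 * π * Complex.I)) *
      Complex.exp ((m : ℂ) * (2 * π * Complex.I * z))) z := by
  have h1 : HasDerivAt (fun w : ℂ => (m : ℂ) * (2 * π * Complex.I * w))
      ((m : ℂ) * (2 * π * Complex.I)) z := by
    have := ((hasDerivAt_id z).const_mul (2 * π * Complex.I)).const_mul (m : ℂ)
    simpa using this
  have h2 := (h1.cexp).const_mul (E.coeff m)
  have h3 : E.coeff m * ((m : ℂ) * (2 * π * Complex.I)) *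
      Complex.exp ((m : ℂ) * (2 * π * Complex.I * z)) =
      E.coeff m * (Complex.exp ((m : ℂ) * (2 * π * Complex.I * z)) *
        ((m : ℂ) * (2 * π * Complex.I))) := by ring
  rw [h3]
  exact h2

private lemma norm_term (E : LaurentSeries ℂ) (m : ℤ) (z : ℂ) :
    ‖term E m z‖ = ‖E.coeff m‖ * Real.exp (-(2 * π * z.im)) ^ m := by
  rw [term_eq', norm_mul, norm_zpow, Complex.norm_exp]
  congr 3
  simp

/-- **Termwise differentiation of a `q`-expansion.** -/
theorem hasQExp_theta (h : HasQExp 1 f E) :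
    HasQExp 1 (fun τ => (2 * π * Complex.I)⁻¹ * deriv (f ∘ ofComplex) (τ : ℂ)) (thetaL E) := by
  intro τ₀
  -- the strip `U = {c < im z < C}` around `τ₀`
  set c : ℝ := τ₀.im / 2 with hc
  set C : ℝ := 2 * τ₀.im with hC
  have him := τ₀.im_pos
  have hcpos : 0 < c := by rw [hc]; positivity
  have hcC : c < C := by rw [hc, hC]; linarith
  set U : Set ℂ := {z | c < z.im ∧ z.im < C} with hU
  have hUo : IsOpen U := by
    have h1 : IsOpen {z : ℂ | c < z.im} := isOpen_lt continuous_const Complex.continuous_im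
    have h2 : IsOpen {z : ℂ | z.im < C} := isOpen_lt Complex.continuous_im continuous_const
    exact h1.inter h2
  have hτU : (τ₀ : ℂ) ∈ U := by
    refine ⟨?_, ?_⟩
    · show c < (τ₀ : ℂ).im
      rw [hc, UpperHalfPlane.coe_im]; linarith
    · show (τ₀ : ℂ).im < C
      rw [hC, UpperHalfPlane.coe_im]; linarith
  -- summable bounds from the two boundary lines
  set τ₁ : ℍ := ⟨⟨0, c⟩, hcpos⟩ with hτ₁
  set τ₂ : ℍ := ⟨⟨0, C⟩, hcpos.trans hcC⟩ with hτ₂
  set r₁ : ℝ := Real.exp (-(2 * π * c)) with hr₁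
  set r₂ : ℝ := Real.exp (-(2 * π * C)) with hr₂
  have hs₁ : Summable fun m : ℤ => ‖E.coeff m‖ * r₁ ^ m := by
    have := (h τ₁).summable.norm
    refine this.congr fun m => ?_
    rw [← term_eq, norm_term]
  have hs₂ : Summable fun m : ℤ => ‖E.coeff m‖ * r₂ ^ m := by
    have := (h τ₂).summable.norm
    refine this.congr fun m => ?_
    rw [← term_eq, norm_term]
  set u : ℤ → ℝ := fun m => ‖E.coeff m‖ * r₁ ^ m + ‖E.coeff m‖ * r₂ ^ m with hu
  have hus : Summable u := hs₁.add hs₂
  have hbound : ∀ (m : ℤ) (w : ℂ), w ∈ U → ‖term E m w‖ ≤ u m := by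
    intro m w hw
    rw [norm_term, hu]
    have hpos : 0 < Real.exp (-(2 * π * w.im)) := Real.exp_pos _
    have hle₁ : Real.exp (-(2 * π * w.im)) ≤ r₁ := by
      rw [hr₁]
      apply Real.exp_le_exp.mpr
      have := hw.1
      nlinarith [Real.pi_pos]
    have hle₂ : r₂ ≤ Real.exp (-(2 * π * w.im)) := by
      rw [hr₂]
      apply Real.exp_le_exp.mpr
      have := hw.2
      nlinarith [Real.pi_pos]
    have hr₂pos : 0 < r₂ := Real.exp_pos _
    have hr₁pos : 0 < r₁ := Real.exp_pos _
    have hn := norm_nonneg (E.coeff m)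
    rcases le_or_gt 0 m with hm | hm
    · have h1 : Real.exp (-(2 * π * w.im)) ^ m ≤ r₁ ^ m :=
        zpow_le_zpow_left₀ hm hpos.le hle₁
      have h2 : 0 ≤ ‖E.coeff m‖ * r₂ ^ m := mul_nonneg hn (zpow_nonneg hr₂pos.le m)
      nlinarith [mul_le_mul_of_nonneg_left h1 hn]
    · have h1 : Real.exp (-(2 * π * w.im)) ^ m ≤ r₂ ^ m := by
        have hinv : (Real.exp (-(2 * π * w.im)))⁻¹ ≤ r₂⁻¹ := inv_anti₀ hr₂pos hle₂
        have h3 := zpow_le_zpow_left₀ (n := -m) (by omega) (inv_nonneg.mpr hpos.le) hinv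
        rwa [inv_zpow', inv_zpow', neg_neg] at h3
      have h2 : 0 ≤ ‖E.coeff m‖ * r₁ ^ m := mul_nonneg hn (zpow_nonneg hr₁pos.le m)
      nlinarith [mul_le_mul_of_nonneg_left h1 hn]
  have hdiff : ∀ m : ℤ, DifferentiableOn ℂ (term E m) U := fun m z _ =>
    (hasDerivAt_term E m z).differentiableAt.differentiableWithinAt
  have key := Complex.hasSum_deriv_of_summable_norm hus hdiff hUo hbound hτU
  -- the sum of the terms is `f ∘ ofComplex` on `U`
  have hsum : ∀ w ∈ U, (∑' m : ℤ, term E m w) = (f ∘ ofComplex) w := by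
    intro w hw
    have hwpos : 0 < w.im := hcpos.trans hw.1
    have h1 := h ⟨w, hwpos⟩
    have h2 : (fun m : ℤ => term E m w) = fun m : ℤ => E.coeff m * HasQExp.qN 1 ⟨w, hwpos⟩ ^ m := by
      funext m
      exact term_eq E m ⟨w, hwpos⟩
    rw [h2, h1.tsum_eq, Function.comp_apply, UpperHalfPlane.ofComplex_apply_of_im_pos hwpos]
  have hderiv : deriv (fun w : ℂ => ∑' m : ℤ, term E m w) (τ₀ : ℂ)
      = deriv (f ∘ ofComplex) (τ₀ : ℂ) := by
    apply Filter.EventuallyEq.deriv_eq
    filter_upwards [hUo.mem_nhds hτU] with w hw using hsum w hw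
  rw [hderiv] at key
  have key2 := key.mul_left ((2 * π * Complex.I)⁻¹)
  refine key2.congr_fun fun m => ?_
  rw [(hasDerivAt_term E m (τ₀ : ℂ)).deriv, coeff_thetaL]
  have hexp : Complex.exp ((m : ℂ) * (2 * π * Complex.I * (τ₀ : ℂ))) = HasQExp.qN 1 τ₀ ^ m := by
    rw [Complex.exp_int_mul, HasQExp.qN_eq]
    simp
  rw [hexp]
  have hpi : (2 * (π : ℂ) * Complex.I) ≠ 0 := by
    simp [Real.pi_ne_zero]
  field_simp

end Analytic

end Fermat.Agent.S20.Theta80
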