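/-
S20 / T3 (helper80): the `q`-expansion of the cusp form attached to a differential `h • D j`.

For any realisation `ψ : F_N →+* Mer` (as in `QBridge80`), if a cusp form `F` on `Γ₀(N)` satisfies,
in `Mer`,   `F = (2πi)⁻¹ * ψ h * d(j)/dτ`   (i.e. `F = (2πi)⁻¹ Φ(h • D j)`), then the `q`-expansion
of `F` is `coeffMap ι (h * θ(j_q))`, where `θ = q d/dq` and `j_q = coeffEmb Kbar jq`.
This is exactly the hypothesis `hΨ` (and `hneg`) of `ThetaMap.finrank_le_finrank_cuspForm`.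
-/
import Mathlib
import Fermat.Agent.S20.QBridge80
import Fermat.Agent.S20.Theta80
import Fermat.Agent.S20.MerLocal

set_option autoImplicit false

open UpperHalfPlane ModularCurve
open scoped Real

noncomputable section

namespace Fermat.Agent.S20.QBridgeFinal80

open Fermat.Agent.S24 Fermat.Agent.S24.HolH Fermat.Agent.S20.QBridge80 Fermat.Agent.S20.Theta80
open Fermat.Agent.S20.MerLocal

variable (N : ℕ) [NeZero N] (ι : Kbar →+* ℂ)

/-- the index `1 ∣ N`. -/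
def one : Mod.Dv N := ⟨1, one_dvd N⟩

/-- the formal `j`-series over `Kbar`. -/
def jK : LaurentSeries Kbar := coeffEmb Kbar jq

lemma xK_one : Mod.xK N (one N) = jK := by
  rw [Mod.xK, jK]
  show coeffEmb Kbar (qExpand ℚ 1 jq) = _
  rw [qExpand_one_apply]

/-- `(2πi)⁻¹ dj/dτ` has `q`-expansion `θ(j_q)`. -/
theorem hasQExp_theta_j (jd : Mod.Dv N → Hol)
    (hjd : ∀ d τ, (jd d : ℍ → ℂ) τ = JAnalytic.jFun (RelJ.dil d.1 τ)) :
    HasQExp 1 (fun τ => (2 * π * Complex.I)⁻¹ * ((dHol (jd (one N)) : Hol) : ℍ → ℂ) τ)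
      (thetaL (coeffMap ι jK)) := by
  have h1 : HasQExp 1 ((jd (one N) : Hol) : ℍ → ℂ) (coeffMap ι jK) := by
    have h := RelJ.hasQExp_jFun_dilate_coeffEmb ι 1 (RelJ.dil 1) (RelJ.coe_dil 1)
    have e : coeffEmb Kbar (qExpand ℚ 1 jq) = jK := by
      rw [jK, qExpand_one_apply]
    rw [e] at h
    refine h.congr fun τ => ?_
    exact (hjd (one N) τ).symm
  exact hasQExp_theta h1

/-- **The `q`-expansion of the cusp form attached to `h • D j`.** -/
theorem qExpansion_eq_of_realization (jd : Mod.Dv N → Hol)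
    (hjd : ∀ d τ, (jd d : ℍ → ℂ) τ = JAnalytic.jFun (RelJ.dil d.1 τ))
    (ψ : FN N →+* Mer)
    (hconst : ∀ c : Kbar, ψ (algebraMap Kbar (FN N) c) = algebraMap ℂ Mer (ι c))
    (hψ : ∀ d : Mod.Dv N, ψ ⟨Mod.xK N d, Br46.xK_mem N d⟩ = algebraMap Hol Mer (jd d))
    (h : FN N) {k : ℤ} (F : CuspForm (CongruenceSubgroup.Gamma0 N) k) (FH : Hol)
    (hFH : ∀ τ, (FH : ℍ → ℂ) τ = F τ)
    (hF : algebraMap Hol Mer FH =
      algebraMap ℂ Mer ((2 * π * Complex.I)⁻¹) *
        (ψ h * algebraMap Hol Mer (dHol (jd (one N))))) :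
    HahnSeries.ofPowerSeries ℤ ℂ (UpperHalfPlane.qExpansion (1 : ℝ) (F : ℍ → ℂ))
      = coeffMap ι ((h : LaurentSeries Kbar) * thetaL jK) := by
  obtain ⟨a, b, A, B, hb, hB, hab, hqa, hqb, hAB⟩ :=
    exists_qexp_of_realization N ι jd hjd ψ hconst hψ h
  set c : ℂ := (2 * π * Complex.I)⁻¹ with hc
  -- the identity `F * b = a * (c * j')` in `Hol`
  have hHol : FH * b = a * (algebraMap ℂ Hol c * dHol (jd (one N))) := by
    apply IsFractionRing.injective Hol Mer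
    rw [map_mul, map_mul, map_mul, hF, ← hab, ← IsScalarTower.algebraMap_apply ℂ Hol Mer]
    ring
  have hpt : ∀ τ, F τ * (b : ℍ → ℂ) τ
      = (a : ℍ → ℂ) τ * (c * ((dHol (jd (one N)) : Hol) : ℍ → ℂ) τ) := by
    intro τ
    have := congrArg (fun g : Hol => (g : ℍ → ℂ) τ) hHol
    rw [← hFH τ]
    exact this
  have hqa' : HasQExp 1 (fun τ => (a : ℍ → ℂ) τ * (c * ((dHol (jd (one N)) : Hol) : ℍ → ℂ) τ))
      (A * thetaL (coeffMap ι jK)) :=
    HasQExp.mul hqa (hasQExp_theta_j N ι jd hjd)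
  refine qExpansion_cuspForm_eq_of_mul F hqa' hqb hB ?_ hpt
  rw [map_mul, coeffMap_thetaL, ← hAB]
  ring

/-- coefficient form: hypotheses `hΨ` and `hneg` of `ThetaMap.finrank_le_finrank_cuspForm`. -/
theorem qExpansion_coeff_of_realization (jd : Mod.Dv N → Hol)
    (hjd : ∀ d τ, (jd d : ℍ → ℂ) τ = JAnalytic.jFun (RelJ.dil d.1 τ))
    (ψ : FN N →+* Mer)
    (hconst : ∀ c : Kbar, ψ (algebraMap Kbar (FN N) c) = algebraMap ℂ Mer (ι c))
    (hψ : ∀ d : Mod.Dv N, ψ ⟨Mod.xK N d, Br46.xK_mem N d⟩ = algebraMap Hol Mer (jd d))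
    (h : FN N) {k : ℤ} (F : CuspForm (CongruenceSubgroup.Gamma0 N) k) (FH : Hol)
    (hFH : ∀ τ, (FH : ℍ → ℂ) τ = F τ)
    (hF : algebraMap Hol Mer FH =
      algebraMap ℂ Mer ((2 * π * Complex.I)⁻¹) *
        (ψ h * algebraMap Hol Mer (dHol (jd (one N))))) :
    (∀ n : ℕ, (UpperHalfPlane.qExpansion (1 : ℝ) (F : ℍ → ℂ)).coeff n
        = ι (((h : LaurentSeries Kbar) * thetaL jK).coeff (n : ℤ))) ∧
      ∀ m : ℤ, m < 0 → ((h : LaurentSeries Kbar) * thetaL jK).coeff m = 0 := by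
  have key := qExpansion_eq_of_realization N ι jd hjd ψ hconst hψ h F FH hFH hF
  refine ⟨fun n => ?_, fun m hm => ?_⟩
  · have := congrArg (fun E : LaurentSeries ℂ => E.coeff (n : ℤ)) key
    simp only [coeffMap_coeff] at this
    rw [← this]
    exact (HahnSeries.ofPowerSeries_apply_coeff _ n).symm
  · have := congrArg (fun E : LaurentSeries ℂ => E.coeff m) key
    simp only [coeffMap_coeff] at this
    rw [ModularCurve.ofPowerSeries_coeff_of_neg _ hm] at this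
    exact (map_eq_zero ι).mp this.symm

end Fermat.Agent.S20.QBridgeFinal80
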