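import Fermat.Agent.S20.MerLocal
import Fermat.Agent.S24.LocalDiff
import Fermat.Agent.S24.Pkg_FF0

/-!
# S20 / T3-DER: from Kähler differentials of `F` to meromorphic functions on `ℍ` (helper20)

Given a field `F` over `K`, a ring hom `ι : K →+* ℂ` and an analytic realisation
`φ : F →+* Mer` compatible with `ι`, we construct the additive map
`Phi : Ω[F⁄K] → Mer` with `Phi (D x) = dMer (φ x)` and `Phi (x • ω) = φ x * Phi ω`,
and prove that `Phi ω` is regular at `τ₀` whenever `ω` is regular at a place `v` of `F` whose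
valuation ring is mapped by `φ` into the local ring at `τ₀`.
-/

set_option autoImplicit false
set_option linter.style.haveILetI false

open UpperHalfPlane KaehlerDifferential AlgebraicCurve
open scoped WithZero

namespace Fermat.Agent.S20.MerPhi

open Fermat.Agent.S24.HolH Fermat.Agent.S20.MerDiv Fermat.Agent.S20.MerLocal

variable {K F : Type*} [Field K] [Field F] [Algebra K F]

/-- An analytic realisation of the field `F` over `K` inside `Mer`. -/
structure Realization (K F : Type*) [Field K] [Field F] [Algebra K F] where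
  /-- the embedding of the constants -/
  ι : K →+* ℂ
  /-- the realisation -/
  φ : F →+* Mer
  map_const : ∀ c : K, φ (algebraMap K F c) = algebraMap ℂ Mer (ι c)

namespace Realization

variable (R : Realization K F)

/-- The `F`-algebra structure on `Mer` induced by `φ`. -/
@[reducible] noncomputable def algF : Algebra F Mer := R.φ.toAlgebra

/-- The `K`-algebra structure on `Mer` induced by `φ`. -/
@[reducible] noncomputable def algK : Algebra K Mer := (R.φ.comp (algebraMap K F)).toAlgebra

lemma dMer_const (c : K) : dMer (R.φ (algebraMap K F c)) = 0 := by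
  rw [R.map_const, Derivation.map_algebraMap]

/-- The `K`-derivation `x ↦ d(φ x)/dτ` from `F` to `Mer`. -/
noncomputable def deriv :
    letI := R.algF
    letI := R.algK
    haveI : IsScalarTower K F Mer := IsScalarTower.of_algebraMap_eq (fun _ => rfl)
    Derivation K F Mer :=
  letI := R.algF
  letI := R.algK
  haveI : IsScalarTower K F Mer := IsScalarTower.of_algebraMap_eq (fun _ => rfl)
  { toFun := fun x => dMer (R.φ x)
    map_add' := fun x y => by simp
    map_smul' := fun c x => by
      simp only [RingHom.id_apply, Algebra.smul_def, map_mul, Derivation.leibniz,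
        R.dMer_const, mul_zero, add_zero]
      rfl
    map_one_eq_zero' := by
      show dMer (R.φ 1) = 0
      rw [map_one]
      exact Derivation.map_one_eq_zero _
    leibniz' := fun x y => by
      show dMer (R.φ (x * y)) = x • dMer (R.φ y) + y • dMer (R.φ x)
      rw [map_mul, Derivation.leibniz]
      rfl }

/-- The map `Ω[F⁄K] → Mer` induced by `x ↦ d(φ x)/dτ`. -/
noncomputable def Phi (ω : Ω[F⁄K]) : Mer :=
  letI := R.algF
  letI := R.algK
  haveI : IsScalarTower K F Mer := IsScalarTower.of_algebraMap_eq (fun _ => rfl)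
  (R.deriv).liftKaehlerDifferential ω

lemma Phi_D (x : F) : R.Phi (D K F x) = dMer (R.φ x) := by
  letI := R.algF
  letI := R.algK
  haveI : IsScalarTower K F Mer := IsScalarTower.of_algebraMap_eq (fun _ => rfl)
  show (R.deriv).liftKaehlerDifferential (D K F x) = _
  rw [Derivation.liftKaehlerDifferential_comp_D]
  rfl

lemma Phi_add (ω₁ ω₂ : Ω[F⁄K]) : R.Phi (ω₁ + ω₂) = R.Phi ω₁ + R.Phi ω₂ := by
  letI := R.algF
  letI := R.algK
  haveI : IsScalarTower K F Mer := IsScalarTower.of_algebraMap_eq (fun _ => rfl)
  exact map_add _ _ _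

lemma Phi_zero : R.Phi (0 : Ω[F⁄K]) = 0 := by
  letI := R.algF
  letI := R.algK
  haveI : IsScalarTower K F Mer := IsScalarTower.of_algebraMap_eq (fun _ => rfl)
  exact map_zero _

lemma Phi_smul (x : F) (ω : Ω[F⁄K]) : R.Phi (x • ω) = R.φ x * R.Phi ω := by
  letI := R.algF
  letI := R.algK
  haveI : IsScalarTower K F Mer := IsScalarTower.of_algebraMap_eq (fun _ => rfl)
  show (R.deriv).liftKaehlerDifferential (x • ω) = _
  rw [map_smul]
  rfl

lemma Phi_const_smul (c : K) (ω : Ω[F⁄K]) :
    R.Phi (c • ω) = algebraMap ℂ Mer (R.ι c) * R.Phi ω := by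
  have : c • ω = (algebraMap K F c) • ω := by
    rw [algebraMap_smul]
  rw [this, Phi_smul, R.map_const]

/-- **Regularity at a point.** If `φ` maps the valuation ring of the place `v` into the local ring
of `Mer` at `τ₀` and `ω` is regular at `v`, then `Phi ω` is regular at `τ₀`. -/
theorem valAt_Phi_le_one (v : Place K F) [v.DCoordGenerates] (τ₀ : ℍ)
    (hv : ∀ x ∈ v.toValuationSubring, valAt τ₀ (R.φ x) ≤ 1)
    {ω : Ω[F⁄K]} (hω : 0 ≤ v.ordDifferential ω) : valAt τ₀ (R.Phi ω) ≤ 1 := by
  have h1 := v.differentialCoeff_smul_dCoord ω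
  rw [← h1, Phi_smul, Fermat.Agent.S24.LocalDiff.dCoord_eq, Phi_D, map_mul]
  have hc : valAt τ₀ (R.φ (v.differentialCoeff ω)) ≤ 1 := by
    by_cases h0 : v.differentialCoeff ω = 0
    · rw [h0, map_zero, map_zero]
      exact zero_le
    · exact hv _ ((Fermat.Agent.S24.ord_nonneg_iff v h0).mp hω)
  have ht : valAt τ₀ (dMer (R.φ ((Fermat.Agent.S24.LocalDiff.unif v : v.toValuationSubring) : F))) ≤ 1 :=
    valAt_dMer_le_one (hv _ (Fermat.Agent.S24.LocalDiff.unif v).2)
  exact mul_le_one' hc ht

end Realization

end Fermat.Agent.S20.MerPhi
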