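/-
S20 / T3-REALIZE (helper71): the analytic realisation of the function field `F_N = FN N` of `X₀(N)`
inside `Mer = Frac(Hol ℍ)`, built DIRECTLY from the landed S24 bridge files (no modular tower needed).

* `jd d : Hol`                      : the function `τ ↦ j(dτ)`
* `psi N ι : FN N →ₐ[Kbar] Mer`      : `x_d = j(q^d) ↦ j(dτ)` (for the `Kbar`-algebra structure `algK ι`)
* `realization N ι : MerPhi.Realization Kbar (FN N)`  **(R1)**
* `smul_psi`, `smul_realization_φ`  : `Γ₀(N)`-invariance  **(R2)**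
-/
import Fermat.Agent.S20.MerPhi
import Fermat.Agent.S24.Br46Rel
import Fermat.Agent.S24.RelJ
import Fermat.Agent.S24.JStab
import Fermat.Agent.S24.ModGrowth

set_option autoImplicit false
set_option linter.style.haveILetI false

open UpperHalfPlane ModularCurve
open scoped MatrixGroups

namespace Fermat.Agent.S20.Realize

open Fermat.Agent.S24 Fermat.Agent.S24.HolH Fermat.Agent.S20.MerPhi

/-- `τ ↦ j(dτ)` as a holomorphic function on `ℍ`. -/
noncomputable def jd (d : ℕ) [NeZero d] : Hol :=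
  ⟨fun τ => JAnalytic.jFun (RelJ.dil d τ), by
    have hd : (0 : ℤ) < (d : ℤ) := by exact_mod_cast Nat.pos_of_ne_zero (NeZero.ne d)
    have h := ModGrowth.mdiff_jFun_affPoint (d : ℤ) 0 1 hd one_pos
    rw [mem_Hol]
    convert h using 2 with τ
    congr 1
    apply UpperHalfPlane.ext
    simp [Hermite.coe_affPoint]⟩

@[simp] lemma jd_apply (d : ℕ) [NeZero d] (τ : ℍ) :
    (jd d : ℍ → ℂ) τ = JAnalytic.jFun (RelJ.dil d τ) := rfl

variable (N : ℕ) [NeZero N] (ι : Kbar →+* ℂ)

/-- The `Kbar`-algebra structure on `Mer` induced by `ι`. -/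
@[reducible] noncomputable def algK : Algebra Kbar Mer := ((algebraMap ℂ Mer).comp ι).toAlgebra

/-- evaluation at a point as a ring hom `Hol →+* ℂ` -/
noncomputable def evalAt (τ : ℍ) : Hol →+* ℂ :=
  (Pi.evalRingHom (fun _ : ℍ => ℂ) τ).comp (Hol.val : Hol →ₐ[ℂ] (ℍ → ℂ)).toRingHom

@[simp] lemma evalAt_apply (τ : ℍ) (f : Hol) : evalAt τ f = (f : ℍ → ℂ) τ := rfl

/-- the polynomial `P` evaluated at the functions `j(dτ)`, as an element of `Hol`. -/
noncomputable def evalHol (P : MvPolynomial (Mod.Dv N) Kbar) : Hol :=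
  MvPolynomial.eval₂ ((algebraMap ℂ Hol).comp ι) (fun d : Mod.Dv N => jd d.1) P

lemma evalHol_apply (P : MvPolynomial (Mod.Dv N) Kbar) (τ : ℍ) :
    (evalHol N ι P : ℍ → ℂ) τ =
      MvPolynomial.eval₂ ι (fun d : Mod.Dv N => JAnalytic.jFun (RelJ.dil d.1 τ)) P := by
  rw [← evalAt_apply, evalHol, MvPolynomial.eval₂_comp_left]
  congr 1

/-- The generators `j(dτ)` in `Mer`. -/
noncomputable def yfam (d : Mod.Dv N) : Mer := algebraMap Hol Mer (jd d.1)

lemma aeval_yfam (P : MvPolynomial (Mod.Dv N) Kbar) :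
    letI := algK ι
    MvPolynomial.aeval (yfam N) P = algebraMap Hol Mer (evalHol N ι P) := by
  letI := algK ι
  rw [evalHol, MvPolynomial.eval₂_comp_left, MvPolynomial.aeval_def]
  congr 1

lemma aeval_yfam_eq_zero_iff (P : MvPolynomial (Mod.Dv N) Kbar) :
    letI := algK ι
    MvPolynomial.aeval (yfam N) P = 0 ↔ MvPolynomial.aeval (Mod.xK N) P = 0 := by
  letI := algK ι
  rw [aeval_yfam, map_eq_zero_iff _ (IsFractionRing.injective Hol Mer),
    ← Br46.rel_K N ι (fun d => RelJ.dil d.1) (fun d τ => RelJ.coe_dil d.1 τ) P]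
  constructor
  · intro h τ
    rw [← evalHol_apply, h]; rfl
  · intro h
    ext τ
    rw [evalHol_apply, h τ]; rfl


/-- The analytic realisation `F_N → Mer` (as a `Kbar`-algebra hom for the structure `algK ι`). -/
noncomputable def psi :
    letI := algK ι
    FN N →ₐ[Kbar] Mer :=
  letI := algK ι
  (Br46.exists_algHom_FN N (yfam N) (aeval_yfam_eq_zero_iff N ι)).choose

lemma psi_xK (d : Mod.Dv N) :
    psi N ι ⟨Mod.xK N d, Br46.xK_mem N d⟩ = algebraMap Hol Mer (jd d.1) := by
  letI := algK ι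
  exact (Br46.exists_algHom_FN N (yfam N) (aeval_yfam_eq_zero_iff N ι)).choose_spec.1 d

lemma psi_jF : psi N ι (jF N) = algebraMap Hol Mer (jd 1) := by
  letI := algK ι
  exact (Br46.exists_algHom_FN N (yfam N) (aeval_yfam_eq_zero_iff N ι)).choose_spec.2

lemma psi_algebraMap (c : Kbar) :
    psi N ι (algebraMap Kbar (FN N) c) = algebraMap ℂ Mer (ι c) := by
  letI := algK ι
  exact (psi N ι).commutes c

/-- **(R1)** The analytic realisation of `F_N` inside `Mer`. -/
noncomputable def realization : Realization Kbar (FN N) where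
  ι := ι
  φ := letI := algK ι; (psi N ι).toRingHom
  map_const := psi_algebraMap N ι

@[simp] lemma realization_ι : (realization N ι).ι = ι := rfl

lemma realization_φ_apply (x : FN N) : (realization N ι).φ x = psi N ι x := rfl


/-! ### (R2) `Γ₀(N)`-invariance -/

lemma smul_algebraMap_complex (g : SL(2, ℤ)) (c : ℂ) :
    g • (algebraMap ℂ Mer c) = algebraMap ℂ Mer c := by
  rw [IsScalarTower.algebraMap_apply ℂ Hol Mer, Mer.smul_algebraMap, Hol.smul_algebraMap]

lemma Gamma0_le_of_dvd {d N : ℕ} (h : d ∣ N) :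
    CongruenceSubgroup.Gamma0 N ≤ CongruenceSubgroup.Gamma0 d := by
  intro g hg
  rw [CongruenceSubgroup.Gamma0_mem] at hg ⊢
  rw [ZMod.intCast_zmod_eq_zero_iff_dvd] at hg ⊢
  exact (Int.natCast_dvd_natCast.mpr h).trans hg

lemma smul_jd {d : ℕ} [NeZero d] {g : SL(2, ℤ)} (hg : g ∈ CongruenceSubgroup.Gamma0 d) :
    g • jd d = jd d := by
  ext τ
  show JAnalytic.jFun (RelJ.dil d (g⁻¹ • τ)) = JAnalytic.jFun (RelJ.dil d τ)
  rw [← RelJ.jC_mul_eq, ← RelJ.jC_mul_eq]
  exact JStab.jC_eq_of_mem_Gamma0 (Nat.pos_of_ne_zero (NeZero.ne d)) (inv_mem hg) τ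

/-- the action of `g` on `Mer` as a `Kbar`-algebra hom -/
noncomputable def actHom (g : SL(2, ℤ)) :
    letI := algK ι
    Mer →ₐ[Kbar] Mer :=
  letI := algK ι
  { MulSemiringAction.toRingHom SL(2, ℤ) Mer g with
    commutes' := fun c => smul_algebraMap_complex g (ι c) }

lemma actHom_apply (g : SL(2, ℤ)) (x : Mer) : actHom ι g x = g • x := rfl

/-- **(R2)** the realisation of `F_N` consists of `Γ₀(N)`-invariant functions. -/
theorem smul_psi {g : SL(2, ℤ)} (hg : g ∈ CongruenceSubgroup.Gamma0 N) (x : FN N) :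
    g • psi N ι x = psi N ι x := by
  letI := algK ι
  have h : (actHom ι g).comp (psi N ι) = psi N ι := by
    refine IntermediateField.algHom_ext_of_eq_adjoin Kbar
      (Br46.modularFunctionFieldBar_eq_adjoin N) ?_
    rintro _ ⟨d, rfl⟩
    show g • psi N ι ⟨Mod.xK N d, _⟩ = psi N ι ⟨Mod.xK N d, _⟩
    rw [psi_xK, Mer.smul_algebraMap, smul_jd (Gamma0_le_of_dvd d.2 hg)]
  exact DFunLike.congr_fun h x

theorem smul_realization_φ {g : SL(2, ℤ)} (hg : g ∈ CongruenceSubgroup.Gamma0 N) (x : FN N) :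
    g • (realization N ι).φ x = (realization N ι).φ x := smul_psi N ι hg x

end Fermat.Agent.S20.Realize
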