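/-
S20 / T3-REALIZE, item (R4) (helper78): cusp-meromorphy of all `SL(2,ℤ)`-translates of the analytic
realisation of `F_N`:

  `∀ (g : SL(2,ℤ)) (y : FN N), g • (Realize.realization N ι).φ y ∈ CuspPlace.cuspField N`.

Proof: the translates of the generators `j (d τ)` are the functions `τ ↦ j (d (g⁻¹ τ))`, which lie
in `cuspRing N` (`CuspRing.conj_mem_cuspRing`, Hermite normal form); constants lie in the cusp
field; `cuspField N` is a subfield of `Mer`, and `F_N` is generated over `Kbar` by the `j (q^d)`.

This file is complete: every statement is proved.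
-/
import Fermat.Agent.S20.Realize
import Fermat.Agent.S20.CuspPlace

set_option autoImplicit false
set_option linter.style.haveILetI false

open UpperHalfPlane ModularCurve
open scoped MatrixGroups

namespace Fermat.Agent.S20.RealizeCusp78

open Fermat.Agent.S24 Fermat.Agent.S24.HolH Fermat.Agent.S20.MerPhi Fermat.Agent.S20.Realize
open Fermat.Agent.S20.CuspRing Fermat.Agent.S20.CuspPlace

variable (N : ℕ) [NeZero N] (ι : Kbar →+* ℂ)

/-- The translates of the generators lie in the cusp ring. -/
theorem smul_jd_mem_cuspRing (g : SL(2, ℤ)) (d : Mod.Dv N) : g • jd d.1 ∈ cuspRing N := by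
  have hd0 : (0 : ℤ) < (d.1 : ℤ) := by exact_mod_cast Nat.pos_of_ne_zero (NeZero.ne d.1)
  have hdN : ((d.1 : ℕ) : ℤ) ∣ (N : ℤ) := by exact_mod_cast d.2
  refine (conj_mem_cuspRing (N := N) (d.1 : ℤ) hd0 hdN g⁻¹ (g • jd d.1) fun τ z hz => ?_).1
  rw [Hol.smul_apply, jd_apply]
  congr 1
  apply UpperHalfPlane.ext
  rw [RelJ.coe_dil, hz]
  push_cast
  rfl

/-- **(R4)** for `psi`. -/
theorem smul_psi_mem_cuspField (g : SL(2, ℤ)) (y : FN N) :
    g • psi N ι y ∈ cuspField N := by
  letI := algK ι
  obtain ⟨z, hz⟩ := y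
  have hz' : z ∈ IntermediateField.adjoin Kbar (Set.range (Mod.xK N)) := by
    rw [← Br46.modularFunctionFieldBar_eq_adjoin N]
    exact hz
  have key : ∀ (w : LaurentSeries Kbar)
      (_ : w ∈ IntermediateField.adjoin Kbar (Set.range (Mod.xK N)))
      (hw : w ∈ modularFunctionFieldBar N), g • psi N ι ⟨w, hw⟩ ∈ cuspField N := by
    intro w hw'
    induction hw' using IntermediateField.adjoin_induction with
    | mem x hx =>
      intro hw
      obtain ⟨d, rfl⟩ := hx
      rw [psi_xK, Mer.smul_algebraMap]
      exact ofHol_mem_cuspField (smul_jd_mem_cuspRing N g d)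
    | algebraMap c =>
      intro hw
      have h1 : (⟨algebraMap Kbar (LaurentSeries Kbar) c, hw⟩ : FN N) =
          algebraMap Kbar (FN N) c := rfl
      rw [h1, psi_algebraMap, smul_algebraMap_complex]
      exact const_mem_cuspField _
    | add x y hx hy ihx ihy =>
      intro hw
      have hx' : x ∈ modularFunctionFieldBar N := by
        rw [Br46.modularFunctionFieldBar_eq_adjoin N]; exact hx
      have hy' : y ∈ modularFunctionFieldBar N := by
        rw [Br46.modularFunctionFieldBar_eq_adjoin N]; exact hy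
      have h1 : (⟨x + y, hw⟩ : FN N) = ⟨x, hx'⟩ + ⟨y, hy'⟩ := rfl
      rw [h1, map_add, smul_add]
      exact add_mem (ihx hx') (ihy hy')
    | inv x hx ihx =>
      intro hw
      have hx' : x ∈ modularFunctionFieldBar N := by
        rw [Br46.modularFunctionFieldBar_eq_adjoin N]; exact hx
      have h1 : (⟨x⁻¹, hw⟩ : FN N) = (⟨x, hx'⟩ : FN N)⁻¹ := rfl
      rw [h1, map_inv₀, smul_inv'']
      exact inv_mem (ihx hx')
    | mul x y hx hy ihx ihy =>
      intro hw
      have hx' : x ∈ modularFunctionFieldBar N := by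
        rw [Br46.modularFunctionFieldBar_eq_adjoin N]; exact hx
      have hy' : y ∈ modularFunctionFieldBar N := by
        rw [Br46.modularFunctionFieldBar_eq_adjoin N]; exact hy
      have h1 : (⟨x * y, hw⟩ : FN N) = ⟨x, hx'⟩ * ⟨y, hy'⟩ := rfl
      rw [h1, map_mul, smul_mul']
      exact mul_mem (ihx hx') (ihy hy')
  exact key z hz' hz

/-- **(R4)** every `SL(2,ℤ)`-translate of the realisation of `F_N` lies in the cusp field. -/
theorem smul_realization_mem_cuspField (g : SL(2, ℤ)) (y : FN N) :
    g • (realization N ι).φ y ∈ cuspField N :=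
  smul_psi_mem_cuspField N ι g y

/-- The untranslated form. -/
theorem realization_mem_cuspField (y : FN N) : (realization N ι).φ y ∈ cuspField N := by
  have h := smul_realization_mem_cuspField N ι 1 y
  rwa [one_smul] at h

end Fermat.Agent.S20.RealizeCusp78
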