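import Fermat.Agent.S20.T3Main
import Fermat.Agent.S20.Realize
import Fermat.Agent.S20.RealizeCusp78
import Fermat.Agent.S20.CuspStep
import Fermat.Agent.S20.QBridgeFinal80
import Fermat.Agent.S24.Exports

/-!
# S20 / T3ge for `F_N` (helper20)

`finrank_{ℚ̄} HolF(F_N) ≤ dim S₂(Γ₀(N))`: instantiation of `T3Main.finrank_HolF_le` with
helper71's realisation (`Realize`), helper78's cusp meromorphy (`RealizeCusp78`), helper26's cusp
step (`CuspStep`) and helper80's `q`-expansion bridge (`QBridgeFinal80`, `Theta80`).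
-/

set_option autoImplicit false

open UpperHalfPlane KaehlerDifferential AlgebraicCurve ModularForm ModularCurve
open scoped MatrixGroups Manifold

namespace Fermat.Agent.S20.T3Final

open Fermat.Agent.S24.HolH Fermat.Agent.S20.MerLocal
open Fermat.Agent.S20.MerPhi Fermat.Agent.S24
open CongruenceSubgroup Fermat.Agent.S20.T3Main Fermat.Agent.S20.ThetaMap

/-- A fixed embedding `ℚ̄ → ℂ`. -/
noncomputable def iotaC : Kbar →+* ℂ :=
  haveI : Algebra.IsAlgebraic ℚ (AlgebraicClosure ℚ) := AlgebraicClosure.isAlgebraic ℚ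
  ((IsAlgClosed.lift : AlgebraicClosure ℚ →ₐ[ℚ] ℂ) : AlgebraicClosure ℚ →+* ℂ)

variable (N : ℕ) [NeZero N]

lemma thetaL_jF_ne_zero :
    Theta80.thetaL ((jF N : FN N) : LaurentSeries Kbar) ≠ 0 := by
  intro h
  have h1 := congrArg (fun E : LaurentSeries Kbar => E.coeff (-1 : ℤ)) h
  have h2 : ((jF N : FN N) : LaurentSeries Kbar) = coeffEmb Kbar jq := rfl
  simp only [Theta80.coeff_thetaL, h2, coeffEmb_coeff, coeff_jq_neg_one, map_one,
    HahnSeries.coeff_zero] at h1
  norm_num at h1

/-- **T3ge for `F_N`.** -/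
theorem finrank_HolF_le :
    Module.finrank Kbar (HolF Kbar (jF N)) ≤ Module.finrank ℂ (CuspForm (Gamma0 N) 2) := by
  have hF : IsFunctionFieldOver Kbar (jF N) := Exports.isFunctionFieldOver_jF N
  set ι : Kbar →+* ℂ := iotaC with hι
  refine T3Main.finrank_HolF_le (modularFunctionFieldBar N) hF N (Realize.realization N ι)
    (fun g hg y => Realize.smul_realization_φ N ι hg y) ?_ Theta80.isDer_thetaL
    (thetaL_jF_ne_zero N) (coL Kbar) (coL_injective Kbar) ?_
  · intro ω hω f hf δ
    exact CuspStep.isZeroAtImInfty_slash hF (Realize.realization N ι) N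
      (RealizeCusp78.smul_realization_mem_cuspField N ι) hω hf δ
  · intro h G f hG hf
    have key := QBridgeFinal80.qExpansion_coeff_of_realization N ι
      (fun d : Mod.Dv N => Realize.jd d.1) (fun d τ => rfl)
      (Realize.realization N ι).φ (Realize.realization N ι).map_const
      (fun d => Realize.psi_xK N ι d) h G
      (algebraMap ℂ Hol ((2 * (Real.pi : ℂ) * Complex.I)⁻¹) * f)
      (fun τ => by
        rw [hG τ]
        simp [Algebra.algebraMap_eq_smul_one])
      (by
        rw [map_mul, hf, ← IsScalarTower.algebraMap_apply ℂ Hol Mer]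
        congr 2
        have : (Realize.realization N ι).φ (jF N) =
            algebraMap Hol Mer (Realize.jd (QBridgeFinal80.one N).1) := Realize.psi_jF N ι
        rw [this, dMer_algebraMap])
    exact key

end Fermat.Agent.S20.T3Final
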