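import Mathlib
import Fermat.Agent.S23.Final

/-!
# S20 / package T4 (helper23): descent of the coefficient field for cusp forms

From `Fermat.Agent.S23.Final.hasIntegralStructure` (all `N ≥ 1`, all weights `k`) we get:

* `exists_integral_basis` : a `ℂ`-basis of `S_k(Γ₀(N))` made of forms with integer `q`-coefficients;
* `repr_mem_of_qCoeff_mem` : if all `q`-coefficients of `f` lie in a subfield `K ⊆ ℂ`, then all
  coordinates of `f` in an integral basis lie in `K`;
* `finrank_coeffSubspace` : for every subfield `K ⊆ ℂ`, the `K`-space of forms with coefficients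
  in `K` has `K`-dimension `= dim_ℂ S_k(Γ₀(N))`.
-/

set_option autoImplicit false

open CongruenceSubgroup ModularFormClass
open scoped MatrixGroups

namespace Fermat.Agent.S20.CoeffField

open Fermat.Agent.S23 Fermat.Agent.S23.Assemble

local notation "Γ₀(" N ")" => CongruenceSubgroup.Gamma0 N

variable (N : ℕ) [NeZero N] (k : ℤ)

/-- The set of cusp forms with integer `q`-coefficients. -/
def intForms : Set (CuspForm Γ₀(N) k) := {f | ∀ n : ℕ, ∃ m : ℤ, qCoeff f n = (m : ℂ)}

theorem span_intForms_eq_top : Submodule.span ℂ (intForms N k) = ⊤ := by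
  have h := Fermat.Agent.S23.Final.hasIntegralStructure N k
  unfold CuspForm.HasIntegralStructure CuspForm.intLattice at h
  rw [eq_top_iff, ← h]
  refine Submodule.span_le.mpr ?_
  intro x hx
  have hx' : x ∈ Submodule.span ℤ (intForms N k) := hx
  exact Submodule.span_le_restrictScalars ℤ ℂ _ hx'

/-- A `ℂ`-basis of `S_k(Γ₀(N))` consisting of forms with integer `q`-coefficients. -/
theorem exists_integral_basis :
    ∃ (d : ℕ) (b : Module.Basis (Fin d) ℂ (CuspForm Γ₀(N) k)),
      ∀ i n, ∃ m : ℤ, qCoeff (b i) n = (m : ℂ) := by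
  haveI := finiteDimensional_cuspForm N k
  obtain ⟨s, hs, hspan, hli⟩ := exists_linearIndependent ℂ (intForms N k)
  rw [span_intForms_eq_top] at hspan
  let b0 : Module.Basis s ℂ (CuspForm Γ₀(N) k) :=
    Module.Basis.mk hli (by rw [Subtype.range_coe]; exact hspan.ge)
  haveI : Finite s := Module.Finite.finite_basis b0
  haveI : Fintype s := Fintype.ofFinite s
  let e : s ≃ Fin (Fintype.card s) := Fintype.equivFin s
  refine ⟨Fintype.card s, b0.reindex e, ?_⟩
  intro i n
  have : (b0.reindex e) i = (e.symm i : CuspForm Γ₀(N) k) := by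
    simp [b0]
  rw [this]
  exact hs (e.symm i).2 n

variable {N k}

theorem qCoeff_sum {ι : Type*} (s : Finset ι) (c : ι → ℂ) (g : ι → CuspForm Γ₀(N) k) (n : ℕ) :
    qCoeff (⇑(∑ i ∈ s, c i • g i)) n = ∑ i ∈ s, c i * qCoeff (⇑(g i)) n := by
  have := congrFun (map_sum (coeffMap N k) (fun i => c i • g i) s) n
  simpa [Finset.sum_apply, coeffMap_apply, qCoeff_smul] using this

/-- **Descent of coefficients.** If `b` is a basis of forms with integer coefficients and all
`q`-coefficients of `f` lie in the subfield `K`, then all coordinates of `f` lie in `K`. -/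
theorem repr_mem_of_qCoeff_mem {d : ℕ} (b : Module.Basis (Fin d) ℂ (CuspForm Γ₀(N) k))
    (hb : ∀ i n, ∃ m : ℤ, qCoeff (b i) n = (m : ℂ)) (K : Subfield ℂ)
    (f : CuspForm Γ₀(N) k) (hf : ∀ n, qCoeff f n ∈ K) (i : Fin d) :
    b.repr f i ∈ K := by
  classical
  -- `K` as a `K`-subspace of `ℂ`
  let W : Submodule K ℂ := LinearMap.range (Algebra.linearMap K ℂ)
  have hW : ∀ x : ℂ, x ∈ W ↔ x ∈ K := by
    intro x
    constructor
    · rintro ⟨a, rfl⟩
      exact a.2
    · intro hx
      exact ⟨⟨x, hx⟩, rfl⟩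
  by_contra hc
  have hc' : b.repr f i ∉ W := fun h => hc ((hW _).1 h)
  obtain ⟨φ, hφc, hφW⟩ := Submodule.exists_le_ker_of_notMem hc'
  -- `φ` kills `K`
  have hφK : ∀ x : ℂ, x ∈ K → φ x = 0 := fun x hx => hφW ((hW x).2 hx)
  -- `φ (c * m) = m * φ c` for integers `m`
  have hφint : ∀ (c : ℂ) (m : ℤ), φ (c * (m : ℂ)) = (m : K) * φ c := by
    intro c m
    have : c * (m : ℂ) = (m : K) • c := by
      rw [Subfield.smul_def]
      push_cast
      ring
    rw [this, map_smul, smul_eq_mul]
  -- expansion of `f`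
  have hfexp : f = ∑ j, b.repr f j • b j := (b.sum_repr f).symm
  choose m hm using hb
  -- the auxiliary form
  let g : CuspForm Γ₀(N) k := ∑ j, ((φ (b.repr f j) : K) : ℂ) • b j
  have hg0 : g = 0 := by
    apply coeffMap_injective N k
    funext n
    rw [map_zero, coeffMap_apply]
    show qCoeff (⇑(∑ j, ((φ (b.repr f j) : K) : ℂ) • b j)) n = 0
    rw [qCoeff_sum]
    have h1 : qCoeff (⇑f) n = ∑ j, b.repr f j * (m j n : ℂ) := by
      conv_lhs => rw [hfexp]
      rw [qCoeff_sum]
      exact Finset.sum_congr rfl fun j _ => by rw [hm j n]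
    have h2 : φ (qCoeff (⇑f) n) = 0 := hφK _ (hf n)
    rw [h1, map_sum] at h2
    simp only [hφint] at h2
    have h3 : ((∑ j, (m j n : K) * φ (b.repr f j) : K) : ℂ) = 0 := by
      rw [h2]; rfl
    rw [← h3]
    push_cast
    exact Finset.sum_congr rfl fun j _ => by rw [hm j n]; ring
  have hli := b.linearIndependent
  have := Fintype.linearIndependent_iff.mp hli (fun j => ((φ (b.repr f j) : K) : ℂ)) hg0 i
  exact hφc (by exact_mod_cast this)

/-- Variant for an arbitrary field `K` with an algebra map to `ℂ`. -/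
theorem repr_mem_range_of_qCoeff_mem_range {d : ℕ}
    (b : Module.Basis (Fin d) ℂ (CuspForm Γ₀(N) k))
    (hb : ∀ i n, ∃ m : ℤ, qCoeff (b i) n = (m : ℂ)) (K : Type*) [Field K] [Algebra K ℂ]
    (f : CuspForm Γ₀(N) k) (hf : ∀ n, qCoeff f n ∈ Set.range (algebraMap K ℂ)) (i : Fin d) :
    b.repr f i ∈ Set.range (algebraMap K ℂ) := by
  have := repr_mem_of_qCoeff_mem b hb (algebraMap K ℂ).fieldRange f
    (fun n => by
      obtain ⟨a, ha⟩ := hf n
      exact ⟨a, ha⟩) i
  obtain ⟨a, ha⟩ := this
  exact ⟨a, ha⟩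

/-- Conversely, a `K`-combination of integral forms has coefficients in `K`. -/
theorem qCoeff_sum_mem {d : ℕ} (b : Fin d → CuspForm Γ₀(N) k)
    (hb : ∀ i n, ∃ m : ℤ, qCoeff (b i) n = (m : ℂ)) (K : Subfield ℂ) (c : Fin d → K) (n : ℕ) :
    qCoeff (⇑(∑ i, (c i : ℂ) • b i)) n ∈ K := by
  rw [qCoeff_sum]
  refine Subfield.sum_mem _ fun i _ => ?_
  obtain ⟨m, hm⟩ := hb i n
  rw [hm]
  exact K.mul_mem (c i).2 (by exact_mod_cast K.intCast_mem m)

variable (N k)

/-- The `K`-space of coefficient sequences (in `K`) of cusp forms whose `q`-coefficients lie in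
(the image of) `K`. -/
def seqSpace (K : Type*) [Field K] [Algebra K ℂ] : Submodule K (ℕ → K) where
  carrier := {a | ∃ f : CuspForm Γ₀(N) k, ∀ n, qCoeff f n = algebraMap K ℂ (a n)}
  zero_mem' := ⟨0, fun n => by
    have := congrFun (map_zero (coeffMap N k)) n
    simpa [coeffMap_apply] using this⟩
  add_mem' := by
    rintro a a' ⟨f, hf⟩ ⟨f', hf'⟩
    exact ⟨f + f', fun n => by rw [qCoeff_add, hf, hf', Pi.add_apply, map_add]⟩
  smul_mem' := by
    rintro c a ⟨f, hf⟩
    exact ⟨algebraMap K ℂ c • f, fun n => by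
      rw [qCoeff_smul, hf, Pi.smul_apply, smul_eq_mul, map_mul]⟩

theorem mem_seqSpace {K : Type*} [Field K] [Algebra K ℂ] {a : ℕ → K} :
    a ∈ seqSpace N k K ↔ ∃ f : CuspForm Γ₀(N) k, ∀ n, qCoeff f n = algebraMap K ℂ (a n) :=
  Iff.rfl

/-- **T4.** For every field `K` mapping to `ℂ`, the `K`-dimension of the space of (coefficient
sequences of) cusp forms with coefficients in `K` equals `dim_ℂ S_k(Γ₀(N))`. -/
theorem finrank_seqSpace (K : Type*) [Field K] [Algebra K ℂ] :
    Module.finrank K (seqSpace N k K) = Module.finrank ℂ (CuspForm Γ₀(N) k) := by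
  classical
  obtain ⟨d, b, hb⟩ := exists_integral_basis N k
  choose m hm using hb
  have hinj : Function.Injective (algebraMap K ℂ) := (algebraMap K ℂ).injective
  -- the parametrisation `K^d → K^ℕ`
  let Ψ : (Fin d → K) →ₗ[K] (ℕ → K) :=
    { toFun := fun c n => ∑ i, c i * (m i n : K)
      map_add' := fun c c' => by
        funext n
        simp only [Pi.add_apply, add_mul, Finset.sum_add_distrib]
      map_smul' := fun r c => by
        funext n
        simp only [Pi.smul_apply, smul_eq_mul, RingHom.id_apply, Finset.mul_sum, mul_assoc] }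
  have hΨ : ∀ (c : Fin d → K) (n : ℕ),
      qCoeff (⇑(∑ i, (algebraMap K ℂ (c i)) • b i)) n = algebraMap K ℂ (Ψ c n) := by
    intro c n
    rw [qCoeff_sum]
    show _ = algebraMap K ℂ (∑ i, c i * (m i n : K))
    rw [map_sum]
    exact Finset.sum_congr rfl fun i _ => by rw [hm i n, map_mul, map_intCast]
  have hΨinj : Function.Injective Ψ := by
    rw [injective_iff_map_eq_zero]
    intro c hc
    have h0 : (∑ i, (algebraMap K ℂ (c i)) • b i) = 0 := by
      apply coeffMap_injective N k
      funext n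
      rw [map_zero, coeffMap_apply, hΨ c n, hc]
      simp
    funext i
    have := Fintype.linearIndependent_iff.mp b.linearIndependent
      (fun j => algebraMap K ℂ (c j)) h0 i
    exact hinj (by rw [this]; simp)
  have hrange : LinearMap.range Ψ = seqSpace N k K := by
    apply le_antisymm
    · rintro _ ⟨c, rfl⟩
      exact ⟨∑ i, (algebraMap K ℂ (c i)) • b i, hΨ c⟩
    · rintro a ⟨f, hf⟩
      have hmem : ∀ i, b.repr f i ∈ Set.range (algebraMap K ℂ) := fun i =>
        repr_mem_range_of_qCoeff_mem_range b (fun i n => ⟨m i n, hm i n⟩) K f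
          (fun n => ⟨a n, (hf n).symm⟩) i
      choose c hc using hmem
      refine ⟨c, ?_⟩
      funext n
      apply hinj
      rw [← hΨ c n, ← hf n]
      congr 2
      conv_rhs => rw [← b.sum_repr f]
      exact Finset.sum_congr rfl fun i _ => by rw [hc i]
  rw [← hrange, LinearMap.finrank_range_of_inj hΨinj, Module.finrank_fin_fun,
    Module.finrank_eq_card_basis b, Fintype.card_fin]

end Fermat.Agent.S20.CoeffField
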