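/-
S20 / T3 (helper26): the hypothesis `hR` of `CuspStep.isZeroAtImInfty_slash` from generators.

* `smul_ofHol_mem_cuspField`: every `SL(2,ℤ)`-translate of `τ ↦ j (d τ)`, `d ∣ N`, lies in the
  fraction field `cuspField N` of the cusp ring.
* `forall_smul_mem_cuspField_of_adjoin`: if `F` is generated over `K` (as a field) by a set `S` and
  all translates of the `R.φ s`, `s ∈ S`, lie in `cuspField N`, then so do all translates of all
  `R.φ y`.
-/
import Fermat.Agent.S20.CuspStep

set_option autoImplicit false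

open UpperHalfPlane hiding I
open Complex Filter Topology Function
open scoped MatrixGroups Manifold Real

namespace Fermat.Agent.S20.CuspGen

open Fermat.Agent.S24.HolH Fermat.Agent.S20.CuspRing Fermat.Agent.S20.MerPhi
open Fermat.Agent.S20.CuspPlace Fermat.Agent.S20.CuspStep Fermat.Agent.S24.JAnalytic

/-- Every `SL(2,ℤ)`-translate of (a holomorphic function equal to) `τ ↦ j (d τ)`, `d ∣ N`, lies in
the cusp ring `P_N`. -/
theorem smul_mem_cuspRing {N : ℕ} [NeZero N] (d : ℤ) (hd : 0 < d) (hdN : d ∣ (N : ℤ)) (c : Hol)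
    (hc : ∀ τ z : ℍ, (z : ℂ) = (d : ℂ) * (τ : ℂ) → (c : ℍ → ℂ) τ = jFun z) (g : SL(2, ℤ)) :
    (g • c : Hol) ∈ cuspRing N :=
  (conj_mem_cuspRing d hd hdN g⁻¹ (g • c) (fun τ z hz => by
    rw [Hol.smul_apply]
    exact hc (g⁻¹ • τ) z hz)).1

theorem smul_ofHol_mem_cuspField {N : ℕ} [NeZero N] (d : ℤ) (hd : 0 < d) (hdN : d ∣ (N : ℤ))
    (c : Hol) (hc : ∀ τ z : ℍ, (z : ℂ) = (d : ℂ) * (τ : ℂ) → (c : ℍ → ℂ) τ = jFun z)
    (g : SL(2, ℤ)) : g • algebraMap Hol Mer c ∈ cuspField N := by
  rw [Mer.smul_algebraMap]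
  exact ofHol_mem_cuspField (smul_mem_cuspRing d hd hdN c hc g)

variable {K F : Type*} [Field K] [Field F] [Algebra K F]

/-- The elements of `F` all of whose translates are realised in `cuspField N`. -/
def transField (R : Realization K F) (N : ℕ) [NeZero N] : IntermediateField K F where
  carrier := {y | ∀ g : SL(2, ℤ), g • R.φ y ∈ cuspField N}
  mul_mem' := fun {y z} hy hz g => by
    rw [map_mul, smul_mul']
    exact mul_mem (hy g) (hz g)
  one_mem' := fun g => by
    rw [map_one, smul_one]
    exact one_mem _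
  add_mem' := fun {y z} hy hz g => by
    rw [map_add, smul_add]
    exact add_mem (hy g) (hz g)
  zero_mem' := fun g => by
    rw [map_zero, smul_zero]
    exact zero_mem _
  algebraMap_mem' := fun c g => by
    rw [R.map_const, smul_algebraMap_complex]
    exact const_mem_cuspField _
  inv_mem' := fun y hy g => by
    rw [map_inv₀, smul_inv'']
    exact inv_mem (hy g)

theorem mem_transField (R : Realization K F) (N : ℕ) [NeZero N] (y : F) :
    y ∈ transField R N ↔ ∀ g : SL(2, ℤ), g • R.φ y ∈ cuspField N := Iff.rfl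

/-- It suffices to check the hypothesis `hR` of `CuspStep.isZeroAtImInfty_slash` on a set of
field generators of `F/K`. -/
theorem forall_smul_mem_cuspField_of_adjoin (R : Realization K F) (N : ℕ) [NeZero N]
    (S : Set F) (hS : IntermediateField.adjoin K S = ⊤)
    (h : ∀ s ∈ S, ∀ g : SL(2, ℤ), g • R.φ s ∈ cuspField N) :
    ∀ (g : SL(2, ℤ)) (y : F), g • R.φ y ∈ cuspField N := by
  have hle : IntermediateField.adjoin K S ≤ transField R N :=
    IntermediateField.adjoin_le_iff.mpr (fun s hs => h s hs)
  intro g y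
  have hy : y ∈ transField R N := hle (by rw [hS]; exact IntermediateField.mem_top)
  exact hy g

/-- Variant in terms of `transField`. -/
theorem forall_smul_mem_cuspField_of_le (R : Realization K F) (N : ℕ) [NeZero N]
    (h : (⊤ : IntermediateField K F) ≤ transField R N) :
    ∀ (g : SL(2, ℤ)) (y : F), g • R.φ y ∈ cuspField N :=
  fun g y => h (IntermediateField.mem_top (x := y)) g

end Fermat.Agent.S20.CuspGen
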