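import Mathlib

/-!
# S20 / T1-GLUE step (iv) (helper19): membership in the trace dual via valuations

`B` a Dedekind domain with fraction field `L`.

* `FracCount.le_iff_count` : for nonzero fractional ideals, `I ≤ J ↔ ∀ v, count v J ≤ count v I`.
* `FracCount.mem_iff_valuation_le` : `x ∈ I ↔ ∀ v, v.valuation L x ≤ exp (-(count v I))`.
* `mem_traceDual_one_iff` : in the `AKLB` setting,
  `x ∈ traceDual A K (1 : Submodule B L) ↔ ∀ v, v.valuation L x ≤ exp (count v 𝔇)`,
  with `𝔇 = differentIdeal A B`.
-/

set_option autoImplicit false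

open scoped nonZeroDivisors
open IsDedekindDomain IsDedekindDomain.HeightOneSpectrum FractionalIdeal

namespace Fermat.Agent.S20.DualVal19

section FracCount

variable {B : Type*} [CommRing B] [IsDedekindDomain B]
  {L : Type*} [Field L] [Algebra B L] [IsFractionRing B L]

/-- A nonzero fractional ideal all of whose exponents are nonnegative is integral. -/
theorem le_one_of_count_nonneg {J : FractionalIdeal B⁰ L} (hJ : J ≠ 0)
    (h : ∀ v : HeightOneSpectrum B, 0 ≤ count L v J) : J ≤ 1 := by
  rw [← finprod_heightOneSpectrum_factorization' L hJ]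
  refine finprod_induction (fun I : FractionalIdeal B⁰ L => I ≤ 1) le_rfl ?_ ?_
  · intro x y hx hy
    obtain ⟨Ix, rfl⟩ := FractionalIdeal.le_one_iff_exists_coeIdeal.mp hx
    obtain ⟨Iy, rfl⟩ := FractionalIdeal.le_one_iff_exists_coeIdeal.mp hy
    rw [← FractionalIdeal.coeIdeal_mul]
    exact FractionalIdeal.coeIdeal_le_one
  · intro v
    obtain ⟨n, hn⟩ := Int.eq_ofNat_of_zero_le (h v)
    rw [hn, zpow_natCast, ← FractionalIdeal.coeIdeal_pow]
    exact FractionalIdeal.coeIdeal_le_one

/-- Order of nonzero fractional ideals is detected by the exponents. -/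
theorem le_iff_count {I J : FractionalIdeal B⁰ L} (hI : I ≠ 0) (hJ : J ≠ 0) :
    I ≤ J ↔ ∀ v : HeightOneSpectrum B, count L v J ≤ count L v I := by
  constructor
  · intro h v
    exact count_mono L v hI h
  · intro h
    have hne : I * J⁻¹ ≠ 0 := mul_ne_zero hI (inv_ne_zero hJ)
    have h1 : I * J⁻¹ ≤ 1 := by
      refine le_one_of_count_nonneg hne fun v => ?_
      rw [count_mul L v hI (inv_ne_zero hJ), count_inv]
      have := h v
      omega
    calc I = I * J⁻¹ * J := by rw [mul_assoc, inv_mul_cancel₀ hJ, mul_one]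
      _ ≤ 1 * J := mul_le_mul_left h1 J
      _ = J := one_mul J

/-- The adic valuation of a nonzero element in terms of the exponent of the principal
fractional ideal it generates. -/
theorem valuation_eq_exp_neg_count (v : HeightOneSpectrum B) {x : L} (hx : x ≠ 0) :
    v.valuation L x = WithZero.exp (-(count L v (spanSingleton B⁰ x))) := by
  obtain ⟨n, d, rfl⟩ := IsLocalization.exists_mk'_eq B⁰ x
  have hn : n ≠ 0 := by
    rintro rfl
    simp at hx
  have hd : (d : B) ≠ 0 := nonZeroDivisors.coe_ne_zero d
  have hI : spanSingleton B⁰ (IsLocalization.mk' L n d) ≠ 0 := by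
    rwa [Ne, spanSingleton_eq_zero_iff]
  have hrep : spanSingleton B⁰ (IsLocalization.mk' L n d) =
      spanSingleton B⁰ ((algebraMap B L) (d : B))⁻¹ * ↑(Ideal.span {n} : Ideal B) := by
    rw [coeIdeal_span_singleton, spanSingleton_mul_spanSingleton, IsFractionRing.mk'_eq_div,
      div_eq_inv_mul]
  rw [count_well_defined L v hI hrep, valuation_of_mk', intValuation_if_neg v hn,
    intValuation_if_neg v hd, ← WithZero.exp_sub]
  congr 1
  ring

/-- Membership in a nonzero fractional ideal via exponents. -/
theorem mem_iff_count {I : FractionalIdeal B⁰ L} (hI : I ≠ 0) {x : L} (hx : x ≠ 0) :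
    x ∈ I ↔ ∀ v : HeightOneSpectrum B, count L v I ≤ count L v (spanSingleton B⁰ x) := by
  rw [← spanSingleton_le_iff_mem,
    le_iff_count (by rwa [Ne, spanSingleton_eq_zero_iff]) hI]

/-- Membership in a nonzero fractional ideal via the adic valuations. -/
theorem mem_iff_valuation_le {I : FractionalIdeal B⁰ L} (hI : I ≠ 0) {x : L} (hx : x ≠ 0) :
    x ∈ I ↔ ∀ v : HeightOneSpectrum B, v.valuation L x ≤ WithZero.exp (-(count L v I)) := by
  rw [mem_iff_count hI hx]
  refine forall_congr' fun v => ?_
  rw [valuation_eq_exp_neg_count v hx, WithZero.exp_le_exp, neg_le_neg_iff]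

/-- The exponent of an integral ideal is the multiplicity in `normalizedFactors`. -/
theorem count_coeIdeal_eq (v : HeightOneSpectrum B) {J : Ideal B} (hJ : J ≠ 0) :
    count L v (J : FractionalIdeal B⁰ L) =
      (Multiset.count v.asIdeal (UniqueFactorizationMonoid.normalizedFactors J) : ℤ) := by
  rw [count_coe L v hJ, Ideal.count_associates_factors_eq hJ v.isPrime v.ne_bot]

end FracCount

section TraceDual

variable (A K : Type*) {L : Type*} {B : Type*} [CommRing A] [Field K] [CommRing B] [Field L]
  [Algebra A K] [Algebra B L] [Algebra A B] [Algebra K L] [Algebra A L]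
  [IsScalarTower A K L] [IsScalarTower A B L]
  [IsDomain A] [IsFractionRing A K] [FiniteDimensional K L] [Algebra.IsSeparable K L]
  [IsIntegralClosure B A L] [IsFractionRing B L] [IsIntegrallyClosed A] [IsDedekindDomain B]
  [Module.IsTorsionFree A B]

/-- `x ∈ B^∨` (trace dual of `B`) iff `ord_P x ≥ - ord_P 𝔇` for all primes `P` of `B`,
where `𝔇` is the different. -/
theorem mem_traceDual_one_iff_count {x : L} (hx : x ≠ 0) :
    x ∈ Submodule.traceDual A K (1 : Submodule B L) ↔
      ∀ v : HeightOneSpectrum B, v.valuation L x ≤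
        WithZero.exp (count L v ((differentIdeal A B : Ideal B) : FractionalIdeal B⁰ L)) := by
  have hne : dual A K (1 : FractionalIdeal B⁰ L) ≠ 0 := dual_ne_zero A K one_ne_zero
  have hdual : dual A K (1 : FractionalIdeal B⁰ L) =
      ((differentIdeal A B : Ideal B) : FractionalIdeal B⁰ L)⁻¹ := by
    rw [coeIdeal_differentIdeal A K L B, inv_inv]
  rw [← coe_dual_one A K L B, FractionalIdeal.mem_coe, mem_iff_valuation_le hne hx]
  refine forall_congr' fun v => ?_
  rw [hdual, count_inv, neg_neg]

/-- `x ∈ B^∨` iff `ord_P x ≥ - m_P` for all primes `P` of `B`, `m_P` the multiplicity of `P`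
in the different (`normalizedFactors` form). -/
theorem mem_traceDual_one_iff {x : L} (hx : x ≠ 0) :
    x ∈ Submodule.traceDual A K (1 : Submodule B L) ↔
      ∀ v : HeightOneSpectrum B, v.valuation L x ≤
        WithZero.exp ((Multiset.count v.asIdeal
          (UniqueFactorizationMonoid.normalizedFactors (differentIdeal A B)) : ℕ) : ℤ) := by
  have hbot : differentIdeal A B ≠ ⊥ := by
    have hne : dual A K (1 : FractionalIdeal B⁰ L) ≠ 0 := dual_ne_zero A K one_ne_zero
    intro h
    have h2 := coeIdeal_differentIdeal A K L B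
    rw [h, coeIdeal_bot] at h2
    exact inv_ne_zero hne h2.symm
  rw [mem_traceDual_one_iff_count A K hx]
  refine forall_congr' fun v => ?_
  rw [count_coeIdeal_eq v hbot]

/-- Tame form: if the multiplicity of every prime `P` in the different is `e P - 1`, then
`x ∈ B^∨` iff `ord_P x ≥ -(e P - 1)` for all `P`. -/
theorem mem_traceDual_one_iff_of_count_eq (e : HeightOneSpectrum B → ℕ)
    (he : ∀ v : HeightOneSpectrum B, Multiset.count v.asIdeal
      (UniqueFactorizationMonoid.normalizedFactors (differentIdeal A B)) = e v - 1)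
    {x : L} (hx : x ≠ 0) :
    x ∈ Submodule.traceDual A K (1 : Submodule B L) ↔
      ∀ v : HeightOneSpectrum B, v.valuation L x ≤ WithZero.exp (((e v - 1 : ℕ) : ℤ)) := by
  rw [mem_traceDual_one_iff A K hx]
  refine forall_congr' fun v => ?_
  rw [he v]

end TraceDual

end Fermat.Agent.S20.DualVal19
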