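/-
S20 (helper92): bridge between the coefficient form `HolF K x` of the space of regular
differentials (`S20/HolDef.lean`, used by (T1)) and the `Ω`-form used by the (T3) side
(`∀ v : Place K F, 0 ≤ v.ordDifferential ω`).
No sorry.
-/
import Fermat.Agent.S20.HolDef
import Fermat.Agent.S24.Pkg_FF3_86

set_option autoImplicit false

open AlgebraicCurve KaehlerDifferential

noncomputable section

namespace Fermat.Agent.S20.HolOmega

open Fermat.Agent.S24

variable {K F : Type*} [Field K] [Field F] [Algebra K F] [IsAlgClosed K] [CharZero K]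
variable {x : F}

omit [IsAlgClosed K] [CharZero K] in
theorem ordDifferential_zero (v : Place K F) [v.DCoordGenerates] [Nontrivial Ω[F⁄K]] :
    v.ordDifferential (0 : Ω[F⁄K]) = 0 := by
  have h := v.differentialCoeff_smul_dCoord (0 : Ω[F⁄K])
  have hd : v.dCoord ≠ 0 := by
    intro h0
    obtain ⟨ω, hω⟩ := exists_ne (0 : Ω[F⁄K])
    obtain ⟨f, hf⟩ := v.exists_eq_smul_dCoord ω
    rw [h0, smul_zero] at hf
    exact hω hf
  rcases smul_eq_zero.mp h with h1 | h1
  · rw [Place.ordDifferential, h1, Place.ord_zero]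
  · exact absurd h1 hd

/-- `f • d x` is regular at all places iff `f ∈ HolF K x`. -/
theorem mem_HolF_iff_forall_ordDifferential (hF : IsFunctionFieldOver K x) (f : F) :
    f ∈ HolF K x ↔ ∀ v : Place K F, 0 ≤ v.ordDifferential (f • D K F x) := by
  have hnt : Nontrivial Ω[F⁄K] := ⟨⟨D K F x, 0, D_ne_zero hF⟩⟩
  rw [mem_HolF]
  refine forall_congr' fun v => ?_
  have := dCoordGenerates hF v
  rcases eq_or_ne f 0 with rfl | hf
  · rw [zero_smul, ordDifferential_zero]
    exact ⟨fun _ => le_rfl, fun _ => Or.inl rfl⟩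
  · rw [Diff.ordDifferential_smul' v hf (D_ne_zero hF)]
    exact ⟨fun h => h.resolve_left hf, fun h => Or.inr h⟩

theorem ordDifferential_nonneg_of_mem_HolF (hF : IsFunctionFieldOver K x) {f : F}
    (hf : f ∈ HolF K x) (v : Place K F) : 0 ≤ v.ordDifferential (f • D K F x) :=
  (mem_HolF_iff_forall_ordDifferential hF f).mp hf v

/-- every differential regular at all places is `f • d x` with `f ∈ HolF K x`. -/
theorem exists_mem_HolF_of_regular (hF : IsFunctionFieldOver K x) {ω : Ω[F⁄K]}
    (hω : ∀ v : Place K F, 0 ≤ v.ordDifferential ω) : ∃ f ∈ HolF K x, f • D K F x = ω := by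
  obtain ⟨f, rfl⟩ : ∃ f : F, f • D K F x = ω := by
    have hmem : ω ∈ Submodule.span F {D K F x} := by rw [span_D_eq_top hF]; trivial
    exact Submodule.mem_span_singleton.mp hmem
  exact ⟨f, (mem_HolF_iff_forall_ordDifferential hF f).mpr hω, rfl⟩

omit [IsAlgClosed K] [CharZero K] in
variable (K x) in
/-- The `K`-linear map `f ↦ f • d x` on `HolF K x`. -/
def toOmega : HolF K x →ₗ[K] Ω[F⁄K] :=
  ((LinearMap.toSpanSingleton F Ω[F⁄K] (D K F x)).restrictScalars K).comp (HolF K x).subtype

omit [IsAlgClosed K] [CharZero K] in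
@[simp] theorem toOmega_apply (f : HolF K x) : toOmega K x f = (f : F) • D K F x := rfl

theorem toOmega_injective (hF : IsFunctionFieldOver K x) : Function.Injective (toOmega K x) := by
  intro f g h
  rw [toOmega_apply, toOmega_apply, ← sub_eq_zero, ← sub_smul, smul_eq_zero] at h
  rcases h with h | h
  · exact Subtype.ext (sub_eq_zero.mp h)
  · exact absurd h (D_ne_zero hF)

theorem toOmega_regular (hF : IsFunctionFieldOver K x) (f : HolF K x) (v : Place K F) :
    0 ≤ v.ordDifferential (toOmega K x f) :=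
  ordDifferential_nonneg_of_mem_HolF hF f.2 v

end Fermat.Agent.S20.HolOmega
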