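import Mathlib
import Fermat.Agent.S20.PointPlace
import Fermat.Agent.S20.CuspRing
import Fermat.Agent.S20.MerLocal23
import Fermat.Agent.S20.CuspStep

/-!
# S20 / T3-PSI (helper23): from regular differentials to cusp forms of weight 2

Given a realisation `R : Realization K F` of a function field inside `Mer = Frac (Hol ℍ)` which is
`Γ₀(N)`-invariant and meromorphic at all cusps (in the sense of `CuspRing`), every differential
`ω ∈ Ω[F⁄K]` regular at all places of `F` gives a cusp form `Ψ ω ∈ S₂(Γ₀(N))` whose underlying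
holomorphic function is `(2πi)⁻¹ • Phi ω`.
-/

set_option autoImplicit false
set_option linter.style.haveILetI false

open UpperHalfPlane KaehlerDifferential AlgebraicCurve Filter Topology
open scoped WithZero MatrixGroups Manifold ModularForm

namespace Fermat.Agent.S20.HolToCusp

open Fermat.Agent.S24.HolH Fermat.Agent.S20.MerDiv Fermat.Agent.S20.MerLocal
open Fermat.Agent.S20.MerPhi Fermat.Agent.S24 Fermat.Agent.S20.PointPlace
open Fermat.Agent.S20.CuspRing

/-! ### Part 0: the two copies of `d/dτ` agree; chain rule -/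

theorem dHol_eq23 (f : Hol) : dHol f = MerLocal23.dHol f := by
  ext τ
  rfl

theorem dMer_eq23 (x : Mer) : dMer x = MerLocal23.dMer x := by
  obtain ⟨a, b, hb, rfl⟩ := IsFractionRing.div_surjective Hol x
  have hb0 : b ≠ 0 := nonZeroDivisors.ne_zero hb
  rw [dMer_div a b hb0, MerLocal23.dMer_div a b hb0, dHol_eq23, dHol_eq23]
  simp only [map_sub, map_mul]
  ring

/-- Chain rule for the `SL(2,ℤ)`-action (for helper20's `dMer`). -/
theorem dMer_smul (g : SL(2, ℤ)) (x : Mer) :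
    dMer (g • x) * algebraMap Hol Mer (MerLocal23.cdHol g⁻¹) ^ 2 = g • dMer x := by
  rw [dMer_eq23, dMer_eq23]
  exact MerLocal23.dMer_smul g x

theorem dMer_of_smul_eq {g : SL(2, ℤ)} {x : Mer} (hx : g • x = x) :
    g • dMer x = dMer x * algebraMap Hol Mer (MerLocal23.cdHol g⁻¹) ^ 2 := by
  rw [← dMer_smul g x, hx]

/-! ### Part 1: a constructor for cusp forms on `Γ₀(N)` -/

/-- Build a cusp form of weight `k` on `Γ₀(N)` from a holomorphic function which is
slash-invariant under `Γ₀(N)` and vanishes at `i∞` after slashing with any element of `SL(2,ℤ)`. -/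
noncomputable def mkCuspForm (N : ℕ) [NeZero N] (k : ℤ) (f : ℍ → ℂ) (hol : MDiff f)
    (hinv : ∀ γ ∈ CongruenceSubgroup.Gamma0 N, f ∣[k] γ = f)
    (hcusp : ∀ δ : SL(2, ℤ), IsZeroAtImInfty (f ∣[k] δ)) :
    CuspForm (CongruenceSubgroup.Gamma0 N) k where
  toFun := f
  slash_action_eq' := by
    rintro _ ⟨γ, hγ, rfl⟩
    exact hinv γ hγ
  holo' := hol
  zero_at_cusps' := by
    intro c hc
    rw [Subgroup.IsArithmetic.isCusp_iff_isCusp_SL2Z] at hc
    rw [OnePoint.isZeroAt_iff_forall_SL2Z hc]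
    intro δ _
    exact hcusp δ

@[simp] theorem coe_mkCuspForm (N : ℕ) [NeZero N] (k : ℤ) (f : ℍ → ℂ) (hol : MDiff f)
    (hinv : ∀ γ ∈ CongruenceSubgroup.Gamma0 N, f ∣[k] γ = f)
    (hcusp : ∀ δ : SL(2, ℤ), IsZeroAtImInfty (f ∣[k] δ)) :
    ⇑(mkCuspForm N k f hol hinv hcusp) = f := rfl

/-! ### Part 2: weight-2 invariance -/

section Invariance

variable {K F : Type*} [Field K] [Field F] [Algebra K F] [IsAlgClosed K] [CharZero K] {x : F}

/-- Every differential is a multiple of `D x`. -/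
theorem exists_eq_smul_D (hF : IsFunctionFieldOver K x) (ω : Ω[F⁄K]) :
    ∃ h : F, ω = h • D K F x := by
  have hω : ω ∈ Submodule.span F {D K F x} := by
    rw [Fermat.Agent.S24.span_D_eq_top hF]
    exact Submodule.mem_top
  obtain ⟨h, rfl⟩ := Submodule.mem_span_singleton.mp hω
  exact ⟨h, rfl⟩

/-- Transformation law of `Phi ω` under an element of `SL(2,ℤ)` fixing the realisation. -/
theorem smul_Phi (hF : IsFunctionFieldOver K x) (R : Realization K F) {g : SL(2, ℤ)}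
    (hg : ∀ y : F, g • R.φ y = R.φ y) (ω : Ω[F⁄K]) :
    g • R.Phi ω = R.Phi ω * algebraMap Hol Mer (MerLocal23.cdHol g⁻¹) ^ 2 := by
  obtain ⟨h, rfl⟩ := exists_eq_smul_D hF ω
  rw [Realization.Phi_smul, Realization.Phi_D, smul_mul', hg h, dMer_of_smul_eq (hg x)]
  ring

/-- Pointwise transformation law of a holomorphic function representing `c • Phi ω`. -/
theorem apply_smul_of_eq_Phi (hF : IsFunctionFieldOver K x) (R : Realization K F) {γ : SL(2, ℤ)}
    (hγ : ∀ y : F, γ⁻¹ • R.φ y = R.φ y) (ω : Ω[F⁄K]) (c : ℂ) (f₀ : Hol)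
    (hf₀ : algebraMap Hol Mer f₀ = algebraMap ℂ Mer c * R.Phi ω) (τ : ℍ) :
    (f₀ : ℍ → ℂ) (γ • τ) = (f₀ : ℍ → ℂ) τ * (MerLocal23.cdHol γ : ℍ → ℂ) τ ^ 2 := by
  have h1 : γ⁻¹ • algebraMap Hol Mer f₀
      = algebraMap Hol Mer f₀ * algebraMap Hol Mer (MerLocal23.cdHol γ) ^ 2 := by
    rw [hf₀, smul_mul', smul_Phi hF R hγ ω, inv_inv]
    have : γ⁻¹ • algebraMap ℂ Mer c = algebraMap ℂ Mer c := by
      rw [IsScalarTower.algebraMap_apply ℂ Hol Mer, Mer.smul_algebraMap, Hol.smul_algebraMap]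
    rw [this]
    ring
  rw [Mer.smul_algebraMap, ← map_pow, ← map_mul] at h1
  have h2 := IsFractionRing.injective Hol Mer h1
  have h3 := congrArg (fun G : Hol => (G : ℍ → ℂ) τ) h2
  simpa using h3

/-- Slash invariance of weight 2. -/
theorem slash_eq_of_eq_Phi (hF : IsFunctionFieldOver K x) (R : Realization K F) {γ : SL(2, ℤ)}
    (hγ : ∀ y : F, γ⁻¹ • R.φ y = R.φ y) (ω : Ω[F⁄K]) (c : ℂ) (f₀ : Hol)
    (hf₀ : algebraMap Hol Mer f₀ = algebraMap ℂ Mer c * R.Phi ω) :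
    (f₀ : ℍ → ℂ) ∣[(2 : ℤ)] γ = (f₀ : ℍ → ℂ) := by
  ext τ
  rw [ModularForm.SL_slash_apply, apply_smul_of_eq_Phi hF R hγ ω c f₀ hf₀ τ]
  have hd : UpperHalfPlane.denom (Matrix.SpecialLinearGroup.toGL
      ((Matrix.SpecialLinearGroup.map (Int.castRingHom ℝ)) γ)) (τ : ℂ)
      = (MerLocal23.cdHol γ : ℍ → ℂ) τ := by
    simp [UpperHalfPlane.denom]
  rw [hd]
  have hne := MerLocal23.cdHol_apply_ne_zero γ τ
  rw [zpow_neg, mul_assoc, show ((2 : ℤ)) = ((2 : ℕ) : ℤ) from rfl, zpow_natCast,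
    mul_inv_cancel₀ (pow_ne_zero 2 hne), mul_one]

end Invariance

/-! ### Part 3: helper20's shape (H2) and the final statement -/

/-- Pointwise transformation law from the `Mer`-level transformation law. -/
theorem apply_smul_of_smul_eq {γ : SL(2, ℤ)} (f₀ : Hol)
    (h1 : γ⁻¹ • algebraMap Hol Mer f₀
      = algebraMap Hol Mer f₀ * algebraMap Hol Mer (MerLocal23.cdHol γ) ^ 2) (τ : ℍ) :
    (f₀ : ℍ → ℂ) (γ • τ) = (f₀ : ℍ → ℂ) τ * (MerLocal23.cdHol γ : ℍ → ℂ) τ ^ 2 := by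
  rw [Mer.smul_algebraMap, ← map_pow, ← map_mul] at h1
  have h2 := IsFractionRing.injective Hol Mer h1
  have h3 := congrArg (fun G : Hol => (G : ℍ → ℂ) τ) h2
  simpa using h3

/-- Weight-2 slash invariance from the `Mer`-level transformation law. -/
theorem slash_eq_of_smul_eq {γ : SL(2, ℤ)} (f₀ : Hol)
    (h1 : γ⁻¹ • algebraMap Hol Mer f₀
      = algebraMap Hol Mer f₀ * algebraMap Hol Mer (MerLocal23.cdHol γ) ^ 2) :
    (f₀ : ℍ → ℂ) ∣[(2 : ℤ)] γ = (f₀ : ℍ → ℂ) := by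
  ext τ
  rw [ModularForm.SL_slash_apply, apply_smul_of_smul_eq f₀ h1 τ]
  have hd : UpperHalfPlane.denom (Matrix.SpecialLinearGroup.toGL
      ((Matrix.SpecialLinearGroup.map (Int.castRingHom ℝ)) γ)) (τ : ℂ)
      = (MerLocal23.cdHol γ : ℍ → ℂ) τ := by
    simp [UpperHalfPlane.denom]
  rw [hd]
  have hne := MerLocal23.cdHol_apply_ne_zero γ τ
  rw [zpow_neg, mul_assoc, show ((2 : ℤ)) = ((2 : ℕ) : ℤ) from rfl, zpow_natCast,
    mul_inv_cancel₀ (pow_ne_zero 2 hne), mul_one]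

/-- (H2) The cusp form of weight 2 on `Γ₀(N)` attached to a holomorphic function with the
weight-2 transformation law (stated in `Mer`) which vanishes at all cusps. -/
noncomputable def mkCusp (N : ℕ) [NeZero N] (f : Hol)
    (hinv : ∀ g : SL(2, ℤ), g ∈ CongruenceSubgroup.Gamma0 N →
      g • algebraMap Hol Mer f
        = algebraMap Hol Mer f * algebraMap Hol Mer (MerLocal23.cdHol g⁻¹) ^ 2)
    (hcusp : ∀ δ : SL(2, ℤ), IsZeroAtImInfty ((f : ℍ → ℂ) ∣[(2 : ℤ)] δ)) :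
    CuspForm (CongruenceSubgroup.Gamma0 N) 2 :=
  mkCuspForm N 2 (f : ℍ → ℂ) (Hol.mdiff f)
    (fun γ hγ => slash_eq_of_smul_eq f (by
      have := hinv γ⁻¹ (inv_mem hγ)
      rwa [inv_inv] at this))
    hcusp

@[simp] theorem coe_mkCusp (N : ℕ) [NeZero N] (f : Hol)
    (hinv : ∀ g : SL(2, ℤ), g ∈ CongruenceSubgroup.Gamma0 N →
      g • algebraMap Hol Mer f
        = algebraMap Hol Mer f * algebraMap Hol Mer (MerLocal23.cdHol g⁻¹) ^ 2)
    (hcusp : ∀ δ : SL(2, ℤ), IsZeroAtImInfty ((f : ℍ → ℂ) ∣[(2 : ℤ)] δ)) :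
    ⇑(mkCusp N f hinv hcusp) = (f : ℍ → ℂ) := rfl

section Final

variable {K F : Type*} [Field K] [Field F] [Algebra K F] [IsAlgClosed K] [CharZero K] {x : F}

/-- `Mer`-level transformation law for a holomorphic function representing `c • Phi ω`. -/
theorem smul_eq_of_eq_Phi (hF : IsFunctionFieldOver K x) (R : Realization K F) {g : SL(2, ℤ)}
    (hg : ∀ y : F, g • R.φ y = R.φ y) (ω : Ω[F⁄K]) (c : ℂ) (f₀ : Hol)
    (hf₀ : algebraMap Hol Mer f₀ = algebraMap ℂ Mer c * R.Phi ω) :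
    g • algebraMap Hol Mer f₀
      = algebraMap Hol Mer f₀ * algebraMap Hol Mer (MerLocal23.cdHol g⁻¹) ^ 2 := by
  rw [hf₀, smul_mul', smul_Phi hF R hg ω]
  have : g • algebraMap ℂ Mer c = algebraMap ℂ Mer c := by
    rw [IsScalarTower.algebraMap_apply ℂ Hol Mer, Mer.smul_algebraMap, Hol.smul_algebraMap]
  rw [this]
  ring

omit [IsAlgClosed K] [CharZero K] in
/-- Scaling a holomorphic representative: if `f` represents `Phi ω` then `c • f` represents
`c • Phi ω`. -/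
theorem algebraMap_smul_eq (R : Realization K F) (ω : Ω[F⁄K]) (c : ℂ) (f : Hol)
    (hf : algebraMap Hol Mer f = R.Phi ω) :
    algebraMap Hol Mer (c • f) = algebraMap ℂ Mer c * R.Phi ω := by
  rw [Algebra.smul_def, map_mul, hf, ← IsScalarTower.algebraMap_apply ℂ Hol Mer]

/-- Slashing commutes with scalar multiplication (coercions of `Hol`). -/
theorem coe_smul_slash (c : ℂ) (f : Hol) (δ : SL(2, ℤ)) :
    ((c • f : Hol) : ℍ → ℂ) ∣[(2 : ℤ)] δ = c • ((f : ℍ → ℂ) ∣[(2 : ℤ)] δ) := by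
  have : ((c • f : Hol) : ℍ → ℂ) = c • (f : ℍ → ℂ) := rfl
  rw [this, ModularForm.SL_smul_slash]

/-- **T3-PSI, abstract form.** Let `R` be a `Γ₀(N)`-invariant realisation of the function field
`F/K` inside `Mer`, and `ω` a differential regular at all places, such that the holomorphic
function representing `Phi ω` vanishes at all cusps (this is the cusp step `H3`).  Then for every
constant `c` there is a cusp form of weight `2` on `Γ₀(N)` whose underlying function represents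
`c • Phi ω`. -/
theorem exists_cuspForm_of_regular (hF : IsFunctionFieldOver K x) (R : Realization K F)
    (N : ℕ) [NeZero N]
    (hinvR : ∀ g : SL(2, ℤ), g ∈ CongruenceSubgroup.Gamma0 N → ∀ y : F, g • R.φ y = R.φ y)
    {ω : Ω[F⁄K]} (hω : ∀ v : Place K F, 0 ≤ v.ordDifferential ω)
    (hcusp : ∀ f : Hol, algebraMap Hol Mer f = R.Phi ω →
      ∀ δ : SL(2, ℤ), IsZeroAtImInfty ((f : ℍ → ℂ) ∣[(2 : ℤ)] δ)) (c : ℂ) :
    ∃ (Ψ : CuspForm (CongruenceSubgroup.Gamma0 N) 2) (f : Hol),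
      algebraMap Hol Mer f = R.Phi ω ∧ ⇑Ψ = ((c • f : Hol) : ℍ → ℂ) ∧
      algebraMap Hol Mer (c • f) = algebraMap ℂ Mer c * R.Phi ω := by
  obtain ⟨f, hf⟩ := exists_hol_eq_Phi hF R hω
  have hcf := algebraMap_smul_eq R ω c f hf
  refine ⟨mkCusp N (c • f) (fun g hg => smul_eq_of_eq_Phi hF R (hinvR g hg) ω c (c • f) hcf)
    (fun δ => ?_), f, hf, rfl, hcf⟩
  rw [coe_smul_slash]
  exact (hcusp f hf δ).smul c

/-! ### The map `Psi` (concrete form, using helper26's cusp step `CuspStep.isZeroAtImInfty_slash`) -/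

/-- A chosen holomorphic function on `ℍ` representing `Phi ω`, for a regular differential `ω`. -/
noncomputable def holRep (hF : IsFunctionFieldOver K x) (R : Realization K F)
    {ω : Ω[F⁄K]} (hω : ∀ v : Place K F, 0 ≤ v.ordDifferential ω) : Hol :=
  (exists_hol_eq_Phi hF R hω).choose

theorem holRep_spec (hF : IsFunctionFieldOver K x) (R : Realization K F)
    {ω : Ω[F⁄K]} (hω : ∀ v : Place K F, 0 ≤ v.ordDifferential ω) :
    algebraMap Hol Mer (holRep hF R hω) = R.Phi ω :=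
  (exists_hol_eq_Phi hF R hω).choose_spec

/-- **T3-PSI.** The cusp form of weight `2` on `Γ₀(N)` attached to a regular differential `ω` of
the function field `F/K` realised `Γ₀(N)`-invariantly and cusp-meromorphically inside `Mer`; its
underlying function represents `c • Phi ω` (`c = (2πi)⁻¹` in the application). -/
noncomputable def Psi (hF : IsFunctionFieldOver K x) (R : Realization K F) (N : ℕ) [NeZero N]
    (hinvR : ∀ g : SL(2, ℤ), g ∈ CongruenceSubgroup.Gamma0 N → ∀ y : F, g • R.φ y = R.φ y)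
    (hR : ∀ (g : SL(2, ℤ)) (y : F), g • R.φ y ∈ CuspPlace.cuspField N) (c : ℂ)
    {ω : Ω[F⁄K]} (hω : ∀ v : Place K F, 0 ≤ v.ordDifferential ω) :
    CuspForm (CongruenceSubgroup.Gamma0 N) 2 :=
  mkCusp N (c • holRep hF R hω)
    (fun g hg => smul_eq_of_eq_Phi hF R (hinvR g hg) ω c (c • holRep hF R hω)
      (algebraMap_smul_eq R ω c _ (holRep_spec hF R hω)))
    (fun δ => by
      rw [coe_smul_slash]
      exact (CuspStep.isZeroAtImInfty_slash hF R N hR hω (holRep_spec hF R hω) δ).smul c)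

theorem coe_Psi (hF : IsFunctionFieldOver K x) (R : Realization K F) (N : ℕ) [NeZero N]
    (hinvR : ∀ g : SL(2, ℤ), g ∈ CongruenceSubgroup.Gamma0 N → ∀ y : F, g • R.φ y = R.φ y)
    (hR : ∀ (g : SL(2, ℤ)) (y : F), g • R.φ y ∈ CuspPlace.cuspField N) (c : ℂ)
    {ω : Ω[F⁄K]} (hω : ∀ v : Place K F, 0 ≤ v.ordDifferential ω) :
    ⇑(Psi hF R N hinvR hR c hω) = ((c • holRep hF R hω : Hol) : ℍ → ℂ) := rfl

/-- The underlying function of `Psi ω`, as an element of `Hol`, represents `c • Phi ω`. -/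
theorem algebraMap_Psi (hF : IsFunctionFieldOver K x) (R : Realization K F) (N : ℕ) [NeZero N]
    (hinvR : ∀ g : SL(2, ℤ), g ∈ CongruenceSubgroup.Gamma0 N → ∀ y : F, g • R.φ y = R.φ y)
    (hR : ∀ (g : SL(2, ℤ)) (y : F), g • R.φ y ∈ CuspPlace.cuspField N) (c : ℂ)
    {ω : Ω[F⁄K]} (hω : ∀ v : Place K F, 0 ≤ v.ordDifferential ω) :
    algebraMap Hol Mer ⟨⇑(Psi hF R N hinvR hR c hω), (Psi hF R N hinvR hR c hω).holo'⟩
      = algebraMap ℂ Mer c * R.Phi ω := by
  have : (⟨⇑(Psi hF R N hinvR hR c hω), (Psi hF R N hinvR hR c hω).holo'⟩ : Hol)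
      = c • holRep hF R hω := Subtype.ext (coe_Psi hF R N hinvR hR c hω)
  rw [this]
  exact algebraMap_smul_eq R ω c _ (holRep_spec hF R hω)

/-- Pointwise form: if `c • Phi ω = a / b` in `Mer` with `a b : Hol`, then
`Psi ω τ * b τ = a τ` for all `τ` (the input shape of `QBridge80.qExpansion_cuspForm_coeff_of_mul`). -/
theorem Psi_apply_mul (hF : IsFunctionFieldOver K x) (R : Realization K F) (N : ℕ) [NeZero N]
    (hinvR : ∀ g : SL(2, ℤ), g ∈ CongruenceSubgroup.Gamma0 N → ∀ y : F, g • R.φ y = R.φ y)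
    (hR : ∀ (g : SL(2, ℤ)) (y : F), g • R.φ y ∈ CuspPlace.cuspField N) (c : ℂ)
    {ω : Ω[F⁄K]} (hω : ∀ v : Place K F, 0 ≤ v.ordDifferential ω) (a b : Hol)
    (hab : algebraMap ℂ Mer c * R.Phi ω * algebraMap Hol Mer b = algebraMap Hol Mer a) (τ : ℍ) :
    Psi hF R N hinvR hR c hω τ * (b : ℍ → ℂ) τ = (a : ℍ → ℂ) τ := by
  rw [← algebraMap_Psi hF R N hinvR hR c hω, ← map_mul] at hab
  have h2 := IsFractionRing.injective Hol Mer hab
  exact congrArg (fun G : Hol => (G : ℍ → ℂ) τ) h2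

end Final

end Fermat.Agent.S20.HolToCusp
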