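import Mathlib

/-!
# S20, package DW-d (DISC): index of lattices = degree of the determinant

(helper31)  Pure algebra, Mathlib only.

* `finrank_quotient_eq_natDegree_det` : for a free finite `k[X]`-module `M`, a submodule `N` with a
  basis `bN` indexed like a basis `b` of `M`: `finrank_k (M ⧸ N) = natDegree (b.det bN)`.
-/

set_option autoImplicit false
set_option linter.unusedSectionVars false

namespace Fermat.Agent.S20.IndexDet

open Module Polynomial Submodule

variable {k : Type*} [Field k]

section PolyLattice

variable {ι : Type*} [Fintype ι] [DecidableEq ι]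
variable {M : Type*} [AddCommGroup M] [Module k[X] M] [Module k M] [IsScalarTower k k[X] M]

/-- **(ID1), module form.** If `N ≤ M` are free `k[X]`-modules of the same finite rank, then
`dim_k (M ⧸ N)` is the degree of the determinant of a basis of `N` in terms of a basis of `M`. -/
theorem finrank_quotient_eq_natDegree_det (b : Basis ι k[X] M) (N : Submodule k[X] M)
    (bN : Basis ι k[X] N) :
    finrank k (M ⧸ N) = (b.det ((↑) ∘ bN)).natDegree := by
  have : Module.Free k[X] M := Module.Free.of_basis b
  have : Module.Finite k[X] M := Module.Finite.of_basis b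
  have h : finrank k[X] N = finrank k[X] M := by
    rw [finrank_eq_card_basis b, finrank_eq_card_basis bN]
  set a := smithNormalFormCoeffs b h with ha_def
  set b' := smithNormalFormTopBasis b h with hb'_def
  set ab := smithNormalFormBotBasis b h with hab_def
  have ab_eq : ∀ i, (ab i : M) = a i • b' i := smithNormalFormBotBasis_def b h
  have ha0 : ∀ i, a i ≠ 0 := smithNormalFormCoeffs_ne_zero b h
  -- the dimension count
  have hfin : ∀ i, Module.Finite k (k[X] ⧸ Ideal.span ({a i} : Set k[X])) := fun i =>
    (AdjoinRoot.powerBasis (ha0 i)).finite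
  have hsum : finrank k (M ⧸ N) = ∑ i, (a i).natDegree := by
    rw [Submodule.finrank_quotient_eq_sum (F := k) b h]
    refine Finset.sum_congr rfl fun i _ => ?_
    exact finrank_quotient_span_eq_natDegree
  -- the determinant
  let e : M ≃ₗ[k[X]] N := b.equiv bN (Equiv.refl _)
  let e' : M ≃ₗ[k[X]] N := b'.equiv ab (Equiv.refl _)
  let f : M →ₗ[k[X]] M := N.subtype ∘ₗ (e' : M →ₗ[k[X]] N)
  have hf : ∀ i, f (b' i) = a i • b' i := by
    intro i
    show (N.subtype (b'.equiv ab (Equiv.refl _) (b' i))) = _
    rw [b'.equiv_apply, Equiv.refl_apply]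
    exact ab_eq i
  have hdetf : LinearMap.det f = ∏ i, a i := by
    rw [← LinearMap.det_toMatrix b', ← Matrix.det_diagonal]
    congr 1
    ext i j
    rw [LinearMap.toMatrix_apply, hf, map_smul, Basis.repr_self, Finsupp.smul_single,
      smul_eq_mul, mul_one]
    by_cases hij : i = j
    · rw [hij, Matrix.diagonal_apply_eq, Finsupp.single_eq_same]
    · rw [Matrix.diagonal_apply_ne _ hij, Finsupp.single_eq_of_ne hij]
  have hassoc : Associated (b.det ((↑) ∘ bN)) (∏ i, a i) := by
    have h1 : b.det (N.subtype ∘ bN) = LinearMap.det (N.subtype ∘ₗ (e : M →ₗ[k[X]] N)) := by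
      rw [Basis.det_comp_basis]
    have h2 := LinearMap.associated_det_comp_equiv N.subtype e e'
    rw [← hdetf]
    have : (b.det ((↑) ∘ bN)) = b.det (N.subtype ∘ bN) := rfl
    rw [this, h1]
    exact h2
  rw [hsum, natDegree_eq_of_degree_eq (degree_eq_degree_of_associated hassoc),
    natDegree_prod _ _ (fun i _ => ha0 i)]

end PolyLattice

end Fermat.Agent.S20.IndexDet
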