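import Mathlib
import Fermat.Agent.S20.NormalBasis
import Fermat.Agent.S20.LatticeDims

/-!
# S20 / DW-d : lattice index lemmas (Smith normal form) and the discriminant-degree identity

* (IDX) For a PID `R` containing a field `k`, and an endomorphism `f` with `det f ≠ 0` of a finite
  free `R`-module `M`, the `k`-dimension of `M ⧸ range f` is `s (det f)` where `s a = dim_k R/(a)`
  (`finrank_quotient_range`, `finrank_quotient_of_basis`, `finrank_span_quotient_span`).
  Concrete size functions: `natDegree` on `k[X]` and `sizeInf = - intDegree` on `O_∞`.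
* (DISC) `u` a `k(X)`-basis of `F` (finite separable over `k(X)`), `d : ι → ℤ`,
  `B = span_{k[X]} u`, `B_∞ = span_{O_∞} (X ^ (- d i) • u i)`, both contained in their trace duals
  `C_B`, `C_{B_∞}`.  Then `dim_k (C_B / B) + dim_k (C_{B_∞} / B_∞) = 2 Σ d i`
  (`finrank_dual_quotient_add`).
-/

set_option autoImplicit false

open Module Submodule Polynomial
open scoped Classical
open Fermat.Agent.S20.NormalBasis

namespace Fermat.Agent.S20.LatticeIndex

/-- `s : R → ℕ` is a *size function* on the `k`-algebra `R`: `s a = dim_k R/(a)` for `a ≠ 0`,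
additive on products and zero on units. -/
structure IsSizeFunction (k R : Type*) [Field k] [CommRing R] [Algebra k R] (s : R → ℕ) : Prop where
  mul : ∀ a c : R, a ≠ 0 → c ≠ 0 → s (a * c) = s a + s c
  unit : ∀ u : Rˣ, s u = 0
  fin : ∀ a : R, a ≠ 0 → Module.Finite k (R ⧸ Ideal.span ({a} : Set R))
  finrank : ∀ a : R, a ≠ 0 → Module.finrank k (R ⧸ Ideal.span ({a} : Set R)) = s a

section Generic

variable {R M ι : Type*} [CommRing R] [IsDomain R] [IsPrincipalIdealRing R]
  [AddCommGroup M] [Module R M] [Fintype ι]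

theorem injective_of_det_ne_zero (b : Basis ι R M) (f : M →ₗ[R] M)
    (hdet : LinearMap.det f ≠ 0) : Function.Injective f := by
  have : Module.Free R M := Module.Free.of_basis b
  have : Module.Finite R M := Module.Finite.of_basis b
  rw [← LinearMap.ker_eq_bot]
  by_contra h
  exact hdet (LinearMap.det_eq_zero_iff_ker_ne_bot.mpr h)

theorem finrank_range_eq (b : Basis ι R M) (f : M →ₗ[R] M)
    (hdet : LinearMap.det f ≠ 0) :
    Module.finrank R (LinearMap.range f) = Module.finrank R M :=
  LinearMap.finrank_range_of_inj (injective_of_det_ne_zero b f hdet)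

/-- The determinant of an injective endomorphism is associated to the product of the Smith
coefficients of its range. -/
theorem associated_det_prod_smith (b : Basis ι R M) (f : M →ₗ[R] M)
    (hdet : LinearMap.det f ≠ 0) :
    Associated (LinearMap.det f)
      (∏ i, smithNormalFormCoeffs b (finrank_range_eq b f hdet) i) := by
  classical
  set h := finrank_range_eq b f hdet
  have hf := injective_of_det_ne_zero b f hdet
  let b' := smithNormalFormTopBasis b h
  let bN := smithNormalFormBotBasis b h
  let a := smithNormalFormCoeffs b h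
  have hbN : ∀ i, (bN i : M) = a i • b' i := smithNormalFormBotBasis_def b h
  -- the diagonal map
  let g : M →ₗ[R] M := b'.constr R fun i => a i • b' i
  have hg_apply : ∀ i, g (b' i) = a i • b' i := fun i => by simp [g]
  have hdetg : LinearMap.det g = ∏ i, a i := by
    rw [← LinearMap.det_toMatrix b']
    have : LinearMap.toMatrix b' b' g = Matrix.diagonal a := by
      ext i j
      rw [LinearMap.toMatrix_apply, hg_apply, map_smul, Basis.repr_self, Matrix.diagonal_apply]
      by_cases hij : i = j
      · subst hij; simp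
      · simp [hij, Finsupp.single_apply, Ne.symm hij]
    rw [this, Matrix.det_diagonal]
  have hgne : LinearMap.det g ≠ 0 := by
    rw [hdetg]
    exact Finset.prod_ne_zero_iff.mpr fun i _ => smithNormalFormCoeffs_ne_zero b h i
  have hginj := injective_of_det_ne_zero b g hgne
  have hrange : LinearMap.range g = LinearMap.range f := by
    apply le_antisymm
    · rw [LinearMap.range_eq_map, ← b'.span_eq, Submodule.map_span, Submodule.span_le]
      rintro _ ⟨_, ⟨i, rfl⟩, rfl⟩
      rw [hg_apply, ← hbN]
      exact (bN i).2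
    · intro x hx
      have hx' : (⟨x, hx⟩ : LinearMap.range f) ∈ Submodule.span R (Set.range bN) := by
        rw [bN.span_eq]; trivial
      have : x ∈ Submodule.map (LinearMap.range f).subtype (Submodule.span R (Set.range bN)) :=
        ⟨⟨x, hx⟩, hx', rfl⟩
      rw [Submodule.map_span] at this
      refine Submodule.span_le.mpr ?_ this
      rintro _ ⟨_, ⟨i, rfl⟩, rfl⟩
      rw [Submodule.subtype_apply, hbN, ← hg_apply]
      exact LinearMap.mem_range_self g _
  let e : M ≃ₗ[R] M :=
    (LinearEquiv.ofInjective f hf).trans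
      ((LinearEquiv.ofEq _ _ hrange.symm).trans (LinearEquiv.ofInjective g hginj).symm)
  have he : ∀ x, f x = g (e x) := by
    intro x
    have : (LinearEquiv.ofInjective g hginj) (e x) =
        (LinearEquiv.ofEq _ _ hrange.symm) (LinearEquiv.ofInjective f hf x) := by
      simp [e]
    have := congrArg Subtype.val this
    simpa using this.symm
  rw [← hdetg]
  exact LinearMap.associated_det_of_eq_comp e f g he

/-- **Lattice index lemma** (generic PID form).  If `s a = dim_k R/(a)` is a "size function"
on the PID `R ⊇ k`, then `dim_k (M ⧸ range f) = s (det f)` for every endomorphism `f` of the finite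
free `R`-module `M` with non-zero determinant. -/
theorem finrank_quotient_range {k : Type*} [Field k] [Algebra k R] [Module k M]
    [IsScalarTower k R M] (b : Basis ι R M) {s : R → ℕ} (hS : IsSizeFunction k R s)
    (f : M →ₗ[R] M) (hdet : LinearMap.det f ≠ 0) :
    Module.Finite k (M ⧸ LinearMap.range f) ∧
      Module.finrank k (M ⧸ LinearMap.range f) = s (LinearMap.det f) := by
  classical
  obtain ⟨hs_mul, hs_unit, hs_fin, hs⟩ := hS
  set h := finrank_range_eq b f hdet
  have hne : ∀ i, smithNormalFormCoeffs b h i ≠ 0 := smithNormalFormCoeffs_ne_zero b h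
  haveI : ∀ i, Module.Finite k (R ⧸ Ideal.span ({smithNormalFormCoeffs b h i} : Set R)) :=
    fun i => hs_fin _ (hne i)
  have hs_one : s 1 = 0 := by simpa using hs_unit 1
  have hprod : ∀ t : Finset ι, s (∏ i ∈ t, smithNormalFormCoeffs b h i) =
      ∑ i ∈ t, s (smithNormalFormCoeffs b h i) := by
    intro t
    induction t using Finset.induction_on with
    | empty => simpa using hs_one
    | insert i t hi ih =>
      rw [Finset.prod_insert hi, Finset.sum_insert hi,
        hs_mul _ _ (hne i) (Finset.prod_ne_zero_iff.mpr fun j _ => hne j), ih]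
  refine ⟨?_, ?_⟩
  · exact Module.Finite.equiv (Submodule.quotientEquivDirectSum k b h).symm
  · rw [Submodule.finrank_quotient_eq_sum k b h]
    obtain ⟨u, hu⟩ := associated_det_prod_smith b f hdet
    have h1 : s (LinearMap.det f) = s (∏ i, smithNormalFormCoeffs b h i) := by
      rw [← hu, hs_mul _ _ hdet u.ne_zero, hs_unit, add_zero]
    rw [h1, hprod]
    exact Finset.sum_congr rfl fun i _ => hs _ (hne i)

end Generic

section BasisForm

variable {R M ι : Type*} [CommRing R] [IsDomain R] [IsPrincipalIdealRing R]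
  [AddCommGroup M] [Module R M] [Fintype ι] [DecidableEq ι]

/-- **Lattice index lemma**, basis form: if `b` is a basis of `M` and `bN` a basis of the
submodule `N` (same index type), then `dim_k (M ⧸ N) = s (det of bN in the basis b)`. -/
theorem finrank_quotient_of_basis {k : Type*} [Field k] [Algebra k R] [Module k M]
    [IsScalarTower k R M] (b : Basis ι R M) {s : R → ℕ} (hS : IsSizeFunction k R s)
    (N : Submodule R M) (bN : Basis ι R N) :
    b.det ((↑) ∘ bN) ≠ 0 ∧ Module.Finite k (M ⧸ N) ∧
      Module.finrank k (M ⧸ N) = s (b.det ((↑) ∘ bN)) := by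
  have : Module.Free R M := Module.Free.of_basis b
  have : Module.Finite R M := Module.Finite.of_basis b
  let f : M →ₗ[R] M := N.subtype ∘ₗ (b.equiv bN (Equiv.refl ι)).toLinearMap
  have hfb : f ∘ b = (↑) ∘ bN := by
    funext i
    simp [f]
  have hdetf : LinearMap.det f = b.det ((↑) ∘ bN) := by
    have := b.det_comp f b
    rw [Basis.det_self, mul_one] at this
    rw [← this, hfb]
  have hinj : Function.Injective f :=
    (Submodule.injective_subtype N).comp (b.equiv bN (Equiv.refl ι)).injective
  have hdet : LinearMap.det f ≠ 0 := by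
    intro h0
    have := LinearMap.det_eq_zero_iff_ker_ne_bot.mp h0
    exact this (LinearMap.ker_eq_bot.mpr hinj)
  have hrange : LinearMap.range f = N := by
    rw [LinearMap.range_comp, LinearEquiv.range, Submodule.map_top, Submodule.range_subtype]
  have := finrank_quotient_range (k := k) b hS f hdet
  rw [hrange, hdetf] at this
  exact ⟨hdetf ▸ hdet, this⟩

end BasisForm

section DVR
variable {k R : Type*} [Field k] [CommRing R] [IsDomain R] [Algebra k R]

/-- truncated expansions exist -/
theorem exists_trunc (π : R)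
    (hres : ∀ f : R, ∃ c : k, ∃ g : R, f = algebraMap k R c + π * g) :
    ∀ (m : ℕ) (f : R), ∃ c : Fin m → k, ∃ h : R,
      f = (∑ i, algebraMap k R (c i) * π ^ (i : ℕ)) + π ^ m * h := by
  intro m
  induction m with
  | zero => intro f; exact ⟨Fin.elim0, f, by simp⟩
  | succ m ih =>
    intro f
    obtain ⟨c0, g, rfl⟩ := hres f
    obtain ⟨c, h, rfl⟩ := ih g
    refine ⟨Fin.cons c0 c, h, ?_⟩
    rw [Fin.sum_univ_succ]
    simp only [Fin.cons_zero, Fin.val_zero, pow_zero, mul_one, Fin.cons_succ, Fin.val_succ]
    rw [mul_add, Finset.mul_sum]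
    have : ∀ i : Fin m, π * (algebraMap k R (c i) * π ^ (i : ℕ)) =
        algebraMap k R (c i) * π ^ ((i : ℕ) + 1) := fun i => by ring
    simp_rw [this]
    ring

theorem trunc_unique (π : R) (hπ : π ≠ 0)
    (hinj : ∀ c : k, π ∣ algebraMap k R c → c = 0) :
    ∀ (m : ℕ) (c : Fin m → k), π ^ m ∣ (∑ i, algebraMap k R (c i) * π ^ (i : ℕ)) → c = 0 := by
  intro m
  induction m with
  | zero => intro c _; exact Subsingleton.elim _ _
  | succ m ih =>
    intro c hc
    rw [Fin.sum_univ_succ] at hc
    simp only [Fin.val_zero, pow_zero, mul_one, Fin.val_succ] at hc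
    obtain ⟨h, hh⟩ := hc
    have h0 : c 0 = 0 := by
      apply hinj
      refine ⟨π ^ m * h - ∑ i : Fin m, algebraMap k R (c i.succ) * π ^ (i : ℕ), ?_⟩
      have : ∑ i : Fin m, algebraMap k R (c i.succ) * π ^ ((i : ℕ) + 1) =
          π * ∑ i : Fin m, algebraMap k R (c i.succ) * π ^ (i : ℕ) := by
        rw [Finset.mul_sum]; exact Finset.sum_congr rfl fun i _ => by ring
      rw [this] at hh
      rw [mul_sub, ← mul_assoc, ← pow_succ', ← hh]; ring
    have hrest : π ^ m ∣ ∑ i : Fin m, algebraMap k R (c i.succ) * π ^ (i : ℕ) := by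
      refine ⟨h, ?_⟩
      have : ∑ i : Fin m, algebraMap k R (c i.succ) * π ^ ((i : ℕ) + 1) =
          π * ∑ i : Fin m, algebraMap k R (c i.succ) * π ^ (i : ℕ) := by
        rw [Finset.mul_sum]; exact Finset.sum_congr rfl fun i _ => by ring
      rw [this, h0, map_zero, zero_add, pow_succ', mul_assoc] at hh
      exact mul_left_cancel₀ hπ hh
    have := ih (fun i => c i.succ) hrest
    funext i
    refine Fin.cases h0 (fun j => ?_) i
    exact congrFun this j

/-- `dim_k R/(π^m) = m` when the residue field of `π` is `k`. -/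
theorem finrank_quotient_span_pow (π : R) (hπ : π ≠ 0)
    (hres : ∀ f : R, ∃ c : k, ∃ g : R, f = algebraMap k R c + π * g)
    (hinj : ∀ c : k, π ∣ algebraMap k R c → c = 0) (m : ℕ) :
    Module.Finite k (R ⧸ Ideal.span ({π ^ m} : Set R)) ∧
      Module.finrank k (R ⧸ Ideal.span ({π ^ m} : Set R)) = m := by
  let I : Ideal R := Ideal.span ({π ^ m} : Set R)
  let ψ : (Fin m → k) →ₗ[k] (R ⧸ I) :=
    (Ideal.Quotient.mkₐ k I).toLinearMap ∘ₗ
      Fintype.linearCombination k (fun i : Fin m => π ^ (i : ℕ))
  have hψ : ∀ c, ψ c = Ideal.Quotient.mk I (∑ i, algebraMap k R (c i) * π ^ (i : ℕ)) := by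
    intro c
    simp only [ψ, LinearMap.comp_apply, Fintype.linearCombination_apply, AlgHom.toLinearMap_apply,
      Ideal.Quotient.mkₐ_eq_mk, Algebra.smul_def]
  have hinjψ : Function.Injective ψ := by
    rw [← LinearMap.ker_eq_bot, LinearMap.ker_eq_bot']
    intro c hc
    rw [hψ, Ideal.Quotient.eq_zero_iff_mem, Ideal.mem_span_singleton] at hc
    exact trunc_unique π hπ hinj m c hc
  have hsurjψ : Function.Surjective ψ := by
    intro y
    obtain ⟨f, rfl⟩ := Ideal.Quotient.mk_surjective y
    obtain ⟨c, h, rfl⟩ := exists_trunc π hres m f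
    refine ⟨c, ?_⟩
    rw [hψ, eq_comm, ← sub_eq_zero, ← map_sub, Ideal.Quotient.eq_zero_iff_mem,
      Ideal.mem_span_singleton]
    exact ⟨h, by ring⟩
  let e : (Fin m → k) ≃ₗ[k] (R ⧸ I) := LinearEquiv.ofBijective ψ ⟨hinjψ, hsurjψ⟩
  refine ⟨Module.Finite.equiv e, ?_⟩
  rw [← LinearEquiv.finrank_eq e, Module.finrank_fin_fun]
end DVR

noncomputable section AtInfinity

variable {k : Type*} [Field k]

/-- A `k`-algebra structure on `O_∞` is *compatible* if constants go to constants.  All results
below hold for any compatible instance; `algebraOinf` is one. -/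
def OinfCompat (k : Type*) [Field k] [Algebra k (Oinf k)] : Prop :=
  ∀ c : k, ((algebraMap k (Oinf k) c : Oinf k) : RatFunc k) = RatFunc.C c

/-- `k`-algebra structure on `O_∞` via constants (not an instance; use
`attribute [local instance] algebraOinf` or `letI`). -/
@[reducible] def algebraOinf (k : Type*) [Field k] : Algebra k (Oinf k) := (CInf (K := k)).toAlgebra

theorem algebraOinf_compat : @OinfCompat k _ (algebraOinf k) := fun _ => rfl

/-- the uniformizer `1/X` at infinity -/
def piInf (k : Type*) [Field k] : Oinf k :=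
  ⟨(RatFunc.X : RatFunc k)⁻¹, by
    rw [mem_Oinf_iff]; right
    rw [RatFunc.intDegree_inv, RatFunc.intDegree_X]; norm_num⟩

@[simp] theorem coe_piInf : ((piInf k : Oinf k) : RatFunc k) = (RatFunc.X : RatFunc k)⁻¹ := rfl

theorem piInf_ne_zero : piInf k ≠ 0 := by
  intro h
  have := congrArg (Subtype.val) h
  simp at this
  exact RatFunc.X_ne_zero this

/-- The size function at infinity. -/
def sizeInf (a : Oinf k) : ℕ := (-(a : RatFunc k).intDegree).toNat

theorem intDegree_nonpos {a : Oinf k} (ha : a ≠ 0) : (a : RatFunc k).intDegree ≤ 0 :=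
  (mem_Oinf_iff.mp a.2).resolve_left (by simpa using ha)

theorem sizeInf_eq_neg_intDegree {a : Oinf k} (ha : a ≠ 0) :
    (sizeInf a : ℤ) = -(a : RatFunc k).intDegree := by
  have := intDegree_nonpos ha
  unfold sizeInf
  omega

theorem sizeInf_mul {a c : Oinf k} (ha : a ≠ 0) (hc : c ≠ 0) :
    sizeInf (a * c) = sizeInf a + sizeInf c := by
  have ha' : (a : RatFunc k) ≠ 0 := by simpa using ha
  have hc' : (c : RatFunc k) ≠ 0 := by simpa using hc
  unfold sizeInf
  rw [Subring.coe_mul, RatFunc.intDegree_mul ha' hc']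
  have h1 := intDegree_nonpos ha
  have h2 := intDegree_nonpos hc
  omega

theorem sizeInf_unit (u : (Oinf k)ˣ) : sizeInf (u : Oinf k) = 0 := by
  have h1 := intDegree_nonpos u.ne_zero
  have h2 := intDegree_nonpos (u⁻¹).ne_zero
  have hu : ((u : Oinf k) : RatFunc k) * (((u⁻¹ : (Oinf k)ˣ) : Oinf k) : RatFunc k) = 1 := by
    rw [← Subring.coe_mul, Units.mul_inv]; rfl
  have hu0 : ((u : Oinf k) : RatFunc k) ≠ 0 := by simpa using u.ne_zero
  have hu0' : (((u⁻¹ : (Oinf k)ˣ) : Oinf k) : RatFunc k) ≠ 0 := by simpa using (u⁻¹).ne_zero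
  have := congrArg RatFunc.intDegree hu
  rw [RatFunc.intDegree_mul hu0 hu0', RatFunc.intDegree_one] at this
  unfold sizeInf
  omega

theorem span_eq_span_piInf_pow {a : Oinf k} (ha : a ≠ 0) :
    Ideal.span ({a} : Set (Oinf k)) = Ideal.span ({piInf k ^ sizeInf a} : Set (Oinf k)) := by
  have ha' : (a : RatFunc k) ≠ 0 := by simpa using ha
  have hdeg := intDegree_nonpos ha
  set m := sizeInf a with hm
  have hm' : (m : ℤ) = -(a : RatFunc k).intDegree := by
    rw [hm]; unfold sizeInf; omega
  have hX : (RatFunc.X : RatFunc k) ≠ 0 := RatFunc.X_ne_zero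
  -- u = a * X^m, u' = a⁻¹ * X^(-m)
  have hu : (a : RatFunc k) * RatFunc.X ^ m ∈ Oinf k := by
    rw [mem_Oinf_iff]; right
    rw [RatFunc.intDegree_mul ha' (pow_ne_zero _ hX), ← zpow_natCast, intDegree_X_zpow]; omega
  have hu' : (a : RatFunc k)⁻¹ * (RatFunc.X ^ m)⁻¹ ∈ Oinf k := by
    rw [mem_Oinf_iff]; right
    rw [RatFunc.intDegree_mul (inv_ne_zero ha') (inv_ne_zero (pow_ne_zero _ hX)),
      RatFunc.intDegree_inv, RatFunc.intDegree_inv, ← zpow_natCast, intDegree_X_zpow]; omega
  apply le_antisymm
  · rw [Ideal.span_singleton_le_span_singleton]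
    refine ⟨⟨_, hu⟩, ?_⟩
    apply Subtype.ext
    show (a : RatFunc k) = ((RatFunc.X : RatFunc k)⁻¹) ^ m * ((a : RatFunc k) * RatFunc.X ^ m)
    rw [inv_pow, mul_comm (a : RatFunc k), ← mul_assoc, inv_mul_cancel₀ (pow_ne_zero _ hX), one_mul]
  · rw [Ideal.span_singleton_le_span_singleton]
    refine ⟨⟨_, hu'⟩, ?_⟩
    apply Subtype.ext
    show ((RatFunc.X : RatFunc k)⁻¹) ^ m = (a : RatFunc k) * ((a : RatFunc k)⁻¹ * (RatFunc.X ^ m)⁻¹)
    rw [← mul_assoc, mul_inv_cancel₀ ha', one_mul, inv_pow]

variable [Algebra k (Oinf k)]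

theorem piInf_res (hC : OinfCompat k) (f : Oinf k) :
    ∃ c : k, ∃ g : Oinf k, f = algebraMap k (Oinf k) c + piInf k * g := by
  obtain ⟨c, hc⟩ := exists_C_sub_isNeg f.2
  have hmem : ((f : RatFunc k) - RatFunc.C c) * RatFunc.X ∈ Oinf k := by
    rw [mem_Oinf_iff]
    rcases hc with h | h
    · left; rw [h, zero_mul]
    · by_cases h0 : (f : RatFunc k) - RatFunc.C c = 0
      · left; rw [h0, zero_mul]
      · right
        rw [RatFunc.intDegree_mul h0 RatFunc.X_ne_zero, RatFunc.intDegree_X]; omega
  refine ⟨c, ⟨_, hmem⟩, ?_⟩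
  apply Subtype.ext
  rw [Subring.coe_add, Subring.coe_mul, hC c]
  show (f : RatFunc k) = RatFunc.C c + (RatFunc.X)⁻¹ * (((f : RatFunc k) - RatFunc.C c) * RatFunc.X)
  have hX : (RatFunc.X : RatFunc k) ≠ 0 := RatFunc.X_ne_zero
  field_simp
  ring

theorem piInf_inj (hC : OinfCompat k) (c : k) (h : piInf k ∣ algebraMap k (Oinf k) c) : c = 0 := by
  by_contra hc
  obtain ⟨g, hg⟩ := h
  have hg' : (RatFunc.C c : RatFunc k) = (RatFunc.X)⁻¹ * (g : RatFunc k) := by
    have := congrArg (Subtype.val) hg
    rwa [hC c] at this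
  have hg0 : (g : RatFunc k) ≠ 0 := by
    intro h0
    rw [h0, mul_zero] at hg'
    exact hc (by simpa using hg')
  have hdeg := congrArg RatFunc.intDegree hg'
  rw [RatFunc.intDegree_C, RatFunc.intDegree_mul (inv_ne_zero RatFunc.X_ne_zero) hg0,
    RatFunc.intDegree_inv, RatFunc.intDegree_X] at hdeg
  have := (mem_Oinf_iff.mp g.2).resolve_left hg0
  omega

/-- `sizeInf = - intDegree` is a size function on `O_∞`. -/
theorem isSizeFunction_Oinf (hC : OinfCompat k) : IsSizeFunction k (Oinf k) sizeInf := by
  have key : ∀ a : Oinf k, a ≠ 0 →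
      Module.Finite k (Oinf k ⧸ Ideal.span ({a} : Set (Oinf k))) ∧
      Module.finrank k (Oinf k ⧸ Ideal.span ({a} : Set (Oinf k))) = sizeInf a := by
    intro a ha
    rw [span_eq_span_piInf_pow ha]
    exact finrank_quotient_span_pow (k := k) (piInf k) piInf_ne_zero (piInf_res hC) (piInf_inj hC) _
  exact ⟨fun a c ha hc => sizeInf_mul ha hc, sizeInf_unit, fun a ha => (key a ha).1,
    fun a ha => (key a ha).2⟩

end AtInfinity

/-- `natDegree` is a size function on `k[X]`. -/
theorem isSizeFunction_polynomial {k : Type*} [Field k] :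
    IsSizeFunction k k[X] Polynomial.natDegree :=
  ⟨fun _ _ ha hc => Polynomial.natDegree_mul ha hc, fun u => Polynomial.natDegree_coe_units u,
    fun _ ha => PowerBasis.finite (AdjoinRoot.powerBasis ha),
    fun _ _ => finrank_quotient_span_eq_natDegree⟩

section MatrixForms

variable {k : Type*} [Field k] {n : ℕ}

/-- **(IDX-A)** Lattice index over `k[X]`: `dim_k k[X]^n / T k[X]^n = deg det T`. -/
theorem finrank_quotient_range_polynomial (T : Matrix (Fin n) (Fin n) k[X]) (hT : T.det ≠ 0) :
    Module.Finite k ((Fin n → k[X]) ⧸ LinearMap.range (Matrix.toLin' T)) ∧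
      Module.finrank k ((Fin n → k[X]) ⧸ LinearMap.range (Matrix.toLin' T)) = T.det.natDegree := by
  have hdet : LinearMap.det (Matrix.toLin' T) ≠ 0 := by rwa [LinearMap.det_toLin']
  have := finrank_quotient_range (k := k) (Pi.basisFun k[X] (Fin n)) isSizeFunction_polynomial
    (Matrix.toLin' T) hdet
  rwa [LinearMap.det_toLin'] at this

/-- **(IDX-∞)** Lattice index over `O_∞`: `dim_k O_∞^n / T O_∞^n = - deg det T`. -/
theorem finrank_quotient_range_Oinf [Algebra k (Oinf k)] (hC : OinfCompat k)
    (T : Matrix (Fin n) (Fin n) (Oinf k)) (hT : T.det ≠ 0) :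
    Module.Finite k ((Fin n → Oinf k) ⧸ LinearMap.range (Matrix.toLin' T)) ∧
      Module.finrank k ((Fin n → Oinf k) ⧸ LinearMap.range (Matrix.toLin' T)) =
        sizeInf T.det := by
  have hdet : LinearMap.det (Matrix.toLin' T) ≠ 0 := by rwa [LinearMap.det_toLin']
  have := finrank_quotient_range (k := k) (Pi.basisFun (Oinf k) (Fin n)) (isSizeFunction_Oinf hC)
    (Matrix.toLin' T) hdet
  rwa [LinearMap.det_toLin'] at this

end MatrixForms

/-! ### Lattices in a vector space over the fraction field -/

section LatticeForm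

variable {R K₀ V ι : Type*} [CommRing R] [IsDomain R] [IsPrincipalIdealRing R]
  [Field K₀] [Algebra R K₀] [Module.IsTorsionFree R K₀]
  [AddCommGroup V] [Module K₀ V] [Module R V] [IsScalarTower R K₀ V]
  [Fintype ι] [DecidableEq ι]
  {k : Type*} [Field k] [Algebra k R] [Module k V] [IsScalarTower k R V]

/-- **Lattice index lemma**, lattice form: `u'` a `K₀`-basis of `V`, `T` a matrix over `R` with
non-zero determinant, `u j = ∑ i, T i j • u' i`.  Then `span_R u ≤ span_R u'` and
`dim_k (span_R u' / span_R u) = s (det T)`. -/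
theorem finrank_span_quotient_span {s : R → ℕ} (hS : IsSizeFunction k R s)
    (u' : Basis ι K₀ V) (T : Matrix ι ι R) (hT : T.det ≠ 0) (u : ι → V)
    (hu : ∀ j, u j = ∑ i, T i j • u' i) :
    span R (Set.range u) ≤ span R (Set.range u') ∧
    Module.Finite k (↥(span R (Set.range u')) ⧸
      (span R (Set.range u)).submoduleOf (span R (Set.range u'))) ∧
    Module.finrank k (↥(span R (Set.range u')) ⧸
      (span R (Set.range u)).submoduleOf (span R (Set.range u'))) = s T.det := by
  set M := span R (Set.range u') with hM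
  let b : Basis ι R M := u'.restrictScalars R
  let f : M →ₗ[R] M := Matrix.toLin b b T
  have hfb : ∀ j, ((f (b j) : M) : V) = u j := by
    intro j
    rw [Matrix.toLin_self, hu j, Submodule.coe_sum]
    refine Finset.sum_congr rfl fun i _ => ?_
    rw [Submodule.coe_smul, Basis.restrictScalars_apply]
  have hdet : LinearMap.det f = T.det := LinearMap.det_toLin b T
  have hmap : Submodule.map M.subtype (LinearMap.range f) = span R (Set.range u) := by
    rw [LinearMap.range_eq_map, ← b.span_eq, Submodule.map_span, Submodule.map_span]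
    congr 1
    ext v
    constructor
    · rintro ⟨_, ⟨_, ⟨j, rfl⟩, rfl⟩, rfl⟩
      exact ⟨j, (hfb j).symm⟩
    · rintro ⟨j, rfl⟩
      exact ⟨_, ⟨_, ⟨j, rfl⟩, rfl⟩, hfb j⟩
  have hle : span R (Set.range u) ≤ M := by
    rw [← hmap]
    exact Submodule.map_subtype_le M _
  have hrange : LinearMap.range f = (span R (Set.range u)).submoduleOf M := by
    rw [Submodule.submoduleOf, ← hmap,
      Submodule.comap_map_eq_of_injective (Submodule.injective_subtype M)]
  have hdet' : LinearMap.det f ≠ 0 := by rwa [hdet]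
  have := finrank_quotient_range (k := k) b hS f hdet'
  rw [hrange, hdet] at this
  exact ⟨hle, this⟩

end LatticeForm

/-! ### Index of a lattice in its trace dual -/

section TraceDualIndex

open Algebra

variable {R K₀ L ι : Type*} [CommRing R] [Field K₀] [Algebra R K₀]
  [Field L] [Algebra K₀ L] [Module R L] [IsScalarTower R K₀ L]

/-- Expansion in the trace-dual basis: `x = ∑ i, Tr (x * b i) • b* i`. -/
theorem eq_sum_trace_smul_traceDual [FiniteDimensional K₀ L] [Algebra.IsSeparable K₀ L]
    [Fintype ι] [DecidableEq ι] (b : Basis ι K₀ L) (x : L) :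
    x = ∑ i, Algebra.trace K₀ L (x * b i) • b.traceDual i := by
  conv_lhs => rw [← b.traceDual.sum_repr x]
  refine Finset.sum_congr rfl fun i _ => ?_
  rw [Basis.traceDual_repr_apply, traceForm_apply]

/-- If the `R`-lattice spanned by `u` is contained in its trace dual, the Gram matrix of `u` has
entries in `R`. -/
theorem exists_gram_of_le_dual (u : Basis ι K₀ L)
    (h : span R (Set.range u) ≤ (traceForm K₀ L).dualSubmodule (span R (Set.range u))) :
    ∃ T : Matrix ι ι R, ∀ i j, algebraMap R K₀ (T i j) = Algebra.trace K₀ L (u i * u j) := by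
  have key : ∀ i j, ∃ r : R, algebraMap R K₀ r = Algebra.trace K₀ L (u i * u j) := by
    intro i j
    have hi : u i ∈ (traceForm K₀ L).dualSubmodule (span R (Set.range u)) :=
      h (subset_span (Set.mem_range_self i))
    have := hi (u j) (subset_span (Set.mem_range_self j))
    rw [Submodule.mem_one] at this
    obtain ⟨r, hr⟩ := this
    exact ⟨r, by rw [hr, traceForm_apply]⟩
  choose T hT using key
  exact ⟨Matrix.of T, fun i j => hT i j⟩

/-- The Gram matrix of a basis has non-zero determinant. -/
theorem gram_det_ne_zero [Algebra.IsSeparable K₀ L] [Fintype ι] [DecidableEq ι]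
    (u : Basis ι K₀ L) (T : Matrix ι ι R)
    (hT : ∀ i j, algebraMap R K₀ (T i j) = Algebra.trace K₀ L (u i * u j)) :
    T.det ≠ 0 ∧ algebraMap R K₀ T.det = (Algebra.traceMatrix K₀ u).det := by
  have hmap : T.map (algebraMap R K₀) = Algebra.traceMatrix K₀ u := by
    ext i j
    rw [Matrix.map_apply, hT, traceMatrix_apply, traceForm_apply]
  have hdet : algebraMap R K₀ T.det = (Algebra.traceMatrix K₀ u).det := by
    rw [RingHom.map_det, RingHom.mapMatrix_apply, hmap]
  refine ⟨fun h0 => ?_, hdet⟩
  have := det_traceForm_ne_zero u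
  rw [← traceMatrix_of_basis, ← hdet, h0, map_zero] at this
  exact this rfl

variable [IsDomain R] [IsPrincipalIdealRing R] [Module.IsTorsionFree R K₀]
  [FiniteDimensional K₀ L] [Algebra.IsSeparable K₀ L] [Fintype ι] [DecidableEq ι]
  {k : Type*} [Field k] [Algebra k R] [Module k L] [IsScalarTower k R L]

/-- **Trace-dual index**: if the Gram matrix `T` of `u` has entries in the PID `R`, then
`dim_k (C / B) = s (det T)` for `B = span_R u` and `C` its trace dual. -/
theorem finrank_traceDual_quotient {s : R → ℕ} (hS : IsSizeFunction k R s)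
    (u : Basis ι K₀ L) (T : Matrix ι ι R)
    (hT : ∀ i j, algebraMap R K₀ (T i j) = Algebra.trace K₀ L (u i * u j)) :
    Module.Finite k (↥((traceForm K₀ L).dualSubmodule (span R (Set.range u))) ⧸
      (span R (Set.range u)).submoduleOf ((traceForm K₀ L).dualSubmodule (span R (Set.range u)))) ∧
    Module.finrank k (↥((traceForm K₀ L).dualSubmodule (span R (Set.range u))) ⧸
      (span R (Set.range u)).submoduleOf ((traceForm K₀ L).dualSubmodule (span R (Set.range u))))
      = s T.det := by
  rw [(traceForm K₀ L).dualSubmodule_span_of_basis (traceForm_nondegenerate K₀ L) u,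
    ← Basis.traceDual_def]
  have hu : ∀ j, u j = ∑ i, T i j • u.traceDual i := by
    intro j
    conv_lhs => rw [eq_sum_trace_smul_traceDual u (u j)]
    refine Finset.sum_congr rfl fun i _ => ?_
    rw [← algebraMap_smul K₀ (T i j), hT, mul_comm]
  exact (finrank_span_quotient_span (k := k) hS u.traceDual T
    (gram_det_ne_zero u T hT).1 u hu).2

end TraceDualIndex

/-! ### Scaling the Gram determinant -/

section DetScaling
open Algebra

variable {k : Type*} [Field k] {ι : Type*}
  {F : Type*} [Field F] [Algebra (RatFunc k) F]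

theorem intDegree_prod_X_zpow [Fintype ι] (e : ι → ℤ) :
    (∏ i, (RatFunc.X : RatFunc k) ^ (e i)).intDegree = ∑ i, e i := by
  have : ∀ s : Finset ι, (∏ i ∈ s, (RatFunc.X : RatFunc k) ^ (e i)).intDegree = ∑ i ∈ s, e i := by
    intro s
    induction s using Finset.induction_on with
    | empty => simp
    | insert i s hi ih =>
      rw [Finset.prod_insert hi, Finset.sum_insert hi,
        RatFunc.intDegree_mul (LatticeDims.X_zpow_ne_zero _)
          (Finset.prod_ne_zero_iff.mpr fun j _ => LatticeDims.X_zpow_ne_zero _),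
        LatticeDims.intDegree_X_zpow, ih]
  exact this Finset.univ

theorem traceMatrix_scaled (u : Basis ι (RatFunc k) F) (d : ι → ℤ) :
    Algebra.traceMatrix (RatFunc k) (LatticeDims.scaled u d) =
      Matrix.of fun i j => (RatFunc.X : RatFunc k) ^ (-(d i)) *
        ((RatFunc.X : RatFunc k) ^ (-(d j)) * Algebra.traceMatrix (RatFunc k) u i j) := by
  ext i j
  rw [traceMatrix_apply, Matrix.of_apply, traceMatrix_apply, traceForm_apply, traceForm_apply,
    LatticeDims.scaled_apply, LatticeDims.scaled_apply, smul_mul_smul_comm, map_smul, smul_eq_mul,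
    mul_assoc]

variable [Fintype ι] [DecidableEq ι]

theorem det_traceMatrix_scaled (u : Basis ι (RatFunc k) F) (d : ι → ℤ) :
    (Algebra.traceMatrix (RatFunc k) (LatticeDims.scaled u d)).det =
      (∏ i, (RatFunc.X : RatFunc k) ^ (-(d i))) * ((∏ i, (RatFunc.X : RatFunc k) ^ (-(d i))) *
        (Algebra.traceMatrix (RatFunc k) u).det) := by
  rw [traceMatrix_scaled]
  have h1 := Matrix.det_mul_column (fun i => (RatFunc.X : RatFunc k) ^ (-(d i)))
    (Matrix.of fun i j => (RatFunc.X : RatFunc k) ^ (-(d j)) *
      Algebra.traceMatrix (RatFunc k) u i j)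
  have h2 := Matrix.det_mul_row (fun i => (RatFunc.X : RatFunc k) ^ (-(d i)))
    (Algebra.traceMatrix (RatFunc k) u)
  rw [← h2, ← h1]
  rfl

/-- `deg det Gram (X ^ (-d i) • u i) = deg det Gram u - 2 Σ d i`. -/
theorem intDegree_det_traceMatrix_scaled (u : Basis ι (RatFunc k) F) (d : ι → ℤ)
    (h : (Algebra.traceMatrix (RatFunc k) u).det ≠ 0) :
    (Algebra.traceMatrix (RatFunc k) (LatticeDims.scaled u d)).det.intDegree =
      (Algebra.traceMatrix (RatFunc k) u).det.intDegree - 2 * ∑ i, d i := by
  have hp : (∏ i, (RatFunc.X : RatFunc k) ^ (-(d i))) ≠ 0 :=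
    Finset.prod_ne_zero_iff.mpr fun j _ => LatticeDims.X_zpow_ne_zero _
  rw [det_traceMatrix_scaled, RatFunc.intDegree_mul hp (mul_ne_zero hp h),
    RatFunc.intDegree_mul hp h, intDegree_prod_X_zpow, Finset.sum_neg_distrib]
  ring

end DetScaling

/-! ### The discriminant-degree identity (DISC) -/

section Disc
open Algebra

variable {k : Type*} [Field k] {ι : Type*} [Fintype ι] [DecidableEq ι]
  {F : Type*} [Field F] [Algebra (RatFunc k) F] [FiniteDimensional (RatFunc k) F]
  [Algebra.IsSeparable (RatFunc k) F] [Module k F]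

/-- **(DISC, finite part)** `dim_k (C_B / B) = deg det Gram(u)` for `B = span_{k[X]} u`. -/
theorem finrank_dual_quotient_polynomial [Module k[X] F] [IsScalarTower k[X] (RatFunc k) F]
    [IsScalarTower k k[X] F] (u : Basis ι (RatFunc k) F)
    (hB : span k[X] (Set.range u) ≤
      (traceForm (RatFunc k) F).dualSubmodule (span k[X] (Set.range u))) :
    Module.Finite k (↥((traceForm (RatFunc k) F).dualSubmodule (span k[X] (Set.range u))) ⧸
      (span k[X] (Set.range u)).submoduleOf
        ((traceForm (RatFunc k) F).dualSubmodule (span k[X] (Set.range u)))) ∧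
    (Module.finrank k (↥((traceForm (RatFunc k) F).dualSubmodule (span k[X] (Set.range u))) ⧸
      (span k[X] (Set.range u)).submoduleOf
        ((traceForm (RatFunc k) F).dualSubmodule (span k[X] (Set.range u)))) : ℤ) =
      (Algebra.traceMatrix (RatFunc k) u).det.intDegree := by
  obtain ⟨T, hT⟩ := exists_gram_of_le_dual u hB
  have h := finrank_traceDual_quotient (k := k) isSizeFunction_polynomial u T hT
  refine ⟨h.1, ?_⟩
  rw [h.2, ← (gram_det_ne_zero u T hT).2, RatFunc.intDegree_polynomial]

/-- **(DISC, infinite part)** `dim_k (C_{B_∞} / B_∞) = - deg det Gram(v)` for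
`B_∞ = span_{O_∞} v`.  (`Algebra (Oinf k) F` may be any instance, e.g. Mathlib's canonical one.) -/
theorem finrank_dual_quotient_Oinf [Algebra (Oinf k) F] [IsScalarTower (Oinf k) (RatFunc k) F]
    [Algebra k (Oinf k)] [IsScalarTower k (Oinf k) F] (hC : OinfCompat k)
    (v : Basis ι (RatFunc k) F)
    (hB : span (Oinf k) (Set.range v) ≤
      (traceForm (RatFunc k) F).dualSubmodule (span (Oinf k) (Set.range v))) :
    Module.Finite k (↥((traceForm (RatFunc k) F).dualSubmodule (span (Oinf k) (Set.range v))) ⧸
      (span (Oinf k) (Set.range v)).submoduleOf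
        ((traceForm (RatFunc k) F).dualSubmodule (span (Oinf k) (Set.range v)))) ∧
    (Module.finrank k (↥((traceForm (RatFunc k) F).dualSubmodule (span (Oinf k) (Set.range v))) ⧸
      (span (Oinf k) (Set.range v)).submoduleOf
        ((traceForm (RatFunc k) F).dualSubmodule (span (Oinf k) (Set.range v)))) : ℤ) =
      - (Algebra.traceMatrix (RatFunc k) v).det.intDegree := by
  have : Module.IsTorsionFree (Oinf k) (RatFunc k) :=
    FaithfulSMul.to_isTorsionFree (Oinf k) (RatFunc k)
  obtain ⟨T, hT⟩ := exists_gram_of_le_dual v hB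
  have h := finrank_traceDual_quotient (k := k) (isSizeFunction_Oinf hC) v T hT
  refine ⟨h.1, ?_⟩
  have h2 := gram_det_ne_zero v T hT
  rw [h.2, sizeInf_eq_neg_intDegree h2.1, ← h2.2]
  rfl

/-- **(DISC)** `dim_k (C_B / B) + dim_k (C_{B_∞} / B_∞) = 2 Σ d i`, where `B = span_{k[X]} u`,
`B_∞ = span_{O_∞} (X ^ (- d i) • u i)` and `C` denotes the trace dual. -/
theorem finrank_dual_quotient_add [Module k[X] F] [IsScalarTower k[X] (RatFunc k) F]
    [IsScalarTower k k[X] F] [Algebra (Oinf k) F] [IsScalarTower (Oinf k) (RatFunc k) F]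
    [Algebra k (Oinf k)] [IsScalarTower k (Oinf k) F] (hC : OinfCompat k)
    (u : Basis ι (RatFunc k) F) (d : ι → ℤ)
    (hB : span k[X] (Set.range u) ≤
      (traceForm (RatFunc k) F).dualSubmodule (span k[X] (Set.range u)))
    (hBinf : span (Oinf k) (Set.range (LatticeDims.scaled u d)) ≤
      (traceForm (RatFunc k) F).dualSubmodule (span (Oinf k) (Set.range (LatticeDims.scaled u d)))) :
    (Module.finrank k (↥((traceForm (RatFunc k) F).dualSubmodule (span k[X] (Set.range u))) ⧸
      (span k[X] (Set.range u)).submoduleOf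
        ((traceForm (RatFunc k) F).dualSubmodule (span k[X] (Set.range u)))) : ℤ) +
    (Module.finrank k (↥((traceForm (RatFunc k) F).dualSubmodule
        (span (Oinf k) (Set.range (LatticeDims.scaled u d)))) ⧸
      (span (Oinf k) (Set.range (LatticeDims.scaled u d))).submoduleOf
        ((traceForm (RatFunc k) F).dualSubmodule
          (span (Oinf k) (Set.range (LatticeDims.scaled u d))))) : ℤ) = 2 * ∑ i, d i := by
  rw [(finrank_dual_quotient_polynomial u hB).2,
    (finrank_dual_quotient_Oinf hC (LatticeDims.scaled u d) hBinf).2,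
    intDegree_det_traceMatrix_scaled u d]
  · ring
  · have := det_traceForm_ne_zero u
    rwa [← traceMatrix_of_basis] at this

end Disc

section IntegralClosure
open Algebra

/-- The integral closure is contained in its trace dual. -/
theorem integralClosure_le_dual {A K₀ L : Type*} [CommRing A] [IsIntegrallyClosed A]
    [Field K₀] [Algebra A K₀] [IsFractionRing A K₀] [Field L] [Algebra K₀ L]
    [FiniteDimensional K₀ L] [Algebra A L] [IsScalarTower A K₀ L] :
    Subalgebra.toSubmodule (integralClosure A L) ≤
      (traceForm K₀ L).dualSubmodule (Subalgebra.toSubmodule (integralClosure A L)) := by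
  intro x hx y hy
  rw [Submodule.mem_one, traceForm_apply]
  have hxy : IsIntegral A (x * y) := IsIntegral.mul hx hy
  have := Algebra.isIntegral_trace (L := K₀) hxy
  exact IsIntegrallyClosed.algebraMap_eq_of_integral this

end IntegralClosure

section DiscIntegralClosure
open Algebra

variable {k : Type*} [Field k] {ι : Type*} [Fintype ι] [DecidableEq ι]
  {F : Type*} [Field F] [Algebra (RatFunc k) F] [FiniteDimensional (RatFunc k) F]
  [Algebra.IsSeparable (RatFunc k) F] [Module k F]

/-- **(DISC for the integral closures)**  If `u`, `d` is a Dedekind–Weber normal basis, i.e.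
`span_{k[X]} u` is the integral closure `B` of `k[X]` in `F` and `span_{O_∞} (X ^ (-d i) • u i)` is
the integral closure `B_∞` of `O_∞`, then `dim_k (C_B / B) + dim_k (C_{B_∞} / B_∞) = 2 Σ d i`. -/
theorem finrank_dual_quotient_add_integralClosure [Algebra k[X] F]
    [IsScalarTower k[X] (RatFunc k) F]
    [IsScalarTower k k[X] F] [Algebra (Oinf k) F] [IsScalarTower (Oinf k) (RatFunc k) F]
    [Algebra k (Oinf k)] [IsScalarTower k (Oinf k) F] (hC : OinfCompat k)
    (u : Basis ι (RatFunc k) F) (d : ι → ℤ)
    (hu : span k[X] (Set.range u) = Subalgebra.toSubmodule (integralClosure k[X] F))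
    (hv : span (Oinf k) (Set.range (LatticeDims.scaled u d)) =
      Subalgebra.toSubmodule (integralClosure (Oinf k) F)) :
    (Module.finrank k (↥((traceForm (RatFunc k) F).dualSubmodule
        (Subalgebra.toSubmodule (integralClosure k[X] F))) ⧸
      (Subalgebra.toSubmodule (integralClosure k[X] F)).submoduleOf
        ((traceForm (RatFunc k) F).dualSubmodule
          (Subalgebra.toSubmodule (integralClosure k[X] F)))) : ℤ) +
    (Module.finrank k (↥((traceForm (RatFunc k) F).dualSubmodule
        (Subalgebra.toSubmodule (integralClosure (Oinf k) F))) ⧸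
      (Subalgebra.toSubmodule (integralClosure (Oinf k) F)).submoduleOf
        ((traceForm (RatFunc k) F).dualSubmodule
          (Subalgebra.toSubmodule (integralClosure (Oinf k) F)))) : ℤ) = 2 * ∑ i, d i := by
  have hB : span k[X] (Set.range u) ≤
      (traceForm (RatFunc k) F).dualSubmodule (span k[X] (Set.range u)) := by
    rw [hu]; exact integralClosure_le_dual
  have hBinf : span (Oinf k) (Set.range (LatticeDims.scaled u d)) ≤
      (traceForm (RatFunc k) F).dualSubmodule
        (span (Oinf k) (Set.range (LatticeDims.scaled u d))) := by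
    rw [hv]; exact integralClosure_le_dual
  have := finrank_dual_quotient_add hC u d hB hBinf
  rw [hu, hv] at this
  exact this

end DiscIntegralClosure

end Fermat.Agent.S20.LatticeIndex
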