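import Fermat.Agent.S24.HolH

/-!
# S20 / T3-DIV: divisibility in the ring of holomorphic functions on `ℍ` (helper20)

* `exists_eq_mul_of_ordAt_le`: if `b ≠ 0` and `ordAt τ b ≤ ordAt τ a` for all `τ`, then `b ∣ a`
  in `Hol`.
* `mem_range_algebraMap_of_valAt_le_one`: an element of `Mer = Frac Hol` which is regular at every
  point of `ℍ` is (the image of) a holomorphic function.
-/

set_option autoImplicit false

open UpperHalfPlane Complex Filter Topology
open scoped MatrixGroups Manifold WithZero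

namespace Fermat.Agent.S20.MerDiv

open Fermat.Agent.S24.HolH

/-- The extension to `ℂ` of a holomorphic function on `ℍ`. -/
noncomputable def ext (f : Hol) : ℂ → ℂ := (f : ℍ → ℂ) ∘ ofComplex

lemma ext_coe (f : Hol) (τ : ℍ) : ext f (τ : ℂ) = (f : ℍ → ℂ) τ := by
  simp [ext]

lemma analyticAt_ext (f : Hol) {z : ℂ} (hz : 0 < z.im) : AnalyticAt ℂ (ext f) z :=
  Hol.analyticOnNhd f z hz

/-- Build an element of `Hol` from a function on `ℂ` which is analytic at every point of the upper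
half plane. -/
noncomputable def ofAnalytic (c : ℂ → ℂ) (hc : ∀ z : ℂ, 0 < z.im → AnalyticAt ℂ c z) : Hol :=
  ⟨fun τ => c (τ : ℂ), by
    rw [mem_Hol, UpperHalfPlane.mdifferentiable_iff]
    intro z hz
    have h1 : DifferentiableAt ℂ c z := (hc z hz).differentiableAt
    have h2 : (fun τ : ℍ => c (τ : ℂ)) ∘ ofComplex =ᶠ[𝓝 z] c := by
      filter_upwards [isOpen_upperHalfPlaneSet.mem_nhds hz] with w hw
      simp only [Function.comp_apply]
      rw [ofComplex_apply_of_im_pos hw]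
    exact (h2.differentiableAt_iff.mpr h1).differentiableWithinAt⟩

@[simp] lemma ofAnalytic_apply (c : ℂ → ℂ) (hc : ∀ z : ℂ, 0 < z.im → AnalyticAt ℂ c z) (τ : ℍ) :
    ((ofAnalytic c hc : Hol) : ℍ → ℂ) τ = c (τ : ℂ) := rfl

lemma ordAt_eq (τ : ℍ) (f : Hol) : ordAt τ f = analyticOrderAt (ext f) (τ : ℂ) := rfl

/-- **Divisibility in `Hol`**: if `b` vanishes at every point to order at most the order of `a`,
then `b` divides `a`. -/
theorem exists_eq_mul_of_ordAt_le {a b : Hol} (hb : b ≠ 0)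
    (h : ∀ τ : ℍ, ordAt τ b ≤ ordAt τ a) : ∃ c : Hol, a = b * c := by
  set U : Set ℂ := upperHalfPlaneSet with hU
  have hAan : AnalyticOnNhd ℂ (ext a) U := Hol.analyticOnNhd a
  have hBan : AnalyticOnNhd ℂ (ext b) U := Hol.analyticOnNhd b
  set g : ℂ → ℂ := ext a / ext b with hg
  have hgmer : MeromorphicOn g U := fun z hz =>
    (hAan z hz).meromorphicAt.div (hBan z hz).meromorphicAt
  set c₀ : ℂ → ℂ := toMeromorphicNFOn g U with hc₀
  have hord : ∀ z ∈ U, 0 ≤ meromorphicOrderAt g z := by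
    intro z hz
    have hz' : 0 < z.im := hz
    rw [hg, meromorphicOrderAt_div (hAan z hz).meromorphicAt (hBan z hz).meromorphicAt,
      (hAan z hz).meromorphicOrderAt_eq, (hBan z hz).meromorphicOrderAt_eq]
    have h1 := h ⟨z, hz'⟩
    rw [ordAt_eq, ordAt_eq] at h1
    have hbt : analyticOrderAt (ext b) z ≠ ⊤ := by
      have := ordAt_ne_top (τ₀ := ⟨z, hz'⟩) hb
      rwa [ordAt_eq] at this
    change analyticOrderAt (ext b) z ≤ analyticOrderAt (ext a) z at h1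
    obtain ⟨n, hn⟩ := ENat.ne_top_iff_exists.mp hbt
    rw [← hn] at h1 ⊢
    cases ha : analyticOrderAt (ext a) z with
    | top => simp
    | coe m =>
      rw [ha] at h1
      have hnm : n ≤ m := by exact_mod_cast h1
      simp only [ENat.map_natCast]
      have h2 : (((m : ℕ) : ℤ) : WithTop ℤ) - (((n : ℕ) : ℤ) : WithTop ℤ)
          = (((m : ℤ) - (n : ℤ) : ℤ) : WithTop ℤ) := by
        rfl
      rw [h2]
      have : (0 : ℤ) ≤ (m : ℤ) - (n : ℤ) := by omega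
      exact_mod_cast this
  have hcan : ∀ z : ℂ, 0 < z.im → AnalyticAt ℂ c₀ z := by
    intro z hz
    have hNF : MeromorphicNFAt c₀ z := meromorphicNFOn_toMeromorphicNFOn g U hz
    rw [← hNF.meromorphicOrderAt_nonneg_iff_analyticAt, hc₀,
      meromorphicOrderAt_toMeromorphicNFOn hgmer hz]
    exact hord z hz
  refine ⟨ofAnalytic c₀ hcan, ?_⟩
  ext τ
  simp only [Subalgebra.coe_mul, Pi.mul_apply, ofAnalytic_apply]
  have hz : (τ : ℂ) ∈ U := τ.im_pos
  -- `b` does not vanish in a punctured neighbourhood of `τ`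
  have hbne : ∀ᶠ z in 𝓝[≠] (τ : ℂ), ext b z ≠ 0 := by
    rcases (hBan _ hz).eventually_eq_zero_or_eventually_ne_zero with h0 | h0
    · exfalso
      exact hb (Hol.eq_zero_of_eventuallyEq_zero b τ h0)
    · exact h0
  have heq : ∀ᶠ z in 𝓝[≠] (τ : ℂ), ext a z = ext b z * c₀ z := by
    filter_upwards [hbne, hgmer.toMeromorphicNFOn_eq_self_on_nhdsNE hz] with z hz1 hz2
    rw [hc₀, hz2, hg, Pi.div_apply, mul_div_cancel₀ _ hz1]
  have hcontL : ContinuousAt (ext a) (τ : ℂ) := (hAan _ hz).continuousAt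
  have hcontR : ContinuousAt (fun z => ext b z * c₀ z) (τ : ℂ) :=
    ((hBan _ hz).continuousAt).mul (hcan _ τ.im_pos).continuousAt
  have := tendsto_nhds_unique_of_eventuallyEq
    (hcontL.tendsto.mono_left nhdsWithin_le_nhds)
    (hcontR.tendsto.mono_left nhdsWithin_le_nhds) heq
  rw [ext_coe, ext_coe] at this
  exact this

/-! ### Comparison of `holVal` and `ordAt` -/

lemma holVal_le_holVal_iff {τ₀ : ℍ} {a b : Hol} (ha : a ≠ 0) (hb : b ≠ 0) :
    holVal τ₀ a ≤ holVal τ₀ b ↔ ordAt τ₀ b ≤ ordAt τ₀ a := by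
  rw [holVal_apply ha, holVal_apply hb, WithZero.exp_le_exp, neg_le_neg_iff, Nat.cast_le]
  constructor
  · intro h
    rw [← ENat.natCast_toNat (ordAt_ne_top (τ₀ := τ₀) ha),
      ← ENat.natCast_toNat (ordAt_ne_top (τ₀ := τ₀) hb)]
    exact_mod_cast h
  · intro h
    exact ENat.toNat_le_toNat h (ordAt_ne_top ha)

lemma valAt_div {τ₀ : ℍ} (a b : Hol) :
    valAt τ₀ (algebraMap Hol Mer a / algebraMap Hol Mer b) = holVal τ₀ a / holVal τ₀ b := by
  rw [map_div₀, valAt_algebraMap, valAt_algebraMap]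

lemma holVal_ne_zero {τ₀ : ℍ} {b : Hol} (hb : b ≠ 0) : holVal τ₀ b ≠ 0 := by
  rw [holVal_apply hb]
  exact WithZero.exp_ne_zero

lemma algebraMap_ne_zero {b : Hol} (hb : b ≠ 0) : algebraMap Hol Mer b ≠ 0 := by
  intro h
  exact hb ((IsFractionRing.injective Hol Mer) (by rw [h, map_zero]))

/-- Regularity of a fraction at `τ₀` in terms of orders. -/
lemma valAt_div_le_one_iff {τ₀ : ℍ} {a b : Hol} (ha : a ≠ 0) (hb : b ≠ 0) :
    valAt τ₀ (algebraMap Hol Mer a / algebraMap Hol Mer b) ≤ 1 ↔ ordAt τ₀ b ≤ ordAt τ₀ a := by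
  rw [valAt_div, div_le_one₀ (zero_lt_iff.mpr (holVal_ne_zero hb)), holVal_le_holVal_iff ha hb]

/-- **Local–global principle**: an element of `Mer` which is regular at every point of `ℍ` is a
holomorphic function. -/
theorem mem_range_algebraMap_of_valAt_le_one (m : Mer) (h : ∀ τ₀ : ℍ, valAt τ₀ m ≤ 1) :
    ∃ c : Hol, algebraMap Hol Mer c = m := by
  obtain ⟨a, b, hb, rfl⟩ := IsFractionRing.div_surjective Hol m
  have hb0 : b ≠ 0 := nonZeroDivisors.ne_zero hb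
  by_cases ha : a = 0
  · exact ⟨0, by simp [ha]⟩
  · obtain ⟨c, hc⟩ := exists_eq_mul_of_ordAt_le hb0
      (fun τ => (valAt_div_le_one_iff ha hb0).mp (h τ))
    refine ⟨c, ?_⟩
    rw [hc, map_mul, mul_div_cancel_left₀ _ (algebraMap_ne_zero hb0)]

/-! ### The coordinate function `τ ↦ τ - τ₀` -/

/-- The holomorphic function `τ ↦ τ - τ₀`. -/
noncomputable def zsub (τ₀ : ℍ) : Hol :=
  ofAnalytic (fun z => z - (τ₀ : ℂ)) (fun _ _ => by fun_prop)

@[simp] lemma zsub_apply (τ₀ τ : ℍ) : ((zsub τ₀ : Hol) : ℍ → ℂ) τ = (τ : ℂ) - (τ₀ : ℂ) := rfl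

lemma zsub_ne_zero (τ₀ : ℍ) : zsub τ₀ ≠ 0 := by
  intro h
  have hpos : 0 < ((τ₀ : ℂ) + Complex.I).im := by
    have := τ₀.im_pos
    simp only [Complex.add_im, UpperHalfPlane.coe_im, Complex.I_im]
    linarith
  have h1 := congrArg (fun f : Hol => (f : ℍ → ℂ) (⟨(τ₀ : ℂ) + Complex.I, hpos⟩ : ℍ)) h
  simp only [zsub_apply, ZeroMemClass.coe_zero, Pi.zero_apply] at h1
  simp at h1

lemma ordAt_zsub_of_ne {τ₀ τ : ℍ} (h : τ ≠ τ₀) : ordAt τ (zsub τ₀) = 0 := by
  rw [ordAt_eq_zero_iff, zsub_apply, sub_ne_zero]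
  intro h'
  exact h (UpperHalfPlane.ext h')

lemma ordAt_zsub_self (τ₀ : ℍ) : ordAt τ₀ (zsub τ₀) = 1 := by
  rw [ordAt_eq]
  have h1 : ext (zsub τ₀) =ᶠ[𝓝 (τ₀ : ℂ)] fun z => z - (τ₀ : ℂ) := by
    filter_upwards [isOpen_upperHalfPlaneSet.mem_nhds τ₀.im_pos] with w hw
    simp only [ext, Function.comp_apply]
    rw [ofComplex_apply_of_im_pos hw]
    rfl
  rw [analyticOrderAt_congr h1]
  have h2 : AnalyticAt ℂ (fun z : ℂ => z - (τ₀ : ℂ)) (τ₀ : ℂ) := by fun_prop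
  rw [show (1 : ℕ∞) = ((1 : ℕ) : ℕ∞) from rfl, h2.analyticOrderAt_eq_natCast (n := 1)]
  refine ⟨fun _ => 1, analyticAt_const, by simp, ?_⟩
  filter_upwards with z
  simp

lemma ordAt_zsub_pow_le (τ₀ : ℍ) {n : ℕ} {a : Hol} (h : (n : ℕ∞) ≤ ordAt τ₀ a) (τ : ℍ) :
    ordAt τ (zsub τ₀ ^ n) ≤ ordAt τ a := by
  rw [ordAt_pow]
  by_cases hτ : τ = τ₀
  · subst hτ
    rw [ordAt_zsub_self]
    simpa using h
  · rw [ordAt_zsub_of_ne hτ]
    simp

/-- Every element of `Mer` regular at `τ₀` can be written with a denominator not vanishing at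
`τ₀`. -/
theorem exists_rep_of_valAt_le_one {τ₀ : ℍ} {m : Mer} (h : valAt τ₀ m ≤ 1) :
    ∃ a b : Hol, (b : ℍ → ℂ) τ₀ ≠ 0 ∧ m = algebraMap Hol Mer a / algebraMap Hol Mer b := by
  obtain ⟨a, b, hb, rfl⟩ := IsFractionRing.div_surjective Hol m
  have hb0 : b ≠ 0 := nonZeroDivisors.ne_zero hb
  by_cases ha : a = 0
  · refine ⟨0, 1, by simp, by simp [ha]⟩
  · have hle := (valAt_div_le_one_iff ha hb0).mp h
    obtain ⟨n, hn⟩ := ENat.ne_top_iff_exists.mp (ordAt_ne_top (τ₀ := τ₀) hb0)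
    have hz := zsub_ne_zero τ₀
    have hzn : zsub τ₀ ^ n ≠ 0 := pow_ne_zero n hz
    obtain ⟨b₁, hb₁⟩ := exists_eq_mul_of_ordAt_le (a := b) hzn
      (ordAt_zsub_pow_le τ₀ (by rw [hn]))
    obtain ⟨a₁, ha₁⟩ := exists_eq_mul_of_ordAt_le (a := a) hzn
      (ordAt_zsub_pow_le τ₀ (by rw [hn]; exact hle))
    have hb₁0 : b₁ ≠ 0 := by
      rintro rfl
      exact hb0 (by rw [hb₁, mul_zero])
    refine ⟨a₁, b₁, ?_, ?_⟩
    · rw [← ordAt_eq_zero_iff]
      have h1 : ordAt τ₀ b = ordAt τ₀ (zsub τ₀ ^ n) + ordAt τ₀ b₁ := by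
        conv_lhs => rw [hb₁]
        exact ordAt_mul _ _ _
      rw [ordAt_pow, ordAt_zsub_self, ← hn] at h1
      have h2 : (n : ℕ∞) = n + ordAt τ₀ b₁ := by simpa using h1
      have h3 : ordAt τ₀ b₁ ≠ ⊤ := ordAt_ne_top hb₁0
      obtain ⟨k, hk⟩ := ENat.ne_top_iff_exists.mp h3
      rw [← hk] at h2 ⊢
      have : n = n + k := by exact_mod_cast h2
      have : k = 0 := by omega
      simp [this]
    · conv_lhs => rw [ha₁, hb₁]
      rw [map_mul, map_mul, mul_div_mul_left _ _ (algebraMap_ne_zero hzn)]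

end Fermat.Agent.S20.MerDiv
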