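/-
S20 / package DW-b (backup, helper64): Dedekind–Weber normal bases
(= splitting of vector bundles on the projective line), via lattice reduction.
Self-contained, Mathlib only.
-/
import Mathlib

set_option autoImplicit false

open Polynomial

namespace Fermat.Agent.S20.NormalBasis64

variable {k : Type*} [Field k]

/-- Degree of a rational function, with value `⊥` at `0`. -/
noncomputable def wdeg (c : RatFunc k) : WithBot ℤ :=
  letI := Classical.propDecidable (c = 0)
  if c = 0 then ⊥ else (c.intDegree : WithBot ℤ)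

@[simp] lemma wdeg_zero : wdeg (0 : RatFunc k) = ⊥ := by
  unfold wdeg; exact if_pos rfl

lemma wdeg_of_ne {c : RatFunc k} (h : c ≠ 0) : wdeg c = (c.intDegree : WithBot ℤ) := by
  unfold wdeg; exact if_neg h

lemma wdeg_eq_bot_iff {c : RatFunc k} : wdeg c = ⊥ ↔ c = 0 := by
  constructor
  · intro h
    by_contra hc
    rw [wdeg_of_ne hc] at h
    exact WithBot.coe_ne_bot h
  · rintro rfl
    exact wdeg_zero

lemma wdeg_mul (a b : RatFunc k) : wdeg (a * b) = wdeg a + wdeg b := by
  by_cases ha : a = 0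
  · simp [ha]
  by_cases hb : b = 0
  · simp [hb]
  rw [wdeg_of_ne ha, wdeg_of_ne hb, wdeg_of_ne (mul_ne_zero ha hb), RatFunc.intDegree_mul ha hb,
    WithBot.coe_add]

lemma wdeg_add_le (a b : RatFunc k) : wdeg (a + b) ≤ max (wdeg a) (wdeg b) := by
  by_cases hab : a + b = 0
  · rw [hab, wdeg_zero]; exact bot_le
  by_cases hb : b = 0
  · simp [hb]
  by_cases ha : a = 0
  · simp [ha]
  rw [wdeg_of_ne ha, wdeg_of_ne hb, wdeg_of_ne hab, ← WithBot.coe_max, WithBot.coe_le_coe]
  exact RatFunc.intDegree_add_le hb hab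

lemma wdeg_one : wdeg (1 : RatFunc k) = 0 := by
  rw [wdeg_of_ne (one_ne_zero' (RatFunc k)), RatFunc.intDegree_one]; rfl

lemma wdeg_neg (a : RatFunc k) : wdeg (-a) = wdeg a := by
  by_cases ha : a = 0
  · simp [ha]
  rw [wdeg_of_ne ha, wdeg_of_ne (neg_ne_zero.mpr ha), RatFunc.intDegree_neg]

lemma wdeg_algebraMap {p : k[X]} (hp : p ≠ 0) :
    wdeg (algebraMap k[X] (RatFunc k) p) = ((p.natDegree : ℤ) : WithBot ℤ) := by
  have h : algebraMap k[X] (RatFunc k) p ≠ 0 := by
    simpa using hp
  rw [wdeg_of_ne h, RatFunc.intDegree_polynomial]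

lemma wdeg_algebraMap_le (p : k[X]) :
    wdeg (algebraMap k[X] (RatFunc k) p) ≤ ((p.natDegree : ℤ) : WithBot ℤ) := by
  by_cases hp : p = 0
  · simp [hp]
  · exact (wdeg_algebraMap hp).le

lemma wdeg_C_mul_X_pow {c : k} (hc : c ≠ 0) (n : ℕ) :
    wdeg (algebraMap k[X] (RatFunc k) (Polynomial.C c * Polynomial.X ^ n)) =
      ((n : ℤ) : WithBot ℤ) := by
  have h : Polynomial.C c * Polynomial.X ^ n ≠ 0 := by
    simpa using hc
  rw [wdeg_algebraMap h, Polynomial.natDegree_C_mul_X_pow n c hc]

/-! ### WithBot ℤ helpers -/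

lemma withBot_add_sup {ι : Type*} (s : Finset ι) (a : WithBot ℤ) (f : ι → WithBot ℤ) :
    s.sup (fun i => a + f i) = a + s.sup f := by
  classical
  induction s using Finset.induction_on with
  | empty => simp
  | insert i s hi ih =>
    rw [Finset.sup_insert, Finset.sup_insert, ih]
    exact (add_max a (f i) (s.sup f)).symm

lemma withBot_lt_of_add_lt {e m : ℤ} {x : WithBot ℤ}
    (h : ((e : ℤ) : WithBot ℤ) + x < ((m : ℤ) : WithBot ℤ)) :
    x < (((m - e : ℤ)) : WithBot ℤ) := by
  induction x using WithBot.recBotCoe with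
  | bot => exact WithBot.bot_lt_coe _
  | coe t =>
    rw [← WithBot.coe_add, WithBot.coe_lt_coe] at h
    rw [WithBot.coe_lt_coe]
    omega

lemma withBot_le_of_add_le_add_left {a : ℤ} {x y : WithBot ℤ}
    (h : ((a : ℤ) : WithBot ℤ) + x ≤ ((a : ℤ) : WithBot ℤ) + y) : x ≤ y := by
  induction x using WithBot.recBotCoe with
  | bot => exact bot_le
  | coe t =>
    induction y using WithBot.recBotCoe with
    | bot =>
      rw [WithBot.add_bot] at h
      rw [← WithBot.coe_add] at h
      exact absurd (le_bot_iff.mp h) (WithBot.coe_ne_bot)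
    | coe r =>
      rw [← WithBot.coe_add, ← WithBot.coe_add, WithBot.coe_le_coe] at h
      rw [WithBot.coe_le_coe]
      omega

/-! ### Norms on a `RatFunc k`-vector space -/

variable {V : Type*} [AddCommGroup V] [Module (RatFunc k) V]

/-- An ultrametric `ℤ ∪ {⊥}`-valued norm compatible with the degree on `RatFunc k`. -/
structure IsNorm (δ : V → WithBot ℤ) : Prop where
  eq_bot_iff : ∀ v, δ v = ⊥ ↔ v = 0
  smul : ∀ (c : RatFunc k) (v : V), δ (c • v) = wdeg c + δ v
  add_le : ∀ v w, δ (v + w) ≤ max (δ v) (δ w)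

namespace IsNorm

variable {δ : V → WithBot ℤ} (hδ : IsNorm (k := k) δ)
include hδ

lemma zero : δ 0 = ⊥ := (hδ.eq_bot_iff 0).2 rfl

lemma neg (v : V) : δ (-v) = δ v := by
  have h := hδ.smul (-1) v
  rw [neg_one_smul] at h
  rw [h, wdeg_neg, wdeg_one, zero_add]

lemma sub_le (v w : V) : δ (v - w) ≤ max (δ v) (δ w) := by
  rw [sub_eq_add_neg]
  have h := hδ.add_le v (-w)
  rwa [hδ.neg] at h

lemma sum_le {ι : Type*} (s : Finset ι) (f : ι → V) :
    δ (∑ i ∈ s, f i) ≤ s.sup (fun i => δ (f i)) := by
  classical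
  induction s using Finset.induction_on with
  | empty => simp [hδ.zero]
  | insert a s ha ih =>
    rw [Finset.sum_insert ha, Finset.sup_insert]
    exact (hδ.add_le _ _).trans (max_le_max le_rfl ih)

lemma sum_lt {ι : Type*} (s : Finset ι) (f : ι → V) {m : WithBot ℤ} (hm : ⊥ < m)
    (h : ∀ i ∈ s, δ (f i) < m) : δ (∑ i ∈ s, f i) < m :=
  (hδ.sum_le s f).trans_lt ((Finset.sup_lt_iff hm).2 h)

lemma ne_bot {v : V} (hv : v ≠ 0) : δ v ≠ ⊥ := fun h => hv ((hδ.eq_bot_iff v).1 h)

end IsNorm

/-! ### Reduced families and the reduction step -/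

section Reduction

variable {ι : Type*} [Fintype ι]
variable [Module k[X] V] [IsScalarTower k[X] (RatFunc k) V]

lemma IsNorm.polySmul {δ : V → WithBot ℤ} (hδ : IsNorm (k := k) δ) (a : k[X]) (v : V) :
    δ (a • v) = wdeg (algebraMap k[X] (RatFunc k) a) + δ v := by
  rw [← hδ.smul, algebraMap_smul]

/-- A family is reduced if the norm of a polynomial combination is the maximum of the norms
of its terms. -/
def IsReduced (δ : V → WithBot ℤ) (u : ι → V) : Prop :=
  ∀ a : ι → k[X],
    Finset.univ.sup (fun i => wdeg (algebraMap k[X] (RatFunc k) (a i)) + δ (u i)) ≤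
      δ (∑ i, a i • u i)

theorem exists_shorter_of_not_isReduced {δ : V → WithBot ℤ} (hδ : IsNorm (k := k) δ)
    (u : ι → V) (hu : ∀ i, u i ≠ 0) (hred : ¬ IsReduced (k := k) δ u) :
    ∃ (i₀ : ι) (c : ι → k[X]) (l : k), l ≠ 0 ∧ c i₀ = Polynomial.C l ∧
      δ (∑ i, c i • u i) < δ (u i₀) := by
  classical
  unfold IsReduced at hred
  simp only [not_forall, not_le] at hred
  obtain ⟨a, ha⟩ := hred
  have hd : ∀ i, ∃ d : ℤ, δ (u i) = (d : WithBot ℤ) := fun i =>
    (WithBot.ne_bot_iff_exists.mp (hδ.ne_bot (hu i))).imp fun d hd => hd.symm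
  choose d hd using hd
  set M := Finset.univ.sup
    (fun i => wdeg (algebraMap k[X] (RatFunc k) (a i)) + δ (u i)) with hM
  have hMbot : ⊥ < M := lt_of_le_of_lt bot_le ha
  obtain ⟨m, hm⟩ : ∃ m : ℤ, M = (m : WithBot ℤ) :=
    (WithBot.ne_bot_iff_exists.mp hMbot.ne').imp fun m hm => hm.symm
  -- (F1)
  have hF1 : ∀ i, wdeg (algebraMap k[X] (RatFunc k) (a i)) + (d i : WithBot ℤ) ≤ (m : WithBot ℤ) := by
    intro i
    rw [← hm, ← hd i]
    exact Finset.le_sup (f := fun i => wdeg (algebraMap k[X] (RatFunc k) (a i)) + δ (u i))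
      (Finset.mem_univ i)
  have hne : (Finset.univ : Finset ι).Nonempty := by
    by_contra h
    rw [Finset.not_nonempty_iff_eq_empty] at h
    rw [hM, h, Finset.sup_empty] at hMbot
    exact lt_irrefl _ hMbot
  obtain ⟨j, -, hj⟩ := Finset.exists_mem_eq_sup Finset.univ hne
    (fun i => wdeg (algebraMap k[X] (RatFunc k) (a i)) + δ (u i))
  set I := Finset.univ.filter
    (fun i => wdeg (algebraMap k[X] (RatFunc k) (a i)) + (d i : WithBot ℤ) = (m : WithBot ℤ)) with hI
  have hjI : j ∈ I := by
    rw [hI, Finset.mem_filter]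
    refine ⟨Finset.mem_univ j, ?_⟩
    rw [← hd j, ← hm, hM]
    exact hj.symm
  -- (F3)
  have hF3 : ∀ i ∈ I, a i ≠ 0 ∧ ((a i).natDegree : ℤ) + d i = m := by
    intro i hi
    rw [hI, Finset.mem_filter] at hi
    have h1 := hi.2
    have ha0 : a i ≠ 0 := by
      rintro h0
      rw [h0, map_zero, wdeg_zero, WithBot.bot_add] at h1
      exact WithBot.bot_ne_coe h1
    refine ⟨ha0, ?_⟩
    rw [wdeg_algebraMap ha0, ← WithBot.coe_add, WithBot.coe_inj] at h1
    exact h1
  have hnotI : ∀ i, i ∉ I →
      wdeg (algebraMap k[X] (RatFunc k) (a i)) + (d i : WithBot ℤ) < (m : WithBot ℤ) := by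
    intro i hi
    refine lt_of_le_of_ne (hF1 i) ?_
    intro h
    exact hi (by rw [hI, Finset.mem_filter]; exact ⟨Finset.mem_univ i, h⟩)
  obtain ⟨i₀, hi₀I, hi₀max⟩ := Finset.exists_max_image I d ⟨j, hjI⟩
  set e := (a i₀).natDegree with he
  have hem : (e : ℤ) + d i₀ = m := (hF3 i₀ hi₀I).2
  set c : ι → k[X] := fun i =>
    if i ∈ I then Polynomial.C (a i).leadingCoeff * Polynomial.X ^ (d i₀ - d i).toNat else 0
    with hc
  set r : ι → k[X] := fun i =>
    a i - (if i ∈ I then Polynomial.C (a i).leadingCoeff * Polynomial.X ^ (a i).natDegree else 0)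
    with hr
  have hkey : ∀ i, Polynomial.X ^ e * c i = a i - r i := by
    intro i
    simp only [hc, hr]
    by_cases hi : i ∈ I
    · rw [if_pos hi, if_pos hi, sub_sub_cancel]
      have h1 := (hF3 i hi).2
      have h2 := hi₀max i hi
      have h3 : e + (d i₀ - d i).toNat = (a i).natDegree := by
        have : ((d i₀ - d i).toNat : ℤ) = d i₀ - d i := Int.toNat_of_nonneg (by omega)
        omega
      rw [← h3, pow_add]
      ring
    · rw [if_neg hi, if_neg hi]
      simp
  refine ⟨i₀, c, (a i₀).leadingCoeff, ?_, ?_, ?_⟩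
  · exact Polynomial.leadingCoeff_ne_zero.mpr (hF3 i₀ hi₀I).1
  · simp only [hc]
    rw [if_pos hi₀I, sub_self, Int.toNat_zero, pow_zero, mul_one]
  · -- the main estimate
    have hsplit : (Polynomial.X ^ e : k[X]) • (∑ i, c i • u i) =
        (∑ i, a i • u i) - ∑ i, r i • u i := by
      rw [Finset.smul_sum, ← Finset.sum_sub_distrib]
      refine Finset.sum_congr rfl fun i _ => ?_
      rw [smul_smul, hkey i, sub_smul]
    have hr_lt : ∀ i ∈ (Finset.univ : Finset ι), δ (r i • u i) < (m : WithBot ℤ) := by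
      intro i _
      rw [hδ.polySmul, hd i]
      by_cases hi : i ∈ I
      · have hri : r i = (a i).eraseLead := by
          simp only [hr]
          rw [if_pos hi, sub_eq_iff_eq_add]
          exact (Polynomial.eraseLead_add_C_mul_X_pow (a i)).symm
        rw [hri]
        by_cases h0 : (a i).eraseLead = 0
        · rw [h0, map_zero, wdeg_zero, WithBot.bot_add]
          exact WithBot.bot_lt_coe _
        · have h := (Polynomial.eraseLead_natDegree_lt_or_eraseLead_eq_zero (a i)).resolve_right h0
          rw [wdeg_algebraMap h0, ← WithBot.coe_add, WithBot.coe_lt_coe]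
          have := (hF3 i hi).2
          omega
      · have hri : r i = a i := by
          simp only [hr]
          rw [if_neg hi, sub_zero]
        rw [hri]
        exact hnotI i hi
    have h1 : δ ((Polynomial.X ^ e : k[X]) • (∑ i, c i • u i)) < (m : WithBot ℤ) := by
      rw [hsplit]
      refine lt_of_le_of_lt (hδ.sub_le _ _) (max_lt ?_ ?_)
      · rw [← hm]; exact ha
      · exact hδ.sum_lt _ _ (WithBot.bot_lt_coe _) hr_lt
    rw [hδ.polySmul] at h1
    have hX : wdeg (algebraMap k[X] (RatFunc k) (Polynomial.X ^ e)) = ((e : ℤ) : WithBot ℤ) := by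
      have := wdeg_C_mul_X_pow (k := k) (one_ne_zero) e
      rwa [map_one, one_mul] at this
    rw [hX] at h1
    have h2 := withBot_lt_of_add_lt h1
    rw [hd i₀]
    have : m - (e : ℤ) = d i₀ := by omega
    rwa [this] at h2

end Reduction

/-! ### Existence of reduced generating families -/

section Existence

set_option linter.unusedSectionVars false

variable {ι : Type*} [Fintype ι] [DecidableEq ι]
variable [Module k[X] V] [IsScalarTower k[X] (RatFunc k) V]

/-- A family of the right cardinality generating a full lattice is linearly independent over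
the fraction field. -/
lemma linearIndependent_of_span_eq (L : Submodule k[X] V)
    (hLtop : Submodule.span (RatFunc k) (L : Set V) = ⊤)
    (hcard : Fintype.card ι = Module.finrank (RatFunc k) V)
    (u : ι → V) (hu : Submodule.span k[X] (Set.range u) = L) :
    LinearIndependent (RatFunc k) u := by
  apply linearIndependent_of_top_le_span_of_card_eq_finrank _ hcard
  rw [← hLtop]
  apply Submodule.span_le.mpr
  intro v hv
  have hv' : v ∈ Submodule.span k[X] (Set.range u) := by rw [hu]; exact hv
  exact Submodule.span_le_restrictScalars k[X] (RatFunc k) (Set.range u) hv'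

lemma span_update_eq (L : Submodule k[X] V) (u : ι → V)
    (hu : Submodule.span k[X] (Set.range u) = L) (i₀ : ι) (c : ι → k[X]) (l : k) (hl : l ≠ 0)
    (hc : c i₀ = Polynomial.C l) :
    Submodule.span k[X] (Set.range (Function.update u i₀ (∑ i, c i • u i))) = L := by
  set v := ∑ i, c i • u i with hv
  have hvL : v ∈ Submodule.span k[X] (Set.range u) :=
    Submodule.sum_mem _ fun i _ => Submodule.smul_mem _ _ (Submodule.subset_span ⟨i, rfl⟩)
  apply le_antisymm
  · rw [Submodule.span_le]
    rintro _ ⟨i, rfl⟩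
    by_cases h : i = i₀
    · subst h
      rw [Function.update_self, ← hu]
      exact hvL
    · rw [Function.update_of_ne h, ← hu]
      exact Submodule.subset_span ⟨i, rfl⟩
  · rw [← hu, Submodule.span_le]
    rintro _ ⟨i, rfl⟩
    by_cases h : i = i₀
    · subst h
      have hv1 : v = Polynomial.C l • u i + ∑ j ∈ Finset.univ.erase i, c j • u j := by
        rw [← hc]
        exact (Finset.add_sum_erase _ _ (Finset.mem_univ i)).symm
      have hui : u i = Polynomial.C l⁻¹ • (v - ∑ j ∈ Finset.univ.erase i, c j • u j) := by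
        rw [hv1, add_sub_cancel_right, smul_smul, ← Polynomial.C_mul, inv_mul_cancel₀ hl,
          Polynomial.C_1, one_smul]
      show u i ∈ _
      rw [hui]
      apply Submodule.smul_mem
      apply Submodule.sub_mem
      · exact Submodule.subset_span ⟨i, Function.update_self _ _ _⟩
      · apply Submodule.sum_mem
        intro j hj
        apply Submodule.smul_mem
        exact Submodule.subset_span ⟨j, Function.update_of_ne (Finset.ne_of_mem_erase hj) _ _⟩
    · exact Submodule.subset_span ⟨i, Function.update_of_ne h _ _⟩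

theorem exists_isReduced {δ : V → WithBot ℤ} (hδ : IsNorm (k := k) δ) (L : Submodule k[X] V)
    (hLtop : Submodule.span (RatFunc k) (L : Set V) = ⊤)
    (hcard : Fintype.card ι = Module.finrank (RatFunc k) V)
    (hlow : ∃ c : ℤ, ∀ v ∈ L, v ≠ 0 → (c : WithBot ℤ) ≤ δ v)
    (hne : ∃ u₀ : ι → V, Submodule.span k[X] (Set.range u₀) = L) :
    ∃ u : ι → V, Submodule.span k[X] (Set.range u) = L ∧ IsReduced (k := k) δ u := by
  obtain ⟨c, hc⟩ := hlow
  obtain ⟨u₀, hu₀⟩ := hne
  let P : ℤ → Prop := fun z =>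
    ∃ u : ι → V, Submodule.span k[X] (Set.range u) = L ∧ ∑ i, (δ (u i)).unbotD 0 = z
  have hge : ∀ u : ι → V, Submodule.span k[X] (Set.range u) = L → ∀ i, c ≤ (δ (u i)).unbotD 0 := by
    intro u hu i
    have hli := linearIndependent_of_span_eq L hLtop hcard u hu
    have hmem : u i ∈ L := by rw [← hu]; exact Submodule.subset_span ⟨i, rfl⟩
    have h1 := hc (u i) hmem (hli.ne_zero i)
    obtain ⟨d, hd⟩ := WithBot.ne_bot_iff_exists.mp (hδ.ne_bot (hli.ne_zero i))
    rw [← hd] at h1 ⊢
    rw [WithBot.unbotD_coe]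
    exact WithBot.coe_le_coe.mp h1
  have hb : ∃ b : ℤ, ∀ z : ℤ, P z → b ≤ z := by
    refine ⟨∑ _i : ι, c, ?_⟩
    rintro z ⟨u, hu, rfl⟩
    exact Finset.sum_le_sum fun i _ => hge u hu i
  obtain ⟨z, ⟨u, hu, hz⟩, hmin⟩ := Int.exists_least_of_bdd hb ⟨_, u₀, hu₀, rfl⟩
  refine ⟨u, hu, ?_⟩
  by_contra hred
  have hli := linearIndependent_of_span_eq L hLtop hcard u hu
  obtain ⟨i₀, cc, l, hl, hci₀, hlt⟩ :=
    exists_shorter_of_not_isReduced hδ u (fun i => hli.ne_zero i) hred
  have hu' := span_update_eq L u hu i₀ cc l hl hci₀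
  set v := ∑ i, cc i • u i with hv
  set u' := Function.update u i₀ v with hu'def
  have hli' := linearIndependent_of_span_eq L hLtop hcard u' hu'
  have hv0 : v ≠ 0 := by
    have h := hli'.ne_zero i₀
    rwa [hu'def, Function.update_self] at h
  have hlt' : ∑ i, (δ (u' i)).unbotD 0 < ∑ i, (δ (u i)).unbotD 0 := by
    apply Finset.sum_lt_sum
    · intro i _
      by_cases h : i = i₀
      · subst h
        rw [hu'def, Function.update_self]
        obtain ⟨d, hd⟩ := WithBot.ne_bot_iff_exists.mp (hδ.ne_bot hv0)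
        obtain ⟨d', hd'⟩ := WithBot.ne_bot_iff_exists.mp (hδ.ne_bot (hli.ne_zero i))
        rw [← hd, ← hd'] at hlt
        rw [← hd, ← hd', WithBot.unbotD_coe, WithBot.unbotD_coe]
        exact (WithBot.coe_lt_coe.mp hlt).le
      · rw [hu'def, Function.update_of_ne h]
    · refine ⟨i₀, Finset.mem_univ _, ?_⟩
      rw [hu'def, Function.update_self]
      obtain ⟨d, hd⟩ := WithBot.ne_bot_iff_exists.mp (hδ.ne_bot hv0)
      obtain ⟨d', hd'⟩ := WithBot.ne_bot_iff_exists.mp (hδ.ne_bot (hli.ne_zero i₀))
      rw [← hd, ← hd'] at hlt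
      rw [← hd, ← hd', WithBot.unbotD_coe, WithBot.unbotD_coe]
      exact WithBot.coe_lt_coe.mp hlt
  have := hmin _ ⟨u', hu', rfl⟩
  rw [← hz] at this
  exact absurd this (not_le.mpr hlt')

end Existence

/-! ### The norm attached to a basis, and the final theorem -/

section Final

open Module

variable {ι : Type*} [Fintype ι] [DecidableEq ι]
variable [Module k[X] V] [IsScalarTower k[X] (RatFunc k) V]

lemma wdeg_le_coe_iff (c : RatFunc k) (m : ℤ) :
    wdeg c ≤ (m : WithBot ℤ) ↔ c = 0 ∨ c.intDegree ≤ m := by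
  by_cases hc : c = 0
  · simp [hc]
  · rw [wdeg_of_ne hc, WithBot.coe_le_coe]
    simp [hc]

lemma wdeg_add_coe_le_zero_iff (c : RatFunc k) (d : ℤ) :
    wdeg c + (d : WithBot ℤ) ≤ 0 ↔ c = 0 ∨ c.intDegree ≤ -d := by
  by_cases hc : c = 0
  · simp [hc]
  · rw [wdeg_of_ne hc, ← WithBot.coe_add, ← WithBot.coe_zero, WithBot.coe_le_coe]
    simp only [hc, false_or]
    omega

omit [DecidableEq ι] in
theorem norm_sum_eq_of_isReduced {δ : V → WithBot ℤ} (hδ : IsNorm (k := k) δ) (u : ι → V)
    (hred : IsReduced (k := k) δ u) (c : ι → RatFunc k) :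
    δ (∑ i, c i • u i) = Finset.univ.sup (fun i => wdeg (c i) + δ (u i)) := by
  apply le_antisymm
  · refine (hδ.sum_le _ _).trans ?_
    simp only [hδ.smul]
    exact le_rfl
  · obtain ⟨⟨g, hg⟩, hgi⟩ :=
      IsLocalization.exist_integer_multiples (nonZeroDivisors k[X]) Finset.univ c
    have hg0 : g ≠ 0 := nonZeroDivisors.ne_zero hg
    choose a ha using fun i => hgi i (Finset.mem_univ i)
    have ha' : ∀ i, algebraMap k[X] (RatFunc k) (a i) = algebraMap k[X] (RatFunc k) g * c i := by
      intro i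
      rw [ha i, Algebra.smul_def]
    have h1 : ∑ i, a i • u i = g • ∑ i, c i • u i := by
      rw [Finset.smul_sum]
      refine Finset.sum_congr rfl fun i _ => ?_
      rw [← algebraMap_smul (RatFunc k) (a i) (u i), ha' i, mul_smul, algebraMap_smul]
    have h2 := hred a
    rw [h1, hδ.polySmul] at h2
    simp only [ha', wdeg_mul, add_assoc] at h2
    rw [withBot_add_sup, wdeg_algebraMap hg0] at h2
    exact withBot_le_of_add_le_add_left h2

/-- The sup-norm attached to a basis `e` (the gauge of the lattice at infinity spanned by `e`). -/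
noncomputable def basisNorm (e : Basis ι (RatFunc k) V) (v : V) : WithBot ℤ :=
  Finset.univ.sup (fun j => wdeg (e.repr v j))

omit [DecidableEq ι] [Module k[X] V] [IsScalarTower k[X] (RatFunc k) V] in
lemma isNorm_basisNorm (e : Basis ι (RatFunc k) V) : IsNorm (k := k) (basisNorm e) where
  eq_bot_iff v := by
    unfold basisNorm
    rw [Finset.sup_eq_bot_iff]
    constructor
    · intro h
      have h0 : e.repr v = 0 :=
        Finsupp.ext fun j => wdeg_eq_bot_iff.mp (h j (Finset.mem_univ j))
      exact (LinearEquiv.map_eq_zero_iff _).mp h0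
    · rintro rfl j _
      simp
  smul c v := by
    unfold basisNorm
    simp only [map_smul, Finsupp.smul_apply, smul_eq_mul, wdeg_mul]
    exact withBot_add_sup _ _ _
  add_le v w := by
    unfold basisNorm
    apply Finset.sup_le
    intro j _
    rw [map_add, Finsupp.add_apply]
    exact (wdeg_add_le _ _).trans (max_le_max
      (Finset.le_sup (f := fun j => wdeg (e.repr v j)) (Finset.mem_univ j))
      (Finset.le_sup (f := fun j => wdeg (e.repr w j)) (Finset.mem_univ j)))

omit [DecidableEq ι] [Module k[X] V] [IsScalarTower k[X] (RatFunc k) V] in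
lemma basisNorm_le_zero_iff (e : Basis ι (RatFunc k) V) (v : V) :
    basisNorm e v ≤ 0 ↔ ∀ j, e.repr v j = 0 ∨ (e.repr v j).intDegree ≤ 0 := by
  unfold basisNorm
  rw [Finset.sup_le_iff]
  constructor
  · intro h j
    have := h j (Finset.mem_univ j)
    rw [← WithBot.coe_zero] at this
    exact (wdeg_le_coe_iff _ 0).mp this
  · intro h j _
    rw [← WithBot.coe_zero]
    exact (wdeg_le_coe_iff _ 0).mpr (h j)

omit [DecidableEq ι] in
lemma basisNorm_lower_bound (b e : Basis ι (RatFunc k) V) :
    ∃ c : ℤ, ∀ v ∈ Submodule.span k[X] (Set.range b), v ≠ 0 → (c : WithBot ℤ) ≤ basisNorm e v := by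
  classical
  -- a bound for the entries of the change of basis matrix
  set S : WithBot ℤ := Finset.univ.sup (fun p : ι × ι => wdeg (b.repr (e p.2) p.1)) with hS
  set C : ℤ := S.unbotD 0 with hC
  have hentry : ∀ i j, wdeg (b.repr (e j) i) ≤ (C : WithBot ℤ) := by
    intro i j
    refine le_trans ?_ (WithBot.le_coe_unbotD S 0)
    exact Finset.le_sup (f := fun p : ι × ι => wdeg (b.repr (e p.2) p.1)) (Finset.mem_univ (i, j))
  refine ⟨-C, ?_⟩
  intro v hv hv0
  obtain ⟨a, rfl⟩ := (Submodule.mem_span_range_iff_exists_fun k[X]).mp hv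
  -- some coefficient is non-zero
  obtain ⟨i, hi⟩ : ∃ i, a i ≠ 0 := by
    by_contra h
    simp only [not_exists, not_not] at h
    apply hv0
    simp [h]
  set v := ∑ i, a i • b i with hvdef
  have hrepr : b.repr v i = algebraMap k[X] (RatFunc k) (a i) := by
    have : v = ∑ i, (algebraMap k[X] (RatFunc k) (a i)) • b i := by
      rw [hvdef]
      exact Finset.sum_congr rfl fun i _ => (algebraMap_smul (RatFunc k) (a i) (b i)).symm
    rw [this, b.repr_sum_self]
  have hexp : b.repr v i = ∑ j, e.repr v j * b.repr (e j) i := by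
    conv_lhs => rw [← e.sum_repr v]
    rw [map_sum, Finsupp.coe_finsetSum, Finset.sum_apply]
    refine Finset.sum_congr rfl fun j _ => ?_
    rw [map_smul, Finsupp.smul_apply, smul_eq_mul]
  have hne : basisNorm e v ≠ ⊥ := (isNorm_basisNorm e).ne_bot hv0
  obtain ⟨t, ht⟩ := WithBot.ne_bot_iff_exists.mp hne
  -- estimate
  have h1 : wdeg (b.repr v i) ≤ ((t + C : ℤ) : WithBot ℤ) := by
    rw [hexp]
    -- ultrametric inequality for finite sums in `RatFunc k`
    have hsum : ∀ (s : Finset ι) (f : ι → RatFunc k) (m : WithBot ℤ),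
        (∀ j ∈ s, wdeg (f j) ≤ m) → wdeg (∑ j ∈ s, f j) ≤ m := by
      intro s f m
      induction s using Finset.induction_on with
      | empty => intro _; simp
      | insert x s hx ih =>
        intro h
        rw [Finset.sum_insert hx]
        exact (wdeg_add_le _ _).trans (max_le (h x (Finset.mem_insert_self x s))
          (ih fun j hj => h j (Finset.mem_insert_of_mem hj)))
    apply hsum
    intro j _
    rw [wdeg_mul, WithBot.coe_add]
    refine add_le_add ?_ (hentry i j)
    rw [ht]
    exact Finset.le_sup (f := fun j => wdeg (e.repr v j)) (Finset.mem_univ j)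
  rw [hrepr, wdeg_algebraMap hi, WithBot.coe_le_coe] at h1
  rw [← ht, WithBot.coe_le_coe]
  have : (0 : ℤ) ≤ ((a i).natDegree : ℤ) := Int.natCast_nonneg _
  omega

/-- **Dedekind–Weber normal basis theorem.**  Let `b` and `e` be two bases of a finite dimensional
`k(X)`-vector space `V`.  Let `L` be the `k[X]`-lattice spanned by `b` and let `L∞` be the lattice at
infinity spanned by `e` (vectors whose `e`-coordinates have degree `≤ 0`).
Then there is a basis `u` of `V` and integers `d i` such that `u` is a `k[X]`-basis of `L` and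
`X^(-d i) u i` is a basis of `L∞` over the valuation ring at infinity. -/
theorem exists_normal_basis (b e : Basis ι (RatFunc k) V) :
    ∃ (u : Basis ι (RatFunc k) V) (d : ι → ℤ),
      Submodule.span k[X] (Set.range u) = Submodule.span k[X] (Set.range b) ∧
      (∀ i, basisNorm e (u i) = (d i : WithBot ℤ)) ∧
      (∀ c : ι → RatFunc k,
        basisNorm e (∑ i, c i • u i) = Finset.univ.sup (fun i => wdeg (c i) + (d i : WithBot ℤ))) ∧
      ∀ v : V, (∀ j, e.repr v j = 0 ∨ (e.repr v j).intDegree ≤ 0) ↔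
        ∀ i, u.repr v i = 0 ∨ (u.repr v i).intDegree ≤ - d i := by
  classical
  have : FiniteDimensional (RatFunc k) V := Module.Finite.of_basis b
  set L := Submodule.span k[X] (Set.range b) with hL
  have hδ := isNorm_basisNorm (k := k) e
  have hLtop : Submodule.span (RatFunc k) (L : Set V) = ⊤ := by
    rw [eq_top_iff, ← b.span_eq]
    apply Submodule.span_mono
    exact Submodule.subset_span
  have hcard : Fintype.card ι = Module.finrank (RatFunc k) V :=
    (Module.finrank_eq_card_basis b).symm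
  obtain ⟨u, hu, hred⟩ := exists_isReduced hδ L hLtop hcard (basisNorm_lower_bound b e) ⟨b, rfl⟩
  have hli := linearIndependent_of_span_eq L hLtop hcard u hu
  set U : Basis ι (RatFunc k) V := basisOfLinearIndependentOfCardEqFinrank' u hli hcard with hU
  have hUu : ⇑U = u := coe_basisOfLinearIndependentOfCardEqFinrank' u hli hcard
  have hd : ∀ i, ∃ d : ℤ, basisNorm e (u i) = (d : WithBot ℤ) := fun i =>
    (WithBot.ne_bot_iff_exists.mp (hδ.ne_bot (hli.ne_zero i))).imp fun d hd => hd.symm
  choose d hd using hd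
  have hformula : ∀ c : ι → RatFunc k,
      basisNorm e (∑ i, c i • u i) = Finset.univ.sup (fun i => wdeg (c i) + (d i : WithBot ℤ)) := by
    intro c
    rw [norm_sum_eq_of_isReduced hδ u hred c]
    simp only [hd]
  refine ⟨U, d, ?_, ?_, ?_, ?_⟩
  · rw [hUu]; exact hu
  · intro i; rw [hUu]; exact hd i
  · intro c; rw [hUu]; exact hformula c
  · intro v
    rw [← basisNorm_le_zero_iff]
    have hv : v = ∑ i, U.repr v i • u i := by
      conv_lhs => rw [← U.sum_repr v]
      rw [hUu]
    conv_lhs => rw [hv, hformula]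
    rw [Finset.sup_le_iff]
    constructor
    · intro h i
      exact (wdeg_add_coe_le_zero_iff _ _).mp (h i (Finset.mem_univ i))
    · intro h i _
      exact (wdeg_add_coe_le_zero_iff _ _).mpr (h i)

/-- Variant of `exists_normal_basis` in terms of the rescaled basis `w i = X^(-d i) • u i`:
the lattice at infinity spanned by `e` equals the lattice at infinity spanned by `w`. -/
theorem exists_normal_basis' (b e : Basis ι (RatFunc k) V) :
    ∃ (u w : Basis ι (RatFunc k) V) (d : ι → ℤ),
      Submodule.span k[X] (Set.range u) = Submodule.span k[X] (Set.range b) ∧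
      (∀ i, w i = ((RatFunc.X : RatFunc k) ^ (-d i)) • u i) ∧
      ∀ v : V, (∀ j, e.repr v j = 0 ∨ (e.repr v j).intDegree ≤ 0) ↔
        ∀ i, w.repr v i = 0 ∨ (w.repr v i).intDegree ≤ 0 := by
  obtain ⟨u, d, hu, -, -, hchar⟩ := exists_normal_basis (k := k) b e
  have hX : (RatFunc.X : RatFunc k) ≠ 0 := RatFunc.X_ne_zero
  have hunit : ∀ i, IsUnit ((RatFunc.X : RatFunc k) ^ (-d i)) := fun i =>
    (zpow_ne_zero _ hX).isUnit
  refine ⟨u, u.unitsSMul (fun i => (hunit i).unit), d, hu, ?_, ?_⟩
  · intro i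
    rw [Basis.unitsSMul_apply]
    rfl
  · intro v
    rw [hchar v]
    have hrepr : ∀ i, (u.unitsSMul (fun i => (hunit i).unit)).repr v i =
        (RatFunc.X : RatFunc k) ^ (d i) * u.repr v i := by
      intro i
      rw [Basis.repr_unitsSMul, Units.smul_def, smul_eq_mul]
      congr 1
      rw [Units.val_inv_eq_inv_val, IsUnit.unit_spec, zpow_neg, inv_inv]
    have hXdeg : ∀ n : ℤ, ((RatFunc.X : RatFunc k) ^ n).intDegree = n := by
      intro n
      induction n using Int.induction_on with
      | zero => simp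
      | succ n ih =>
        rw [zpow_add_one₀ hX, RatFunc.intDegree_mul (zpow_ne_zero _ hX) hX, ih,
          RatFunc.intDegree_X]
      | pred n ih =>
        rw [zpow_sub_one₀ hX, RatFunc.intDegree_mul (zpow_ne_zero _ hX) (inv_ne_zero hX), ih,
          RatFunc.intDegree_inv, RatFunc.intDegree_X]
        ring
    refine forall_congr' fun i => ?_
    rw [hrepr i]
    by_cases h0 : u.repr v i = 0
    · simp [h0]
    · have hne : (RatFunc.X : RatFunc k) ^ (d i) * u.repr v i ≠ 0 :=
        mul_ne_zero (zpow_ne_zero _ hX) h0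
      rw [RatFunc.intDegree_mul (zpow_ne_zero _ hX) h0, hXdeg]
      simp only [h0, hne, false_or]
      omega

end Final

end Fermat.Agent.S20.NormalBasis64
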