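/-
S20 / T3-REALIZE part 2 (helper71): cusp meromorphy (R4) and the `q`-expansion bridge (R3) for the
analytic realisation `psi N ι : FN N →ₐ[Kbar] Mer` of `Realize.lean`.

* `realizationAt N ι δ`     : the twisted realisation `x ↦ δ • psi x` (again a `MerPhi.Realization`)
* `smul_psi_mem_cuspField`  : **(R4)** `δ • psi x ∈ CuspPlace.cuspField N` for all `δ ∈ SL(2,ℤ)`
* `realizationAt_mem_cuspField` : the hypothesis `hR` of `CuspPlace` for every `realizationAt N ι δ`
* `hasQExp_evalHol`, `exists_qexp_frac` : **(R3)** `psi x = a / b` with `a, b ∈ Hol` having global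
  `q`-expansions `A`, `B` (S24 `HasQExp 1`) and `coeffMap ι x * B = A`.
-/
import Fermat.Agent.S20.Realize
import Fermat.Agent.S20.CuspPlace
import Fermat.Agent.S24.HasQExp

set_option autoImplicit false
set_option linter.style.haveILetI false

open UpperHalfPlane ModularCurve
open scoped MatrixGroups

namespace Fermat.Agent.S20.Realize

open Fermat.Agent.S24 Fermat.Agent.S24.HolH Fermat.Agent.S20.MerPhi
open Fermat.Agent.S20.CuspRing Fermat.Agent.S20.CuspPlace

variable (N : ℕ) [NeZero N] (ι : Kbar →+* ℂ)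

/-! ### A generation principle for `F_N` -/

/-- Generic generation principle: an algebra hom out of `Fd = K(s)` takes values in a subfield `S`
as soon as the constants and the generators are mapped into `S`. -/
theorem forall_mem_subfield_gen {K E M' : Type*} [Field K] [Field E] [Algebra K E] [Field M']
    [Algebra K M'] {Fd : IntermediateField K E} {s : Set E}
    (hF : Fd = IntermediateField.adjoin K s) (f : Fd →ₐ[K] M') (S : Subfield M')
    (hK : ∀ c : K, algebraMap K M' c ∈ S)
    (hgen : ∀ y (hy : y ∈ s), f ⟨y, hF.ge (IntermediateField.subset_adjoin K s hy)⟩ ∈ S)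
    (x : Fd) : f x ∈ S := by
  subst hF
  obtain ⟨x, hx⟩ := x
  induction hx using IntermediateField.adjoin_induction with
  | mem y hy => exact hgen y hy
  | algebraMap c =>
    have : f ⟨algebraMap K E c, IntermediateField.algebraMap_mem _ c⟩ = algebraMap K M' c :=
      f.commutes c
    rw [this]
    exact hK c
  | add a b ha hb iha ihb =>
    have : f ⟨a + b, add_mem ha hb⟩ = f ⟨a, ha⟩ + f ⟨b, hb⟩ := map_add f ⟨a, ha⟩ ⟨b, hb⟩
    rw [this]
    exact S.add_mem iha ihb
  | inv a ha iha =>
    have : f ⟨a⁻¹, inv_mem ha⟩ = (f ⟨a, ha⟩)⁻¹ := map_inv₀ f ⟨a, ha⟩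
    rw [this]
    exact S.inv_mem iha
  | mul a b ha hb iha ihb =>
    have : f ⟨a * b, mul_mem ha hb⟩ = f ⟨a, ha⟩ * f ⟨b, hb⟩ := map_mul f ⟨a, ha⟩ ⟨b, hb⟩
    rw [this]
    exact S.mul_mem iha ihb

/-- To show that a `Kbar`-algebra hom `f` from `F_N` into a field takes values in a subfield `S`
it suffices to check the constants and the generators `x_d = j(q^d)`, `d ∣ N`. -/
theorem forall_mem_subfield {M' : Type*} [Field M'] [Algebra Kbar M'] (f : FN N →ₐ[Kbar] M')
    (S : Subfield M') (hK : ∀ c : Kbar, algebraMap Kbar M' c ∈ S)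
    (hgen : ∀ d : Mod.Dv N, f ⟨Mod.xK N d, Br46.xK_mem N d⟩ ∈ S) (x : FN N) : f x ∈ S :=
  forall_mem_subfield_gen (Br46.modularFunctionFieldBar_eq_adjoin N) f S hK
    (by rintro _ ⟨d, rfl⟩; exact hgen d) x

/-! ### (R4) cusp meromorphy of all `SL(2,ℤ)`-translates -/

lemma smul_jd_mem_cuspRing (δ : SL(2, ℤ)) (d : Mod.Dv N) :
    δ • jd d.1 ∈ cuspRing N := by
  have hd : (0 : ℤ) < (d.1 : ℤ) := by exact_mod_cast Nat.pos_of_ne_zero (NeZero.ne d.1)
  have hdN : (d.1 : ℤ) ∣ (N : ℤ) := Int.natCast_dvd_natCast.mpr d.2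
  refine (conj_mem_cuspRing (N := N) (d.1 : ℤ) hd hdN δ⁻¹ (δ • jd d.1) ?_).1
  intro τ z hz
  show JAnalytic.jFun (RelJ.dil d.1 (δ⁻¹ • τ)) = _
  congr 1
  apply UpperHalfPlane.ext
  rw [hz, RelJ.coe_dil]
  push_cast
  rfl

/-- **(R4)** every `SL(2,ℤ)`-translate of the realisation of an element of `F_N` is a quotient of
elements of the cusp ring `P_N`. -/
theorem smul_psi_mem_cuspField (δ : SL(2, ℤ)) (x : FN N) :
    δ • psi N ι x ∈ cuspField N := by
  letI := algK ι
  have h := forall_mem_subfield N ((actHom ι δ).comp (psi N ι)) (cuspField N)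
    (fun c => const_mem_cuspField (N := N) (ι c)) (fun d => ?_) x
  · exact h
  · show δ • psi N ι ⟨Mod.xK N d, _⟩ ∈ cuspField N
    rw [psi_xK, Mer.smul_algebraMap]
    exact ofHol_mem_cuspField (smul_jd_mem_cuspRing N δ d)

theorem psi_mem_cuspField (x : FN N) : psi N ι x ∈ cuspField N := by
  have := smul_psi_mem_cuspField N ι 1 x
  rwa [one_smul] at this

/-- The twisted realisation `x ↦ δ • psi x` (the realisation seen from the cusp `δ⁻¹ ∞`). -/
noncomputable def realizationAt (δ : SL(2, ℤ)) : Realization Kbar (FN N) where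
  ι := ι
  φ := letI := algK ι; ((actHom ι δ).comp (psi N ι)).toRingHom
  map_const := fun c => by
    show δ • psi N ι (algebraMap Kbar (FN N) c) = _
    rw [psi_algebraMap, smul_algebraMap_complex]

lemma realizationAt_φ_apply (δ : SL(2, ℤ)) (x : FN N) :
    (realizationAt N ι δ).φ x = δ • (realization N ι).φ x := rfl

lemma realizationAt_one : realizationAt N ι 1 = realization N ι := by
  have hφ : (realizationAt N ι 1).φ = (realization N ι).φ := by
    ext x
    rw [realizationAt_φ_apply, one_smul]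
  cases h1 : realizationAt N ι 1
  cases h2 : realization N ι
  simp only [Realization.mk.injEq]
  rw [h1, h2] at hφ
  have hι : (realizationAt N ι 1).ι = (realization N ι).ι := rfl
  rw [h1, h2] at hι
  exact ⟨hι, hφ⟩

/-- The hypothesis `hR` of `CuspPlace` holds for every twisted realisation. -/
theorem realizationAt_mem_cuspField (δ : SL(2, ℤ)) (y : FN N) :
    (realizationAt N ι δ).φ y ∈ cuspField N :=
  smul_psi_mem_cuspField N ι δ y

theorem realization_mem_cuspField (y : FN N) : (realization N ι).φ y ∈ cuspField N :=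
  psi_mem_cuspField N ι y


/-! ### (R3) the `q`-expansion bridge -/

/-- The function `j(dτ)` has the `q`-expansion `coeffMap ι (x_d)`. -/
lemma hasQExp_jd (d : Mod.Dv N) :
    HasQExp 1 (jd d.1 : ℍ → ℂ) (coeffMap ι (Mod.xK N d)) :=
  RelJ.hasQExp_jFun_dilate_coeffEmb ι d.1 (RelJ.dil d.1) (RelJ.coe_dil d.1)

/-- A polynomial (with `Kbar`-coefficients) in the functions `j(dτ)` has as `q`-expansion the same
polynomial in the formal series `x_d`, pushed to `ℂ((q))` along `ι`. -/
theorem hasQExp_evalHol (P : MvPolynomial (Mod.Dv N) Kbar) :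
    HasQExp 1 (evalHol N ι P : ℍ → ℂ) (coeffMap ι (MvPolynomial.aeval (Mod.xK N) P)) := by
  induction P using MvPolynomial.induction_on with
  | C c =>
    have h1 : (evalHol N ι (MvPolynomial.C c) : ℍ → ℂ) = fun _ => ι c := by
      funext τ
      rw [evalHol_apply, MvPolynomial.eval₂_C]
    have h2 : coeffMap ι (MvPolynomial.aeval (Mod.xK N) (MvPolynomial.C c)) = HahnSeries.C (ι c) := by
      rw [MvPolynomial.aeval_C, algebraMap_laurentSeries_eq_single, coeffMap_single,
        HahnSeries.C_apply]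
    rw [h1, h2]
    exact HasQExp.const 1 (ι c)
  | add p q hp hq =>
    have h1 : (evalHol N ι (p + q) : ℍ → ℂ) =
        fun τ => (evalHol N ι p : ℍ → ℂ) τ + (evalHol N ι q : ℍ → ℂ) τ := by
      funext τ
      simp only [evalHol_apply, MvPolynomial.eval₂_add]
    rw [h1, map_add, map_add]
    exact HasQExp.add hp hq
  | mul_X p d hp =>
    have h1 : (evalHol N ι (p * MvPolynomial.X d) : ℍ → ℂ) =
        fun τ => (evalHol N ι p : ℍ → ℂ) τ * (jd d.1 : ℍ → ℂ) τ := by
      funext τ
      simp only [evalHol_apply, MvPolynomial.eval₂_mul, MvPolynomial.eval₂_X, jd_apply]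
    rw [h1, map_mul, map_mul, MvPolynomial.aeval_X]
    exact HasQExp.mul hp (hasQExp_jd N ι d)


/-- Generic: every element of `Fd = K(i k : k)` is a quotient of polynomials in the generators,
compatibly with any algebra hom out of `Fd`. -/
theorem exists_frac_gen {K E M' ι' : Type*} [Field K] [Field E] [Algebra K E] [Field M']
    [Algebra K M'] (i : ι' → E) {Fd : IntermediateField K E}
    (hF : Fd = IntermediateField.adjoin K (Set.range i)) (f : Fd →ₐ[K] M') (x : Fd) :
    ∃ r s : MvPolynomial ι' K, MvPolynomial.aeval i s ≠ 0 ∧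
      (x : E) * MvPolynomial.aeval i s = MvPolynomial.aeval i r ∧
      f x * MvPolynomial.aeval (fun k => f ⟨i k, hF.ge (IntermediateField.subset_adjoin K _
          (Set.mem_range_self k))⟩) s =
        MvPolynomial.aeval (fun k => f ⟨i k, hF.ge (IntermediateField.subset_adjoin K _
          (Set.mem_range_self k))⟩) r := by
  subst hF
  set g : ι' → IntermediateField.adjoin K (Set.range i) :=
    fun k => ⟨i k, IntermediateField.subset_adjoin K _ (Set.mem_range_self k)⟩ with hg
  have hval : ∀ P : MvPolynomial ι' K,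
      ((MvPolynomial.aeval g P : IntermediateField.adjoin K (Set.range i)) : E) =
        MvPolynomial.aeval i P := by
    intro P
    exact MvPolynomial.comp_aeval_apply (f := g)
      (IntermediateField.adjoin K (Set.range i)).val P
  have hf : ∀ P : MvPolynomial ι' K,
      f (MvPolynomial.aeval g P) = MvPolynomial.aeval (fun k => f (g k)) P := by
    intro P
    exact MvPolynomial.comp_aeval_apply (f := g) f P
  obtain ⟨r, s, hx⟩ := (IntermediateField.mem_adjoin_range_iff K i (x : E)).mp x.2
  by_cases hs : MvPolynomial.aeval i s = 0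
  · have hx0 : x = 0 := by
      apply Subtype.ext
      rw [hx, hs, div_zero]; rfl
    refine ⟨0, 1, by simp, by simp [hx0], ?_⟩
    rw [hx0, map_zero, zero_mul, map_zero]
  · refine ⟨r, s, hs, ?_, ?_⟩
    · rw [hx, div_mul_cancel₀ _ hs]
    · have h1 : x * MvPolynomial.aeval g s = MvPolynomial.aeval g r := by
        apply Subtype.ext
        rw [MulMemClass.coe_mul, hval, hval, hx, div_mul_cancel₀ _ hs]
      rw [← hf, ← hf, ← map_mul, h1]

/-- **(R3)** The `q`-expansion bridge: the realisation of `x ∈ F_N` is a quotient `a / b` of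
holomorphic functions with global `q`-expansions `A`, `B` such that `coeffMap ι x * B = A` in
`ℂ((q))`; i.e. `psi x` "has the `q`-expansion `coeffMap ι x`". -/
theorem exists_qexp_frac (x : FN N) :
    ∃ (a b : Hol) (A B : LaurentSeries ℂ), b ≠ 0 ∧ B ≠ 0 ∧
      psi N ι x * algebraMap Hol Mer b = algebraMap Hol Mer a ∧
      HasQExp 1 (a : ℍ → ℂ) A ∧ HasQExp 1 (b : ℍ → ℂ) B ∧
      coeffMap ι (x : LaurentSeries Kbar) * B = A := by
  letI := algK ι
  obtain ⟨r, s, hs, hx, hpsi⟩ := exists_frac_gen (Mod.xK N)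
    (Br46.modularFunctionFieldBar_eq_adjoin N) (psi N ι) x
  have hfam : (fun k : Mod.Dv N => psi N ι ⟨Mod.xK N k,
      (Br46.modularFunctionFieldBar_eq_adjoin N).ge (IntermediateField.subset_adjoin Kbar _
        (Set.mem_range_self k))⟩) = yfam N := by
    funext k
    exact psi_xK N ι k
  rw [hfam, aeval_yfam, aeval_yfam] at hpsi
  have hB : coeffMap ι (MvPolynomial.aeval (Mod.xK N) s) ≠ 0 := by
    rw [Ne, map_eq_zero_iff _ (Br46.coeffMap_injective ι ι.injective)]
    exact hs
  have hb : evalHol N ι s ≠ 0 := by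
    intro h0
    have h1 := hasQExp_evalHol N ι s
    rw [h0] at h1
    exact hB (HasQExp.eq_zero one_pos h1)
  refine ⟨evalHol N ι r, evalHol N ι s, _, _, hb, hB, hpsi, hasQExp_evalHol N ι r,
    hasQExp_evalHol N ι s, ?_⟩
  rw [← map_mul, hx]

end Fermat.Agent.S20.Realize
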