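import Mathlib
import Fermat.Agent.S24.HasQExp
import Fermat.Agent.S24.HolH
import Fermat.Agent.S20.ThetaMap
import Fermat.Agent.S20.MerLocal23
import Fermat.Agent.S20.MerBridge
import Fermat.Agent.S20.RealizeCusp

/-!
# S20 / T3-THETA (helper23): the derivation `θ = q d/dq` on Laurent series and on `q`-expansions

* `thetaL : LaurentSeries R → LaurentSeries R`, `(thetaL E).coeff m = m * E.coeff m`, is a derivation
  (`isDer_thetaL : ThetaMap.IsDer K thetaL`), commuting with `coeffMap`.
* Analytic statement (global `HasQExp` of helper47): if `f` has the `q_N`-expansion `E` then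
  `(2πi/N)⁻¹ * d/dτ f` has the `q_N`-expansion `thetaL E`.
-/

set_option autoImplicit false

open HahnSeries ModularCurve

namespace Fermat.Agent.S20.QTheta23

section Algebra

variable {R : Type*} [CommRing R]

/-- The derivation `q d/dq` on Laurent series: `(thetaL E).coeff m = m * E.coeff m`. -/
def thetaL (E : LaurentSeries R) : LaurentSeries R where
  coeff m := (m : R) * E.coeff m
  isPWO_support' := E.isPWO_support.mono (by
    intro m hm
    simp only [Function.mem_support, ne_eq] at hm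
    simp only [HahnSeries.mem_support, ne_eq]
    intro h
    apply hm
    rw [h, mul_zero])

@[simp] lemma coeff_thetaL (E : LaurentSeries R) (m : ℤ) :
    (thetaL E).coeff m = (m : R) * E.coeff m := rfl

lemma support_thetaL_subset (E : LaurentSeries R) : (thetaL E).support ⊆ E.support := by
  intro m hm
  simp only [HahnSeries.mem_support, ne_eq, coeff_thetaL] at hm ⊢
  intro h
  apply hm
  rw [h, mul_zero]

@[simp] lemma thetaL_zero : thetaL (0 : LaurentSeries R) = 0 := by
  ext m
  simp

lemma thetaL_add (x y : LaurentSeries R) : thetaL (x + y) = thetaL x + thetaL y := by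
  ext m
  simp [mul_add]

lemma thetaL_neg (x : LaurentSeries R) : thetaL (-x) = -thetaL x := by
  ext m
  simp

lemma thetaL_sub (x y : LaurentSeries R) : thetaL (x - y) = thetaL x - thetaL y := by
  ext m
  simp [mul_sub]

lemma thetaL_C (c : R) : thetaL (HahnSeries.C c : LaurentSeries R) = 0 := by
  ext m
  rcases eq_or_ne m 0 with rfl | hm
  · simp
  · simp [HahnSeries.coeff_single_of_ne hm]

lemma thetaL_single (k : ℤ) (c : R) :
    thetaL (HahnSeries.single k c : LaurentSeries R) = HahnSeries.single k ((k : R) * c) := by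
  ext m
  rcases eq_or_ne m k with rfl | hm
  · simp
  · simp [HahnSeries.coeff_single_of_ne hm]

/-- Leibniz rule. -/
lemma thetaL_mul (x y : LaurentSeries R) :
    thetaL (x * y) = x * thetaL y + y * thetaL x := by
  ext n
  rw [HahnSeries.coeff_add, coeff_thetaL, HahnSeries.coeff_mul,
    HahnSeries.coeff_mul_right' y.isPWO_support (support_thetaL_subset y), mul_comm y (thetaL x),
    HahnSeries.coeff_mul_left' x.isPWO_support (support_thetaL_subset x), Finset.mul_sum,
    ← Finset.sum_add_distrib]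
  refine Finset.sum_congr rfl fun ij hij => ?_
  rw [Finset.mem_antidiagonal] at hij
  obtain ⟨-, -, hsum⟩ := hij
  rw [coeff_thetaL, coeff_thetaL, ← hsum]
  push_cast
  ring

lemma coeffMap_thetaL {S : Type*} [CommRing S] (f : R →+* S) (E : LaurentSeries R) :
    coeffMap f (thetaL E) = thetaL (coeffMap f E) := by
  ext m
  simp

end Algebra

section Der

variable (K : Type*) [Field K]

/-- `thetaL` is a `K`-derivation of the field `K((q))`. -/
theorem isDer_thetaL : ThetaMap.IsDer K (thetaL : LaurentSeries K → LaurentSeries K) where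
  map_add := thetaL_add
  map_mul := thetaL_mul
  map_const c := by
    have h2 : algebraMap K (LaurentSeries K) c = HahnSeries.C c := by
      have h1 : algebraMap K (PowerSeries K) c = PowerSeries.C c := by simp
      rw [HahnSeries.algebraMap_apply', h1, HahnSeries.ofPowerSeries_C]
    rw [h2, thetaL_C]

end Der

section Analytic

open UpperHalfPlane Complex Filter Topology
open Fermat.Agent.S24 Fermat.Agent.S24.HasQExp
open scoped Real

variable {N : ℕ} {f : ℍ → ℂ} {E : LaurentSeries ℂ}

/-- The `m`-th term of the `q_N`-expansion as an entire function of `w`. -/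
noncomputable def term (N : ℕ) (E : LaurentSeries ℂ) (m : ℤ) (w : ℂ) : ℂ :=
  E.coeff m * Complex.exp (2 * π * Complex.I * m * w / N)

lemma term_coe (N : ℕ) (E : LaurentSeries ℂ) (m : ℤ) (τ : ℍ) :
    term N E m (τ : ℂ) = E.coeff m * qN N τ ^ m := by
  rw [term, qN_eq, ← Complex.exp_int_mul]
  congr 2
  ring

lemma hasDerivAt_term (N : ℕ) (E : LaurentSeries ℂ) (m : ℤ) (w : ℂ) :
    HasDerivAt (term N E m) ((2 * π * Complex.I / N) * ((m : ℂ) * term N E m w)) w := by
  have h1 : HasDerivAt (fun w : ℂ => 2 * π * Complex.I * m * w / N)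
      (2 * π * Complex.I * m / N) w := by
    have h0 := (hasDerivAt_id w).const_mul (2 * π * Complex.I * m / N)
    have e1 : (fun w : ℂ => 2 * π * Complex.I * m * w / N)
        = fun y : ℂ => 2 * π * Complex.I * m / N * id y := by
      funext w
      simp only [id_eq]
      ring
    rw [e1]
    simpa using h0
  have h2 := (h1.cexp).const_mul (E.coeff m)
  have e2 : E.coeff m * (Complex.exp (2 * π * Complex.I * m * w / N) * (2 * π * Complex.I * m / N))
      = (2 * π * Complex.I / N) * ((m : ℂ) * term N E m w) := by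
    unfold term
    ring
  rw [← e2]
  exact h2

lemma differentiable_term (N : ℕ) (E : LaurentSeries ℂ) (m : ℤ) :
    Differentiable ℂ (term N E m) :=
  fun w => (hasDerivAt_term N E m w).differentiableAt

lemma deriv_term (N : ℕ) (E : LaurentSeries ℂ) (m : ℤ) (w : ℂ) :
    deriv (term N E m) w = (2 * π * Complex.I / N) * ((m : ℂ) * term N E m w) :=
  (hasDerivAt_term N E m w).deriv

lemma norm_term (N : ℕ) (E : LaurentSeries ℂ) (m : ℤ) (w : ℂ) :
    ‖term N E m w‖ = ‖E.coeff m‖ * Real.exp (-(2 * π * m / N) * w.im) := by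
  unfold term
  rw [norm_mul, Complex.norm_exp]
  congr 2
  have : 2 * π * Complex.I * m * w / N = ((2 * π * m / N : ℝ) : ℂ) * (Complex.I * w) := by
    push_cast
    ring
  rw [this, Complex.re_ofReal_mul, Complex.I_mul_re]
  ring

lemma exp_bound (a y y₁ y₂ : ℝ) (h1 : y₁ ≤ y) (h2 : y ≤ y₂) :
    Real.exp (-a * y) ≤ Real.exp (-a * y₁) + Real.exp (-a * y₂) := by
  rcases le_or_gt 0 a with ha | ha
  · have : Real.exp (-a * y) ≤ Real.exp (-a * y₁) := by
      apply Real.exp_le_exp.mpr
      nlinarith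
    linarith [Real.exp_pos (-a * y₂)]
  · have : Real.exp (-a * y) ≤ Real.exp (-a * y₂) := by
      apply Real.exp_le_exp.mpr
      nlinarith
    linarith [Real.exp_pos (-a * y₁)]

/-- **Term-wise differentiation of `q_N`-expansions.** -/
theorem hasQExp_deriv (hN : 0 < N) (h : HasQExp N f E) :
    HasQExp N (fun τ : ℍ => (2 * π * Complex.I / N)⁻¹ * deriv (f ∘ ofComplex) (τ : ℂ))
      (thetaL E) := by
  intro τ
  have hy : 0 < τ.im := τ.im_pos
  set y₁ : ℝ := τ.im / 2 with hy₁
  set y₂ : ℝ := 2 * τ.im with hy₂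
  have hy₁pos : 0 < y₁ := by positivity
  have hy₂pos : 0 < y₂ := by positivity
  let τ₁ : ℍ := ⟨⟨0, y₁⟩, hy₁pos⟩
  let τ₂ : ℍ := ⟨⟨0, y₂⟩, hy₂pos⟩
  let U : Set ℂ := {w | y₁ < w.im ∧ w.im < y₂}
  have hUopen : IsOpen U :=
    (isOpen_lt continuous_const Complex.continuous_im).inter
      (isOpen_lt Complex.continuous_im continuous_const)
  have hτU : (τ : ℂ) ∈ U := by
    refine ⟨?_, ?_⟩
    · show τ.im / 2 < τ.im
      linarith
    · show τ.im < 2 * τ.im
      linarith
  -- the majorant
  let u : ℤ → ℝ := fun m => ‖term N E m (τ₁ : ℂ)‖ + ‖term N E m (τ₂ : ℂ)‖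
  have hu : Summable u := by
    have s1 : Summable fun m : ℤ => ‖term N E m (τ₁ : ℂ)‖ := by
      have := (h τ₁).summable.norm
      simpa only [term_coe] using this
    have s2 : Summable fun m : ℤ => ‖term N E m (τ₂ : ℂ)‖ := by
      have := (h τ₂).summable.norm
      simpa only [term_coe] using this
    exact s1.add s2
  have hbound : ∀ (m : ℤ) (w : ℂ), w ∈ U → ‖term N E m w‖ ≤ u m := by
    intro m w hw
    show ‖term N E m w‖ ≤ ‖term N E m (τ₁ : ℂ)‖ + ‖term N E m (τ₂ : ℂ)‖
    rw [norm_term, norm_term, norm_term, ← mul_add]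
    apply mul_le_mul_of_nonneg_left _ (norm_nonneg _)
    have e1 : ((τ₁ : ℍ) : ℂ).im = y₁ := rfl
    have e2 : ((τ₂ : ℍ) : ℂ).im = y₂ := rfl
    rw [e1, e2]
    exact exp_bound _ _ _ _ hw.1.le hw.2.le
  have hdiff : ∀ m : ℤ, DifferentiableOn ℂ (term N E m) U :=
    fun m => (differentiable_term N E m).differentiableOn
  have H := hasSum_deriv_of_summable_norm hu hdiff hUopen hbound hτU
  -- identify the sum with `f`
  have hsum : ∀ w ∈ U, (f ∘ ofComplex) w = ∑' m : ℤ, term N E m w := by
    intro w hw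
    have hwpos : 0 < w.im := lt_trans hy₁pos hw.1
    have h1 := h ⟨w, hwpos⟩
    have h2 : (f ∘ ofComplex) w = f ⟨w, hwpos⟩ := by
      simp only [Function.comp_apply]
      rw [ofComplex_apply_of_im_pos hwpos]
    rw [h2, ← h1.tsum_eq]
    refine tsum_congr fun m => ?_
    exact (term_coe N E m ⟨w, hwpos⟩).symm
  have hderiv : deriv (f ∘ ofComplex) (τ : ℂ) = deriv (fun w : ℂ => ∑' m : ℤ, term N E m w) τ := by
    apply Filter.EventuallyEq.deriv_eq
    filter_upwards [hUopen.mem_nhds hτU] with w hw using hsum w hw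
  rw [← hderiv] at H
  have hc : (2 * π * Complex.I / N : ℂ) ≠ 0 := by
    have : (N : ℂ) ≠ 0 := by exact_mod_cast hN.ne'
    have hpi : (π : ℂ) ≠ 0 := by exact_mod_cast Real.pi_ne_zero
    simp [this, hpi, Complex.I_ne_zero]
  have H2 := H.mul_left (2 * π * Complex.I / N : ℂ)⁻¹
  refine H2.congr_fun ?_ |>.congr_fun fun _ => rfl
  intro m
  rw [deriv_term, ← mul_assoc, inv_mul_cancel₀ hc, one_mul, term_coe, coeff_thetaL, mul_assoc]

/-- Version for elements of `Hol` and helper20's derivation `MerLocal.dHol`. -/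
theorem hasQExp_dHol (hN : 0 < N) {a : HolH.Hol} (h : HasQExp N (a : ℍ → ℂ) E) :
    HasQExp N (fun τ : ℍ => (2 * π * Complex.I / N)⁻¹ * ((MerLocal.dHol a : HolH.Hol) : ℍ → ℂ) τ)
      (thetaL E) :=
  hasQExp_deriv hN h

/-- Level one, packaged as an element of `Hol`: `(2πi)⁻¹ • dHol a` has the `q`-expansion
`thetaL E`. -/
theorem hasQExp_smul_dHol {a : HolH.Hol} (h : HasQExp 1 (a : ℍ → ℂ) E) :
    HasQExp 1 ((((2 * π * Complex.I)⁻¹ : ℂ) • MerLocal.dHol a : HolH.Hol) : ℍ → ℂ) (thetaL E) := by
  have h1 := hasQExp_dHol one_pos h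
  refine h1.congr fun τ => ?_
  show (2 * π * Complex.I / ((1 : ℕ) : ℂ))⁻¹ * _ = (2 * π * Complex.I)⁻¹ * _
  rw [Nat.cast_one, div_one]

end Analytic

section JFunction

open UpperHalfPlane Complex
open Fermat.Agent.S24 Fermat.Agent.S24.HasQExp Fermat.Agent.S24.HolH
open scoped Real

variable (N : ℕ) [NeZero N]

/-- `θ(j) ≠ 0` in `ℚ̄((q))`. -/
theorem thetaL_jF_ne_zero : thetaL ((jF N : FN N) : LaurentSeries Kbar) ≠ 0 := by
  intro h
  have h1 := congrArg (fun E : LaurentSeries Kbar => E.coeff (-1)) h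
  simp only [coeff_thetaL, HahnSeries.coeff_zero] at h1
  have h2 : ((jF N : FN N) : LaurentSeries Kbar).coeff (-1) = 1 := by
    show (coeffEmb Kbar jq).coeff (-1) = 1
    rw [coeffEmb_coeff, coeff_jq_neg_one, map_one]
  rw [h2] at h1
  norm_num at h1

variable (ι : Kbar →+* ℂ)

/-- The holomorphic function `(2πi)⁻¹ j'` has the `q`-expansion `ι (θ(j))`. -/
theorem hasQExp_theta_j :
    HasQExp 1 ((((2 * π * Complex.I)⁻¹ : ℂ) • MerLocal.dHol (Realize.jd 1) : Hol) : ℍ → ℂ)
      (coeffMap ι (thetaL ((jF N : FN N) : LaurentSeries Kbar))) := by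
  have h1 := Realize.hasQExp_jd N ι ⟨1, one_dvd N⟩
  rw [Br46.xK_one_eq] at h1
  rw [coeffMap_thetaL]
  exact hasQExp_smul_dHol h1

end JFunction

end Fermat.Agent.S20.QTheta23
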