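/-
S20 / T3-RAT (helper45): rationality and linear independence.

* (f1) `linearIndependent_comp_ringHom`: a `K`-linearly independent family of `K`-valued
  sequences stays linearly independent over any field `L` receiving `K`.
* (f3) `finrank_le_finrank_cuspForm_of_qCoeff`: a `K`-vector space `V` mapping to cusp forms with
  `K`-rational, `K`-linearly injective `q`-expansions has `finrank_K V ≤ finrank_ℂ S_k(Γ₀(N))`.

No sorry.  Imports Mathlib + the landed `Fermat.Agent.Lib.QExpFinDim`.
-/
import Mathlib
import Fermat.Agent.Lib.QExpFinDim

set_option autoImplicit false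

namespace Fermat.Agent.S20.RatIndep

open ModularFormClass UpperHalfPlane

/-- (f1) Linear independence of `K`-valued families is preserved by any field extension. -/
theorem linearIndependent_comp_ringHom {K L : Type*} [Field K] [Field L] (ι : K →+* L)
    {n I : Type*} (s : n → I → K) (hs : LinearIndependent K s) :
    LinearIndependent L (fun i j => ι (s i j)) := by
  classical
  let _ : Algebra K L := ι.toAlgebra
  have hι : ∀ k : K, algebraMap K L k = ι k := fun _ => rfl
  let b := Module.Free.chooseBasis K L
  rw [linearIndependent_iff'] at hs ⊢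
  intro t c hc i hi
  -- coordinates of the coefficients
  have key : ∀ β, ∀ i ∈ t, b.repr (c i) β = 0 := by
    intro β
    apply hs t (fun i => b.repr (c i) β)
    funext j
    have hj : ∑ i ∈ t, c i * ι (s i j) = 0 := by
      have := congrFun hc j
      simpa [Finset.sum_apply, Pi.smul_apply, smul_eq_mul] using this
    have h2 : ∀ i, c i * ι (s i j) = s i j • c i := by
      intro i
      rw [Algebra.smul_def, hι, mul_comm]
    simp_rw [h2] at hj
    have h3 := congrArg (fun x => b.repr x β) hj
    simp only [map_sum, map_smul, Finsupp.coe_finsetSum, Finset.sum_apply, Finsupp.coe_smul,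
      Pi.smul_apply, smul_eq_mul, map_zero, Finsupp.coe_zero, Pi.zero_apply] at h3
    simp only [Finset.sum_apply, Pi.smul_apply, smul_eq_mul, Pi.zero_apply]
    rw [← h3]
    exact Finset.sum_congr rfl fun i _ => mul_comm _ _
  have : b.repr (c i) = 0 := by
    ext β
    simpa using key β i hi
  simpa using this

/-- Variant of (f1) for sequences given as functions into an algebra. -/
theorem linearIndependent_comp_algebraMap {K L : Type*} [Field K] [Field L] [Algebra K L]
    {n I : Type*} (s : n → I → K) (hs : LinearIndependent K s) :
    LinearIndependent L (fun i j => algebraMap K L (s i j)) :=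
  linearIndependent_comp_ringHom (algebraMap K L) s hs

section CuspForms

variable (N : ℕ) [NeZero N] (k : ℤ)

/-- The coefficient-sequence map on cusp forms, as an injective `ℂ`-linear map. -/
noncomputable def coeffSeq : CuspForm (CongruenceSubgroup.Gamma0 N) k →ₗ[ℂ] (ℕ → ℂ) where
  toFun f n := (qExpansion 1 f).coeff n
  map_add' f g := by
    funext n
    have h := map_add (Fermat.Agent.Lib.QExpFinDim.cuspQExpLin N k) f g
    simp only [Fermat.Agent.Lib.QExpFinDim.cuspQExpLin_apply] at h
    simp only [Pi.add_apply]
    rw [h, map_add]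
  map_smul' c f := by
    funext n
    have h := map_smul (Fermat.Agent.Lib.QExpFinDim.cuspQExpLin N k) c f
    simp only [Fermat.Agent.Lib.QExpFinDim.cuspQExpLin_apply] at h
    simp only [Pi.smul_apply, RingHom.id_apply, smul_eq_mul]
    rw [h, PowerSeries.coeff_smul, smul_eq_mul]

@[simp] theorem coeffSeq_apply (f : CuspForm (CongruenceSubgroup.Gamma0 N) k) (n : ℕ) :
    coeffSeq N k f n = (qExpansion 1 f).coeff n := rfl

theorem coeffSeq_injective : Function.Injective (coeffSeq N k) := by
  intro f g h
  apply Fermat.Agent.Lib.QExpFinDim.cuspQExpLin_injective N k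
  simp only [Fermat.Agent.Lib.QExpFinDim.cuspQExpLin_apply]
  ext n
  have := congrFun h n
  simpa only [coeffSeq_apply] using this

/-- (f3) **Rational lower bound.**  Let `V` be a `K`-vector space, `ι : K →+* ℂ`,
`Ψ : V → S_k(Γ₀(N))` any map and `E : V →ₗ[K] (ℕ → K)` an injective `K`-linear map such that the
`n`-th `q`-expansion coefficient of `Ψ w` is `ι (E w n)`.  Then
`finrank_K V ≤ finrank_ℂ S_k(Γ₀(N))`. -/
theorem finrank_le_finrank_cuspForm_of_qCoeff {K : Type*} [Field K] (ι : K →+* ℂ)
    {V : Type*} [AddCommGroup V] [Module K V]
    (Ψ : V → CuspForm (CongruenceSubgroup.Gamma0 N) k)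
    (E : V →ₗ[K] (ℕ → K)) (hE : Function.Injective E)
    (hΨ : ∀ w n, (qExpansion 1 (Ψ w)).coeff n = ι (E w n)) :
    Module.finrank K V ≤ Module.finrank ℂ (CuspForm (CongruenceSubgroup.Gamma0 N) k) := by
  classical
  have := Fermat.Agent.Lib.QExpFinDim.finiteDimensional_cuspForm N k
  by_cases hfin : Module.Finite K V
  · let b := Module.finBasis K V
    -- `E ∘ b` is `K`-linearly independent
    have h1 : LinearIndependent K (fun i => E (b i)) :=
      b.linearIndependent.map' E (LinearMap.ker_eq_bot.mpr hE)
    have h2 := linearIndependent_comp_ringHom ι (fun i => E (b i)) h1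
    -- hence `Ψ ∘ b` is `ℂ`-linearly independent
    have h3 : LinearIndependent ℂ (fun i => Ψ (b i)) := by
      have h4 : (fun i => coeffSeq N k (Ψ (b i))) = fun i j => ι (E (b i) j) := by
        funext i j
        exact hΨ (b i) j
      have h5 : LinearIndependent ℂ (fun i => coeffSeq N k (Ψ (b i))) := by rw [h4]; exact h2
      exact LinearIndependent.of_comp (coeffSeq N k) h5
    have := h3.fintype_card_le_finrank
    rwa [← Module.finrank_eq_card_basis b] at this
  · rw [Module.finrank_of_not_finite hfin]
    exact Nat.zero_le _

end CuspForms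

end Fermat.Agent.S20.RatIndep
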