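/-
S20 / T3-RAT (helper45), analytic part: convergent `q`-expansions near `i∞`.

`HasQExp f E` : for `im τ` large, `f τ = ∑_{m ∈ ℤ} E.coeff m * q^m`, `q = exp (2 π i τ)`,
`E : LaurentSeries ℂ`.  Closed under `+`, `*`, constants; `E` is unique; compatible with
`θ = (2πi)⁻¹ d/dτ` on functions and `thetaL = q d/dq` on Laurent series.

No sorry.  Imports Mathlib only.
-/
import Mathlib

set_option autoImplicit false

open Complex Filter Topology
open UpperHalfPlane hiding I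
open scoped Real Manifold

noncomputable section

namespace Fermat.Agent.S20.RatQExp

local notation "𝕢" => Function.Periodic.qParam

/-! ## Part A: power series on a disc -/

section PartA

open FormalMultilinearSeries

variable {a b : ℕ → ℂ} {r : ℝ}

theorem coe_lt_ofReal_iff {s : NNReal} {r : ℝ} : (s : ENNReal) < ENNReal.ofReal r ↔ (s : ℝ) < r := by
  rw [ENNReal.ofReal, ENNReal.coe_lt_coe, Real.lt_toNNReal_iff_coe_lt]

theorem mem_eball_ofReal_iff {y : ℂ} {r : ℝ} :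
    y ∈ Metric.eball (0 : ℂ) (ENNReal.ofReal r) ↔ ‖y‖ < r := by
  rw [Metric.mem_eball, edist_zero_right, enorm_eq_nnnorm, coe_lt_ofReal_iff, coe_nnnorm]

/-- pointwise convergence on the punctured disc of radius `r` -/
def ConvOn (a : ℕ → ℂ) (r : ℝ) : Prop :=
  ∀ q : ℂ, q ≠ 0 → ‖q‖ < r → Summable fun n => a n * q ^ n

theorem ConvOn.le_radius (h : ConvOn a r) : ENNReal.ofReal r ≤ (ofScalars ℂ a).radius := by
  refine le_of_forall_lt_imp_le_of_dense fun s hs => ?_
  rcases eq_or_ne s 0 with rfl | hs0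
  · simp
  have hsr : s < ENNReal.ofReal r := hs
  lift s to NNReal using hs.ne_top
  have hs0' : (s : ℝ) ≠ 0 := by exact_mod_cast fun h0 => hs0 (by simp [h0])
  have hs1 : (s : ℝ) < r := coe_lt_ofReal_iff.mp hsr
  have hsum := h (s : ℂ) (by exact_mod_cast hs0') (by simpa using hs1)
  apply FormalMultilinearSeries.le_radius_of_summable
  have := hsum.norm
  simpa [ofScalars_norm, norm_mul, norm_pow] using this

theorem ConvOn.summable_norm (h : ConvOn a r) {q : ℂ} (hq : ‖q‖ < r) :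
    Summable fun n => ‖a n * q ^ n‖ := by
  have hr := h.le_radius
  have hq' : ((‖q‖₊ : NNReal) : ENNReal) < (ofScalars ℂ a).radius := by
    refine lt_of_lt_of_le ?_ hr
    exact coe_lt_ofReal_iff.mpr (by simpa using hq)
  have := (ofScalars ℂ a).summable_norm_mul_pow hq'
  simpa [ofScalars_norm, norm_mul, norm_pow] using this

theorem ConvOn.summable (h : ConvOn a r) {q : ℂ} (hq : ‖q‖ < r) :
    Summable fun n => a n * q ^ n :=
  (h.summable_norm hq).of_norm

/-- the sum function -/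
def psum (a : ℕ → ℂ) (q : ℂ) : ℂ := ∑' n, a n * q ^ n

theorem ConvOn.hasSum (h : ConvOn a r) {q : ℂ} (hq : ‖q‖ < r) :
    HasSum (fun n => a n * q ^ n) (psum a q) :=
  (h.summable hq).hasSum

theorem ConvOn.hasFPowerSeriesOnBall (h : ConvOn a r) (hr : 0 < r) :
    HasFPowerSeriesOnBall (psum a) (ofScalars ℂ a) 0 (ENNReal.ofReal r) where
  r_le := h.le_radius
  r_pos := by simpa using hr
  hasSum := by
    intro y hy
    have hy' : ‖y‖ < r := mem_eball_ofReal_iff.mp hy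
    have := h.hasSum hy'
    simpa [ofScalars_apply_eq, smul_eq_mul, mul_comm] using this

/-- Uniqueness: a power series vanishing on a punctured disc is zero. -/
theorem eq_zero_of_hasSum_zero (hr : 0 < r)
    (h : ∀ q : ℂ, q ≠ 0 → ‖q‖ < r → HasSum (fun n => a n * q ^ n) 0) : a = 0 := by
  have hc : ConvOn a r := fun q hq0 hq => (h q hq0 hq).summable
  have hF := hc.hasFPowerSeriesOnBall hr
  have hz : ∀ q : ℂ, q ≠ 0 → ‖q‖ < r → psum a q = 0 := fun q hq0 hq =>
    (hc.hasSum hq).unique (h q hq0 hq)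
  -- value at zero by continuity
  have hcont : ContinuousAt (psum a) 0 := hF.hasFPowerSeriesAt.continuousAt
  have h0 : psum a 0 = 0 := by
    have hev : ∀ᶠ q in 𝓝[≠] (0 : ℂ), psum a q = 0 := by
      have hball : Metric.ball (0 : ℂ) r ∈ 𝓝 (0 : ℂ) := Metric.ball_mem_nhds _ hr
      filter_upwards [nhdsWithin_le_nhds hball, self_mem_nhdsWithin] with q hq hq0
      exact hz q hq0 (by simpa using hq)
    have ht : Tendsto (psum a) (𝓝[≠] (0 : ℂ)) (𝓝 (psum a 0)) :=
      hcont.tendsto.mono_left nhdsWithin_le_nhds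
    have ht0 : Tendsto (psum a) (𝓝[≠] (0 : ℂ)) (𝓝 0) :=
      (tendsto_congr' hev).mpr tendsto_const_nhds
    exact tendsto_nhds_unique ht ht0
  have hev0 : psum a =ᶠ[𝓝 (0 : ℂ)] 0 := by
    filter_upwards [Metric.ball_mem_nhds (0 : ℂ) hr] with q hq
    rcases eq_or_ne q 0 with rfl | hq0
    · simpa using h0
    · exact hz q hq0 (by simpa using hq)
  have h1 : HasFPowerSeriesAt (0 : ℂ → ℂ) (ofScalars ℂ a) 0 :=
    hF.hasFPowerSeriesAt.congr hev0
  have := h1.eq_zero
  exact (ofScalars_series_eq_zero ℂ).mp this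

/-- Cauchy product. -/
theorem ConvOn.hasSum_mul (ha : ConvOn a r) (hb : ConvOn b r) {q : ℂ} (hq : ‖q‖ < r) :
    HasSum (fun n => (∑ kl ∈ Finset.HasAntidiagonal.antidiagonal n, a kl.1 * b kl.2) * q ^ n)
      (psum a q * psum b q) := by
  have h1 := ha.summable_norm hq
  have h2 := hb.summable_norm hq
  have hs := summable_norm_sum_mul_antidiagonal_of_summable_norm h1 h2
  have ht := tsum_mul_tsum_eq_tsum_sum_antidiagonal_of_summable_norm h1 h2
  have hterm : ∀ n, (∑ kl ∈ Finset.HasAntidiagonal.antidiagonal n, a kl.1 * q ^ kl.1 * (b kl.2 * q ^ kl.2))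
      = (∑ kl ∈ Finset.HasAntidiagonal.antidiagonal n, a kl.1 * b kl.2) * q ^ n := by
    intro n
    rw [Finset.sum_mul]
    refine Finset.sum_congr rfl fun kl hkl => ?_
    have : kl.1 + kl.2 = n := Finset.HasAntidiagonal.mem_antidiagonal.mp hkl
    rw [← this, pow_add]; ring
  have hsum : Summable fun n => (∑ kl ∈ Finset.HasAntidiagonal.antidiagonal n, a kl.1 * b kl.2) * q ^ n := by
    have := hs.of_norm
    simpa only [hterm] using this
  have : psum a q * psum b q = ∑' n, (∑ kl ∈ Finset.HasAntidiagonal.antidiagonal n, a kl.1 * b kl.2) * q ^ n := by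
    rw [psum, psum, ht]
    exact tsum_congr hterm
  rw [this]
  exact hsum.hasSum

theorem ConvOn.mul (ha : ConvOn a r) (hb : ConvOn b r) :
    ConvOn (fun n => ∑ kl ∈ Finset.HasAntidiagonal.antidiagonal n, a kl.1 * b kl.2) r :=
  fun _ _ hq => (ha.hasSum_mul hb hq).summable

/-- Termwise derivative. -/
theorem ConvOn.hasSum_deriv (ha : ConvOn a r) (hr : 0 < r) {q : ℂ} (hq : ‖q‖ < r) :
    HasSum (fun n : ℕ => ((n : ℂ) + 1) * a (n + 1) * q ^ n) (deriv (psum a) q) := by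
  have hF := (ha.hasFPowerSeriesOnBall hr).fderiv
  have hq' : q ∈ Metric.eball (0 : ℂ) (ENNReal.ofReal r) := mem_eball_ofReal_iff.mpr hq
  have h1 := hF.hasSum hq'
  rw [zero_add] at h1
  -- apply the continuous linear functional `L ↦ L 1`
  have h2 := (ContinuousLinearMap.apply ℂ ℂ (1 : ℂ)).hasSum h1
  have h3 : (ContinuousLinearMap.apply ℂ ℂ (1 : ℂ)) (fderiv ℂ (psum a) q) = deriv (psum a) q := by
    simp [ContinuousLinearMap.apply_apply]
  rw [h3] at h2
  have key : ∀ n : ℕ, (ContinuousLinearMap.apply ℂ ℂ (1 : ℂ))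
      (((ofScalars ℂ a).derivSeries n) fun _ => q) = ((n : ℂ) + 1) * a (n + 1) * q ^ n := by
    intro n
    simp only [ContinuousLinearMap.apply_apply]
    rw [apply_eq_pow_smul_coeff, _root_.smul_apply, derivSeries_coeff_one,
      coeff_ofScalars]
    simp only [smul_eq_mul, nsmul_eq_mul]
    push_cast
    ring
  have hfun : (fun n : ℕ => (ContinuousLinearMap.apply ℂ ℂ (1 : ℂ))
      (((ofScalars ℂ a).derivSeries n) fun _ => q))
      = fun n : ℕ => ((n : ℂ) + 1) * a (n + 1) * q ^ n := funext key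
  rw [hfun] at h2
  exact h2

theorem ConvOn.differentiableAt (ha : ConvOn a r) (hr : 0 < r) {q : ℂ} (hq : ‖q‖ < r) :
    DifferentiableAt ℂ (psum a) q := by
  have hF := ha.hasFPowerSeriesOnBall hr
  have hq' : q ∈ Metric.eball (0 : ℂ) (ENNReal.ofReal r) := mem_eball_ofReal_iff.mpr hq
  exact (hF.analyticAt_of_mem hq').differentiableAt

end PartA

/-! ## Part B: Laurent series with exponents bounded below -/

section PartB

variable {R : Type*} [CommRing R]

/-- `m₀` is a lower bound for the support of `E`. -/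
def LowerBd (E : LaurentSeries R) (m₀ : ℤ) : Prop := ∀ m < m₀, E.coeff m = 0

theorem exists_lowerBd (E : LaurentSeries R) : ∃ m₀, LowerBd E m₀ :=
  ⟨E.order, fun _ hm => HahnSeries.coeff_eq_zero_of_lt_order hm⟩

theorem LowerBd.mono {E : LaurentSeries R} {m₀ m₁ : ℤ} (h : LowerBd E m₀) (hle : m₁ ≤ m₀) :
    LowerBd E m₁ := fun m hm => h m (lt_of_lt_of_le hm hle)

theorem exists_common_lowerBd (E E' : LaurentSeries R) :
    ∃ m₀, LowerBd E m₀ ∧ LowerBd E' m₀ := by
  obtain ⟨a, ha⟩ := exists_lowerBd E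
  obtain ⟨b, hb⟩ := exists_lowerBd E'
  exact ⟨min a b, ha.mono (min_le_left _ _), hb.mono (min_le_right _ _)⟩

/-- the shifted power series `∑ E_{m₀+n} X^n` -/
def psShift (E : LaurentSeries R) (m₀ : ℤ) : PowerSeries R :=
  PowerSeries.mk fun n => E.coeff (m₀ + n)

@[simp] theorem coeff_psShift (E : LaurentSeries R) (m₀ : ℤ) (n : ℕ) :
    PowerSeries.coeff n (psShift E m₀) = E.coeff (m₀ + n) := by
  simp [psShift]

theorem ofPowerSeries_coeff_of_neg' (f : PowerSeries R) {k : ℤ}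
    (hk : k < 0) : (HahnSeries.ofPowerSeries ℤ R f).coeff k = 0 := by
  rw [HahnSeries.ofPowerSeries_apply]
  refine HahnSeries.embDomain_of_notMem_range ?_
  rintro ⟨m, rfl⟩
  exact absurd hk (not_lt.mpr (Int.natCast_nonneg m))

theorem coeff_single_mul_ofPowerSeries (m₀ : ℤ) (P : PowerSeries R) (n : ℕ) :
    (HahnSeries.single m₀ (1 : R) * HahnSeries.ofPowerSeries ℤ R P).coeff (m₀ + n)
      = PowerSeries.coeff n P := by
  rw [HahnSeries.coeff_single_mul, one_mul]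
  have : m₀ + (n : ℤ) - m₀ = (n : ℤ) := by ring
  rw [this, HahnSeries.ofPowerSeries_apply_coeff]

theorem coeff_single_mul_ofPowerSeries_of_lt (m₀ : ℤ) (P : PowerSeries R) {m : ℤ} (hm : m < m₀) :
    (HahnSeries.single m₀ (1 : R) * HahnSeries.ofPowerSeries ℤ R P).coeff m = 0 := by
  rw [HahnSeries.coeff_single_mul, one_mul]
  exact ofPowerSeries_coeff_of_neg' P (by omega)

theorem LowerBd.eq_single_mul {E : LaurentSeries R} {m₀ : ℤ} (h : LowerBd E m₀) :
    E = HahnSeries.single m₀ (1 : R) * HahnSeries.ofPowerSeries ℤ R (psShift E m₀) := by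
  ext m
  by_cases hm : m < m₀
  · rw [h m hm, coeff_single_mul_ofPowerSeries_of_lt m₀ _ hm]
  · push Not at hm
    obtain ⟨n, rfl⟩ : ∃ n : ℕ, m = m₀ + n := ⟨(m - m₀).toNat, by omega⟩
    rw [coeff_single_mul_ofPowerSeries, coeff_psShift]

theorem LowerBd.mul {E E' : LaurentSeries R} {m₀ m₀' : ℤ} (h : LowerBd E m₀)
    (h' : LowerBd E' m₀') : LowerBd (E * E') (m₀ + m₀') := by
  intro m hm
  have e : E * E' = HahnSeries.single (m₀ + m₀') (1 : R) *
      HahnSeries.ofPowerSeries ℤ R (psShift E m₀ * psShift E' m₀') := by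
    conv_lhs => rw [h.eq_single_mul, h'.eq_single_mul]
    rw [map_mul, ← mul_one (1 : R), ← HahnSeries.single_mul_single, mul_one]
    ring
  rw [e]
  exact coeff_single_mul_ofPowerSeries_of_lt _ _ hm

theorem LowerBd.coeff_mul {E E' : LaurentSeries R} {m₀ m₀' : ℤ} (h : LowerBd E m₀)
    (h' : LowerBd E' m₀') (n : ℕ) :
    (E * E').coeff (m₀ + m₀' + n) =
      ∑ kl ∈ Finset.HasAntidiagonal.antidiagonal n, E.coeff (m₀ + kl.1) * E'.coeff (m₀' + kl.2) := by
  have e : E * E' = HahnSeries.single (m₀ + m₀') (1 : R) *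
      HahnSeries.ofPowerSeries ℤ R (psShift E m₀ * psShift E' m₀') := by
    conv_lhs => rw [h.eq_single_mul, h'.eq_single_mul]
    rw [map_mul, ← mul_one (1 : R), ← HahnSeries.single_mul_single, mul_one]
    ring
  rw [e, coeff_single_mul_ofPowerSeries, PowerSeries.coeff_mul]
  simp

/-- `θ = q d/dq` on Laurent series. -/
def thetaL (E : LaurentSeries R) : LaurentSeries R where
  coeff m := (m : R) * E.coeff m
  isPWO_support' := E.isPWO_support.mono fun m hm => by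
    simp only [Function.mem_support, ne_eq] at hm ⊢
    intro h0
    exact hm (by rw [h0, mul_zero])

@[simp] theorem thetaL_coeff (E : LaurentSeries R) (m : ℤ) :
    (thetaL E).coeff m = (m : R) * E.coeff m := rfl

theorem thetaL_support_subset (E : LaurentSeries R) : (thetaL E).support ⊆ E.support := by
  intro m hm
  simp only [HahnSeries.mem_support, thetaL_coeff, ne_eq] at hm ⊢
  intro h0
  exact hm (by rw [h0, mul_zero])

theorem LowerBd.thetaL {E : LaurentSeries R} {m₀ : ℤ} (h : LowerBd E m₀) :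
    LowerBd (thetaL E) m₀ := fun m hm => by rw [thetaL_coeff, h m hm, mul_zero]

theorem thetaL_add (x y : LaurentSeries R) : thetaL (x + y) = thetaL x + thetaL y := by
  ext m; simp [mul_add]

theorem thetaL_zero : thetaL (0 : LaurentSeries R) = 0 := by
  ext m; simp

theorem thetaL_smul (c : R) (x : LaurentSeries R) : thetaL (c • x) = c • thetaL x := by
  ext m; simp; ring

/-- Leibniz rule. -/
theorem thetaL_mul (x y : LaurentSeries R) :
    thetaL (x * y) = thetaL x * y + x * thetaL y := by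
  ext a
  rw [HahnSeries.coeff_add, thetaL_coeff, HahnSeries.coeff_mul,
    HahnSeries.coeff_mul_left' x.isPWO_support (thetaL_support_subset x),
    HahnSeries.coeff_mul_right' y.isPWO_support (thetaL_support_subset y),
    Finset.mul_sum, ← Finset.sum_add_distrib]
  refine Finset.sum_congr rfl fun ij hij => ?_
  have hsum : ij.1 + ij.2 = a := (Finset.mem_addAntidiagonal.mp hij).2.2
  rw [thetaL_coeff, thetaL_coeff, ← hsum]
  push_cast
  ring

theorem thetaL_C (c : R) : thetaL (HahnSeries.C c : LaurentSeries R) = 0 := by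
  ext m
  rw [thetaL_coeff, HahnSeries.C_apply, HahnSeries.coeff_single]
  by_cases hm : m = 0
  · simp [hm]
  · simp [hm]

end PartB

/-! ## Part C: convergent `q`-expansions of functions on the upper half plane -/

section PartC

/-- `f` has the convergent `q`-expansion `E` near `i∞`. -/
def HasQExp (f : ℍ → ℂ) (E : LaurentSeries ℂ) : Prop :=
  ∃ Y : ℝ, ∀ τ : ℍ, Y < τ.im → HasSum (fun m : ℤ => E.coeff m * (𝕢 1 τ) ^ m) (f τ)

/-- reindexing a `ℤ`-indexed Laurent sum as an `ℕ`-indexed power series sum -/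
theorem hasSum_int_iff_nat {E : LaurentSeries ℂ} {m₀ : ℤ} (h : LowerBd E m₀) {q : ℂ}
    (hq : q ≠ 0) {s : ℂ} :
    HasSum (fun m : ℤ => E.coeff m * q ^ m) s ↔
      HasSum (fun n : ℕ => E.coeff (m₀ + n) * q ^ n) (s * q ^ (-m₀)) := by
  let i : ℕ → ℤ := fun n => m₀ + n
  have hi : Function.Injective i := fun a b hab => by
    simp only [i] at hab
    omega
  have hzero : ∀ m : ℤ, m ∉ Set.range i → E.coeff m * q ^ m = 0 := by
    intro m hm
    have : m < m₀ := by
      by_contra hge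
      push Not at hge
      exact hm ⟨(m - m₀).toNat, by simp only [i]; omega⟩
    rw [h m this, zero_mul]
  rw [← hi.hasSum_iff hzero]
  have hfun : ((fun m : ℤ => E.coeff m * q ^ m) ∘ i)
      = fun n : ℕ => (E.coeff (m₀ + n) * q ^ n) * q ^ m₀ := by
    funext n
    simp only [Function.comp_apply, i]
    rw [zpow_add₀ hq, zpow_natCast]
    ring
  rw [hfun]
  constructor
  · intro H
    have := H.mul_right (q ^ (-m₀))
    have e : ∀ n : ℕ, E.coeff (m₀ + n) * q ^ n * q ^ m₀ * q ^ (-m₀) = E.coeff (m₀ + n) * q ^ n := by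
      intro n
      rw [mul_assoc, ← zpow_add₀ hq]
      simp
    simpa only [e] using this
  · intro H
    have := H.mul_right (q ^ m₀)
    have e : s * q ^ (-m₀) * q ^ m₀ = s := by
      rw [mul_assoc, ← zpow_add₀ hq]
      simp
    rwa [e] at this

/-- radius of the `q`-disc corresponding to `im τ > Y` -/
def rad (Y : ℝ) : ℝ := Real.exp (-2 * π * Y)

theorem rad_pos (Y : ℝ) : 0 < rad Y := Real.exp_pos _

theorem norm_qParam_lt_rad {Y : ℝ} {τ : ℍ} (h : Y < τ.im) : ‖𝕢 1 (τ : ℂ)‖ < rad Y := by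
  rw [Function.Periodic.norm_qParam, rad, div_one]
  apply Real.exp_lt_exp.mpr
  have : 0 < 2 * π := by positivity
  have him : (τ : ℂ).im = τ.im := rfl
  rw [him]
  nlinarith

/-- every point of the punctured disc of radius `rad Y` is `𝕢 τ` with `im τ > Y` (`Y ≥ 0`) -/
theorem exists_tau_of_norm_lt {Y : ℝ} (hY : 0 ≤ Y) {q : ℂ} (hq0 : q ≠ 0) (hq : ‖q‖ < rad Y) :
    ∃ τ : ℍ, Y < τ.im ∧ 𝕢 1 (τ : ℂ) = q := by
  have hnorm : 0 < ‖q‖ := norm_pos_iff.mpr hq0
  have him : Y < (Function.Periodic.invQParam 1 q).im := by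
    rw [Function.Periodic.im_invQParam]
    have hlog : Real.log ‖q‖ < -2 * π * Y := by
      have := Real.log_lt_log hnorm hq
      rwa [rad, Real.log_exp] at this
    have h2π : 0 < 2 * π := by positivity
    have : Y = -1 / (2 * π) * (-2 * π * Y) := by field_simp
    rw [this]
    apply mul_lt_mul_of_neg_left hlog
    apply div_neg_of_neg_of_pos (by norm_num) h2π
  have hpos : 0 < (Function.Periodic.invQParam 1 q).im := lt_of_le_of_lt hY him
  exact ⟨⟨Function.Periodic.invQParam 1 q, hpos⟩, him,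
    Function.Periodic.qParam_right_inv one_ne_zero hq0⟩

/-- Unpacking `HasQExp` on the `q`-disc. -/
theorem HasQExp.exists_disc {f : ℍ → ℂ} {E : LaurentSeries ℂ} (h : HasQExp f E) {m₀ : ℤ}
    (hm : LowerBd E m₀) :
    ∃ Y : ℝ, 0 ≤ Y ∧ ConvOn (fun n => E.coeff (m₀ + n)) (rad Y) ∧
      ∀ τ : ℍ, Y < τ.im →
        f τ = (𝕢 1 (τ : ℂ)) ^ m₀ * psum (fun n => E.coeff (m₀ + n)) (𝕢 1 (τ : ℂ)) := by
  obtain ⟨Y₀, hY₀⟩ := h
  refine ⟨max Y₀ 0, le_max_right _ _, ?_, ?_⟩
  · intro q hq0 hq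
    obtain ⟨τ, hτ, rfl⟩ := exists_tau_of_norm_lt (le_max_right Y₀ 0) hq0 hq
    have h1 := hY₀ τ (lt_of_le_of_lt (le_max_left _ _) hτ)
    exact ((hasSum_int_iff_nat hm (Function.Periodic.qParam_ne_zero _)).mp h1).summable
  · intro τ hτ
    have hq0 : 𝕢 1 (τ : ℂ) ≠ 0 := Function.Periodic.qParam_ne_zero _
    have h1 := hY₀ τ (lt_of_le_of_lt (le_max_left _ _) hτ)
    have h2 := (hasSum_int_iff_nat hm hq0).mp h1
    have h3 : psum (fun n => E.coeff (m₀ + n)) (𝕢 1 (τ : ℂ)) = f τ * (𝕢 1 (τ : ℂ)) ^ (-m₀) :=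
      h2.tsum_eq
    rw [h3, mul_comm, mul_assoc, ← zpow_add₀ hq0]
    simp

/-- Packing `HasQExp` from the `q`-disc. -/
theorem HasQExp.of_disc {f : ℍ → ℂ} {E : LaurentSeries ℂ} {m₀ : ℤ} (hm : LowerBd E m₀)
    {a : ℕ → ℂ} (ha : ∀ n : ℕ, E.coeff (m₀ + n) = a n) {Y : ℝ}
    (hc : ConvOn a (rad Y))
    (hf : ∀ τ : ℍ, Y < τ.im → f τ = (𝕢 1 (τ : ℂ)) ^ m₀ * psum a (𝕢 1 (τ : ℂ))) :
    HasQExp f E := by
  refine ⟨Y, fun τ hτ => ?_⟩
  have hq0 : 𝕢 1 (τ : ℂ) ≠ 0 := Function.Periodic.qParam_ne_zero _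
  rw [hasSum_int_iff_nat hm hq0]
  have h1 := hc.hasSum (norm_qParam_lt_rad hτ)
  have e : f τ * (𝕢 1 (τ : ℂ)) ^ (-m₀) = psum a (𝕢 1 (τ : ℂ)) := by
    rw [hf τ hτ, mul_comm, ← mul_assoc, ← zpow_add₀ hq0]
    simp
  rw [e]
  have hfun : (fun n : ℕ => E.coeff (m₀ + n) * (𝕢 1 (τ : ℂ)) ^ n)
      = fun n : ℕ => a n * (𝕢 1 (τ : ℂ)) ^ n := by
    funext n
    rw [ha n]
  rw [hfun]
  exact h1

theorem rad_le_rad {Y Y' : ℝ} (h : Y ≤ Y') : rad Y' ≤ rad Y := by
  rw [rad, rad]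
  apply Real.exp_le_exp.mpr
  have : 0 < 2 * π := by positivity
  nlinarith

theorem ConvOn.mono {a : ℕ → ℂ} {r r' : ℝ} (h : ConvOn a r) (hle : r' ≤ r) : ConvOn a r' :=
  fun q hq0 hq => h q hq0 (lt_of_lt_of_le hq hle)

theorem HasQExp.zero : HasQExp (fun _ => 0) 0 :=
  ⟨0, fun τ _ => by simpa using (hasSum_zero : HasSum (fun _ : ℤ => (0 : ℂ)) 0)⟩

theorem HasQExp.congr {f g : ℍ → ℂ} {E : LaurentSeries ℂ} (h : HasQExp f E) {Y : ℝ}
    (hfg : ∀ τ : ℍ, Y < τ.im → f τ = g τ) : HasQExp g E := by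
  obtain ⟨Y₀, hY₀⟩ := h
  refine ⟨max Y₀ Y, fun τ hτ => ?_⟩
  rw [← hfg τ (lt_of_le_of_lt (le_max_right _ _) hτ)]
  exact hY₀ τ (lt_of_le_of_lt (le_max_left _ _) hτ)

theorem HasQExp.add {f g : ℍ → ℂ} {E E' : LaurentSeries ℂ} (h : HasQExp f E)
    (h' : HasQExp g E') : HasQExp (fun τ => f τ + g τ) (E + E') := by
  obtain ⟨Y, hY⟩ := h
  obtain ⟨Y', hY'⟩ := h'
  refine ⟨max Y Y', fun τ hτ => ?_⟩
  have h1 := hY τ (lt_of_le_of_lt (le_max_left _ _) hτ)
  have h2 := hY' τ (lt_of_le_of_lt (le_max_right _ _) hτ)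
  have := h1.add h2
  simpa [HahnSeries.coeff_add, add_mul] using this

theorem HasQExp.const_mul {f : ℍ → ℂ} {E : LaurentSeries ℂ} (h : HasQExp f E) (c : ℂ) :
    HasQExp (fun τ => c * f τ) (c • E) := by
  obtain ⟨Y, hY⟩ := h
  refine ⟨Y, fun τ hτ => ?_⟩
  have := (hY τ hτ).mul_left c
  simpa [HahnSeries.coeff_smul, mul_assoc] using this

theorem HasQExp.neg {f : ℍ → ℂ} {E : LaurentSeries ℂ} (h : HasQExp f E) :
    HasQExp (fun τ => - f τ) (-E) := by
  obtain ⟨Y, hY⟩ := h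
  refine ⟨Y, fun τ hτ => ?_⟩
  have := (hY τ hτ).neg
  simpa [HahnSeries.coeff_neg, neg_mul] using this

theorem HasQExp.sub {f g : ℍ → ℂ} {E E' : LaurentSeries ℂ} (h : HasQExp f E)
    (h' : HasQExp g E') : HasQExp (fun τ => f τ - g τ) (E - E') := by
  have := h.add h'.neg
  simpa [sub_eq_add_neg] using this

theorem HasQExp.const (c : ℂ) : HasQExp (fun _ => c) (HahnSeries.C c) := by
  refine ⟨0, fun τ _ => ?_⟩
  have : (fun m : ℤ => (HahnSeries.C c : LaurentSeries ℂ).coeff m * (𝕢 1 (τ : ℂ)) ^ m)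
      = fun m : ℤ => if m = 0 then c else 0 := by
    funext m
    rw [HahnSeries.C_apply, HahnSeries.coeff_single]
    by_cases hm : m = 0
    · simp [hm]
    · simp [hm]
  rw [this]
  exact hasSum_ite_eq 0 c

/-- **Uniqueness** of the `q`-expansion. -/
theorem HasQExp.unique {f : ℍ → ℂ} {E E' : LaurentSeries ℂ} (h : HasQExp f E)
    (h' : HasQExp f E') : E = E' := by
  have hd : HasQExp (fun _ => (0 : ℂ)) (E - E') := by
    have := h.sub h'
    simpa using this
  obtain ⟨m₀, hm⟩ := exists_lowerBd (E - E')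
  obtain ⟨Y, hY0, hc, hf⟩ := hd.exists_disc hm
  have hzero : (fun n : ℕ => (E - E').coeff (m₀ + n)) = 0 := by
    apply eq_zero_of_hasSum_zero (rad_pos Y)
    intro q hq0 hq
    obtain ⟨τ, hτ, rfl⟩ := exists_tau_of_norm_lt hY0 hq0 hq
    have h1 := hc.hasSum hq
    have h2 := hf τ hτ
    have hq0' : (𝕢 1 (τ : ℂ)) ^ m₀ ≠ 0 := zpow_ne_zero _ hq0
    have h3 : psum (fun n => (E - E').coeff (m₀ + n)) (𝕢 1 (τ : ℂ)) = 0 := by
      rcases mul_eq_zero.mp h2.symm with h4 | h4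
      · exact absurd h4 hq0'
      · exact h4
    rwa [h3] at h1
  have : E - E' = 0 := by
    ext m
    by_cases hlt : m < m₀
    · rw [hm m hlt]; rfl
    · push Not at hlt
      obtain ⟨n, rfl⟩ : ∃ n : ℕ, m = m₀ + n := ⟨(m - m₀).toNat, by omega⟩
      have := congrFun hzero n
      simpa using this
  exact sub_eq_zero.mp this

/-- **Products.** -/
theorem HasQExp.mul {f g : ℍ → ℂ} {E E' : LaurentSeries ℂ} (h : HasQExp f E)
    (h' : HasQExp g E') : HasQExp (fun τ => f τ * g τ) (E * E') := by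
  obtain ⟨m₀, hm⟩ := exists_lowerBd E
  obtain ⟨m₀', hm'⟩ := exists_lowerBd E'
  obtain ⟨Y, _, hc, hf⟩ := h.exists_disc hm
  obtain ⟨Y', _, hc', hf'⟩ := h'.exists_disc hm'
  have hc1 := hc.mono (rad_le_rad (le_max_left Y Y'))
  have hc2 := hc'.mono (rad_le_rad (le_max_right Y Y'))
  have hLB := hm.mul hm'
  have hco := hm.coeff_mul hm'
  have hcc := hc1.mul hc2
  refine HasQExp.of_disc hLB hco (Y := max Y Y') hcc ?_
  intro τ hτ
  have hq0 : 𝕢 1 (τ : ℂ) ≠ 0 := Function.Periodic.qParam_ne_zero _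
  have hprod := (hc1.hasSum_mul hc2 (norm_qParam_lt_rad hτ)).tsum_eq
  have e1 := hf τ (lt_of_le_of_lt (le_max_left _ _) hτ)
  have e2 := hf' τ (lt_of_le_of_lt (le_max_right _ _) hτ)
  show f τ * g τ = _
  rw [e1, e2, zpow_add₀ hq0]
  have hp : psum (fun n : ℕ => ∑ kl ∈ Finset.HasAntidiagonal.antidiagonal n,
      E.coeff (m₀ + kl.1) * E'.coeff (m₀' + kl.2)) (𝕢 1 (τ : ℂ))
      = psum (fun n : ℕ => E.coeff (m₀ + n)) (𝕢 1 (τ : ℂ)) *
        psum (fun n : ℕ => E'.coeff (m₀' + n)) (𝕢 1 (τ : ℂ)) := hprod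
  rw [hp]
  ring

/-- The normalised derivative `θ f = (2πi)⁻¹ df/dτ`. -/
def thetaF (f : ℍ → ℂ) : ℍ → ℂ := fun τ => (2 * π * I)⁻¹ * deriv (f ∘ ofComplex) (τ : ℂ)

theorem hasDerivAt_qParam_one (z : ℂ) : HasDerivAt (𝕢 1) (2 * π * I * 𝕢 1 z) z := by
  have h1 : HasDerivAt (fun w : ℂ => 2 * π * I * w / (1 : ℝ)) (2 * π * I) z := by
    have := (hasDerivAt_id z).const_mul (2 * π * I)
    simpa using this
  have h2 := h1.cexp
  have e2 : Complex.exp (2 * π * I * z / (1 : ℝ)) * (2 * π * I) = 2 * π * I * 𝕢 1 z := by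
    simp only [Function.Periodic.qParam]
    ring
  rw [e2] at h2
  exact h2

/-- **Termwise differentiation**: `θ` of a convergent `q`-expansion. -/
theorem HasQExp.theta {f : ℍ → ℂ} {E : LaurentSeries ℂ} (h : HasQExp f E) :
    HasQExp (thetaF f) (thetaL E) := by
  obtain ⟨m₀, hm⟩ := exists_lowerBd E
  obtain ⟨Y, hY0, hc, hf⟩ := h.exists_disc hm
  set a : ℕ → ℂ := fun n => E.coeff (m₀ + n) with ha
  -- the coefficient sequence of `thetaL E`
  set b : ℕ → ℂ := fun n => ((m₀ : ℂ) + n) * a n with hb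
  have hcoef : ∀ n : ℕ, (thetaL E).coeff (m₀ + n) = b n := by
    intro n
    simp only [thetaL_coeff, hb, ha]
    push_cast
    ring
  -- convergence and value of `∑ b n q^n`
  have hsum : ∀ q : ℂ, ‖q‖ < rad Y →
      HasSum (fun n => b n * q ^ n) ((m₀ : ℂ) * psum a q + q * deriv (psum a) q) := by
    intro q hq
    have h1 := (hc.hasSum hq).mul_left (m₀ : ℂ)
    have h2 := (hc.hasSum_deriv (rad_pos Y) hq).mul_left q
    -- shift the derivative series by one
    have h3 : HasSum (fun n : ℕ => (n : ℂ) * a n * q ^ n) (q * deriv (psum a) q) := by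
      rw [← hasSum_nat_add_iff' 1]
      simp only [Finset.range_one, Finset.sum_singleton, Nat.cast_zero, zero_mul, sub_zero]
      have e : (fun i : ℕ => q * (((i : ℂ) + 1) * a (i + 1) * q ^ i))
          = fun n : ℕ => ((n + 1 : ℕ) : ℂ) * a (n + 1) * q ^ (n + 1) := by
        funext n
        push_cast
        ring
      rw [e] at h2
      exact h2
    have h4 := h1.add h3
    have e : (fun n : ℕ => (m₀ : ℂ) * (a n * q ^ n) + (n : ℂ) * a n * q ^ n)
        = fun n : ℕ => b n * q ^ n := by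
      funext n
      simp only [hb]
      ring
    rw [e] at h4
    exact h4
  refine HasQExp.of_disc hm.thetaL hcoef (Y := Y) (fun q _ hq => (hsum q hq).summable) ?_
  intro τ hτ
  have hq0 : 𝕢 1 (τ : ℂ) ≠ 0 := Function.Periodic.qParam_ne_zero _
  have hqlt := norm_qParam_lt_rad hτ
  rw [psum, (hsum _ hqlt).tsum_eq]
  -- compute the derivative of `f ∘ ofComplex` near `τ`
  have hev : (f ∘ ofComplex) =ᶠ[𝓝 (τ : ℂ)]
      fun z => (𝕢 1 z) ^ m₀ * psum a (𝕢 1 z) := by
    have hopen : IsOpen {z : ℂ | max Y 0 < z.im} :=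
      isOpen_lt continuous_const Complex.continuous_im
    have hmem : (τ : ℂ) ∈ {z : ℂ | max Y 0 < z.im} := by
      show max Y 0 < (τ : ℂ).im
      exact max_lt hτ τ.im_pos
    filter_upwards [hopen.mem_nhds hmem] with z hz
    have hzpos : 0 < z.im := lt_of_le_of_lt (le_max_right _ _) hz
    have hzY : Y < z.im := lt_of_le_of_lt (le_max_left _ _) hz
    simp only [Function.comp_apply]
    rw [ofComplex_apply_of_im_pos hzpos]
    exact hf ⟨z, hzpos⟩ hzY
  have hd1 : HasDerivAt (fun z => (𝕢 1 z) ^ m₀) (m₀ * (𝕢 1 (τ : ℂ)) ^ (m₀ - 1) *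
      (2 * π * I * 𝕢 1 (τ : ℂ))) (τ : ℂ) := by
    have := (hasDerivAt_zpow m₀ (𝕢 1 (τ : ℂ)) (Or.inl hq0)).comp (τ : ℂ)
      (hasDerivAt_qParam_one (τ : ℂ))
    exact this
  have hd2 : HasDerivAt (fun z => psum a (𝕢 1 z)) (deriv (psum a) (𝕢 1 (τ : ℂ)) *
      (2 * π * I * 𝕢 1 (τ : ℂ))) (τ : ℂ) := by
    have hdiff := (hc.differentiableAt (rad_pos Y) hqlt).hasDerivAt
    exact hdiff.comp (τ : ℂ) (hasDerivAt_qParam_one (τ : ℂ))
  have hd := hd1.mul hd2
  have hderiv : deriv (f ∘ ofComplex) (τ : ℂ) = _ := (hd.congr_of_eventuallyEq hev).deriv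
  show (2 * π * I)⁻¹ * deriv (f ∘ ofComplex) (τ : ℂ) = _
  rw [hderiv]
  have h2pi : (2 * π * I : ℂ) ≠ 0 := by
    simp [Real.pi_ne_zero, I_ne_zero]
  have hz1 : (𝕢 1 (τ : ℂ)) ^ (m₀ - 1) * 𝕢 1 (τ : ℂ) = (𝕢 1 (τ : ℂ)) ^ m₀ := by
    rw [← zpow_add_one₀ hq0]
    congr 1
    ring
  field_simp
  rw [← hz1]
  ring

/-! ### Compatibility with Mathlib's `qExpansion` -/

theorem lowerBd_ofPowerSeries (P : PowerSeries ℂ) :
    LowerBd (HahnSeries.ofPowerSeries ℤ ℂ P) 0 := fun _ hm => ofPowerSeries_coeff_of_neg' P hm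

/-- A `1`-periodic holomorphic function bounded at `i∞` has its Mathlib `q`-expansion as
`HasQExp`-expansion. -/
theorem hasQExp_qExpansion {f : ℍ → ℂ} (hper : Function.Periodic (f ∘ ofComplex) (1 : ℝ))
    (hhol : MDiff f) (hbdd : IsBoundedAtImInfty f) :
    HasQExp f (HahnSeries.ofPowerSeries ℤ ℂ (qExpansion 1 f)) := by
  refine ⟨0, fun τ _ => ?_⟩
  have hq0 : 𝕢 1 (τ : ℂ) ≠ 0 := Function.Periodic.qParam_ne_zero _
  rw [hasSum_int_iff_nat (lowerBd_ofPowerSeries _) hq0]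
  have h1 := UpperHalfPlane.hasSum_qExpansion one_pos hper hhol hbdd τ
  have e : (fun n : ℕ => (HahnSeries.ofPowerSeries ℤ ℂ (qExpansion 1 f)).coeff (0 + n)
      * (𝕢 1 (τ : ℂ)) ^ n)
      = fun m : ℕ => (PowerSeries.coeff m) (qExpansion 1 f) • 𝕢 1 (τ : ℂ) ^ m := by
    funext n
    rw [zero_add, HahnSeries.ofPowerSeries_apply_coeff, smul_eq_mul]
  rw [e]
  simpa using h1

/-- If such a function has an expansion `E`, then `E` is its Mathlib `q`-expansion. -/
theorem HasQExp.eq_qExpansion {f : ℍ → ℂ} {E : LaurentSeries ℂ} (h : HasQExp f E)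
    (hper : Function.Periodic (f ∘ ofComplex) (1 : ℝ)) (hhol : MDiff f)
    (hbdd : IsBoundedAtImInfty f) :
    E = HahnSeries.ofPowerSeries ℤ ℂ (qExpansion 1 f) :=
  h.unique (hasQExp_qExpansion hper hhol hbdd)

theorem HasQExp.coeff_nat {f : ℍ → ℂ} {E : LaurentSeries ℂ} (h : HasQExp f E)
    (hper : Function.Periodic (f ∘ ofComplex) (1 : ℝ)) (hhol : MDiff f)
    (hbdd : IsBoundedAtImInfty f) (n : ℕ) :
    (qExpansion 1 f).coeff n = E.coeff n := by
  rw [h.eq_qExpansion hper hhol hbdd, HahnSeries.ofPowerSeries_apply_coeff]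

theorem HasQExp.coeff_neg {f : ℍ → ℂ} {E : LaurentSeries ℂ} (h : HasQExp f E)
    (hper : Function.Periodic (f ∘ ofComplex) (1 : ℝ)) (hhol : MDiff f)
    (hbdd : IsBoundedAtImInfty f) {m : ℤ} (hm : m < 0) : E.coeff m = 0 := by
  rw [h.eq_qExpansion hper hhol hbdd]
  exact ofPowerSeries_coeff_of_neg' _ hm

end PartC

end Fermat.Agent.S20.RatQExp
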