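import Fermat.Agent.S24.Pkg_FF0
import Fermat.Agent.S24.Pkg_FF1a
import Fermat.Agent.S24.Pkg_FF1b
import Fermat.Agent.S24.Pkg_FF2
import Fermat.Agent.S24.Pkg_FF3_86
import Fermat.Agent.S24.GalStab56
import Fermat.Agent.S20.TameDual79
import Fermat.Agent.S20.TameDifferent36

/-!
# S20 / T1 (helper30): every function field in one variable has canonical divisors

`K` algebraically closed of characteristic `0`, `hF : S24.IsFunctionFieldOver K x`.
* `ord_sub_eq_one_of_not_dvd` : a place `v_P` over `x = c` whose prime `P` does not divide the
  different of `B / K[x]` is unramified: `ord_v (x - c) = 1`;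
* `finite_support_ordDifferential_D` : `v ↦ ord_v (dx)` has finite support;
* `finite_support_ordDifferential` : same for every nonzero differential;
* `hasCanonicalDivisor` : `AlgebraicCurve.HasCanonicalDivisor (K := K) (F := F)`.
-/

set_option autoImplicit false
set_option linter.unusedSectionVars false
set_option linter.unusedVariables false
set_option linter.style.haveILetI false

open AlgebraicCurve KaehlerDifferential IntermediateField IsDedekindDomain
open scoped IntermediateField.algebraAdjoinAdjoin

namespace Fermat.Agent.S20.T1CanDiv30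

open Fermat.Agent.S24 Fermat.Agent.S24.FFBase Fermat.Agent.S24.PlaceDedekind

attribute [local instance] FractionRing.liftAlgebra FractionRing.isScalarTower_liftAlgebra

variable {K F : Type*} [Field K] [Field F] [Algebra K F] [IsAlgClosed K] [CharZero K]
variable {x : F} (hF : IsFunctionFieldOver K x)

instance instIsTorsionFree : Module.IsTorsionFree (Ax hF) (Bx hF) :=
  inferInstanceAs (Module.IsTorsionFree (A K x) (B K x))

/-- Separability of the fraction fields of `K[x] ⊆ B`. -/
theorem isSeparable_fractionRing :
    Algebra.IsSeparable (FractionRing (Ax hF)) (FractionRing (Bx hF)) := by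
  have := hF.finite
  have := FFBase.isSeparable hF
  haveI : IsDedekindDomain (A K x) := isDedekindDomain_A hF.transcendental
  haveI : IsDedekindDomain (B K x) := isDedekindDomain_B hF
  haveI : IsFractionRing (B K x) F := isFractionRing_B hF
  haveI : Module.Finite (A K x) (B K x) := finite_B hF
  exact Fermat.Agent.S20.TameDual79.isSeparable_fractionRing (A K x) K⟮x⟯ F (B K x)

theorem differentIdeal_ne_bot' : differentIdeal (Ax hF) (Bx hF) ≠ ⊥ := by
  have := isSeparable_fractionRing hF
  exact differentIdeal_ne_bot

/-- The finitely many primes of `B` dividing the different of `B / K[x]`. -/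
theorem finite_dvd_different :
    {P : HeightOneSpectrum (Bx hF) | P.asIdeal ∣ differentIdeal (Ax hF) (Bx hF)}.Finite :=
  Ideal.finite_factors (differentIdeal_ne_bot' hF)

/-- A place `v_P` over `x = c` whose prime does not divide the different is unramified. -/
theorem ord_sub_eq_one_of_not_dvd (P : HeightOneSpectrum (Bx hF)) (c : K)
    (hc : 0 < (Place.ofHeightOneSpectrum (K := K) (F := F) P).ord (x - algebraMap K F c))
    (hP : ¬ P.asIdeal ∣ differentIdeal (Ax hF) (Bx hF)) :
    (Place.ofHeightOneSpectrum (K := K) (F := F) P).ord (x - algebraMap K F c) = 1 := by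
  have := isSeparable_fractionRing hF
  have hunr : Algebra.IsUnramifiedAt (Ax hF) P.asIdeal := not_dvd_differentIdeal_iff.mp hP
  rw [← GalStab56.ramificationIdx_eq_ord hF P c hc,
    Ideal.ramificationIdx_eq_one_of_isUnramifiedAt]
  rfl

/-- A place over `x = c` has `x` in its valuation ring. -/
theorem mem_of_mem_placesOver (v : Place K F) (c : K) (hc : v ∈ placesOver x c) :
    x ∈ v.toValuationSubring := by
  have hc' : 0 < v.ord (x - algebraMap K F c) := hc
  have hne : x - algebraMap K F c ≠ 0 := by
    intro h0
    rw [h0, Place.ord_zero] at hc'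
    exact lt_irrefl _ hc'
  have h1 : x - algebraMap K F c ∈ v.toValuationSubring :=
    (ord_nonneg_iff v hne).mp hc'.le
  have h2 : algebraMap K F c ∈ v.toValuationSubring := v.algebraMap_mem' c
  have := v.toValuationSubring.add_mem _ _ h1 h2
  simpa using this

include hF in
/-- **The support of `v ↦ ord_v (dx)` is finite.** -/
theorem finite_support_ordDifferential_D :
    {v : Place K F | v.ordDifferential (D K F x) ≠ 0}.Finite := by
  have hsub : {v : Place K F | v.ordDifferential (D K F x) ≠ 0} ⊆
      placesOverInfty K x ∪ (Place.ofHeightOneSpectrum (K := K) (F := F)) ''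
        {P : HeightOneSpectrum (Bx hF) | P.asIdeal ∣ differentIdeal (Ax hF) (Bx hF)} := by
    intro v hv
    rcases exists_center hF v with h | ⟨c, hc⟩
    · exact Or.inl h
    · right
      have hx : x ∈ v.toValuationSubring := mem_of_mem_placesOver v c hc
      obtain ⟨P, rfl⟩ := FF86.exists_ofHeightOneSpectrum_eq_of_mem hF v hx
      refine ⟨P, ?_, rfl⟩
      by_contra hP
      apply hv
      rw [ordDifferential_D_of_pos hF _ c hc, ord_sub_eq_one_of_not_dvd hF P c hc hP]
      simp
  exact ((finite_placesOverInfty hF).union ((finite_dvd_different hF).image _)).subset hsub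

include hF in
/-- **The support of `v ↦ ord_v ω` is finite for every nonzero differential.** -/
theorem finite_support_ordDifferential (ω : Ω[F⁄K]) (hω : ω ≠ 0) :
    {v : Place K F | v.ordDifferential ω ≠ 0}.Finite := by
  have : Nontrivial Ω[F⁄K] := ⟨⟨D K F x, 0, D_ne_zero hF⟩⟩
  have hgen : ∀ v : Place K F, v.DCoordGenerates := dCoordGenerates hF
  obtain ⟨f, hf⟩ : ∃ f : F, f • D K F x = ω := by
    have hmem : ω ∈ Submodule.span F {D K F x} := by rw [span_D_eq_top hF]; trivial
    exact Submodule.mem_span_singleton.mp hmem
  have hf0 : f ≠ 0 := by rintro rfl; exact hω (by rw [← hf, zero_smul])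
  have hcoef : ∀ v : Place K F, v.differentialCoeff (D K F x) ≠ 0 := by
    intro v h0
    have h := v.differentialCoeff_smul_dCoord (D K F x)
    rw [h0, zero_smul] at h
    exact D_ne_zero hF h.symm
  have hsplit : ∀ v : Place K F,
      v.ordDifferential ω = v.ord f + v.ordDifferential (D K F x) := by
    intro v
    rw [← hf, Place.ordDifferential_smul v hf0 (hcoef v)]
  refine ((finite_support_ord hF hf0).union (finite_support_ordDifferential_D hF)).subset ?_
  intro v hv
  by_contra hnot
  simp only [Set.mem_union, Set.mem_ofPred_eq, not_or, not_not] at hnot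
  apply hv
  rw [hsplit v, hnot.1, hnot.2, add_zero]

/-- A place coming from a prime of `B` is not over infinity and lies over some `x = c`. -/
theorem exists_center_ofHeightOneSpectrum (P : HeightOneSpectrum (Bx hF)) :
    ∃ c : K, Place.ofHeightOneSpectrum (K := K) (F := F) P ∈ placesOver x c := by
  set v := Place.ofHeightOneSpectrum (K := K) (F := F) P with hv
  rcases exists_center hF v with h | h
  · exfalso
    have hxB : x ∈ B K x := by
      have h1 : IsIntegral (A K x) (algebraMap (A K x) F (gen K x)) := isIntegral_algebraMap
      exact h1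
    have hx : x ∈ v.toValuationSubring := by
      rw [hv, mem_ofHeightOneSpectrum_iff]
      exact P.valuation_le_one (K := F) (show Bx hF from ⟨x, hxB⟩)
    have hx0 : x ≠ 0 := by
      rintro rfl
      exact hF.transcendental (isAlgebraic_zero)
    have h' : v.ord x < 0 := h
    have := (ord_nonneg_iff v hx0).mpr hx
    omega
  · exact h

/-- **The order of `dx` at a finite place is the exponent of its prime in the different.** -/
theorem ordDifferential_D_eq_count (P : HeightOneSpectrum (Bx hF)) :
    (Place.ofHeightOneSpectrum (K := K) (F := F) P).ordDifferential (D K F x) =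
      ((UniqueFactorizationMonoid.normalizedFactors
        (differentIdeal (Ax hF) (Bx hF))).count P.asIdeal : ℤ) := by
  have hsep := isSeparable_fractionRing hF
  obtain ⟨c, hc⟩ := exists_center_ofHeightOneSpectrum hF P
  have hc' : 0 < (Place.ofHeightOneSpectrum (K := K) (F := F) P).ord (x - algebraMap K F c) := hc
  haveI : CharZero (Ax hF ⧸ P.asIdeal.under (Ax hF)) :=
    Fermat.Agent.S20.TameDiff79.charZero_quotient_of_field_algebra K _
      (Ideal.IsPrime.ne_top inferInstance)
  have hcount := Fermat.Agent.S20.TameDifferent36.count_normalizedFactors_differentIdeal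
    (A := Ax hF) (B := Bx hF) P.asIdeal P.ne_bot
  have hp : P.asIdeal.under (Ax hF) ≠ ⊥ := mt Ideal.eq_bot_of_comap_eq_bot P.ne_bot
  have hp' : (P.asIdeal.under (Ax hF)).map (algebraMap (Ax hF) (Bx hF)) ≠ ⊥ :=
    (Ideal.map_eq_bot_iff_of_injective
      (FaithfulSMul.algebraMap_injective (Ax hF) (Bx hF))).not.mpr hp
  have he := Ideal.IsDedekindDomain.ramificationIdx_eq_normalizedFactors_count
    (P.asIdeal.under (Ax hF)) P.asIdeal hp'
  have hord := GalStab56.ramificationIdx_eq_ord hF P c hc'
  have hpos : 0 < P.asIdeal.ramificationIdx (Ax hF) := by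
    have : (0 : ℤ) < (P.asIdeal.ramificationIdx (Ax hF) : ℤ) := by rw [hord]; exact hc'
    exact_mod_cast this
  rw [ordDifferential_D_of_pos hF _ c hc, ← hord, hcount, ← he]
  omega

include hF in
/-- **Function fields in one variable have canonical divisors.** -/
theorem hasCanonicalDivisor : HasCanonicalDivisor (K := K) (F := F) := by
  classical
  refine ⟨fun ω hω => ?_⟩
  have hfin := finite_support_ordDifferential hF ω hω
  refine ⟨Finsupp.ofSupportFinite (fun v => v.ordDifferential ω) ?_, fun v => ?_⟩
  · exact hfin.subset (fun v hv => by simpa [Function.mem_support] using hv)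
  · rfl

end Fermat.Agent.S20.T1CanDiv30
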