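import Fermat.Agent.S20.T1DualFF86
import Fermat.Agent.S24.Pkg_FF2

/-!
# S20 / T1-GLUE, step DEG-a (helper86): `HasCanonicalDivisor` for function fields

`K` algebraically closed of characteristic zero, `hF : S24.IsFunctionFieldOver K x`.
* `ordDifferential_D_eq_count` : at the place of a prime `P` of `Bx hF` (integral closure of
  `K[x]`), `ord_v (dx)` is the exponent of `P` in the different of `Bx hF` over `K[x]`;
* `finite_ordDifferential_D_ne_zero` : `dx` has finitely many zeros and poles;
* `finite_ordDifferential_ne_zero` : so has every nonzero differential;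
* `hasCanonicalDivisor`.
-/

set_option autoImplicit false
set_option linter.unusedSectionVars false

open AlgebraicCurve IntermediateField IsDedekindDomain KaehlerDifferential WithZero
  UniqueFactorizationMonoid
open scoped IntermediateField.algebraAdjoinAdjoin

namespace Fermat.Agent.S20.T1CanDiv86

open Fermat.Agent.S24 Fermat.Agent.S24.FFBase Fermat.Agent.S24.PlaceDedekind
open Fermat.Agent.S20.T1DualFF86

variable {K F : Type*} [Field K] [Field F] [Algebra K F] [CharZero K] [IsAlgClosed K]
variable {x : F} (hF : IsFunctionFieldOver K x)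

/-- `ord_v (x - c) = d_P + 1` at the place `v` of the prime `P` with centre `c`, where `d_P` is
the exponent of `P` in the different. -/
theorem ord_sub_center_eq (P : HeightOneSpectrum (Bx hF)) :
    (Place.ofHeightOneSpectrum (K := K) (F := F) P).ord (x - algebraMap K F (center hF P)) =
      ((normalizedFactors (differentIdeal (Ax hF) (Bx hF))).count P.asIdeal : ℤ) + 1 := by
  have := hF.finite
  have := isSeparable hF
  have := charZero_quotient_tc hF (center hF P)
  have h := T1Dual86.valuation_uniformizer_eq (Ax hF) (↥K⟮x⟯) F P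
    (isMaximal_span_tc hF (center hF P)) (tc_ne_zero hF _) (tc_center_mem hF P)
  rw [ord_ofHeightOneSpectrum, ← coe_tc hF, h, log_exp, neg_neg]

/-- `ord_v (dx) = d_P` at the place of the prime `P` of the integral closure of `K[x]`. -/
theorem ordDifferential_D_eq_count (P : HeightOneSpectrum (Bx hF)) :
    (Place.ofHeightOneSpectrum (K := K) (F := F) P).ordDifferential (D K F x) =
      ((normalizedFactors (differentIdeal (Ax hF) (Bx hF))).count P.asIdeal : ℤ) := by
  rw [S24.ordDifferential_D_of_pos hF _ (center hF P) (center_spec hF P), ord_sub_center_eq]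
  ring

include hF in
/-- `dx` has finitely many zeros and poles. -/
theorem finite_ordDifferential_D_ne_zero :
    {v : Place K F | v.ordDifferential (D K F x) ≠ 0}.Finite := by
  have := hF.finite
  have := isSeparable hF
  have hx0 : x ≠ 0 := fun h => hF.transcendental (h ▸ isAlgebraic_zero)
  have hdiff : differentIdeal (Ax hF) (Bx hF) ≠ ⊥ :=
    T1Dual86.differentIdeal_ne_bot' (Ax hF) (↥K⟮x⟯) F
  have hfin1 : {P : HeightOneSpectrum (Bx hF) |
      P.asIdeal ∣ differentIdeal (Ax hF) (Bx hF)}.Finite := Ideal.finite_factors hdiff
  have hfin2 : {v : Place K F | v.ord x ≠ 0}.Finite := S24.finite_support_ord hF hx0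
  refine ((hfin1.image (Place.ofHeightOneSpectrum (K := K) (F := F))).union hfin2).subset ?_
  intro v hv
  by_cases hx : x ∈ v.toValuationSubring
  · left
    obtain ⟨P, rfl⟩ := FF86.exists_ofHeightOneSpectrum_eq_of_mem hF v hx
    refine ⟨P, ?_, rfl⟩
    have hv' : (Place.ofHeightOneSpectrum (K := K) (F := F) P).ordDifferential (D K F x) ≠ 0 := hv
    rw [ordDifferential_D_eq_count] at hv'
    have hcount : (normalizedFactors (differentIdeal (Ax hF) (Bx hF))).count P.asIdeal ≠ 0 := by
      intro h0; apply hv'; rw [h0]; rfl
    have hmem : P.asIdeal ∈ normalizedFactors (differentIdeal (Ax hF) (Bx hF)) :=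
      Multiset.count_ne_zero.mp hcount
    exact dvd_of_mem_normalizedFactors hmem
  · right
    show v.ord x ≠ 0
    intro h0
    exact hx (PlaceLocal.mem_of_ord_nonneg v h0.ge)

include hF in
/-- Every nonzero differential has finitely many zeros and poles. -/
theorem finite_ordDifferential_ne_zero {ω : Ω[F⁄K]} (hω : ω ≠ 0) :
    {v : Place K F | v.ordDifferential ω ≠ 0}.Finite := by
  have hnt : Nontrivial Ω[F⁄K] := ⟨⟨D K F x, 0, S24.D_ne_zero hF⟩⟩
  obtain ⟨f, hf⟩ : ∃ f : F, f • D K F x = ω := by
    have hmem : ω ∈ Submodule.span F {D K F x} := by rw [S24.span_D_eq_top hF]; trivial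
    exact Submodule.mem_span_singleton.mp hmem
  have hf0 : f ≠ 0 := by rintro rfl; exact hω (by rw [← hf, zero_smul])
  refine ((S24.finite_support_ord hF hf0).union (finite_ordDifferential_D_ne_zero hF)).subset ?_
  intro v hv
  have := S24.dCoordGenerates hF v
  have hv' : v.ordDifferential ω ≠ 0 := hv
  rw [← hf, S24.Diff.ordDifferential_smul' v hf0 (S24.D_ne_zero hF)] at hv'
  by_contra hnot
  simp only [Set.mem_union, Set.mem_ofPred_eq, not_or, not_not] at hnot
  apply hv'
  rw [hnot.1, hnot.2, add_zero]

include hF in
/-- **`HasCanonicalDivisor`** for a function field in one variable over an algebraically closed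
field of characteristic zero. -/
theorem hasCanonicalDivisor : HasCanonicalDivisor (K := K) (F := F) := by
  refine ⟨fun ω hω => ?_⟩
  refine ⟨Finsupp.ofSupportFinite (fun v : Place K F => v.ordDifferential ω) ?_, fun v => rfl⟩
  exact (finite_ordDifferential_ne_zero hF hω).subset (fun v hv => by simpa using hv)

end Fermat.Agent.S20.T1CanDiv86
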