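import Fermat.Agent.S20.T1Dual86
import Fermat.Agent.S24.Pkg_FF3_86

set_option autoImplicit false
set_option linter.unusedSectionVars false

open AlgebraicCurve IntermediateField IsDedekindDomain KaehlerDifferential WithZero
open scoped IntermediateField.algebraAdjoinAdjoin

namespace Fermat.Agent.S20.T1DualFF86

open Fermat.Agent.S24 Fermat.Agent.S24.FFBase Fermat.Agent.S24.PlaceDedekind

variable {K F : Type*} [Field K] [Field F] [Algebra K F]

section

variable [CharZero K] {x : F} (hF : IsFunctionFieldOver K x)

noncomputable instance : Algebra (Ax hF) (↥K⟮x⟯) :=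
  inferInstanceAs (Algebra (Algebra.adjoin K {x}) (↥K⟮x⟯))
instance : IsFractionRing (Ax hF) (↥K⟮x⟯) :=
  inferInstanceAs (IsFractionRing (Algebra.adjoin K {x}) (↥K⟮x⟯))
instance : IsScalarTower (Ax hF) (↥K⟮x⟯) F :=
  inferInstanceAs (IsScalarTower (Algebra.adjoin K {x}) (↥K⟮x⟯) F)
instance : IsIntegralClosure (Bx hF) (Ax hF) F :=
  inferInstanceAs (IsIntegralClosure (integralClosure (A K x) F) (A K x) F)
instance : Module.IsTorsionFree (Ax hF) (Bx hF) :=
  inferInstanceAs (Module.IsTorsionFree (A K x) (integralClosure (A K x) F))

end

end Fermat.Agent.S20.T1DualFF86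

namespace Fermat.Agent.S20.T1DualFF86

open Fermat.Agent.S24 Fermat.Agent.S24.FFBase Fermat.Agent.S24.PlaceDedekind

variable {K F : Type*} [Field K] [Field F] [Algebra K F]

section

variable [CharZero K] {x : F} (hF : IsFunctionFieldOver K x)

/-- The element `x - c` of `K[x]`. -/
noncomputable def tc (c : K) : Ax hF := (gen K x : A K x) - algebraMap K (A K x) c

theorem coe_tc (c : K) : algebraMap (Ax hF) F (tc hF c) = x - algebraMap K F c := rfl

theorem tc_ne_zero (c : K) : tc hF c ≠ 0 := by
  intro h
  have h1 : x - algebraMap K F c = 0 := by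
    rw [← coe_tc hF c, h, map_zero]
  have hx' : x = algebraMap K F c := sub_eq_zero.mp h1
  exact hF.transcendental (hx' ▸ isAlgebraic_algebraMap c)

theorem irreducible_tc (c : K) : Irreducible (tc hF c) := by
  have h1 : tc hF c = (Polynomial.algEquivOfTranscendental K x hF.transcendental)
      (Polynomial.X - Polynomial.C c) := by
    rw [map_sub, Polynomial.algEquivOfTranscendental_apply_X]
    rw [← Polynomial.algebraMap_eq, AlgEquiv.commutes]
    rfl
  rw [h1]
  exact (MulEquiv.irreducible_iff
    (Polynomial.algEquivOfTranscendental K x hF.transcendental).toMulEquiv).mpr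
    (Polynomial.irreducible_X_sub_C c)

theorem isMaximal_span_tc (c : K) : (Ideal.span {tc hF c}).IsMaximal :=
  PrincipalIdealRing.isMaximal_of_irreducible (irreducible_tc hF c)

theorem charZero_quotient_tc (c : K) : CharZero (Ax hF ⧸ Ideal.span {tc hF c}) :=
  TameDiff79.charZero_quotient_of_field_algebra K _ (isMaximal_span_tc hF c).ne_top


/-! ### the places of `Bx hF` and their centres -/

variable [IsAlgClosed K]

theorem x_mem (P : HeightOneSpectrum (Bx hF)) :
    x ∈ (Place.ofHeightOneSpectrum (K := K) (F := F) P).toValuationSubring := by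
  rw [mem_ofHeightOneSpectrum_iff]
  exact P.valuation_le_one (K := F) (algebraMap (Ax hF) (Bx hF) (gen K x : A K x))

theorem exists_center_prime (P : HeightOneSpectrum (Bx hF)) :
    ∃ c : K, 0 < (Place.ofHeightOneSpectrum (K := K) (F := F) P).ord (x - algebraMap K F c) := by
  rcases FF86.exists_center hF (Place.ofHeightOneSpectrum (K := K) (F := F) P) with h | ⟨c, hc⟩
  · exfalso
    have h1 : (Place.ofHeightOneSpectrum (K := K) (F := F) P).ord x < 0 := h
    have h2 := PlaceLocal.ord_nonneg_of_mem _ (x_mem hF P)
    omega
  · exact ⟨c, hc⟩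

/-- The centre of the prime `P` on the `x`-line. -/
noncomputable def center (P : HeightOneSpectrum (Bx hF)) : K := (exists_center_prime hF P).choose

theorem center_spec (P : HeightOneSpectrum (Bx hF)) :
    0 < (Place.ofHeightOneSpectrum (K := K) (F := F) P).ord (x - algebraMap K F (center hF P)) :=
  (exists_center_prime hF P).choose_spec

include hF in
/-- Uniqueness of the centre of a place. -/
theorem center_unique (v : Place K F) {c c' : K} (hc : 0 < v.ord (x - algebraMap K F c))
    (hc' : 0 < v.ord (x - algebraMap K F c')) : c = c' := by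
  by_contra hne
  have h1 : (x - algebraMap K F c) + -(x - algebraMap K F c') = algebraMap K F (c' - c) := by
    rw [map_sub]; ring
  have hne' : algebraMap K F (c' - c) ≠ 0 := by
    rw [ne_eq, map_eq_zero_iff _ (algebraMap K F).injective, sub_eq_zero]
    exact fun h => hne h.symm
  have h2 : (1 : ℤ) ≤ v.ord ((x - algebraMap K F c) + -(x - algebraMap K F c')) := by
    apply PlaceLocal.le_ord_add v (by rw [h1]; exact hne')
    · right; omega
    · right
      rw [← neg_one_mul, v.ord_mul (by norm_num)]
      · have : v.ord (-1 : F) = 0 := by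
          have := PlaceLocal.ord_algebraMap v (-1 : K)
          simpa using this
        rw [this]; omega
      · intro h0
        rw [h0] at hc'
        simp at hc'
  rw [h1, PlaceLocal.ord_algebraMap] at h2
  omega

theorem tc_center_mem (P : HeightOneSpectrum (Bx hF)) :
    algebraMap (Ax hF) (Bx hF) (tc hF (center hF P)) ∈ P.asIdeal := by
  refine (P.valuation_lt_one_iff_mem (K := F)
    (algebraMap (Ax hF) (Bx hF) (tc hF (center hF P)))).mp ?_
  show P.valuation F (x - algebraMap K F (center hF P)) < 1
  have hne : x - algebraMap K F (center hF P) ≠ 0 := by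
    rw [← coe_tc hF]
    intro h
    have hinj : Function.Injective (algebraMap (Ax hF) F) := Subtype.val_injective
    exact tc_ne_zero hF _ ((map_eq_zero_iff _ hinj).mp h)
  rw [T1Dual86.valuation_eq_exp_neg_ord K F P hne, ← exp_zero, exp_lt_exp]
  have := center_spec hF P
  omega

include hF in
/-- **Trace dual of the integral closure of `K[x]` in `F`, in terms of places**: a nonzero `f`
lies in the trace dual iff `ord_v f ≥ -(e_v - 1)` at every finite place `v`, where
`e_v = ord_v (x - c)` for the centre `c` of `v`. -/
theorem mem_traceDual_iff {f : F} (hf : f ≠ 0) :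
    f ∈ Submodule.traceDual (Ax hF) (↥K⟮x⟯) (1 : Submodule (Bx hF) F) ↔
      ∀ (v : Place K F) (c : K), 0 < v.ord (x - algebraMap K F c) →
        1 ≤ v.ord f + v.ord (x - algebraMap K F c) := by
  have := hF.finite
  have := isSeparable hF
  rw [T1Dual86.mem_traceDual_one_iff_ord K (Ax hF) (↥K⟮x⟯) F (fun P => tc hF (center hF P))
    (fun P => isMaximal_span_tc hF _) (fun P => tc_ne_zero hF _) (tc_center_mem hF)
    (fun P => charZero_quotient_tc hF _) hf]
  constructor
  · intro h v c hc
    have hx : x ∈ v.toValuationSubring := by
      have h1 : x = (x - algebraMap K F c) + algebraMap K F c := by ring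
      rw [h1]
      exact add_mem (PlaceLocal.mem_of_ord_nonneg v hc.le) (v.algebraMap_mem' c)
    obtain ⟨P, rfl⟩ := FF86.exists_ofHeightOneSpectrum_eq_of_mem hF v hx
    have hcc : center hF P = c := center_unique hF _ (center_spec hF P) hc
    have := h P
    rw [coe_tc, hcc] at this
    exact this
  · intro h P
    rw [coe_tc]
    exact h _ _ (center_spec hF P)

include hF in
/-- **Trace dual of the integral closure of `K[x]`, differential form**: a nonzero `f` lies in
the trace dual iff the differential `f dx` is regular at every finite place (every place `v` with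
`x ∈ O_v`). -/
theorem mem_traceDual_iff_ordDifferential {f : F} (hf : f ≠ 0) :
    f ∈ Submodule.traceDual (Ax hF) (↥K⟮x⟯) (1 : Submodule (Bx hF) F) ↔
      ∀ v : Place K F, x ∈ v.toValuationSubring → 0 ≤ v.ordDifferential (f • D K F x) := by
  have := hF.finite
  have hnt : Nontrivial Ω[F⁄K] := S24.Diff.nontrivial_kaehler (K := K) (x := x) hF.transcendental
  have key : ∀ (v : Place K F) (c : K), 0 < v.ord (x - algebraMap K F c) →
      v.ordDifferential (f • D K F x) = v.ord f + v.ord (x - algebraMap K F c) - 1 := by
    intro v c hc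
    have := S24.dCoordGenerates hF v
    rw [S24.Diff.ordDifferential_smul' v hf (S24.D_ne_zero hF),
      S24.ordDifferential_D_of_pos hF v c hc]
    ring
  rw [mem_traceDual_iff hF hf]
  constructor
  · intro h v hx
    rcases FF86.exists_center hF v with hinf | ⟨c, hc⟩
    · exfalso
      have h1 : v.ord x < 0 := hinf
      have h2 := PlaceLocal.ord_nonneg_of_mem v hx
      omega
    · have hc' : 0 < v.ord (x - algebraMap K F c) := hc
      rw [key v c hc']
      have := h v c hc'
      omega
  · intro h v c hc
    have hx : x ∈ v.toValuationSubring := by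
      have h1 : x = (x - algebraMap K F c) + algebraMap K F c := by ring
      rw [h1]
      exact add_mem (PlaceLocal.mem_of_ord_nonneg v hc.le) (v.algebraMap_mem' c)
    have := h v hx
    rw [key v c hc] at this
    omega

end

end Fermat.Agent.S20.T1DualFF86
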