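import Fermat.Agent.S20.HolDef
import Fermat.Agent.S20.PointPlace
import Fermat.Agent.S20.MerBridge
import Fermat.Agent.S20.ThetaMap
import Fermat.Agent.S24.Differentials

/-!
# S20 / T3ge main assembly (helper20)

Generic part: for a function field `F/K` (`K` algebraically closed, characteristic zero) with a
realisation `R` inside `Mer` by `Γ₀(N)`-invariant functions, every regular differential `ω` gives a
holomorphic function `f_ω` on `ℍ` of weight `2` for `Γ₀(N)`; if moreover all its `SL(2,ℤ)`-slashes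
vanish at `i∞`, it is a cusp form.
-/

set_option autoImplicit false
set_option linter.style.haveILetI false

open UpperHalfPlane KaehlerDifferential AlgebraicCurve ModularForm
open scoped MatrixGroups Manifold

namespace Fermat.Agent.S20.T3Main

open Fermat.Agent.S24.HolH Fermat.Agent.S20.MerDiv Fermat.Agent.S20.MerLocal
open Fermat.Agent.S20.MerPhi Fermat.Agent.S24 Fermat.Agent.S20.PointPlace
open CongruenceSubgroup

variable {K F : Type*} [Field K] [Field F] [Algebra K F]

section Regular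

variable [IsAlgClosed K] [CharZero K] {x : F}

/-- Elements of `HolF K x` give differentials regular at every place. -/
theorem ordDifferential_nonneg_of_mem_HolF (hF : IsFunctionFieldOver K x) {f : F}
    (hf : f ∈ HolF K x) (v : Place K F) : 0 ≤ v.ordDifferential (f • D K F x) := by
  haveI : v.DCoordGenerates := Fermat.Agent.S24.dCoordGenerates hF v
  have hD : D K F x ≠ 0 := Fermat.Agent.S24.D_ne_zero hF
  haveI : Nontrivial Ω[F⁄K] := ⟨⟨_, _, hD⟩⟩
  rcases hf v with h0 | h
  · rw [h0, zero_smul, Place.ordDifferential, v.differentialCoeff_zero, v.ord_zero]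
  · by_cases h0 : f = 0
    · rw [h0, zero_smul, Place.ordDifferential, v.differentialCoeff_zero, v.ord_zero]
    · rw [Fermat.Agent.S24.Diff.ordDifferential_smul' v h0 hD]
      exact h

end Regular

section Invariance

/-- Weight-two transformation rule of `R.Phi ω` under an element fixing the realisation. -/
theorem smul_Phi_of_invariant {x : F} (hspan : Submodule.span F {D K F x} = ⊤)
    (R : Realization K F) {g : SL(2, ℤ)} (hg : ∀ y : F, g • R.φ y = R.φ y) (ω : Ω[F⁄K]) :
    g • R.Phi ω = R.Phi ω * algebraMap Hol Mer (MerLocal23.cdHol g⁻¹) ^ 2 := by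
  have hω : ω ∈ Submodule.span F {D K F x} := by rw [hspan]; exact Submodule.mem_top
  obtain ⟨h, rfl⟩ := Submodule.mem_span_singleton.mp hω
  rw [Realization.Phi_smul, Realization.Phi_D, smul_mul', hg, MerBridge.dMer_of_smul_eq (hg x),
    mul_assoc]

/-- From the transformation rule in `Mer` to slash invariance. -/
theorem slash_eq_of_smul_eq {f : Hol} {g : SL(2, ℤ)}
    (h : g⁻¹ • algebraMap Hol Mer f =
      algebraMap Hol Mer f * algebraMap Hol Mer (MerLocal23.cdHol g) ^ 2) :
    (f : ℍ → ℂ) ∣[(2 : ℤ)] g = (f : ℍ → ℂ) := by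
  rw [Mer.smul_algebraMap, ← map_pow, ← map_mul] at h
  have h' : g⁻¹ • f = f * MerLocal23.cdHol g ^ 2 := IsFractionRing.injective Hol Mer h
  funext τ
  rw [SL_slash_apply]
  have h1 := congrArg (fun F : Hol => (F : ℍ → ℂ) τ) h'
  simp only [Hol.smul_apply, inv_inv, Subalgebra.coe_mul, Subalgebra.coe_pow, Pi.mul_apply,
    Pi.pow_apply] at h1
  rw [h1, MerLocal23.cdHol_apply_eq_denom]
  have hne : UpperHalfPlane.denom (Matrix.SpecialLinearGroup.mapGL ℝ g) τ ≠ 0 :=
    UpperHalfPlane.denom_ne_zero _ τ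
  rw [mul_assoc]
  have : UpperHalfPlane.denom (Matrix.SpecialLinearGroup.mapGL ℝ g) τ ^ 2 *
      UpperHalfPlane.denom (Matrix.SpecialLinearGroup.mapGL ℝ g) τ ^ (-(2 : ℤ)) = 1 := by
    rw [zpow_neg, ← zpow_natCast]
    exact mul_inv_cancel₀ (zpow_ne_zero _ hne)
  exact (congrArg (fun z => (f : ℍ → ℂ) τ * z) this).trans (mul_one _)

end Invariance

section MkCusp

/-- A holomorphic function of weight `2` for `Γ₀(N)` all of whose `SL(2,ℤ)`-slashes vanish at `i∞`
is a cusp form. -/
noncomputable def mkCusp (N : ℕ) [NeZero N] (f : ℍ → ℂ) (hol : MDiff f)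
    (hslash : ∀ γ : SL(2, ℤ), γ ∈ Gamma0 N → f ∣[(2 : ℤ)] γ = f)
    (hcusp : ∀ γ : SL(2, ℤ), IsZeroAtImInfty (f ∣[(2 : ℤ)] γ)) : CuspForm (Gamma0 N) 2 where
  toFun := f
  slash_action_eq' := by
    rintro _ ⟨γ, hγ, rfl⟩
    exact hslash γ hγ
  holo' := hol
  zero_at_cusps' := by
    intro cusp hc
    rw [Subgroup.IsArithmetic.isCusp_iff_isCusp_SL2Z] at hc
    rw [OnePoint.isZeroAt_iff_forall_SL2Z hc]
    intro γ _
    exact hcusp γ

@[simp] lemma mkCusp_apply (N : ℕ) [NeZero N] (f : ℍ → ℂ) (hol : MDiff f)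
    (hslash : ∀ γ : SL(2, ℤ), γ ∈ Gamma0 N → f ∣[(2 : ℤ)] γ = f)
    (hcusp : ∀ γ : SL(2, ℤ), IsZeroAtImInfty (f ∣[(2 : ℤ)] γ)) (τ : ℍ) :
    mkCusp N f hol hslash hcusp τ = f τ := rfl

end MkCusp

section CoeffL

/-- The coefficient map `k((q)) → (ℤ → k)`, as a `k`-linear map for the module structure coming
from the algebra structure (the one used by `IntermediateField k (LaurentSeries k)`). -/
noncomputable def coL (k : Type*) [Field k] :
    @LinearMap k k _ _ (RingHom.id k) (LaurentSeries k) (ℤ → k) _ _ Algebra.toModule _ :=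
  letI : Module k (LaurentSeries k) := Algebra.toModule
  { toFun := fun y m => y.coeff m
    map_add' := fun y z => by funext m; simp
    map_smul' := fun c y => by
      funext m
      have h2 : algebraMap k (LaurentSeries k) c = HahnSeries.C c := by
        have h1 : algebraMap k (PowerSeries k) c = PowerSeries.C c := by simp
        rw [HahnSeries.algebraMap_apply', h1, HahnSeries.ofPowerSeries_C]
      simp only [RingHom.id_apply, Pi.smul_apply, smul_eq_mul]
      rw [Algebra.smul_def, h2, HahnSeries.C_mul_eq_smul, HahnSeries.coeff_smul, smul_eq_mul] }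

lemma coL_apply (k : Type*) [Field k] (y : LaurentSeries k) (m : ℤ) : coL k y m = y.coeff m := rfl

lemma coL_injective (k : Type*) [Field k] : Function.Injective (coL k) := by
  intro y z h
  ext m
  exact congrFun h m

end CoeffL

section Main

open ModularFormClass Fermat.Agent.S20.ThetaMap

variable {k L : Type*} [Field k] [Field L] [Algebra k L] [IsAlgClosed k] [CharZero k]
  (E : IntermediateField k L) {x : E}

/-- **T3ge, abstract form.**  Let `E ⊆ L` (in the application `L = k((q))`, with coefficient map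
`co`) be a function field over the algebraically closed field `k` of characteristic zero, realised
inside `Mer` by `Γ₀(N)`-invariant functions, such that
(`hcusp`) regular differentials give functions all of whose slashes vanish at `i∞`, and
(`hbridge`) the `q`-expansion of the cusp form attached to `h • D x` is `ι (h * θ x)`.  Then the
space of regular differentials of `E` has dimension at most `dim S₂(Γ₀(N))`. -/
theorem finrank_HolF_le (hF : IsFunctionFieldOver k x) (N : ℕ) [NeZero N]
    (R : Realization k E)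
    (hinv : ∀ g : SL(2, ℤ), g ∈ Gamma0 N → ∀ y : E, g • R.φ y = R.φ y)
    (hcusp : ∀ {ω : Ω[E⁄k]}, (∀ v : Place k E, 0 ≤ v.ordDifferential ω) → ∀ {f : Hol},
      algebraMap Hol Mer f = R.Phi ω → ∀ δ : SL(2, ℤ),
        IsZeroAtImInfty ((f : ℍ → ℂ) ∣[(2 : ℤ)] δ))
    {θ : L → L} (hθ : IsDer k θ) (hθx : θ (x : L) ≠ 0)
    (co : L →ₗ[k] (ℤ → k)) (hco : Function.Injective co)
    (hbridge : ∀ (h : E) (G : CuspForm (Gamma0 N) 2) (f : Hol),
      (∀ τ, G τ = (2 * (Real.pi : ℂ) * Complex.I)⁻¹ * (f : ℍ → ℂ) τ) →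
      algebraMap Hol Mer f = R.φ h * dMer (R.φ x) →
      (∀ n : ℕ, (qExpansion 1 G).coeff n = R.ι (co ((h : L) * θ (x : L)) (n : ℤ))) ∧
      (∀ m : ℤ, m < 0 → co ((h : L) * θ (x : L)) m = 0)) :
    Module.finrank k (HolF k x) ≤ Module.finrank ℂ (CuspForm (Gamma0 N) 2) := by
  have hspan : Submodule.span E {D k E x} = ⊤ := Fermat.Agent.S24.span_D_eq_top hF
  have hD : D k E x ≠ 0 := Fermat.Agent.S24.D_ne_zero hF
  -- the `k`-linear embedding `HolF k x → Ω[E⁄k]`, `f ↦ f • D x`
  let emb : HolF k x →ₗ[k] Ω[E⁄k] :=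
    { toFun := fun f => (f : E) • D k E x
      map_add' := fun f g => by simp [add_smul]
      map_smul' := fun c f => by simp [smul_assoc] }
  have hemb : Function.Injective emb := by
    intro f g hfg
    have h1 : ((f : E) - (g : E)) • D k E x = 0 := by
      rw [sub_smul]; exact sub_eq_zero.mpr hfg
    rcases smul_eq_zero.mp h1 with h2 | h2
    · exact Subtype.ext (sub_eq_zero.mp h2)
    · exact absurd h2 hD
  let V : Submodule k Ω[E⁄k] := LinearMap.range emb
  have hV : Module.finrank k (HolF k x) = Module.finrank k V :=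
    (LinearEquiv.ofInjective emb hemb).finrank_eq
  rw [hV]
  -- every element of `V` is regular everywhere
  have hreg : ∀ ω : V, ∀ v : Place k E, 0 ≤ v.ordDifferential (ω : Ω[E⁄k]) := by
    rintro ⟨_, f, rfl⟩ v
    exact ordDifferential_nonneg_of_mem_HolF hF f.2 v
  -- the holomorphic function attached to `ω`
  have hex : ∀ ω : V, ∃ f : Hol, algebraMap Hol Mer f = R.Phi (ω : Ω[E⁄k]) :=
    fun ω => exists_hol_eq_Phi hF R (hreg ω)
  choose fω hfω using hex
  let c : ℂ := (2 * (Real.pi : ℂ) * Complex.I)⁻¹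
  -- the cusp form attached to `ω`
  have hsl : ∀ (ω : V) (γ : SL(2, ℤ)), γ ∈ Gamma0 N →
      ((fω ω : Hol) : ℍ → ℂ) ∣[(2 : ℤ)] γ = ((fω ω : Hol) : ℍ → ℂ) := by
    intro ω γ hγ
    apply slash_eq_of_smul_eq
    have h1 := smul_Phi_of_invariant hspan R (g := γ⁻¹)
      (hinv γ⁻¹ (inv_mem hγ)) (ω : Ω[E⁄k])
    rw [inv_inv] at h1
    rw [hfω ω]
    exact h1
  let Ψ : V → CuspForm (Gamma0 N) 2 := fun ω =>
    mkCusp N (c • ((fω ω : Hol) : ℍ → ℂ))
      ((Hol.mdiff (fω ω)).const_smul c)
      (fun γ hγ => by rw [SL_smul_slash, hsl ω γ hγ])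
      (fun γ => by
        rw [SL_smul_slash]
        exact (hcusp (hreg ω) (hfω ω) γ).smul c)
  have hΨ : ∀ (ω : V) (τ : ℍ), Ψ ω τ = c * ((fω ω : Hol) : ℍ → ℂ) τ := fun ω τ => rfl
  -- bridge for each `ω`
  have hb : ∀ ω : V, (∀ n : ℕ, (qExpansion 1 (Ψ ω)).coeff n =
        R.ι (co (Theta E hθ (ω : Ω[E⁄k])) (n : ℤ))) ∧
      (∀ m : ℤ, m < 0 → co (Theta E hθ (ω : Ω[E⁄k])) m = 0) := by
    intro ω
    have hω : (ω : Ω[E⁄k]) ∈ Submodule.span E {D k E x} := by rw [hspan]; exact Submodule.mem_top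
    obtain ⟨h, hh⟩ := Submodule.mem_span_singleton.mp hω
    have h1 : algebraMap Hol Mer (fω ω) = R.φ h * dMer (R.φ x) := by
      rw [hfω ω, ← hh, Realization.Phi_smul, Realization.Phi_D]
    have h2 : Theta E hθ (ω : Ω[E⁄k]) = (h : L) * θ (x : L) := by
      rw [← hh, Theta_smul, Theta_D]
    rw [h2]
    exact hbridge h (Ψ ω) (fω ω) (hΨ ω) h1
  exact finrank_le_finrank_cuspForm' E hθ co hco N 2 R.ι V Ψ (Theta_injective E hθ hspan hθx)
    (fun ω m hm => (hb ω).2 m hm) (fun ω n => (hb ω).1 n)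

end Main

end Fermat.Agent.S20.T3Main
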