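/-
S20 / T3 (helper80): the CONCRETE instantiation of the hypotheses `hbridge`, `hθ`, `hθx`, `hco` of
helper20's `T3Main.finrank_HolF_le` for
`E = modularFunctionFieldBar N ⊆ Kbar((q))`, `x = jF N`, `R = Realize.realization N ι` (helper71),
`θ = Theta80.thetaL` (`q d/dq`), `co = T3Main.coL Kbar`.
-/
import Mathlib
import Fermat.Agent.S20.QBridgeFinal80
import Fermat.Agent.S20.Realize
import Fermat.Agent.S20.T3Main
import Fermat.Agent.S20.RealizeCusp
import Fermat.Agent.S20.CuspStep
import Fermat.Agent.S24.Exports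

set_option autoImplicit false

open UpperHalfPlane ModularCurve
open scoped Real

noncomputable section

namespace Fermat.Agent.S20.T3Glue80

open Fermat.Agent.S24 Fermat.Agent.S24.HolH Fermat.Agent.S20.Theta80
open Fermat.Agent.S20.MerLocal Fermat.Agent.S20.MerPhi Fermat.Agent.S20.QBridgeFinal80

variable (N : ℕ) [NeZero N] (ι : Kbar →+* ℂ)

lemma coe_jF : ((jF N : FN N) : LaurentSeries Kbar) = jK := rfl

/-- `θ(j_q) ≠ 0`: its coefficient of `q⁻¹` is `-1`. -/
theorem thetaL_jK_ne_zero : thetaL jK ≠ 0 := by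
  intro h
  have h1 := congrArg (fun E : LaurentSeries Kbar => E.coeff (-1)) h
  simp only [coeff_thetaL, HahnSeries.coeff_zero] at h1
  have h2 : jK.coeff (-1) = 1 := by
    rw [jK, coeffEmb_coeff, coeff_jq_neg_one, map_one]
  rw [h2] at h1
  norm_num at h1

theorem thetaL_jF_ne_zero : thetaL ((jF N : FN N) : LaurentSeries Kbar) ≠ 0 := by
  rw [coe_jF]
  exact thetaL_jK_ne_zero

/-- **The bridge hypothesis of `T3Main.finrank_HolF_le`**, for the realisation of `F_N`. -/
theorem hbridge (h : FN N) (G : CuspForm (CongruenceSubgroup.Gamma0 N) 2) (f : Hol)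
    (hG : ∀ τ, G τ = (2 * (Real.pi : ℂ) * Complex.I)⁻¹ * (f : ℍ → ℂ) τ)
    (hf : algebraMap Hol Mer f =
      (Realize.realization N ι).φ h * dMer ((Realize.realization N ι).φ (jF N))) :
    (∀ n : ℕ, (UpperHalfPlane.qExpansion (1 : ℝ) (G : ℍ → ℂ)).coeff n =
        (Realize.realization N ι).ι
          (T3Main.coL Kbar ((h : LaurentSeries Kbar) *
            thetaL ((jF N : FN N) : LaurentSeries Kbar)) (n : ℤ))) ∧
      (∀ m : ℤ, m < 0 → T3Main.coL Kbar ((h : LaurentSeries Kbar) *
            thetaL ((jF N : FN N) : LaurentSeries Kbar)) m = 0) := by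
  set c : ℂ := (2 * (Real.pi : ℂ) * Complex.I)⁻¹ with hc
  have hjd : ∀ (d : Mod.Dv N) τ, ((fun d : Mod.Dv N => Realize.jd d.1) d : ℍ → ℂ) τ
      = JAnalytic.jFun (RelJ.dil d.1 τ) := fun d τ => rfl
  have hF : algebraMap Hol Mer (c • f) = algebraMap ℂ Mer c *
      ((Realize.realization N ι).φ h * algebraMap Hol Mer (dHol (Realize.jd (one N).1))) := by
    rw [Algebra.smul_def, map_mul, ← IsScalarTower.algebraMap_apply ℂ Hol Mer, hf,
      Realize.realization_φ_apply (x := jF N), Realize.psi_jF, dMer_algebraMap]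
    rfl
  have key := qExpansion_coeff_of_realization N ι (fun d : Mod.Dv N => Realize.jd d.1) hjd
    (Realize.realization N ι).φ (Realize.realization N ι).map_const
    (fun d => by rw [Realize.realization_φ_apply]; exact Realize.psi_xK N ι d) h G (c • f)
    (fun τ => (hG τ).symm) hF
  rw [coe_jF]
  exact key

/-- an embedding of `Kbar = AlgebraicClosure ℚ` into `ℂ`. -/
def iotaC : Kbar →+* ℂ :=
  haveI : Algebra.IsAlgebraic ℚ (AlgebraicClosure ℚ) := AlgebraicClosure.isAlgebraic ℚ
  (IsAlgClosed.lift (R := ℚ) (S := AlgebraicClosure ℚ) (M := ℂ)).toRingHom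

/-- **(LB), function-field form.**  The space of everywhere regular differentials of the
function field `F_N` of `X₀(N)` over `Q̄` has dimension at most `dim S₂(Γ₀(N))`. -/
theorem finrank_HolF_le_cuspForm :
    Module.finrank Kbar (HolF Kbar (jF N)) ≤
      Module.finrank ℂ (CuspForm (CongruenceSubgroup.Gamma0 N) 2) := by
  have hF := Fermat.Agent.S24.Exports.isFunctionFieldOver_jF N
  exact T3Main.finrank_HolF_le (modularFunctionFieldBar N) hF N (Realize.realization N iotaC)
    (fun g hg y => Realize.smul_realization_φ N iotaC hg y)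
    (fun {ω} hω {f} hf δ =>
      CuspStep.isZeroAtImInfty_slash hF (Realize.realization N iotaC) N
        (fun g y => Realize.smul_psi_mem_cuspField N iotaC g y) hω hf δ)
    (isDer_thetaL (R := Kbar)) (thetaL_jF_ne_zero N)
    (T3Main.coL Kbar) (T3Main.coL_injective Kbar)
    (fun h G f hG hf => hbridge N iotaC h G f hG hf)

end Fermat.Agent.S20.T3Glue80
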